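import Fermat.Agent.AV.VDiv
import Mathlib.RingTheory.Jacobson.Ring
import Mathlib.RingTheory.Polynomial.Ideal

/-!
# Integrality from the valuations lying exactly over a given one

An element in every valuation ring lying exactly over a valuation ring is integral over it; so
principality of divisors descends along extensions of algebraically closed fields and, up to a
power, along finite extensions.
-/

set_option autoImplicit false

noncomputable section

universe u

open Polynomial

namespace Fermat.AV

variable {k k' : Type u} [Field k] [Field k']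

/-- An element in all valuation rings lying exactly over `v` is integral over it. -/
theorem isIntegral_of_forall_comap (φ : k →+* k') (v : ValuationSubring k) {z : k'}
    (h : ∀ w : ValuationSubring k', w.comap φ = v → z ∈ w) :
    ∃ p : v[X], p.Monic ∧ p.eval₂ (φ.comp v.subtype) z = 0 := by
  rcases eq_or_ne z 0 with rfl | hz0
  · exact ⟨X, monic_X, eval₂_X _ _⟩
  let : Algebra v k' := (φ.comp v.subtype).toAlgebra
  let := invertibleOfNonzero hz0
  set B := Algebra.adjoin v ({z⁻¹} : Set k')
  let zi : B := ⟨z⁻¹, Algebra.self_mem_adjoin_singleton v z⁻¹⟩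
  -- either `m B + (z⁻¹)` is everything, giving an integral equation of `z`
  by_cases htop : (IsLocalRing.maximalIdeal v).map (algebraMap v B) ⊔ Ideal.span {zi} = ⊤
  · obtain ⟨p, hp, hp0⟩ :=
      Algebra.exists_aeval_invOf_eq_zero_of_idealMap_adjoin_sup_span_eq_top z⁻¹ _
      (IsLocalRing.maximalIdeal.isMaximal v).ne_top htop
    have hu : IsUnit p.leadingCoeff := of_not_not fun hn => by simpa using sub_mem hn hp
    obtain ⟨u, hu⟩ := hu
    refine ⟨C ((u⁻¹ : vˣ) : v) * p, ?_, ?_⟩
    · rw [Monic, leadingCoeff_mul, leadingCoeff_C, ← hu, Units.inv_mul]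
    · rw [eval₂_mul, show p.eval₂ (φ.comp v.subtype) z = 0 by
        simpa [aeval_def, RingHom.algebraMap_toAlgebra] using hp0, mul_zero]
  -- or some valuation ring over it contracts to `v` and misses `z`
  · obtain ⟨W, hW, hWI⟩ := Ideal.image_subset_nonunits_valuationSubring (A := B.toSubring) _ htop
    have hcomap : W.comap φ = v := by
      refine le_antisymm (fun a ha => ?_) fun a ha => hW (B.algebraMap_mem ⟨a, ha⟩)
      by_contra hav
      have ha0 : a ≠ 0 := fun h0 => hav (h0 ▸ v.zero_mem)
      have hmem : a⁻¹ ∈ v := (v.mem_or_inv_mem a).resolve_left hav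
      have hn : φ a⁻¹ ∈ W.nonunits := hWI ⟨algebraMap v B ⟨a⁻¹, hmem⟩,
        le_self_add (α := Ideal B) (Ideal.mem_map_of_mem _
          ((IsLocalRing.mem_maximalIdeal _).mpr fun hu => hav (by
            obtain ⟨w, hw⟩ := hu
            have : a = ((w⁻¹ : vˣ) : v).1 := by
              have := congrArg Subtype.val w.mul_inv
              rw [hw] at this
              exact ((inv_mul_eq_one₀ ha0).mp this)
            rw [this]; exact Subtype.prop _))), rfl⟩
      rcases W.mem_nonunits_iff_or.mp hn with h0 | h0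
      · exact ha0 (by simpa using h0)
      · exact h0 (by rw [← map_inv₀, inv_inv]; exact ha)
    have hn : (z⁻¹ : k') ∈ W.nonunits :=
      hWI ⟨zi, le_add_self (α := Ideal B) (Ideal.subset_span rfl), rfl⟩
    rcases W.mem_nonunits_iff_or.mp hn with h0 | h0
    · exact absurd h0 (inv_ne_zero hz0)
    · exact absurd (h W hcomap) (by rwa [inv_inv] at h0)

variable {K : Type u} [Field K] [Algebra K k] [Algebra K k']

/-- A unit condition at the valuations lying over one, spread out. -/
theorem forall_comap_of_map_eq_princ (φ : k →ₐ[K] k') {E : VDiv K k} {F : k'ˣ}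
    (hF : VDiv.map φ E = princ K k' F) (v : Val K k) {x : kˣ} (hx : E v = QuotientGroup.mk x)
    (w : ValuationSubring k') (hw : w.comap φ.toRingHom = v.1) :
    φ ((x⁻¹ : kˣ) : k) * (F : k') ∈ w ∧ φ (x : k) * ((F⁻¹ : k'ˣ) : k') ∈ w := by
  let w' : Val K k' := ⟨w, fun c => by
    have := v.2 c
    rw [← hw, ValuationSubring.mem_comap] at this
    rw [← φ.commutes c]; exact this⟩
  have hv : w'.comap φ = v := Subtype.ext hw
  have h2 := (VDiv.map_apply φ E w' (by rw [hv]; exact hx)).symm.trans (congrFun hF w')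
  rw [show princ K k' F w' = QuotientGroup.mk F from rfl, QuotientGroup.eq,
    mem_unitGroup_iff'] at h2
  refine ⟨?_, ?_⟩
  · simpa [map_units_inv] using h2.1
  · simpa [map_units_inv, mul_comm] using h2.2

/-- **Principality descends along extensions of algebraically closed fields.** -/
theorem IsPrinc.descend [IsAlgClosed k] (φ : k →ₐ[K] k') {E : VDiv K k}
    (h : IsPrinc K k' (VDiv.map φ E)) : IsPrinc K k E := by
  classical
  obtain ⟨F, hF⟩ := h
  let : Algebra k k' := φ.toRingHom.toAlgebra
  -- specialise `F` and `F⁻¹` to `k` by the Nullstellensatz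
  let B : Subalgebra k k' := Algebra.adjoin k {(F : k'), ((F⁻¹ : k'ˣ) : k')}
  have : Algebra.FiniteType k B :=
    (Subalgebra.fg_iff_finiteType B).mp (Subalgebra.fg_def.mpr ⟨_, Set.toFinite _, rfl⟩)
  obtain ⟨m, hm⟩ := Ideal.exists_maximal B
  let : Field (B ⧸ m) := Ideal.Quotient.field m
  have : Algebra.FiniteType k (B ⧸ m) :=
    Algebra.FiniteType.of_surjective (Ideal.Quotient.mkₐ k m) (Ideal.Quotient.mkₐ_surjective k m)
  have := finite_of_finite_type_of_isJacobsonRing k (B ⧸ m)
  let e : k ≃ₐ[k] B ⧸ m := AlgEquiv.ofBijective (Algebra.ofId k (B ⧸ m))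
    IsAlgClosed.algebraMap_bijective_of_isIntegral
  let ψ : B →ₐ[k] k := e.symm.toAlgHom.comp (Ideal.Quotient.mkₐ k m)
  let f₁ : B := ⟨F, Algebra.subset_adjoin (Set.mem_insert _ _)⟩
  let f₂ : B := ⟨((F⁻¹ : k'ˣ) : k'), Algebra.subset_adjoin (Set.mem_insert_of_mem _ rfl)⟩
  have h12 : ψ f₁ * ψ f₂ = 1 := by
    rw [← map_mul, show f₁ * f₂ = 1 from Subtype.ext F.mul_inv, map_one]
  let F₀ : kˣ := ⟨ψ f₁, ψ f₂, h12, by rw [mul_comm, h12]⟩
  refine isPrinc_iff.mpr ⟨F₀, fun v => ?_⟩
  obtain ⟨x, hx⟩ : ∃ x : kˣ, E v = QuotientGroup.mk x := ⟨_, (QuotientGroup.out_eq' (E v)).symm⟩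
  -- being above `v` at all extensions, it stays so after specialisation
  have key : ∀ z : B, (∀ w : ValuationSubring k', w.comap φ.toRingHom = v.1 → (z : k') ∈ w) →
      ψ z ∈ v.1 := by
    intro z hz
    obtain ⟨p, hp, hp0⟩ := isIntegral_of_forall_comap φ.toRingHom v.1 hz
    let j : v.1 →+* B := (algebraMap k B).comp v.1.subtype
    have hBz : p.eval₂ j z = 0 := by
      refine Subtype.ext ?_
      change B.val.toRingHom (p.eval₂ j z) = 0
      rw [hom_eval₂]
      exact hp0
    have h1 := congrArg ψ.toRingHom hBz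
    rw [hom_eval₂, map_zero] at h1
    have hint : IsIntegral v.1 (ψ z) := ⟨p, hp, by
      rw [show algebraMap v.1 k = ψ.toRingHom.comp j from RingHom.ext fun a => (ψ.commutes _).symm]
      exact h1⟩
    obtain ⟨y, hy⟩ := IsIntegrallyClosed.isIntegral_iff.mp hint
    rw [← hy]
    exact y.2
  have hall := forall_comap_of_map_eq_princ φ hF.symm v hx
  rw [hx, QuotientGroup.eq, mem_unitGroup_iff']
  refine ⟨?_, ?_⟩
  · have := key (algebraMap k B ((x⁻¹ : kˣ) : k) * f₁) fun w hw => (hall w hw).1
    rw [map_mul, ψ.commutes] at this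
    exact this
  · have := key (algebraMap k B (x : k) * f₂) fun w hw => (hall w hw).2
    rw [map_mul, ψ.commutes] at this
    rw [mul_inv_rev, inv_inv, Units.val_mul, mul_comm]
    exact this

/-- **Up to a power principality descends along finite extensions.** -/
theorem IsPrinc.pow_finrank [Algebra k k'] [IsScalarTower K k k'] [FiniteDimensional k k']
    {E : VDiv K k} (h : IsPrinc K k' (VDiv.map (IsScalarTower.toAlgHom K k k') E)) :
    IsPrinc K k (E ^ Module.finrank k k') := by
  classical
  obtain ⟨F, hF⟩ := h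
  refine isPrinc_iff.mpr ⟨Units.map (Algebra.norm k : k' →* k) F, fun v => ?_⟩
  obtain ⟨x, hx⟩ : ∃ x : kˣ, E v = QuotientGroup.mk x := ⟨_, (QuotientGroup.out_eq' (E v)).symm⟩
  have key : ∀ z : k', (∀ w : ValuationSubring k', w.comap (algebraMap k k') = v.1 → z ∈ w) →
      Algebra.norm k z ∈ v.1 := by
    intro z hz
    obtain ⟨p, hp, hp0⟩ := isIntegral_of_forall_comap (algebraMap k k') v.1 hz
    obtain ⟨a, ha⟩ := IsIntegrallyClosed.algebraMap_eq_of_integral (R := v.1)
      (Algebra.isIntegral_norm k (⟨p, hp, by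
        rw [IsScalarTower.algebraMap_eq v.1 k k']; exact hp0⟩ : IsIntegral v.1 z))
    exact ha ▸ a.2
  have hall := forall_comap_of_map_eq_princ (IsScalarTower.toAlgHom K k k') hF.symm v hx
  rw [Pi.pow_apply, hx, ← QuotientGroup.mk_pow, QuotientGroup.eq, mem_unitGroup_iff']
  refine ⟨?_, ?_⟩
  · have := key _ fun w hw => (hall w hw).1
    rw [map_mul, IsScalarTower.coe_toAlgHom', Algebra.norm_algebraMap] at this
    simpa [inv_pow] using this
  · have := key _ fun w hw => (hall w hw).2
    rw [map_mul, IsScalarTower.coe_toAlgHom', Algebra.norm_algebraMap,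
      map_units_inv (Algebra.norm k) F] at this
    simpa [inv_pow, mul_comm] using this

end Fermat.AV

end
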