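import Fermat.Agent.AV.CurvePlace
import Fermat.Agent.AV.Dominate

/-!
# The theorem of the cube with a curve as one factor

For a point of a curve through the identity and two points with values in an algebraically closed
field the third difference is principal: its degree is zero by degeneration, the effective divisor
in the class of a nonspecial divisor plus it is that divisor, and the seesaw removes the rest.
-/

set_option autoImplicit false
set_option linter.unusedSectionVars false

noncomputable section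

universe u

open CategoryTheory AlgebraicGeometry IntermediateField GoodReductionJacobian
open AlgebraicCurve
open Fermat.FF Fermat.JAC

namespace Fermat.AV

variable {K : Type u} [Field K] {A : Scheme.{u}} {f : A ⟶ Spec (CommRingCat.of K)} [IsProper f]
  [IsIntegral A] (G : RelativeGroupLaw K f) (hc : G.IsCommutative) (D : CDiv A)

section Formal

variable {M : Type u} [Field M] [Algebra K M]

/-- The third difference is symmetric in its last two arguments. -/
theorem diff3_comm (x y w : Pt f M) : diff3 G hc D x y w = diff3 G hc D x w y := by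
  let := ptGroup G hc M
  have h2 : ∀ z : Pt f M, diff2 G hc D z y w = diff2 G hc D z w y := fun z => by
    simp only [diff2]
    rw [mul_right_comm z y w, mul_comm (ptClass D (z * y)) (ptClass D (z * w))]
  simp only [diff3, h2]

/-- The third difference vanishes when the first argument is the identity. -/
theorem diff3_one_left (y w : Pt f M) :
    letI := ptGroup G hc M
    diff3 G hc D 1 y w = 1 := by
  let := ptGroup G hc M
  exact funext fun v => div_self' (diff2 G hc D 1 y w v)

/-- The third difference vanishes when the last argument is the identity. -/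
theorem diff3_one_right (x y : Pt f M) :
    letI := ptGroup G hc M
    diff3 G hc D x y 1 = 1 := by
  let := ptGroup G hc M
  have h2 : ∀ z : Pt f M, diff2 G hc D z y 1 = 1 := fun z => by
    simp only [diff2, mul_one]
    exact funext fun v => div_self' ((ptClass D (z * y) * ptClass D z : VDiv K M) v)
  change diff2 G hc D x y 1 / diff2 G hc D 1 y 1 = 1
  rw [h2, h2]
  exact funext fun v => div_one (1 : Mˣ ⧸ v.1.unitGroup)

/-- A field map sends the identity point to the identity point. -/
theorem Pt.map_one' {M' : Type u} [Field M'] [Algebra K M'] (φ : M →ₐ[K] M') :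
    letI := ptGroup G hc M; letI := ptGroup G hc M'
    (1 : Pt f M).map φ = 1 := by
  let := ptGroup G hc M; let := ptGroup G hc M'
  exact (Pt.mapHom G hc φ).map_one

end Formal

/-- A principal divisor specialises to the trivial divisor. -/
theorem princ_specialisesTo {M M₀ : Type u} [Field M] [Algebra K M] [Field M₀] [Algebra K M₀]
    (S : Specialisation K M M₀) (F : Mˣ) : SpecialisesTo S (princ K M F) 1 :=
  ⟨F, rfl, fun _ => ⟨1, by rw [map_one, one_mul]; rfl, by rw [map_one]; rfl⟩⟩

/-- The identity of a field fixes its points. -/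
theorem Pt.map_id {k : Type u} [Field k] [Algebra K k] (p : Pt f k) :
    p.map (AlgHom.id K k) = p := by
  refine Subtype.ext ?_
  change Spec.map (CommRingCat.ofHom (RingHom.id k)) ≫ p.1 = p.1
  rw [show CommRingCat.ofHom (RingHom.id k) = 𝟙 _ from rfl, Spec.map_id, Category.id_comp]

/-- A point from the fixed constants specialises to itself. -/
theorem Pt.specialise_const {k k₁ k₂ : Type u} [Field k] [Algebra K k] [Field k₁] [Algebra K k₁]
    [Field k₂] [Algebra K k₂] (S : Specialisation K k₁ k₂) (e : k →ₐ[K] k₁) (e₂ : k →ₐ[K] k₂)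
    (h : ∀ a, ∃ h : e a ∈ S.ring.1, S.red ⟨e a, h⟩ = e₂ a) (p : Pt f k) :
    (p.map e).specialise S = p.map e₂ :=
  Pt.specialise_eq S p e e₂ h

section Curve

variable [IsAlgClosed K] (L : Type u) [Field L] [Algebra K L] [IsFunctionField K L] (ι : Pt f L)

/-- The third difference at the point of the curve and two constant points. -/
def cubeDiv {k : Type u} [Field k] [Algebra K k] [IsAlgClosed k] (y w : Pt f k) :
    VDiv K (CExt K L k) :=
  diff3 G hc D (ι.map (IsScalarTower.toAlgHom K L (CExt K L k)))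
    (y.map (IsScalarTower.toAlgHom K k (CExt K L k)))
    (w.map (IsScalarTower.toAlgHom K k (CExt K L k)))

/-- The cube divisor has local equations. -/
theorem locallyEq_cubeDiv {k : Type u} [Field k] [Algebra K k] [IsAlgClosed k] (y w : Pt f k) :
    LocallyEq k L (cubeDiv G hc D L ι y w) :=
  locallyEq_diff3 D G hc (modelPt_curve ι) (modelPt_const y) (modelPt_const w)

/-- The cube divisor is symmetric in the two constant points. -/
theorem cubeDiv_comm {k : Type u} [Field k] [Algebra K k] [IsAlgClosed k] (y w : Pt f k) :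
    cubeDiv G hc D L ι y w = cubeDiv G hc D L ι w y :=
  diff3_comm G hc D _ _ _

/-- The cube divisor vanishes when a constant point is the identity. -/
theorem cubeDiv_one {k : Type u} [Field k] [Algebra K k] [IsAlgClosed k] (y : Pt f k) :
    letI := ptGroup G hc k
    cubeDiv G hc D L ι y 1 = 1 := by
  let := ptGroup G hc k
  change diff3 G hc D _ _ ((1 : Pt f k).map _) = 1
  rw [Pt.map_one' G hc]
  exact diff3_one_right G hc D _ _

/-- The cube divisor of two points specialises to the cube divisor of their specialisations. -/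
theorem cubeDiv_specialisesTo {k k₀ : Type u} [Field k] [Algebra K k] [IsAlgClosed k] [Field k₀]
    [Algebra K k₀] [IsAlgClosed k₀] (S : Specialisation K k k₀) (y w : Pt f k) :
    SpecialisesTo (S.gauss L (CExt K L k) (CExt K L k₀)) (cubeDiv G hc D L ι y w)
      (cubeDiv G hc D L ι (y.specialise S) (w.specialise S)) := by
  let 𝔤 := S.gauss L (CExt K L k) (CExt K L k₀)
  have hl : ∀ l : L, ∃ h : algebraMap L (CExt K L k) l ∈ 𝔤.ring.1,
      𝔤.red ⟨_, h⟩ = algebraMap L (CExt K L k₀) l := fun l => by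
    have hm : algebraMap L (CExt K L k) l ∈ 𝔤.ring.1 := by
      have := S.intMap_mem_gaussVal (L := L) (M := CExt K L k) (M₀ := CExt K L k₀) (1 ⊗ₜ l)
      rwa [S.intMap_tmul, OneMemClass.coe_one, map_one, one_mul] at this
    exact ⟨hm, S.gauss_red_algebraMap' l hm⟩
  have hk : ∀ a : S.ring.1, ∃ h : algebraMap k (CExt K L k) a ∈ 𝔤.ring.1,
      𝔤.red ⟨_, h⟩ = algebraMap k₀ (CExt K L k₀) (S.red a) := fun a =>
    ⟨(S.algebraMap_mem_gaussVal (L := L) (M := CExt K L k) (M₀ := CExt K L k₀)).mpr a.2,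
      S.gauss_red_algebraMap (L := L) (M := CExt K L k) (M₀ := CExt K L k₀) a.2⟩
  have hι : (ι.map (IsScalarTower.toAlgHom K L (CExt K L k))).specialise 𝔤 =
      ι.map (IsScalarTower.toAlgHom K L (CExt K L k₀)) :=
    Pt.specialise_eq 𝔤 ι _ _ hl
  have hy : ∀ p : Pt f k, (p.map (IsScalarTower.toAlgHom K k (CExt K L k))).specialise 𝔤 =
      (p.specialise S).map (IsScalarTower.toAlgHom K k₀ (CExt K L k₀)) := fun p =>
    Pt.specialise_extend 𝔤 S _ _ hk p
  have h := diff3_specialisesTo G hc D (S := 𝔤) (ι.map (IsScalarTower.toAlgHom K L (CExt K L k)))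
    (y.map (IsScalarTower.toAlgHom K k (CExt K L k)))
    (w.map (IsScalarTower.toAlgHom K k (CExt K L k)))
  rwa [hι, hy y, hy w] at h

/-- A principal cube divisor stays principal after specialising the two points. -/
theorem isPrinc_cubeDiv_specialise {k k₀ : Type u} [Field k] [Algebra K k] [IsAlgClosed k]
    [Field k₀] [Algebra K k₀] [IsAlgClosed k₀] (S : Specialisation K k k₀) {y w : Pt f k}
    (h : IsPrinc K (CExt K L k) (cubeDiv G hc D L ι y w)) :
    IsPrinc K (CExt K L k₀) (cubeDiv G hc D L ι (y.specialise S) (w.specialise S)) :=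
  (cubeDiv_specialisesTo G hc D L ι S y w).isPrinc h

variable {L}

/-- A point outside a nonspecial divisor is not a zero of its sections. -/
theorem ell_extDiv_sub_single_eq_zero {k : Type u} [Field k] [Algebra K k] [IsAlgClosed k]
    {Dv : Divisor K L} (h0 : 0 ≤ Dv) (h1 : ell Dv = 1) {w : Place k (CExt K L k)}
    (hw : ConstExt.extDiv k (CExt K L k) Dv w = 0) :
    ell (ConstExt.extDiv k (CExt K L k) Dv - Finsupp.single w 1) = 0 := by
  set DM := ConstExt.extDiv k (CExt K L k) Dv
  have hDM : ell DM = 1 := (ell_extDiv' k (CExt K L k) Dv).trans h1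
  have hconst : riemannRochSpace DM = riemannRochSpace (0 : Divisor k (CExt K L k)) :=
    (Submodule.eq_of_le_of_finrank_le (riemannRochSpace_mono (ConstExt.extDiv_nonneg h0))
      (show ell DM ≤ ell (0 : Divisor k (CExt K L k)) by rw [hDM, ell_zero])).symm
  rw [ell, Submodule.finrank_eq_zero, Submodule.eq_bot_iff]
  intro F hF
  have hF' : F ∈ riemannRochSpace DM :=
    riemannRochSpace_mono (sub_le_self _ (by simp)) hF
  rw [hconst, riemannRochSpace_zero] at hF'
  obtain ⟨c, rfl⟩ := hF'
  have := mem_riemannRochSpace.mp hF w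
  rw [Finsupp.sub_apply, hw, Finsupp.single_eq_same] at this
  change algebraMap k (CExt K L k) c = 0
  rw [eq_zero_of_ordGE_one (v := w) (c := c) (by simpa using this), map_zero]

/-- A function with a pole at a given place only. -/
theorem exists_pole_only (P : Place K L) : ∃ x : L, Transcendental K x ∧
    ∀ v : Place K L, v.ord x < 0 ↔ v = P := by
  set N : ℕ := 2 * genusFF K L + 1
  set DP : Divisor K L := Finsupp.single P (N : ℤ)
  obtain ⟨x, hx, hx0, hord⟩ := exists_exact_ord {P} (D := DP) (by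
    rw [Divisor.degree_single, deg_eq_one]; push_cast [N]; omega)
  have hP : P.ord x = -N := by
    rw [hord P (Finset.mem_singleton_self P), Finsupp.single_eq_same]
  refine ⟨x, transcendental_of_ord_ne_zero (v := P) (by omega), fun v => ⟨fun hv => ?_, ?_⟩⟩
  · by_contra hne
    have := (mem_riemannRochSpace.mp hx v).le_ord hx0
    rw [Finsupp.single_eq_of_ne hne] at this
    omega
  · rintro rfl; omega

/-- The trivial section has divisor zero. -/
theorem divV_one_eq_zero {k : Type u} [Field k] [Algebra K k] [IsAlgClosed k] :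
    divV (LocallyEq.one : LocallyEq k L (1 : VDiv K (CExt K L k))) = 0 := by
  ext w
  rw [divV_apply, ordV_eq (e := 1) (by rfl), Units.val_one, Place.ord_one, Finsupp.zero_apply]

/-- A place in an effective divisor of the class of `D` leaves sections when it is subtracted from
`D`. -/
theorem one_le_ell_sub_of_pos {k : Type u} [Field k] [Algebra K k] [IsAlgClosed k]
    {Dk : Divisor k (CExt K L k)} {F : CExt K L k} (hF : F ∈ riemannRochSpace Dk) (hF0 : F ≠ 0)
    {Q : Place k (CExt K L k)} (hQ : 0 < (Dk + divOf k F) Q) :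
    1 ≤ ell (Dk - Finsupp.single Q 1) := by
  refine Nat.one_le_iff_ne_zero.mpr fun h0 => hF0 ?_
  rw [ell, Submodule.finrank_eq_zero] at h0
  rw [← Submodule.mem_bot k, ← h0, ← nonneg_add_divOf_iff hF0, Finsupp.le_def]
  intro v
  have hv := Finsupp.le_def.mp ((nonneg_add_divOf_iff hF0).mpr hF) v
  rw [Finsupp.add_apply] at hv
  rcases eq_or_ne v Q with rfl | hne
  · rw [Finsupp.add_apply] at hQ
    simp only [Finsupp.coe_zero, Pi.zero_apply, Finsupp.add_apply, Finsupp.sub_apply,
      Finsupp.single_eq_same]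
    omega
  · simpa [Finsupp.single_eq_of_ne hne] using hv

/-- A place that is not constant is given by a point with values in the constants. -/
theorem exists_hom_of_not_mem_range_ext {k : Type u} [Field k] [Algebra K k] [IsAlgClosed k]
    {Q : Place k (CExt K L k)}
    (hQ : Q ∉ Set.range (ConstExt.ext k (CExt K L k) (k := K) (F₀ := L))) :
    ∃ c : L →ₐ[K] k, ∀ l, OrdGE Q (algebraMap L (CExt K L k) l) 0 ∧
      evalAt Q (algebraMap L (CExt K L k) l) = c l := by
  set M := CExt K L k
  have hreg : ∀ l : L, OrdGE Q (algebraMap L M l) 0 := fun l =>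
    (ordGE_ord Q _).mono (le_of_eq (by
      by_contra h0
      exact hQ (ConstExt.mem_range_ext_of_ord_ne_zero (Ne.symm h0))))
  exact ⟨{ toFun := fun l => evalAt Q (algebraMap L M l)
           map_one' := by rw [map_one, evalAt_one]
           map_mul' := fun a b => by rw [map_mul, evalAt_mul (hreg a) (hreg b)]
           map_zero' := by rw [map_zero, ← map_zero (algebraMap k M), evalAt_algebraMap]
           map_add' := fun a b => by rw [map_add, evalAt_add (hreg a) (hreg b)]
           commutes' := fun a => by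
            rw [← IsScalarTower.algebraMap_apply K L M, IsScalarTower.algebraMap_apply K k M,
              evalAt_algebraMap] }, fun l => ⟨hreg l, rfl⟩⟩

/-- A point of the curve is defined over an algebraically closed subfield as soon as one
transcendental function takes its value there. -/
theorem exists_hom_comp_eq {kz k : Type u} [Field kz] [Algebra K kz] [IsAlgClosed kz] [Field k]
    [Algebra K k] (e : kz →ₐ[K] k) (c : L →ₐ[K] k) {x : L} (hx : Transcendental K x)
    (hcx : c x ∈ e.range) : ∃ c' : L →ₐ[K] kz, ∀ l, e (c' l) = c l := by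
  have := finiteDimensional_adjoin hx
  let : Algebra kz k := e.toRingHom.toAlgebra
  have hK : ∀ r : K⟮x⟯, c (r : L) ∈ e.range := by
    rintro ⟨r, hr'⟩
    change c r ∈ e.range
    induction hr' using IntermediateField.adjoin_induction with
    | mem u hu => rw [Set.mem_singleton_iff.mp hu]; exact hcx
    | algebraMap a => rw [c.commutes]; exact e.range.algebraMap_mem a
    | add a b _ _ ha hb => rw [map_add]; exact add_mem ha hb
    | inv a _ ha =>
      obtain ⟨a', ha'⟩ := ha
      rw [map_inv₀, ← ha']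
      exact ⟨a'⁻¹, map_inv₀ e a'⟩
    | mul a b _ _ ha hb => rw [map_mul]; exact mul_mem ha hb
  let jr : K⟮x⟯ →+* kz := (AlgEquiv.ofInjective e e.injective).symm.toRingEquiv.toRingHom.comp
    ((c.toRingHom.comp (algebraMap K⟮x⟯ L)).codRestrict e.range.toSubring hK)
  have hjr : (algebraMap kz k).comp jr = c.toRingHom.comp (algebraMap K⟮x⟯ L) :=
    RingHom.ext fun r => congrArg Subtype.val
      ((AlgEquiv.ofInjective e e.injective).apply_symm_apply ⟨_, hK r⟩)
  have hall : ∀ l, c l ∈ e.range := fun l => by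
    have hint : IsIntegral kz (c l) := by
      obtain ⟨p, hp, hp0⟩ := Algebra.IsIntegral.isIntegral (R := K⟮x⟯) l
      refine ⟨p.map jr, hp.map jr, ?_⟩
      rw [Polynomial.eval₂_map, hjr]
      have := congrArg c.toRingHom hp0
      rwa [Polynomial.hom_eval₂, map_zero] at this
    obtain ⟨a, ha⟩ := minpoly.mem_range_of_degree_eq_one kz (c l)
      (IsAlgClosed.degree_eq_one_of_irreducible kz (minpoly.irreducible hint))
    exact ⟨a, ha⟩
  exact ⟨(AlgEquiv.ofInjective e e.injective).symm.toAlgHom.comp (c.codRestrict e.range hall),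
    fun l => congrArg Subtype.val
      ((AlgEquiv.ofInjective e e.injective).apply_symm_apply ⟨_, hall l⟩)⟩

/-- The place of a point with values in a field misses every constant divisor. -/
theorem extDiv_eq_zero_of_hom {k : Type u} [Field k] [Algebra K k] [IsAlgClosed k]
    (Dv : Divisor K L) (c : L →ₐ[K] k) {w : Place k (CExt K L k)}
    (hw : ∀ l, OrdGE w (algebraMap L (CExt K L k) l) 0 ∧
      evalAt w (algebraMap L (CExt K L k) l) = c l) :
    ConstExt.extDiv k (CExt K L k) Dv w = 0 := by
  by_contra hne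
  obtain ⟨P, rfl⟩ : w ∈ Set.range (ConstExt.ext k (CExt K L k) (k := K) (F₀ := L)) := by
    by_contra hwr
    exact hne (ConstExt.extDiv_apply_of_notMem _ hwr)
  obtain ⟨t, ht0, ht1⟩ := exists_ord_eq_one P
  obtain ⟨hr1, hr2⟩ := hw t
  have : c t = 0 := by
    rw [← hr2, evalAt_eq_zero_iff hr1, ConstExt.ordGE_ext_iff]
    exact (ordGE_ord P t).mono ht1.ge
  exact ht0 ((map_eq_zero c).mp this)

/-- An element outside an algebraically closed subfield can be sent to infinity, fixing the
subfield. -/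
theorem exists_specialisation_pole {kz k : Type u} [Field kz] [Algebra K kz] [IsAlgClosed kz]
    [Field k] [Algebra K k] [IsAlgClosed k] (e : kz →ₐ[K] k) {t : k} (ht : t ∉ e.range) :
    ∃ (Y : AlgExt K kz) (S₁ : Specialisation K k Y.carrier),
      (∀ a, ∃ h : e a ∈ S₁.ring.1, S₁.red ⟨e a, h⟩ = Y.map a) ∧ t ∉ S₁.ring.1 := by
  let : Algebra kz k := e.toRingHom.toAlgebra
  have : IsScalarTower K kz k := IsScalarTower.of_algebraMap_eq fun a => (e.commutes a).symm
  have htr : Transcendental kz t⁻¹ := fun halg => ht (by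
    have hint : IsIntegral kz t := (inv_inv t ▸ halg.inv).isIntegral
    obtain ⟨a, ha⟩ := minpoly.mem_range_of_degree_eq_one kz t
      (IsAlgClosed.degree_eq_one_of_irreducible kz (minpoly.irreducible hint))
    exact ⟨a, ha⟩)
  let j : Polynomial kz →ₐ[K] k := (Polynomial.aeval t⁻¹).restrictScalars K
  obtain ⟨Y, S₁, hS₁⟩ := exists_specialisation_hom j
    (transcendental_iff_injective.mp htr) ((Polynomial.aeval (0 : kz)).restrictScalars K)
    (fun a => ⟨Polynomial.C a, Polynomial.aeval_C 0 a⟩)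
  refine ⟨Y, S₁, fun a => ?_, fun hm => ?_⟩
  · obtain ⟨h, h'⟩ := hS₁ (Polynomial.C a)
    have hj : j (Polynomial.C a) = e a := Polynomial.aeval_C _ a
    refine ⟨hj ▸ h, ?_⟩
    rw [show (⟨e a, _⟩ : S₁.ring.1) = ⟨_, h⟩ from Subtype.ext hj.symm, h']
    exact congrArg Y.map (Polynomial.aeval_C (0 : kz) a)
  · obtain ⟨htS, ht0⟩ := hS₁ Polynomial.X
    have hjX : j Polynomial.X = t⁻¹ := Polynomial.aeval_X _
    have := congrArg S₁.red (show (⟨_, htS⟩ : S₁.ring.1) * ⟨t, hm⟩ = 1 from Subtype.ext (by
      change j Polynomial.X * t = 1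
      rw [hjX, inv_mul_cancel₀]
      intro h0
      exact ht (h0 ▸ zero_mem _)))
    rw [map_mul, ht0, map_one] at this
    simp at this

/-- If the only possible pole `P₀` of `x` is reached, functions specialise to their values at
`P₀`. -/
theorem red_eq_evalAt_of_pole {k k₁ : Type u} [Field k] [Algebra K k] [Field k₁] [Algebra K k₁]
    (P₀ : Place K L) (S₁ : Specialisation K k k₁) (c : L →ₐ[K] k) {x : L}
    (hxP : ∀ v : Place K L, v.ord x < 0 → v = P₀) (hxv : c x ∉ S₁.ring.1) {l : L}
    (hl : OrdGE P₀ l 0) :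
    ∃ h : c l ∈ S₁.ring.1, S₁.red ⟨c l, h⟩ = algebraMap K k₁ (evalAt P₀ l) := by
  -- as `x` has no other pole, the pulled back ring is that of `P₀`
  let v := S₁.ring.comap c
  have hv : v.1 = P₀.toValuationSubring := by
    have hne : v.1 ≠ ⊤ := fun h => hxv (show x ∈ v.1 from h ▸ ValuationSubring.mem_top x)
    have : placeOfValuationSubring v.2 hne = P₀ :=
      hxP _ ((not_mem_iff (placeOfValuationSubring v.2 hne)).mp hxv)
    rw [← this]; rfl
  have hreg₁ : ∀ l, OrdGE P₀ l 0 → c l ∈ S₁.ring.1 := fun l hl => by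
    have : l ∈ v.1 := by rw [hv, mem_iff_ordGE]; exact hl
    exact this
  refine ⟨hreg₁ l hl, ?_⟩
  set a := evalAt P₀ l with ha
  have hd : OrdGE P₀ (l - algebraMap K L a) 1 := evalAt_spec hl
  have hm := hreg₁ _ (hd.mono zero_le_one)
  -- `l` minus its value vanishes at `P₀`, so reduces to zero
  have h0 : S₁.red ⟨_, hm⟩ = 0 := by
    by_contra hne
    obtain ⟨u, hu⟩ := S₁.isUnit_of_red _ hne
    have hinv : c (l - algebraMap K L a)⁻¹ ∈ S₁.ring.1 := by
      have hu' : (c (l - algebraMap K L a))⁻¹ = ((u⁻¹ : S₁.ring.1ˣ) : S₁.ring.1).1 := by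
        refine inv_eq_of_mul_eq_one_right ?_
        have := congrArg Subtype.val u.mul_inv
        rwa [hu] at this
      rw [map_inv₀, hu']; exact Subtype.prop _
    have hne0 : l - algebraMap K L a ≠ 0 := fun h => hne (by
      rw [show (⟨_, hm⟩ : S₁.ring.1) = 0 from Subtype.ext (by simp [h]), map_zero])
    have hmem : (l - algebraMap K L a)⁻¹ ∈ P₀.toValuationSubring := hv ▸ hinv
    have h2 := ((mem_iff_ordGE P₀).mp hmem).le_ord (inv_ne_zero hne0)
    have h3 := hd.le_ord hne0
    rw [P₀.ord_inv] at h2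
    omega
  -- so `l` reduces to its value
  have hsum : (⟨c l, hreg₁ l hl⟩ : S₁.ring.1) =
      ⟨_, hm⟩ + ⟨algebraMap K k a, S₁.ring.2 a⟩ := Subtype.ext (by
    change c l = c (l - algebraMap K L a) + algebraMap K k a
    rw [map_sub, c.commutes, sub_add_cancel])
  exact (congrArg S₁.red hsum).trans
    ((map_add S₁.red _ _).trans (by rw [h0, S₁.red_algebraMap, zero_add]))

/-- When the third point degenerates to the identity, a nonspecial divisor plus the cube has no
section vanishing at a place outside that divisor. -/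
theorem ell_cubeDiv_sub_single_eq_zero {Dv : Divisor K L} (hDv0 : 0 ≤ Dv) (hDv1 : ell Dv = 1)
    {P : Place K L} (hP : Dv P = 0) {kz : Type u} [Field kz] [Algebra K kz] (z : Pt f kz)
    {kz₀ : Type u} [Field kz₀] [Algebra K kz₀] [IsAlgClosed kz₀] (Sz : Specialisation K kz kz₀)
    (hz : letI := ptGroup G hc kz₀; z.specialise Sz = 1) {k₁ : Type u} [Field k₁] [Algebra K k₁]
    [IsAlgClosed k₁] (e₁ : kz →ₐ[K] k₁) (y₁ : Pt f k₁)
    (hE : LocallyEq k₁ L (cubeDiv G hc D L ι y₁ (z.map e₁) * constDiv (CExt K L k₁) Dv)) :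
    ell (divV hE - Finsupp.single (ConstExt.ext k₁ (CExt K L k₁) P) 1) = 0 := by
  let := ptGroup G hc kz₀
  obtain ⟨X₂, S₂, hS₂⟩ := Sz.exists_extend e₁
  let := ptGroup G hc X₂.carrier
  have hz₂ : (z.map e₁).specialise S₂ = 1 := by
    rw [Pt.specialise_extend S₂ Sz e₁ X₂.map hS₂, hz]
    exact Pt.map_one' G hc _
  have hΔ₁ := locallyEq_cubeDiv G hc D L ι y₁ (z.map e₁)
  set D' := Dv - Finsupp.single P 1
  have hS₂' : SpecialisesTo (S₂.gauss L (CExt K L k₁) (CExt K L X₂.carrier))
      (cubeDiv G hc D L ι y₁ (z.map e₁)) 1 := by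
    have h := cubeDiv_specialisesTo G hc D L ι S₂ y₁ (z.map e₁)
    rwa [hz₂, cubeDiv_one] at h
  have h2 := ell_divV_le S₂ (hΔ₁.mul (locallyEq_constDiv (M := CExt K L k₁) D'))
    (LocallyEq.one.mul (locallyEq_constDiv D'))
    (hS₂'.mul (specialisesTo_map S₂ _ fun u hu => ofDivisor_top D' hu))
  have hext : ∀ (k' : Type u) [Field k'] [Algebra K k'] [IsAlgClosed k'],
      ConstExt.extDiv k' (CExt K L k') D' = ConstExt.extDiv k' (CExt K L k') Dv -
        Finsupp.single (ConstExt.ext k' (CExt K L k') P) 1 := fun k' _ _ _ => by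
    rw [map_sub]
    exact congrArg (_ - ·) Finsupp.mapDomain_single
  rw [divV_mul hΔ₁ (locallyEq_constDiv D'), divV_mul LocallyEq.one (locallyEq_constDiv D'),
    divV_one_eq_zero, zero_add, divV_constDiv, divV_constDiv, hext, hext, ← add_sub_assoc,
    ell_extDiv_sub_single_eq_zero hDv0 hDv1 (by rw [ConstExt.extDiv_apply_ext, hP])] at h2
  rw [divV_mul hΔ₁ (locallyEq_constDiv Dv), divV_constDiv]
  exact Nat.le_zero.mp h2

variable (P₀ : Place K L)

include P₀ in
/-- A place that can be subtracted from a nonspecial divisor plus the degenerating cube is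
constant. -/
theorem mem_range_ext_of_one_le_ell {Dv : Divisor K L} (hDv0 : 0 ≤ Dv) (hDv1 : ell Dv = 1)
    (hDvP : Dv P₀ = 0) {kz : Type u} [Field kz] [Algebra K kz] [IsAlgClosed kz] (z : Pt f kz)
    {kz₀ : Type u} [Field kz₀] [Algebra K kz₀] [IsAlgClosed kz₀] (Sz : Specialisation K kz kz₀)
    (hz : letI := ptGroup G hc kz₀; z.specialise Sz = 1)
    {k : Type u} [Field k] [Algebra K k] [IsAlgClosed k] (e : kz →ₐ[K] k) (y : Pt f k)
    {k₂ : Type u} [Field k₂] [Algebra K k₂] [IsAlgClosed k₂] (S : Specialisation K k k₂)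
    (e₂ : kz →ₐ[K] k₂) (he : ∀ a, ∃ h : e a ∈ S.ring.1, S.red ⟨e a, h⟩ = e₂ a)
    (hS : SpecialisesTo (S.gauss L (CExt K L k) (CExt K L k₂))
      (cubeDiv G hc D L ι y (z.map e)) 1)
    (hE : LocallyEq k L (cubeDiv G hc D L ι y (z.map e) * constDiv (CExt K L k) Dv))
    (Q : Place k (CExt K L k)) (hQ : 1 ≤ ell (divV hE - Finsupp.single Q 1)) :
    Q ∈ Set.range (ConstExt.ext k (CExt K L k) (k := K) (F₀ := L)) := by
  by_contra hr
  -- else the place gives a non-constant point; take `x` with only pole at `P₀`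
  obtain ⟨c, hc'⟩ := exists_hom_of_not_mem_range_ext hr
  obtain ⟨x, hx, hxP⟩ := exists_pole_only P₀
  by_cases ht : c x ∈ e.range
  · -- the point is defined over the smaller field
    obtain ⟨c₀, hc₀⟩ := exists_hom_comp_eq e c hx ht
    obtain ⟨w, hw⟩ := exists_place_of_hom (CExt K L k₂) (e₂.comp c₀)
    have hE₂ : LocallyEq k₂ L (1 * constDiv (CExt K L k₂) Dv) :=
      LocallyEq.one.mul (locallyEq_constDiv Dv)
    have h1 := one_le_ell_sub_single S hE hE₂
      (hS.mul (specialisesTo_map S _ fun v hv => ofDivisor_top Dv hv)) Q w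
      (fun l _ => ⟨(hc' l).1, by
        rw [(hc' l).2, (hw l).2, ← hc₀ l]
        exact he (c₀ l)⟩) hQ
    rw [divV_mul LocallyEq.one (locallyEq_constDiv Dv), divV_one_eq_zero, zero_add, divV_constDiv,
      ell_extDiv_sub_single_eq_zero hDv0 hDv1 (extDiv_eq_zero_of_hom Dv _ hw)] at h1
    omega
  · -- the point degenerates to the origin of the curve
    obtain ⟨Y, S₁, he₁, hxv⟩ := exists_specialisation_pole e ht
    set M₁ := CExt K L Y.carrier
    set Δ₁ := cubeDiv G hc D L ι (y.specialise S₁) (z.map Y.map)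
    have hΔ₁S : SpecialisesTo (S₁.gauss L (CExt K L k) M₁)
        (cubeDiv G hc D L ι y (z.map e)) Δ₁ := by
      have h := cubeDiv_specialisesTo G hc D L ι S₁ y (z.map e)
      rwa [Pt.specialise_const S₁ e Y.map he₁ z] at h
    have hE₁ : LocallyEq Y.carrier L (Δ₁ * constDiv M₁ Dv) :=
      (locallyEq_cubeDiv G hc D L ι (y.specialise S₁) (z.map Y.map)).mul (locallyEq_constDiv Dv)
    have h1 := one_le_ell_sub_single S₁ hE hE₁
      (hΔ₁S.mul (specialisesTo_map S₁ _ fun u hu => ofDivisor_top Dv hu)) Q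
      (ConstExt.ext Y.carrier M₁ P₀) (fun l hl => by
        rw [ConstExt.ordGE_ext_iff] at hl
        refine ⟨(hc' l).1, ?_⟩
        rw [(hc' l).2, ConstExt.evalAt_ext hl]
        exact red_eq_evalAt_of_pole P₀ S₁ c (fun v hv => (hxP v).mp hv) hxv hl) hQ
    rw [ell_cubeDiv_sub_single_eq_zero G hc D ι hDv0 hDv1 hDvP z Sz hz Y.map _ hE₁] at h1
    omega

/-- An effective constant divisor in the class of a degenerating section plus a nonspecial divisor
is that divisor. -/
theorem eq_of_extDiv_eq {Dv D' : Divisor K L} (hDv0 : 0 ≤ Dv) (hDv1 : ell Dv = 1) (hD'0 : 0 ≤ D')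
    (hdeg : Divisor.degree D' = Divisor.degree Dv) {k k₂ : Type u} [Field k] [Algebra K k]
    [IsAlgClosed k] [Field k₂] [Algebra K k₂] [IsAlgClosed k₂] (S : Specialisation K k k₂)
    {E : VDiv K (CExt K L k)} (hE : LocallyEq k L E)
    (hS : SpecialisesTo (S.gauss L (CExt K L k) (CExt K L k₂)) E 1) {F : CExt K L k} (hF0 : F ≠ 0)
    (h : divV hE + ConstExt.extDiv k (CExt K L k) Dv + divOf k F =
      ConstExt.extDiv k (CExt K L k) D') : D' = Dv := by
  have hE' : LocallyEq k L (E * constDiv (CExt K L k) (Dv - D')) := hE.mul (locallyEq_constDiv _)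
  have h1 : 1 ≤ ell (divV hE') := by
    refine Nat.one_le_iff_ne_zero.mpr fun h0 => hF0 ?_
    rw [ell, Submodule.finrank_eq_zero] at h0
    rw [← Submodule.mem_bot k, ← h0, ← nonneg_add_divOf_iff hF0,
      divV_mul hE (locallyEq_constDiv _), divV_constDiv, map_sub, ← h]
    exact le_of_eq (by abel)
  have h2 := ell_divV_le S hE' (LocallyEq.one.mul (locallyEq_constDiv (Dv - D')))
    (hS.mul (specialisesTo_map S _ fun u hu => ofDivisor_top _ hu))
  rw [divV_mul LocallyEq.one (locallyEq_constDiv (M := CExt K L k₂) (Dv - D')), divV_one_eq_zero,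
    zero_add, divV_constDiv, ell_extDiv'] at h2
  have hd0 : Divisor.degree (Dv - D') = 0 := by rw [map_sub, hdeg, sub_self]
  obtain ⟨g, hg, hg0⟩ : ∃ g ∈ riemannRochSpace (Dv - D'), g ≠ 0 := by
    refine Submodule.exists_mem_ne_zero_of_ne_bot fun h0 => ?_
    rw [show ell (Dv - D') = 0 by rw [ell, h0, finrank_bot]] at h2
    omega
  have hgc : g ∈ riemannRochSpace (0 : Divisor K L) := by
    rw [← Submodule.eq_of_le_of_finrank_le (riemannRochSpace_mono hDv0)
      (show ell Dv ≤ ell (0 : Divisor K L) by rw [hDv1, ell_zero]) |>.symm]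
    exact riemannRochSpace_mono (sub_le_self _ hD'0) hg
  rw [riemannRochSpace_zero] at hgc
  obtain ⟨a, rfl⟩ := hgc
  have hnn : 0 ≤ Dv - D' := by
    have := (nonneg_add_divOf_iff hg0).mpr hg
    rw [Finsupp.le_def] at this ⊢
    intro v
    simpa [ord_algebraMap] using this v
  exact (sub_eq_zero.mp (eq_zero_of_nonneg_of_degree hnn hd0)).symm

/-- At the place of the identity the cube is trivial. -/
theorem cubeDiv_specialisesTo_origin
    (hι : letI := ptGroup G hc K; ι.specialise (placeSpec P₀) = 1)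
    {k : Type u} [Field k] [Algebra K k] [IsAlgClosed k] (y w : Pt f k) :
    SpecialisesTo (placeSpec (K := K) (ConstExt.ext k (CExt K L k) P₀))
      (cubeDiv G hc D L ι y w) 1 := by
  let := ptGroup G hc K; let := ptGroup G hc k
  set M := CExt K L k
  set Sp := placeSpec (K := K) (ConstExt.ext k M P₀)
  have hl : ∀ a : (placeSpec (K := K) P₀).ring.1, ∃ h : algebraMap L M a ∈ Sp.ring.1,
      Sp.red ⟨_, h⟩ = algebraMap K k ((placeSpec (K := K) P₀).red a) := fun a =>
    have ha : OrdGE P₀ (a : L) 0 := (mem_iff_ordGE P₀).mp a.2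
    ⟨(mem_iff_ordGE _).mpr (ConstExt.ordGE_ext_iff.mpr ha), ConstExt.evalAt_ext ha⟩
  have hι' : (ι.map (IsScalarTower.toAlgHom K L M)).specialise Sp = 1 := by
    rw [Pt.specialise_extend Sp (placeSpec P₀) (IsScalarTower.toAlgHom K L M)
      (Algebra.ofId K k) hl, hι, Pt.map_one' G hc]
  have hk : ∀ a : k, ∃ h : algebraMap k M a ∈ Sp.ring.1, Sp.red ⟨_, h⟩ = a :=
    fun a => ⟨(ConstExt.ext k M P₀).algebraMap_mem' a, evalAt_algebraMap _ a⟩
  have hy' : ∀ p : Pt f k, (p.map (IsScalarTower.toAlgHom K k M)).specialise Sp = p := fun p =>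
    (Pt.specialise_const Sp _ (AlgHom.id K k) hk p).trans (Pt.map_id p)
  have h := diff3_specialisesTo G hc D (S := Sp) (ι.map (IsScalarTower.toAlgHom K L M))
    (y.map (IsScalarTower.toAlgHom K k M)) (w.map (IsScalarTower.toAlgHom K k M))
  rw [hι', hy', hy', diff3_one_left] at h
  exact h

include P₀ in
/-- **The cube at a degenerating pair of points** is principal. -/
theorem isPrinc_cubeDiv_core {kz : Type u} [Field kz] [Algebra K kz] [IsAlgClosed kz]
    (hι : letI := ptGroup G hc K; ι.specialise (placeSpec P₀) = 1)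
    (z : Pt f kz) {kz₀ : Type u} [Field kz₀] [Algebra K kz₀] [IsAlgClosed kz₀]
    (Sz : Specialisation K kz kz₀) (hz : letI := ptGroup G hc kz₀; z.specialise Sz = 1)
    {k : Type u} [Field k] [Algebra K k] [IsAlgClosed k] (e : kz →ₐ[K] k) (y : Pt f k)
    {k₂ : Type u} [Field k₂] [Algebra K k₂] [IsAlgClosed k₂] (S : Specialisation K k k₂)
    (e₂ : kz →ₐ[K] k₂) (he : ∀ a, ∃ h : e a ∈ S.ring.1, S.red ⟨e a, h⟩ = e₂ a)
    (hy : letI := ptGroup G hc k₂; y.specialise S = 1) :
    IsPrinc K (CExt K L k) (cubeDiv G hc D L ι y (z.map e)) := by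
  classical
  let := ptGroup G hc K; let := ptGroup G hc kz₀; let := ptGroup G hc k₂
  set M := CExt K L k
  set Δ := cubeDiv G hc D L ι y (z.map e)
  have hΔ := locallyEq_cubeDiv G hc D L ι y (z.map e)
  have hS : SpecialisesTo (S.gauss L M (CExt K L k₂)) Δ 1 := by
    have h := cubeDiv_specialisesTo G hc D L ι S y (z.map e)
    rwa [hy, cubeDiv_comm G hc D L ι (1 : Pt f k₂), cubeDiv_one] at h
  have hdeg : Divisor.degree (divV hΔ) = 0 := by
    rw [degree_divV_eq S hΔ LocallyEq.one hS, divV_one_eq_zero, map_zero]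
  obtain ⟨T, hTc, hTP, hTl, -⟩ :=
    exists_nonspecial ({P₀} : Set (Place K L)) (Set.finite_singleton P₀)
  set Dv : Divisor K L := ∑ v ∈ T, Finsupp.single v (1 : ℤ) with hDv
  have hDvdeg : Divisor.degree Dv = genusFF K L := by rw [degree_single_sum, hTc]
  have hDv0 : 0 ≤ Dv := Finset.sum_nonneg fun v _ => by simp
  have hDvP : Dv P₀ = 0 := by
    rw [hDv, Finsupp.finsetSum_apply]
    exact Finset.sum_eq_zero fun v hv =>
      Finsupp.single_eq_of_ne fun h => hTP v hv (h.symm ▸ rfl)
  have hE : LocallyEq k L (Δ * constDiv M Dv) := hΔ.mul (locallyEq_constDiv Dv)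
  have hdivE : divV hE = divV hΔ + ConstExt.extDiv k M Dv := by
    rw [divV_mul hΔ (locallyEq_constDiv Dv), divV_constDiv]
  obtain ⟨F, hF, hF0⟩ : ∃ F ∈ riemannRochSpace (divV hE), F ≠ 0 := by
    refine Submodule.exists_mem_ne_zero_of_ne_bot fun h0 => ?_
    have h1 := riemann_inequality (divV hE)
    rw [ell, h0, finrank_bot, hdivE, map_add, hdeg, ConstExt.degree_extDiv, hDvdeg,
      genusFF_eq' K L k M] at h1
    omega
  set W := divV hE + divOf k F with hW
  have hW0 : 0 ≤ W := (nonneg_add_divOf_iff hF0).mpr hF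
  -- the effective divisor in the class is constant
  set D' : Divisor K L := W.comapDomain (ConstExt.ext k M) ConstExt.ext_injective.injOn
  have hWD' : W = ConstExt.extDiv k M D' := by
    ext Q
    by_cases hr : Q ∈ Set.range (ConstExt.ext k M (k := K) (F₀ := L))
    · obtain ⟨P, rfl⟩ := hr
      rw [ConstExt.extDiv_apply_ext, Finsupp.comapDomain_apply]
    · rw [ConstExt.extDiv_apply_of_notMem _ hr]
      have h0 := Finsupp.le_def.mp hW0 Q
      simp only [Finsupp.coe_zero, Pi.zero_apply] at h0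
      by_contra hne
      exact hr (mem_range_ext_of_one_le_ell G hc D ι P₀ hDv0 hTl hDvP z Sz hz e y S e₂ he hS hE Q
        (one_le_ell_sub_of_pos hF hF0 (lt_of_le_of_ne h0 (Ne.symm hne))))
  have hD'0 : 0 ≤ D' := Finsupp.le_def.mpr fun P => by
    simpa [D'] using Finsupp.le_def.mp hW0 (ConstExt.ext k M P)
  have hD'deg : Divisor.degree D' = Divisor.degree Dv := by
    rw [← ConstExt.degree_extDiv (K := k) (F := M) D', ← hWD', hW, map_add, degree_divOf,
      add_zero, hdivE, map_add, hdeg, ConstExt.degree_extDiv, zero_add]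
  have hD'eq : D' = Dv := eq_of_extDiv_eq hDv0 hTl hD'0 hD'deg S hΔ hS hF0 (by
    rw [← hWD', hW, hdivE])
  -- the seesaw
  have hG : LocallyEq k L (Δ * princ K M (Units.mk0 F hF0)) := hΔ.mul (locallyEq_princ _)
  have hG0 : divV hG = 0 := by
    rw [divV_mul hΔ (locallyEq_princ _), divV_princ, Units.val_mk0]
    have := hWD'
    rw [hD'eq, hW, hdivE] at this
    have h' : divV hΔ + divOf k F + ConstExt.extDiv k M Dv = ConstExt.extDiv k M Dv := by
      rw [add_right_comm]; exact this
    simpa using h'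
  set Sp := placeSpec (K := K) (ConstExt.ext k M P₀)
  have hG₀ : SpecialisesTo Sp (Δ * princ K M (Units.mk0 F hF0)) (1 * 1) :=
    (cubeDiv_specialisesTo_origin G hc D ι P₀ hι y (z.map e)).mul (princ_specialisesTo Sp _)
  have hp := isPrinc_of_trivial hG (fun u hu => eq_one_of_divV_eq_zero hG hG0 hu) Sp
    (ConstExt.ext k M P₀).algebraMap_mem' (fun a => evalAt_algebraMap _ a) hG₀
    (IsPrinc.one.mul IsPrinc.one)
  have hΔeq : Δ = Δ * princ K M (Units.mk0 F hF0) * (princ K M (Units.mk0 F hF0))⁻¹ := by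
    funext v
    simp only [Pi.mul_apply, Pi.inv_apply, mul_inv_cancel_right]
  rw [hΔeq]
  exact hp.mul (IsPrinc.inv ⟨_, rfl⟩)

/-- **The theorem of the cube with a curve as one factor.** -/
theorem exists_isPrinc_cubeDiv (hι : letI := ptGroup G hc K; ι.specialise (placeSpec P₀) = 1)
    {k : Type u} [Field k] [Algebra K k] [IsAlgClosed k] (y w : Pt f k) :
    ∃ X : AlgExt K k, IsPrinc K (CExt K L X.carrier)
      (cubeDiv G hc D L ι (y.map X.map) (w.map X.map)) := by
  let := ptGroup G hc k
  obtain ⟨X₁, η, hη⟩ := exists_generic f (k := k)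
  obtain ⟨Z, Sz, -, hz⟩ := hη 1
  let := ptGroup G hc Z.carrier
  have hz' : η.specialise Sz = 1 := by rw [hz]; exact Pt.map_one' G hc _
  obtain ⟨X₂, ζ, hζ⟩ := exists_generic f (k := X₁.carrier)
  let := ptGroup G hc X₁.carrier
  obtain ⟨Y₁, S₁, hS₁, hζ₁⟩ := hζ 1
  let := ptGroup G hc Y₁.carrier
  have h₁ := isPrinc_cubeDiv_core G hc D ι P₀ hι η Sz hz' X₂.map ζ S₁ Y₁.map hS₁
    (by rw [hζ₁]; exact Pt.map_one' G hc _)
  obtain ⟨Y₂, S₂, hS₂, hζ₂⟩ := hζ (w.map X₁.map)
  have h₂ := isPrinc_cubeDiv_specialise G hc D L ι S₂ h₁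
  rw [hζ₂, Pt.specialise_const S₂ X₂.map Y₂.map hS₂] at h₂
  obtain ⟨Y₃, S₃, hS₃, hη₃⟩ := hη y
  obtain ⟨X₄, S₄, hS₄⟩ := S₃.exists_extend Y₂.map
  have h₃ := isPrinc_cubeDiv_specialise G hc D L ι S₄ h₂
  rw [Pt.specialise_extend S₄ S₃ Y₂.map X₄.map hS₄, Pt.specialise_extend S₄ S₃ Y₂.map X₄.map hS₄,
    hη₃, Pt.specialise_const S₃ X₁.map Y₃.map hS₃, Pt.map_map, Pt.map_map, cubeDiv_comm] at h₃
  exact ⟨{ carrier := X₄.carrier, map := X₄.map.comp Y₃.map }, h₃⟩

/-- **The cube at the points of the curve** is principal. -/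
theorem isPrinc_diff3_curve (hι : letI := ptGroup G hc K; ι.specialise (placeSpec P₀) = 1)
    {k : Type u} [Field k] [Algebra K k] [IsAlgClosed k] (c : L →ₐ[K] k) (y w : Pt f k) :
    IsPrinc K k (diff3 G hc D (ι.map c) y w) := by
  obtain ⟨X, hX⟩ := exists_isPrinc_cubeDiv G hc D ι P₀ hι y w
  refine IsPrinc.descend X.map ?_
  rw [← diff3_map]
  obtain ⟨Q, hQ⟩ := exists_place_of_hom (CExt K L X.carrier) (X.map.comp c)
  set Sp := placeSpec (K := K) Q
  have hl : ∀ l : L, ∃ h : algebraMap L (CExt K L X.carrier) l ∈ Sp.ring.1,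
      Sp.red ⟨_, h⟩ = X.map (c l) := fun l => ⟨(mem_iff_ordGE Q).mpr (hQ l).1, (hQ l).2⟩
  have hk : ∀ a : X.carrier, ∃ h : algebraMap X.carrier (CExt K L X.carrier) a ∈ Sp.ring.1,
      Sp.red ⟨_, h⟩ = a := fun a => ⟨Q.algebraMap_mem' a, evalAt_algebraMap Q a⟩
  have hι' : (ι.map (IsScalarTower.toAlgHom K L (CExt K L X.carrier))).specialise Sp =
      ι.map (X.map.comp c) := Pt.specialise_eq Sp ι _ _ hl
  have hy' : ∀ p : Pt f X.carrier,
      (p.map (IsScalarTower.toAlgHom K X.carrier (CExt K L X.carrier))).specialise Sp = p :=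
    fun p => (Pt.specialise_const Sp _ (AlgHom.id K X.carrier) hk p).trans (Pt.map_id p)
  have h := diff3_specialisesTo G hc D (S := Sp)
    (ι.map (IsScalarTower.toAlgHom K L (CExt K L X.carrier)))
    ((y.map X.map).map (IsScalarTower.toAlgHom K X.carrier (CExt K L X.carrier)))
    ((w.map X.map).map (IsScalarTower.toAlgHom K X.carrier (CExt K L X.carrier)))
  rw [hι', hy', hy'] at h
  rw [Pt.map_map]
  exact h.isPrinc hX

end Curve

end Fermat.AV

end
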