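import Fermat.Agent.AV.CurveKey

/-!
# The degree of a divisor on a curve with extended constants

A divisor with local equations has a divisor on the places, its sections are a Riemann-Roch
space, and its degree does not change under specialisation.
-/

set_option autoImplicit false
set_option linter.unusedSectionVars false

noncomputable section

universe u

open AlgebraicCurve IntermediateField Fermat.FF Fermat.JAC

namespace Fermat.AV

section Const

variable {K : Type u} [Field K] {L : Type u} [Field L] [Algebra K L]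

open Classical in
/-- The valuations' version of a divisor on a curve. -/
def ofDivisor (D : Divisor K L) : VDiv K L := fun v =>
  if h : v.1 = ⊤ then 1 else
    if hp : IsPrincipalIdealRing v.1 then
      QuotientGroup.mk (Units.mk0 _
        (exists_ord_eq (⟨v.1, v.2, h, hp⟩ : Place K L) (D ⟨v.1, v.2, h, hp⟩)).choose_spec.1)
    else 1

/-- Functions of equal order have the same class at a place. -/
theorem mk_eq_mk_of_ord_eq (P : Place K L) {a b : Lˣ} (h : P.ord (a : L) = P.ord (b : L)) :
    (QuotientGroup.mk a : Lˣ ⧸ P.toValuationSubring.unitGroup) = QuotientGroup.mk b := by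
  rw [QuotientGroup.eq, mem_unitGroup_iff', mem_iff_ordGE, mem_iff_ordGE,
    ordGE_iff_of_ne (Units.ne_zero _), ordGE_iff_of_ne (Units.ne_zero _)]
  simp only [Units.val_mul, Units.val_inv_eq_inv_val, mul_inv_rev, inv_inv]
  rw [P.ord_mul (by simp) (by simp), P.ord_mul (by simp) (by simp), P.ord_inv, P.ord_inv]
  omega

/-- At a place the valuations' version of a divisor is the class of any function of that order. -/
theorem ofDivisor_place (D : Divisor K L) (P : Place K L) {e : Lˣ} (he : P.ord (e : L) = D P) :
    ofDivisor D ⟨P.toValuationSubring, P.algebraMap_mem'⟩ = QuotientGroup.mk e := by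
  unfold ofDivisor
  rw [dif_neg P.ne_top', dif_pos P.isPrincipalIdealRing']
  refine mk_eq_mk_of_ord_eq P ?_
  rw [he]
  exact (exists_ord_eq P (D P)).choose_spec.2

/-- At the trivial valuation a divisor is trivial. -/
theorem ofDivisor_top (D : Divisor K L) {v : Val K L} (h : v.1 = ⊤) : ofDivisor D v = 1 := by
  unfold ofDivisor
  rw [dif_pos h]

end Const

variable {K : Type u} [Field K] {k : Type u} [Field k] [Algebra K k]
  {M : Type u} [Field M] [Algebra K M] [Algebra k M] [IsScalarTower K k M]
  {L : Type u} [Field L] [Algebra K L] [Algebra L M] [IsScalarTower K L M]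

/-- All units have trivial class for the trivial valuation. -/
theorem mk_eq_one_of_top {v : ValuationSubring L} (h : v = ⊤) (e : Lˣ) :
    (QuotientGroup.mk e : Lˣ ⧸ v.unitGroup) = 1 := by
  subst h
  rw [QuotientGroup.eq_one_iff, mem_unitGroup_iff']
  exact ⟨ValuationSubring.mem_top _, ValuationSubring.mem_top _⟩

/-- The order of a divisor at a place. -/
def ordV (E : VDiv K M) (w : Place k M) : ℤ :=
  w.ord ((exists_mk_eq E (placeVal (K := K) w)).choose : M)

/-- The order of a divisor is that of any function representing it. -/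
theorem ordV_eq {E : VDiv K M} {w : Place k M} {e : Mˣ}
    (he : E (placeVal (K := K) w) = QuotientGroup.mk e) : ordV E w = w.ord (e : M) := by
  have h : (exists_mk_eq E (placeVal (K := K) w)).choose⁻¹ * e ∈
      (placeVal (K := K) w).1.unitGroup :=
    QuotientGroup.eq.mp ((exists_mk_eq E (placeVal (K := K) w)).choose_spec.symm.trans he)
  rw [mem_unitGroup_iff'] at h
  have h1 := ((mem_iff_ordGE w).mp h.1).le_ord (Units.ne_zero _)
  have h2 := ((mem_iff_ordGE w).mp h.2).le_ord (Units.ne_zero _)
  simp only [Units.val_mul, Units.val_inv_eq_inv_val, mul_inv_rev, inv_inv] at h1 h2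
  rw [w.ord_mul (by simp) (by simp), w.ord_inv] at h1 h2
  rw [ordV]
  omega

variable [IsAlgClosed K] [IsFunctionField K L] [IsAlgClosed k] [IsFunctionField k M]
  [IsConstExt K k L M]

/-- Over the finite part of a separating `x`, a divisor with local equations has finitely many
nonzero orders. -/
theorem finite_setOf_ordV_ne_zero_chart {E : VDiv K M} (hE : LocallyEq k L E) {x : L}
    (hx : Transcendental K x) (hsep : Algebra.IsSeparable K⟮x⟯ L) :
    {w : Place k M | OrdGE w (algebraMap L M x) 0 ∧ ordV E w ≠ 0}.Finite := by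
  classical
  set 𝔄 := chartRing M (topVal K k) x
  -- `good` elements: `E` is a single function where they are invertible
  let good : Set 𝔄 := {s | (s : M) ≠ 0 ∧ ∃ e : Mˣ, ∀ u' : Val K M, 𝔄 ≤ u'.1.toSubring →
    (s : M)⁻¹ ∈ u'.1 → E u' = QuotientGroup.mk e}
  -- they generate the unit ideal
  have htop : Ideal.span good = ⊤ := by
    by_contra h
    obtain ⟨V, hV, hI⟩ := Ideal.image_subset_nonunits_valuationSubring (A := 𝔄) _ h
    let u : Val K M := ⟨V, fun c => hV (by
      rw [IsScalarTower.algebraMap_apply K k M]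
      exact algebraMap_const_mem_chartRing (ValuationSubring.mem_top _))⟩
    obtain ⟨s, hs, hs0, hsu, hes⟩ := hE _ x hx hsep u hV
    have hn : s ∈ V.nonunits := hI ⟨⟨s, hs⟩, Ideal.subset_span ⟨hs0, hes⟩, rfl⟩
    rcases V.mem_nonunits_iff_or.mp hn with h0 | h0
    exacts [hs0 h0, h0 hsu]
  -- finitely many suffice; their functions have finitely many zeros and poles
  obtain ⟨T, hT, hT1⟩ := Submodule.mem_span_finite_of_mem_span
    ((Ideal.eq_top_iff_one (Ideal.span good)).mp htop)
  choose e he using fun t : T => (hT t.2).2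
  refine (Set.finite_iUnion fun t : T => finite_setOf_ord_ne_zero (K := k) (e t : M)).subset ?_
  rintro w ⟨hw, hne⟩
  have hle := chartRing_le_place (O := topVal K k) hw
  rw [Set.mem_iUnion]
  -- elsewhere one of them is invertible, as `1` is not in the maximal ideal
  by_contra hall
  push Not at hall
  have hbad : ∀ t : T, ((t : 𝔄) : M)⁻¹ ∉ (placeVal (K := K) w).1 := fun t ht => hne (by
    rw [ordV_eq (he t _ hle ht)]
    exact not_not.mp (hall t))
  let ι : 𝔄 →+* (placeVal (K := K) w).1 :=
    𝔄.subtype.codRestrict (placeVal (K := K) w).1.toSubring fun a => hle a.2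
  have h1 : (1 : 𝔄) ∈ (IsLocalRing.maximalIdeal (placeVal (K := K) w).1).comap ι := by
    refine Submodule.span_le.mpr (fun t ht => ?_) hT1
    rw [SetLike.mem_coe, Ideal.mem_comap, IsLocalRing.mem_maximalIdeal]
    rintro ⟨u, hu⟩
    refine hbad ⟨t, ht⟩ ?_
    have h2 : ((t : M))⁻¹ = ((u⁻¹ : (placeVal (K := K) w).1ˣ) : (placeVal (K := K) w).1).1 := by
      refine inv_eq_of_mul_eq_one_right ?_
      have := congrArg Subtype.val u.mul_inv
      rwa [hu] at this
    change (t : M)⁻¹ ∈ _
    rw [h2]
    exact Subtype.prop _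
  rw [Ideal.mem_comap, map_one, IsLocalRing.mem_maximalIdeal] at h1
  exact h1 isUnit_one

/-- A divisor with local equations has finitely many nonzero orders. -/
theorem finite_setOf_ordV_ne_zero {E : VDiv K M} (hE : LocallyEq k L E) :
    {w : Place k M | ordV E w ≠ 0}.Finite := by
  obtain ⟨x, hx, -, hs⟩ := IsFunctionField.exists_separating (K := K) (F := L)
  have hs' : Algebra.IsSeparable K⟮x⁻¹⟯ L := by rw [adjoin_inv_eq]; exact hs
  refine ((finite_setOf_ordV_ne_zero_chart hE hx hs).union
    (finite_setOf_ordV_ne_zero_chart hE (fun halg => hx (by simpa using halg.inv)) hs')).subset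
    fun w hw => ?_
  rcases le_total 0 (w.ord (algebraMap L M x)) with h | h
  · exact .inl ⟨(ordGE_ord w _).mono h, hw⟩
  · exact .inr ⟨(ordGE_ord w _).mono (by rw [map_inv₀, w.ord_inv]; omega), hw⟩

/-- **The divisor on the places.** A divisor with local equations gives the divisor of its orders at
the places. -/
def divV {E : VDiv K M} (hE : LocallyEq k L E) : Divisor k M :=
  Finsupp.ofSupportFinite (fun w => ordV E w) (finite_setOf_ordV_ne_zero hE)

/-- The divisor on the places is given by the orders. -/
@[simp]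
theorem divV_apply {E : VDiv K M} (hE : LocallyEq k L E) (w : Place k M) :
    divV hE w = ordV E w := rfl

/-- The divisor on the places of a product is the sum. -/
theorem divV_mul {E E' : VDiv K M} (hE : LocallyEq k L E) (hE' : LocallyEq k L E') :
    divV (hE.mul hE') = divV hE + divV hE' := by
  ext w
  obtain ⟨e, he⟩ := exists_mk_eq E (placeVal (K := K) w)
  obtain ⟨e', he'⟩ := exists_mk_eq E' (placeVal (K := K) w)
  rw [Finsupp.add_apply, divV_apply, divV_apply, divV_apply, ordV_eq he, ordV_eq he',
    ordV_eq (e := e * e') (by rw [Pi.mul_apply, he, he']; rfl), Units.val_mul,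
    w.ord_mul e.ne_zero e'.ne_zero]

/-- The divisor on the places of an inverse is the negative. -/
theorem divV_inv {E : VDiv K M} (hE : LocallyEq k L E) : divV hE.inv = -divV hE := by
  ext w
  obtain ⟨e, he⟩ := exists_mk_eq E (placeVal (K := K) w)
  rw [Finsupp.neg_apply, divV_apply, divV_apply, ordV_eq he,
    ordV_eq (e := e⁻¹) (by rw [Pi.inv_apply, he]; rfl), Units.val_inv_eq_inv_val, w.ord_inv]

/-- The divisor on the places of a function is its usual divisor. -/
theorem divV_princ (f : Mˣ) : divV (locallyEq_princ f : LocallyEq k L (princ K M f)) =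
    divOf k (f : M) := by
  ext w
  rw [divV_apply, divOf_apply, ordV_eq (e := f) rfl]

/-- A divisor vanishing on the places is trivial on the valuations over the constants. -/
theorem eq_one_of_divV_eq_zero {E : VDiv K M} (hE : LocallyEq k L E) (h : divV hE = 0)
    {u : Val K M} (hu : IsOver k u) : E u = 1 := by
  obtain ⟨e, he⟩ := exists_mk_eq E u
  by_cases ht : u.1 = ⊤
  · rw [he]; exact mk_eq_one_of_top ht e
  · let w : Place k M := placeOfValuationSubring hu ht
    have hwu : placeVal (K := K) w = u := rfl
    have h0 : w.ord (e : M) = 0 := by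
      rw [← ordV_eq (E := E) (w := w) (e := e) (by rw [hwu]; exact he), ← divV_apply hE, h]
      rfl
    rw [he, ← QuotientGroup.mk_one]
    exact mk_eq_mk_of_ord_eq w (by rw [Units.val_one, Place.ord_one, h0])

/-- **The sections form a Riemann-Roch space.** -/
theorem Lsp_eq {E : VDiv K M} (hE : LocallyEq k L E) :
    Lsp k E = riemannRochSpace (divV hE) := by
  ext F
  rw [mem_riemannRochSpace]
  constructor
  · intro hF w
    obtain ⟨e, he⟩ := exists_mk_eq E (placeVal (K := K) w)
    have h : OrdGE w (F * e) 0 := (mem_iff_ordGE w).mp (hF _ (isOver_placeVal w) e he)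
    rw [divV_apply, ordV_eq he]
    have := h.mul (ordGE_ord w ((e : M))⁻¹)
    rw [mul_inv_cancel_right₀ e.ne_zero, w.ord_inv] at this
    exact this.mono (by omega)
  · intro hF u hu e he
    by_cases ht : u.1 = ⊤
    · rw [ht]; exact ValuationSubring.mem_top _
    · let w : Place k M := placeOfValuationSubring hu ht
      have := hF w
      rw [divV_apply, ordV_eq (e := e) (show E (placeVal (K := K) w) = _ from he)] at this
      exact (mem_iff_ordGE w).mpr ((this.mul (ordGE_ord w (e : M))).mono (by omega))

/-- The sections of a divisor with local equations are finite-dimensional. -/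
theorem finiteDimensional_Lsp {E : VDiv K M} (hE : LocallyEq k L E) :
    FiniteDimensional k (Lsp k E) := by
  rw [Lsp_eq hE]; infer_instance

section Specialise

variable {k₀ : Type u} [Field k₀] [Algebra K k₀] {M₀ : Type u} [Field M₀] [Algebra K M₀]
  [Algebra k₀ M₀] [Algebra L M₀] [IsScalarTower K k₀ M₀] [IsScalarTower K L M₀]
  [IsConstExt K k₀ L M₀] [IsAlgClosed k₀] [IsFunctionField k₀ M₀] (S : Specialisation K k k₀)

/-- **Semicontinuity:** `ell` can only grow under specialisation. -/
theorem ell_divV_le {E : VDiv K M} {E₀ : VDiv K M₀} (hE : LocallyEq k L E)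
    (hE₀ : LocallyEq k₀ L E₀) (hS : SpecialisesTo (S.gauss L M M₀) E E₀) :
    ell (divV hE) ≤ ell (divV hE₀) := by
  have := finiteDimensional_Lsp hE
  have := finiteDimensional_Lsp hE₀
  have h := finrank_Lsp_le S hE hS
  rwa [Lsp_eq hE, Lsp_eq hE₀] at h

/-- The Gauss valuation is trivial on the functions of `L`. -/
theorem Specialisation.comap_gauss :
    ((S.gauss L M M₀).ring.comap (IsScalarTower.toAlgHom K L M)).1 = ⊤ := by
  refine eq_top_iff.mpr fun l _ => ?_
  have := S.intMap_mem_gaussVal (L := L) (M := M) (M₀ := M₀) (1 ⊗ₜ l)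
  rwa [S.intMap_tmul, OneMemClass.coe_one, map_one, one_mul] at this

/-- The Gauss reduction fixes the functions of `L`. -/
theorem Specialisation.gauss_red_algebraMap' (l : L)
    (h : algebraMap L M l ∈ (S.gauss L M M₀).ring.1) :
    (S.gauss L M M₀).red ⟨algebraMap L M l, h⟩ = algebraMap L M₀ l := by
  have e := S.gauss_red_intMap (L := L) (M := M) (M₀ := M₀) (1 ⊗ₜ l)
  rw [S.intRed_tmul, map_one, map_one, one_mul] at e
  rw [← e]
  exact congrArg _ (Subtype.ext
    ((S.intMap_tmul _ _).trans (by rw [OneMemClass.coe_one, map_one, one_mul])).symm)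

/-- A valuation composed with the Gauss valuation restricts to `L` as it does itself. -/
theorem Specialisation.comap_compVal (w : Val K M₀) :
    ((S.gauss L M M₀).compVal w).comap (IsScalarTower.toAlgHom K L M) =
      w.comap (IsScalarTower.toAlgHom K L M₀) := by
  refine Subtype.ext (SetLike.ext fun l => ?_)
  change algebraMap L M l ∈ ((S.gauss L M M₀).compVal w).1 ↔ algebraMap L M₀ l ∈ w.1
  rw [(S.gauss L M M₀).mem_compVal]
  have hl : algebraMap L M l ∈ (S.gauss L M M₀).ring.1 := by
    have := S.intMap_mem_gaussVal (L := L) (M := M) (M₀ := M₀) (1 ⊗ₜ l)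
    rwa [S.intMap_tmul, OneMemClass.coe_one, map_one, one_mul] at this
  refine ⟨fun ⟨h, hw⟩ => by rwa [S.gauss_red_algebraMap' l h] at hw, fun h => ⟨hl, ?_⟩⟩
  rwa [S.gauss_red_algebraMap' l hl]

/-- A divisor of the constant curve specialises to itself. -/
theorem specialisesTo_map (E : VDiv K L) (hE : ∀ v : Val K L, v.1 = ⊤ → E v = 1) :
    SpecialisesTo (S.gauss L M M₀) (VDiv.map (IsScalarTower.toAlgHom K L M) E)
      (VDiv.map (IsScalarTower.toAlgHom K L M₀) E) := by
  refine ⟨1, ?_, fun w => ?_⟩
  · rw [VDiv.map_apply (IsScalarTower.toAlgHom K L M) E _ (x := 1)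
      (hE _ S.comap_gauss), map_one]
  · obtain ⟨e, he⟩ := exists_mk_eq E (w.comap (IsScalarTower.toAlgHom K L M₀))
    have hmem : ∀ l : L, algebraMap L M l ∈ (S.gauss L M M₀).ring.1 := fun l => by
      have := S.intMap_mem_gaussVal (L := L) (M := M) (M₀ := M₀) (1 ⊗ₜ l)
      rwa [S.intMap_tmul, OneMemClass.coe_one, map_one, one_mul] at this
    let j : L →+* (S.gauss L M M₀).ring.1 :=
      (algebraMap L M).codRestrict (S.gauss L M M₀).ring.1.toSubring hmem
    refine ⟨Units.map j.toMonoidHom e, ?_, ?_⟩
    · rw [VDiv.map_apply _ E _ (x := e) (by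
        have h := S.comap_compVal (L := L) (M := M) w
        rw [h]; exact he), mul_one]
      rfl
    · rw [VDiv.map_apply _ E _ he]
      congr 1
      exact Units.ext (S.gauss_red_algebraMap' (e : L) (hmem e)).symm

end Specialise

/-- An extended place restricts to the original place. -/
theorem comap_placeVal_ext (P : Place K L) :
    (placeVal (K := K) (ConstExt.ext k M P)).comap (IsScalarTower.toAlgHom K L M) =
      ⟨P.toValuationSubring, P.algebraMap_mem'⟩ := by
  refine Subtype.ext (SetLike.ext fun l => ?_)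
  change algebraMap L M l ∈ (ConstExt.ext k M P).toValuationSubring ↔ l ∈ P.toValuationSubring
  rw [mem_iff_ordGE, mem_iff_ordGE, ConstExt.ordGE_ext_iff]

variable (k M) in
/-- The extension of a divisor. -/
def constDiv (D : Divisor K L) : VDiv K M :=
  VDiv.map (IsScalarTower.toAlgHom K L M) (ofDivisor D)

/-- An integral function, a unit at a given valuation, vanishing at given other places. -/
theorem exists_unit_vanishing {x : L} (hx : Transcendental K x) {v : Val K L}
    (hR : ∀ f ∈ intClosure K x, f ∈ v.1) (B : Finset (Place K L)) (hBx : ∀ Q ∈ B, OrdGE Q x 0)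
    (hBv : ∀ Q ∈ B, Q.toValuationSubring ≠ v.1) :
    ∃ r ∈ intClosure K x, r ≠ 0 ∧ r⁻¹ ∈ v.1 ∧ ∀ Q ∈ B, 0 < Q.ord r := by
  classical
  -- for the trivial valuation take the product of the `x - x (Q)`
  by_cases ht : v.1 = ⊤
  · refine ⟨∏ Q ∈ B, (x - algebraMap K L (evalAt Q x)), prod_mem fun Q _ =>
      sub_mem (self_mem_intClosure x) ((intClosure K x).algebraMap_mem _), ?_,
      ht ▸ ValuationSubring.mem_top _, fun Q hQ => ?_⟩
    · exact Finset.prod_ne_zero_iff.mpr fun Q _ h =>
        hx ((sub_eq_zero.mp h) ▸ isAlgebraic_algebraMap _)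
    · have hne : ∀ P : Place K L, x - algebraMap K L (evalAt P x) ≠ 0 := fun P h =>
        hx ((sub_eq_zero.mp h) ▸ isAlgebraic_algebraMap _)
      rw [ord_prod _ _ _ fun P _ => hne P]
      exact Finset.sum_pos' (fun P _ => (((hBx Q hQ).sub (ordGE_algebraMap Q _)).le_ord (hne P)))
        ⟨Q, hQ, lt_of_lt_of_le zero_lt_one ((evalAt_spec (hBx Q hQ)).le_ord (hne Q))⟩
  -- otherwise `v` is a place `P`; multiply elements that are `1` at `P` and `0` at `Q`
  · let P : Place K L := placeOfValuationSubring v.2 ht
    have hxP : OrdGE P x 0 := (mem_iff_ordGE P).mp (hR x (self_mem_intClosure x))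
    choose r hr h1 h2 using fun Q : B => exists_separating_integral hx hxP (hBx Q Q.2)
      (fun h => hBv Q Q.2 (by rw [← h]; rfl))
    have hr' : ∀ Q, OrdGE P (r Q) 0 := fun Q => mem_intClosure_iff.mp (hr Q) P hxP
    have hpe : OrdGE P (∏ Q, r Q) 0 ∧ evalAt P (∏ Q, r Q) = 1 := by
      induction (Finset.univ : Finset B) using Finset.induction with
      | empty => simp [ordGE_one]
      | insert a s ha ih =>
        rw [Finset.prod_insert ha]
        exact ⟨((hr' a).mul ih.1).mono (by simp),
          by rw [evalAt_mul (hr' a) ih.1, h1, ih.2, one_mul]⟩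
    have hne : (∏ Q, r Q) ≠ 0 := fun h => one_ne_zero (α := K) (by
      rw [← hpe.2, h, ← map_zero (algebraMap K L), evalAt_algebraMap])
    -- the product is a unit at `P` and positive at each `Q`
    have hP0 : P.ord (∏ Q, r Q) = 0 := by
      by_contra h
      have := (evalAt_eq_zero_iff hpe.1).mpr
        ((ordGE_ord P _).mono (by have := hpe.1.le_ord hne; omega))
      rw [hpe.2] at this
      exact one_ne_zero this
    refine ⟨∏ Q, r Q, prod_mem fun Q _ => hr Q, hne,
      (mem_iff_ordGE P).mpr ((ordGE_ord P _).mono (by rw [P.ord_inv]; omega)), fun Q hQ => ?_⟩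
    have hrne : ∀ i, r i ≠ 0 := fun i => Finset.prod_ne_zero_iff.mp hne i (Finset.mem_univ _)
    rw [ord_prod _ _ _ fun i _ => hrne i]
    refine Finset.sum_pos' (fun i _ =>
      (mem_intClosure_iff.mp (hr i) Q (hBx Q hQ)).le_ord (hrne i))
      ⟨⟨Q, hQ⟩, Finset.mem_univ _, ?_⟩
    exact lt_of_lt_of_le zero_lt_one
      (((evalAt_eq_zero_iff (mem_intClosure_iff.mp (hr _) Q (hBx Q hQ))).mp
        (h2 ⟨Q, hQ⟩)).le_ord (hrne _))

/-- The constant extension of a divisor has local equations. -/
theorem locallyEq_constDiv (D : Divisor K L) : LocallyEq k L (constDiv M D) := by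
  classical
  intro O x hx hsep u hu
  set v := u.comap (IsScalarTower.toAlgHom K L M) with hv
  have hR : ∀ f ∈ intClosure K x, f ∈ v.1 := fun f hf => hu (algebraMap_mem_chartRing hf)
  -- an equation `e` of `D` at the centre `v`
  obtain ⟨e, he, hev⟩ : ∃ e : Lˣ, ofDivisor D v = QuotientGroup.mk e ∧
      (∀ P : Place K L, P.toValuationSubring = v.1 → P.ord (e : L) = D P) := by
    by_cases ht : v.1 = ⊤
    · exact ⟨1, ofDivisor_top D ht, fun P hP => absurd (hP.trans ht) P.ne_top'⟩
    · let P : Place K L := placeOfValuationSubring v.2 ht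
      obtain ⟨e, he0, he⟩ := exists_ord_eq P (D P)
      refine ⟨Units.mk0 e he0, ofDivisor_place D P (e := Units.mk0 e he0) he, fun Q hQ => ?_⟩
      rw [show Q = P from AlgebraicCurve.Place.ext hQ]
      exact he
  -- the places of the chart where `e` is not one; `r` vanishes there, not at `v`
  let B : Finset (Place K L) :=
    ((finite_setOf_ord_ne_zero (K := K) (e : L)).toFinset ∪ D.support).filter
      fun Q => OrdGE Q x 0 ∧ Q.ord (e : L) ≠ D Q
  obtain ⟨r, hr, hr0, hrv, hrB⟩ := exists_unit_vanishing hx hR B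
    (fun Q hQ => (Finset.mem_filter.mp hQ).2.1) fun Q hQ h =>
      (Finset.mem_filter.mp hQ).2.2 (hev Q h)
  refine ⟨algebraMap L M r, algebraMap_mem_chartRing hr, (_root_.map_ne_zero _).mpr hr0,
    by rw [← map_inv₀]; exact hrv, Units.map (algebraMap L M).toMonoidHom e, fun u' h1 h2 => ?_⟩
  refine VDiv.map_apply _ _ u' (x := e) ?_
  set v' := u'.comap (IsScalarTower.toAlgHom K L M)
  -- where `r` is invertible `e` is still an equation
  have hi : r⁻¹ ∈ v'.1 := by
    change algebraMap L M r⁻¹ ∈ u'.1
    rw [map_inv₀]; exact h2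
  by_cases ht : v'.1 = ⊤
  · rw [ofDivisor_top D ht, mk_eq_one_of_top ht]
  · let Q : Place K L := placeOfValuationSubring v'.2 ht
    refine ofDivisor_place D Q ?_
    by_contra hQ
    have hQx : OrdGE Q x 0 :=
      (mem_iff_ordGE Q).mp (h1 (algebraMap_mem_chartRing (self_mem_intClosure x)))
    have hQB : Q ∈ B := Finset.mem_filter.mpr ⟨by
      by_contra hn
      simp only [Finset.mem_union, Set.Finite.mem_toFinset, Set.mem_ofPred_eq,
        Finsupp.mem_support_iff, not_or, not_not] at hn
      exact hQ (hn.1.trans hn.2.symm), hQx, hQ⟩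
    have hpos := hrB Q hQB
    have := ((mem_iff_ordGE Q).mp hi).le_ord (inv_ne_zero hr0)
    rw [Q.ord_inv] at this
    omega

/-- The divisor on places of a constant extension of a divisor is the extended divisor. -/
theorem divV_constDiv (D : Divisor K L) :
    divV (locallyEq_constDiv (k := k) (M := M) D) = ConstExt.extDiv k M D := by
  ext w
  rw [divV_apply]
  by_cases hr : w ∈ Set.range (ConstExt.ext k M (k := K) (F₀ := L))
  · obtain ⟨P, rfl⟩ := hr
    rw [ConstExt.extDiv_apply_ext]
    obtain ⟨e, he0, he⟩ := exists_ord_eq P (D P)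
    have : constDiv M D (placeVal (K := K) (ConstExt.ext k M P)) =
        QuotientGroup.mk (Units.map (algebraMap L M).toMonoidHom (Units.mk0 e he0)) :=
      VDiv.map_apply _ _ _ (by
        rw [comap_placeVal_ext]
        exact ofDivisor_place D P he)
    rw [ordV_eq this]
    change (ConstExt.ext k M P).ord (algebraMap L M e) = _
    rw [ConstExt.ord_ext, he]
  · rw [ConstExt.extDiv_apply_of_notMem _ hr, ordV_eq (e := 1) ?_, Units.val_one, Place.ord_one]
    refine (VDiv.map_apply _ _ _ (x := 1) (ofDivisor_top D ?_)).trans (by rw [map_one])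
    refine eq_top_iff.mpr fun l _ => ?_
    change algebraMap L M l ∈ w.toValuationSubring
    rw [mem_iff_ordGE]
    exact (ordGE_ord w _).mono (le_of_eq (by
      by_contra h0
      exact hr (ConstExt.mem_range_ext_of_ord_ne_zero (Ne.symm h0))))

/-- **The degree does not change under specialisation.** -/
theorem degree_divV_eq {k₀ : Type u} [Field k₀] [Algebra K k₀] {M₀ : Type u} [Field M₀]
    [Algebra K M₀] [Algebra k₀ M₀] [Algebra L M₀] [IsScalarTower K k₀ M₀] [IsScalarTower K L M₀]
    [IsConstExt K k₀ L M₀] [IsAlgClosed k₀] [IsFunctionField k₀ M₀] (S : Specialisation K k k₀)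
    {E : VDiv K M} {E₀ : VDiv K M₀} (hE : LocallyEq k L E) (hE₀ : LocallyEq k₀ L E₀)
    (hS : SpecialisesTo (S.gauss L M M₀) E E₀) :
    Divisor.degree (divV hE) = Divisor.degree (divV hE₀) := by
  obtain ⟨P⟩ := nonempty_place K L
  have key : ∀ {F : VDiv K M} {F₀ : VDiv K M₀} (hF : LocallyEq k L F) (hF₀ : LocallyEq k₀ L F₀),
      SpecialisesTo (S.gauss L M M₀) F F₀ →
      Divisor.degree (divV hF) ≤ Divisor.degree (divV hF₀) := by
    intro F F₀ hF hF₀ hFS
    set N : ℤ := 2 * (genusFF K L : ℤ) + |Divisor.degree (divV hF)| + |Divisor.degree (divV hF₀)|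
    let D : Divisor K L := Finsupp.single P N
    have hd : Divisor.degree D = N := by rw [Divisor.degree_single, deg_eq_one]; simp
    have h := ell_divV_le S (hF.mul (locallyEq_constDiv D)) (hF₀.mul (locallyEq_constDiv D))
      (hFS.mul (specialisesTo_map S _ fun v hv => ofDivisor_top D hv))
    rw [divV_mul hF (locallyEq_constDiv D), divV_mul hF₀ (locallyEq_constDiv D), divV_constDiv,
      divV_constDiv] at h
    have e1 := ell_of_degree_ge (D := divV hF + ConstExt.extDiv k M D) (by
      rw [map_add, ConstExt.degree_extDiv, hd, genusFF_eq' K L k M]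
      have := neg_abs_le (Divisor.degree (divV hF))
      have := abs_nonneg (Divisor.degree (divV hF₀))
      omega)
    have e2 := ell_of_degree_ge (D := divV hF₀ + ConstExt.extDiv k₀ M₀ D) (by
      rw [map_add, ConstExt.degree_extDiv, hd, genusFF_eq' K L k₀ M₀]
      have := neg_abs_le (Divisor.degree (divV hF₀))
      have := abs_nonneg (Divisor.degree (divV hF))
      omega)
    rw [map_add, ConstExt.degree_extDiv, hd, genusFF_eq' K L k M] at e1
    rw [map_add, ConstExt.degree_extDiv, hd, genusFF_eq' K L k₀ M₀] at e2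
    omega
  refine le_antisymm (key hE hE₀ hS) ?_
  have h := key hE.inv hE₀.inv hS.inv
  rw [divV_inv hE, divV_inv hE₀, map_neg, map_neg] at h
  omega

end Fermat.AV

end
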