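import Fermat.Agent.JAC.ConstExtExists
import Mathlib.RingTheory.DedekindDomain.Different

/-!
# Extending the constants of a function field in any characteristic

An element integral above the affine line becomes a combination of functions of the smaller field
after multiplication by the derivative of the minimal polynomial of a generator; hence the spaces
`L(D)` are obtained by extension of scalars, and the genus is unchanged.
-/

set_option autoImplicit false
set_option linter.unusedSectionVars false

noncomputable section

universe u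

open AlgebraicCurve IntermediateField Polynomial Fermat.FF Fermat.JAC
open scoped IntermediateField.algebraAdjoinAdjoin TensorProduct

namespace Fermat.AV

variable {K : Type u} [Field K] {L : Type u} [Field L] [Algebra K L]
  {k : Type u} [Field k] [Algebra K k] {M : Type u} [Field M] [Algebra k M] [Algebra L M]
  [IsConstExt K k L M] [IsAlgClosed K] [IsAlgClosed k] [IsFunctionField K L] [IsFunctionField k M]

variable (K) in
omit [IsAlgClosed K] [IsAlgClosed k] [IsFunctionField K L] [IsFunctionField k M] in
/-- An element of the span is a combination with independent coefficients. -/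
theorem exists_repr_span {z : M} (hz : z ∈ Submodule.span k (Set.range (algebraMap L M))) :
    ∃ (n : ℕ) (c : Fin n → k) (f : Fin n → L), LinearIndependent K c ∧
      z = ∑ i, algebraMap k M (c i) * algebraMap L M (f i) := by
  classical
  obtain ⟨g, hg⟩ := Finsupp.mem_span_range_iff_exists_finsupp.mp hz
  let V := Submodule.span K (Set.range fun a : g.support => g a)
  have : FiniteDimensional K V := FiniteDimensional.span_of_finite K (Set.finite_range _)
  let e := Module.finBasis K V
  let r : g.support → Fin (Module.finrank K V) → K := fun a =>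
    e.repr ⟨g a, Submodule.subset_span ⟨a, rfl⟩⟩
  refine ⟨_, fun l => (e l : k), fun l => ∑ a : g.support, r a l • (a : L),
    e.linearIndependent.map' V.subtype V.ker_subtype, ?_⟩
  rw [← hg, Finsupp.sum, ← Finset.sum_coe_sort g.support]
  simp only [map_sum, Finset.mul_sum]
  rw [Finset.sum_comm]
  refine Finset.sum_congr rfl fun a _ => ?_
  have hga : g a = ∑ l, r a l • (e l : k) := by
    have h := congrArg Subtype.val (e.sum_repr ⟨g a, Submodule.subset_span ⟨a, rfl⟩⟩)
    simp only [Submodule.coe_sum, Submodule.coe_smul_of_tower] at h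
    exact h.symm
  conv_lhs => rw [Algebra.smul_def, hga, map_sum, Finset.sum_mul]
  refine Finset.sum_congr rfl fun l _ => ?_
  simp only [Algebra.smul_def, map_mul, IsConstExt.comm (K := k)]
  ring

/-- The degree over the rational subfield is unchanged. -/
theorem finrank_adjoin_eq {x : L} (hx : Transcendental K x) :
    Module.finrank k⟮algebraMap L M x⟯ M = Module.finrank K⟮x⟯ L := by
  have h1 := degree_poleDiv (K := K) hx
  have h2 := degree_poleDiv (K := k) (ConstExt.transcendental K k M hx)
  rw [ConstExt.poleDiv_algebraMap (k := K), ConstExt.degree_extDiv, h1] at h2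
  exact_mod_cast h2.symm

variable (K k M) in
include K k in
/-- The span over `k` of the functions of the smaller field is closed under products. -/
theorem mul_mem_span_range {a b : M} (ha : a ∈ Submodule.span k (Set.range (algebraMap L M)))
    (hb : b ∈ Submodule.span k (Set.range (algebraMap L M))) :
    a * b ∈ Submodule.span k (Set.range (algebraMap L M)) := by
  refine Submodule.span_mono ?_ ((Submodule.span_mul_span k _ _).le (Submodule.mul_mem_mul ha hb))
  rintro _ ⟨_, ⟨l, rfl⟩, _, ⟨m, rfl⟩, rfl⟩
  exact ⟨l * m, map_mul _ _ _⟩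

variable (K k M) in
/-- A generator over `K(x)` still generates over `k(x)` after extending the constants. -/
theorem adjoin_pair_eq_top {x θ : L} (hθ : (K⟮x⟯)⟮θ⟯ = ⊤) :
    (k⟮algebraMap L M x⟯)⟮algebraMap L M θ⟯ = ⊤ := by
  refine restrictScalars_injective k ?_
  rw [restrictScalars_top, eq_top_iff, ← IsConstExt.adjoin_eq_top (k := K) (K := k) (F₀ := L),
    IntermediateField.adjoin_le_iff]
  rintro _ ⟨l, rfl⟩
  have hl : l ∈ (K⟮x⟯)⟮θ⟯ := hθ ▸ trivial
  change algebraMap L M l ∈ (k⟮algebraMap L M x⟯)⟮algebraMap L M θ⟯
  induction hl using IntermediateField.adjoin_induction with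
  | mem z hz => rw [hz]; exact mem_adjoin_simple_self _ _
  | algebraMap c =>
    exact IntermediateField.algebraMap_mem _
      (⟨_, ConstExt.algebraMap_mem_adjoin (K := k) (F := M) c⟩ : k⟮algebraMap L M x⟯)
  | add a b _ _ ha hb => rw [map_add]; exact add_mem ha hb
  | inv a _ ha => rw [map_inv₀]; exact inv_mem ha
  | mul a b _ _ ha hb => rw [map_mul]; exact mul_mem ha hb

omit [IsAlgClosed K] [IsFunctionField K L] [IsAlgClosed k] [IsFunctionField k M] in
/-- The derivative of the minimal polynomial carries integral elements to the polynomials in a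
generator. -/
theorem derivative_mul_mem_adjoin (y θ z : M)
    [FiniteDimensional k⟮y⟯ M] [Algebra.IsSeparable k⟮y⟯ M]
    (htop : Algebra.adjoin k⟮y⟯ {θ} = ⊤) (hθ : IsIntegral (Algebra.adjoin k {y}) θ)
    (hz : IsIntegral (Algebra.adjoin k {y}) z) :
    aeval θ (derivative (minpoly k⟮y⟯ θ)) * z ∈ Algebra.adjoin (Algebra.adjoin k {y}) {θ} := by
  have := isPrincipalIdealRing_adjoin (K := k) y
  have hdual : z ∈ (Algebra.traceForm k⟮y⟯ M).dualSubmodule
      (Subalgebra.toSubmodule (Algebra.adjoin (Algebra.adjoin k {y}) {θ})) := by
    rw [LinearMap.BilinForm.mem_dualSubmodule]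
    intro w hw
    have hw' : IsIntegral (Algebra.adjoin k {y}) w := adjoin_le_integralClosure hθ hw
    rw [Submodule.mem_one]
    exact IsIntegrallyClosed.isIntegral_iff.mp (Algebra.isIntegral_trace (hz.mul hw'))
  rw [traceForm_dualSubmodule_adjoin (Algebra.adjoin k {y}) k⟮y⟯ htop hθ] at hdual
  obtain ⟨w, hw, rfl⟩ := hdual
  change _ * (_ * w) ∈ _
  rw [mul_inv_cancel_left₀ ((Algebra.IsSeparable.isSeparable k⟮y⟯ θ).aeval_derivative_ne_zero
    (minpoly.aeval _ _))]
  exact hw

variable (K k M) in
/-- **The conductor of the constant extension**: some `δ ≠ 0` of `L` carries the integral elements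
into the span of `L`. -/
theorem exists_conductor {x : L} (hx : Transcendental K x) [Algebra.IsSeparable K⟮x⟯ L] :
    ∃ δ : L, δ ≠ 0 ∧ ∀ z : M, IsIntegral (Algebra.adjoin k {algebraMap L M x}) z →
      algebraMap L M δ * z ∈ Submodule.span k (Set.range (algebraMap L M)) := by
  classical
  have := finiteDimensional_adjoin hx
  obtain ⟨θ₀, hθ₀⟩ := Field.exists_primitive_element K⟮x⟯ L
  set A := Algebra.adjoin K {x}
  set y := algebraMap L M x
  set E := K⟮x⟯
  set E' := k⟮y⟯
  have := isPrincipalIdealRing_adjoin (K := K) x
  set A' := Algebra.adjoin k {y}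
  have : FiniteDimensional E' M := (ConstExt.finiteDimensional_and_finrank_le (k := K) x).1
  have : Algebra.IsAlgebraic A L := Algebra.IsAlgebraic.trans A E L
  -- an integral primitive element `θ` of `L` over `K(x)`
  obtain ⟨a, ha0, hθ⟩ := (Algebra.IsAlgebraic.isAlgebraic (R := A)
    θ₀).exists_integral_multiple
  set θ := a • θ₀ with hθdef
  have ha : (a : L) ≠ 0 := fun h => ha0 (Subtype.ext h)
  have hθtop : E⟮θ⟯ = ⊤ := by
    rw [eq_top_iff, ← hθ₀, IntermediateField.adjoin_le_iff]
    intro w hw
    rw [Set.mem_singleton_iff.mp hw]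
    have : θ₀ = (algebraMap A E a : E)⁻¹ • θ := by
      rw [hθdef, ← algebraMap_smul E a θ₀, smul_smul, inv_mul_cancel₀, one_smul]
      exact fun h => ha (congrArg Subtype.val h)
    rw [this]
    exact IntermediateField.smul_mem _ (mem_adjoin_simple_self _ _)
  let j : E →+* E' :=
    { toFun := fun r => ⟨algebraMap L M r, ConstExt.algebraMap_mem_adjoin r⟩
      map_one' := Subtype.ext (by simp)
      map_mul' := fun r s => Subtype.ext (by simp)
      map_zero' := Subtype.ext (by simp)
      map_add' := fun r s => Subtype.ext (by simp) }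
  have hj : (algebraMap E' M).comp j = (algebraMap L M).comp (algebraMap E L) :=
    RingHom.ext fun _ => rfl
  set θ' := algebraMap L M θ
  have hint : IsIntegral E θ := Algebra.IsIntegral.isIntegral θ
  have hint' : IsIntegral E' θ' := Algebra.IsIntegral.isIntegral θ'
  -- `θ` keeps its minimal polynomial, so `M` is separable over `k(x)`
  set q := (minpoly E θ).map j
  have hq : aeval θ' q = 0 := by
    rw [aeval_def, eval₂_map, hj, ← hom_eval₂, ← aeval_def, minpoly.aeval, map_zero]
  have hθtop' := adjoin_pair_eq_top K k M hθtop
  have hqmin : q = minpoly E' θ' := by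
    refine eq_of_monic_of_dvd_of_natDegree_le (minpoly.monic hint') ((minpoly.monic hint).map j)
      (minpoly.dvd E' θ' hq) ?_ |>.symm ▸ rfl
    rw [(minpoly.monic hint).natDegree_map, ← IntermediateField.adjoin.finrank hint,
      ← IntermediateField.adjoin.finrank hint', hθtop, hθtop', IntermediateField.finrank_top',
      IntermediateField.finrank_top']
    exact (finrank_adjoin_eq hx).ge
  have hsep : IsSeparable E' θ' := by
    change (minpoly E' θ').Separable
    rw [← hqmin]
    exact Polynomial.Separable.map (Algebra.IsSeparable.isSeparable E θ)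
  have : Algebra.IsSeparable E' M := by
    have : Algebra.IsSeparable E' E'⟮θ'⟯ :=
      (IntermediateField.isSeparable_adjoin_simple_iff_isSeparable E' M).mpr hsep
    rw [hθtop'] at this
    exact AlgEquiv.Algebra.isSeparable (IntermediateField.topEquiv (F := E') (E := M))
  -- `δ = q'(θ)` carries integral elements into `k[x, θ]`, inside the span
  set δ := aeval θ (derivative (minpoly E θ))
  have hδ : δ ≠ 0 := (Algebra.IsSeparable.isSeparable E θ).aeval_derivative_ne_zero
    (minpoly.aeval _ _)
  have hδ' : algebraMap L M δ = aeval θ' (derivative (minpoly E' θ')) := by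
    rw [← hqmin, derivative_map, aeval_def θ', eval₂_map, hj, ← hom_eval₂]
    rfl
  refine ⟨δ, hδ, fun z hz => ?_⟩
  have hAθ : IsIntegral A' θ' := by
    obtain ⟨p, hp, hp0⟩ := hθ
    let jA : A →+* A' :=
      { toFun := fun r => ⟨algebraMap L M r, by
          obtain ⟨r, hr⟩ := r
          induction hr using Algebra.adjoin_induction with
          | mem z hz =>
            obtain rfl := Set.mem_singleton_iff.mp hz
            exact Algebra.self_mem_adjoin_singleton k y
          | algebraMap c =>
            rw [IsConstExt.comm (K := k)]; exact Subalgebra.algebraMap_mem _ _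
          | add a b _ _ ha hb => rw [map_add]; exact add_mem ha hb
          | mul a b _ _ ha hb => rw [map_mul]; exact mul_mem ha hb⟩
        map_one' := Subtype.ext (by simp)
        map_mul' := fun r s => Subtype.ext (by simp)
        map_zero' := Subtype.ext (by simp)
        map_add' := fun r s => Subtype.ext (by simp) }
    refine ⟨p.map jA, hp.map jA, ?_⟩
    rw [eval₂_map, show (algebraMap A' M).comp jA = (algebraMap L M).comp (algebraMap A L) from
      RingHom.ext fun _ => rfl, ← hom_eval₂, hp0, map_zero]
  have hAtop : Algebra.adjoin E' {θ'} = ⊤ := by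
    rw [← IntermediateField.adjoin_simple_toSubalgebra_of_isAlgebraic hint'.isAlgebraic, hθtop',
      IntermediateField.top_toSubalgebra]
  rw [hδ']
  have hw := derivative_mul_mem_adjoin y θ' z hAtop hAθ hz
  generalize aeval θ' (derivative (minpoly E' θ')) * z = w at hw ⊢
  have hone : (1 : M) ∈ Submodule.span k (Set.range (algebraMap L M)) :=
    Submodule.subset_span ⟨1, map_one _⟩
  induction hw using Algebra.adjoin_induction with
  | mem u hu => rw [hu]; exact Submodule.subset_span ⟨θ, rfl⟩
  | algebraMap r =>
    obtain ⟨r, hr⟩ := r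
    change r ∈ _
    induction hr using Algebra.adjoin_induction with
    | mem u hu => rw [hu]; exact Submodule.subset_span ⟨x, rfl⟩
    | algebraMap c => rw [Algebra.algebraMap_eq_smul_one]; exact Submodule.smul_mem _ _ hone
    | add a b _ _ ha hb => exact add_mem ha hb
    | mul a b _ _ ha hb => exact mul_mem_span_range K k M ha hb
  | add a b _ _ ha hb => exact add_mem ha hb
  | mul a b _ _ ha hb => exact mul_mem_span_range K k M ha hb

/-- A function with bounds at the finite places comes from combinations with the same bounds. -/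
theorem exists_sum_of_forall_ordGE {x : L} (hx : Transcendental K x)
    [Algebra.IsSeparable K⟮x⟯ L] {z : M} (e : Place K L → ℤ)
    {h : L} (hh : h ≠ 0) (hhe : ∀ v, OrdGE v x 0 → OrdGE v h (-e v))
    (hz : ∀ v : Place K L, OrdGE v x 0 → OrdGE (ConstExt.ext k M v) z (e v))
    (hz' : ∀ w : Place k M, OrdGE w (algebraMap L M x) 0 →
      w ∉ Set.range (ConstExt.ext k M (k := K) (F₀ := L)) → OrdGE w z 0) :
    ∃ (n : ℕ) (c : Fin n → k) (f : Fin n → L), LinearIndependent K c ∧
      z = ∑ i, algebraMap k M (c i) * algebraMap L M (f i) ∧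
      ∀ v, OrdGE v x 0 → ∀ i, OrdGE v (f i) (e v) := by
  obtain ⟨δ, hδ, hspan⟩ := exists_conductor K k M hx
  have hi : IsIntegral (Algebra.adjoin k {algebraMap L M x}) (algebraMap L M h * z) := by
    rw [isIntegral_adjoin_iff]
    intro w hw
    by_cases hr : w ∈ Set.range (ConstExt.ext k M (k := K) (F₀ := L))
    · obtain ⟨v, rfl⟩ := hr
      rw [ConstExt.ordGE_ext_iff] at hw
      exact ((ConstExt.ordGE_ext_iff.mpr (hhe v hw)).mul (hz v hw)).mono (by omega)
    · have h0 : w.ord (algebraMap L M h) = 0 := by
        by_contra h0
        exact hr (ConstExt.mem_range_ext_of_ord_ne_zero h0)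
      exact ((ordGE_ord w _).mul (hz' w hw hr)).mono (by omega)
  have hs := hspan _ hi
  rw [← mul_assoc, ← map_mul] at hs
  obtain ⟨n, c, f, hc, hf⟩ := exists_repr_span K hs
  have h0 : δ * h ≠ 0 := mul_ne_zero hδ hh
  refine ⟨n, c, fun i => f i / (δ * h), hc, ?_, fun v hv i => ?_⟩
  · simp only [map_div₀, ← mul_div_assoc]
    rw [← Finset.sum_div, ← hf, mul_div_cancel_left₀ _ ((_root_.map_ne_zero _).mpr h0)]
  · have hf' : OrdGE v (f i) (v.ord (δ * h) + e v) := by
      refine ConstExt.ordGE_of_ordGE_sum (K := k) (F := M) hc ?_ i
      rw [← hf]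
      exact ((ordGE_ord _ _).mul (hz v hv)).mono (by rw [ConstExt.ord_ext])
    have := hf'.mul (ordGE_ord v (δ * h)⁻¹)
    rw [← div_eq_mul_inv, v.ord_inv] at this
    exact this.mono (by omega)

/-- A function regular at all places above an affine chart is a combination of such functions. -/
theorem mem_span_intClosure {x : L} (hx : Transcendental K x) [Algebra.IsSeparable K⟮x⟯ L] {z : M}
    (hz : ∀ w : Place k M, OrdGE w (algebraMap L M x) 0 → OrdGE w z 0) :
    z ∈ Submodule.span k (algebraMap L M '' (intClosure K x : Set L)) := by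
  obtain ⟨n, c, f, -, rfl, hf⟩ := exists_sum_of_forall_ordGE (z := z) hx (fun _ => 0) one_ne_zero
    (fun v _ => (ordGE_one v).mono (by omega))
    (fun v hv => hz _ (ConstExt.ordGE_ext_iff.mpr hv)) (fun w hw _ => hz w hw)
  refine Submodule.sum_mem _ fun i _ => ?_
  rw [← Algebra.smul_def]
  exact Submodule.smul_mem _ _ (Submodule.subset_span
    ⟨f i, mem_intClosure_iff.mpr fun v hv => hf v hv i, rfl⟩)

variable (k M) in
/-- **Riemann-Roch spaces are obtained by extension of the constants.** -/
theorem riemannRochSpace_extDiv' (D : Divisor K L) :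
    riemannRochSpace (ConstExt.extDiv k M D) =
      Submodule.span k (algebraMap L M '' (riemannRochSpace D : Set L)) := by
  classical
  refine le_antisymm (fun z hz => ?_) (Submodule.span_le.mpr (by
    rintro _ ⟨f, hf, rfl⟩; exact ConstExt.mem_extDiv_of_mem hf))
  rw [mem_riemannRochSpace] at hz
  obtain ⟨x, hx, -, hsep⟩ := IsFunctionField.exists_separating (K := K) (F := L)
  obtain ⟨T, hT⟩ : ∃ T : L, T ≠ 0 ∧ ∀ v, OrdGE v x 0 → OrdGE v T (D v) := by
    let t : Place K L → L := fun v => x - algebraMap K L (evalAt v x)
    have ht0 : ∀ v, t v ≠ 0 := fun v h => hx ((sub_eq_zero.mp h) ▸ isAlgebraic_algebraMap _)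
    have ht : ∀ v u, OrdGE u x 0 → OrdGE u (t v) 0 := fun v u hu => hu.sub (ordGE_algebraMap u _)
    refine ⟨∏ v ∈ D.support.filter (OrdGE · x 0), t v ^ (D v).toNat,
      Finset.prod_ne_zero_iff.mpr fun v _ => pow_ne_zero _ (ht0 v), fun u hu => ?_⟩
    have hall : ∀ S : Finset (Place K L), OrdGE u (∏ v ∈ S, t v ^ (D v).toNat) 0 := fun S => by
      induction S using Finset.induction with
      | empty => simpa using ordGE_one u
      | insert a s ha ih =>
        rw [Finset.prod_insert ha]
        exact (((ht a u hu).pow _).mul ih).mono (by simp)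
    by_cases hD : 0 < D u
    · have hu' : u ∈ D.support.filter (OrdGE · x 0) :=
        Finset.mem_filter.mpr ⟨Finsupp.mem_support_iff.mpr hD.ne', hu⟩
      rw [← Finset.mul_prod_erase _ _ hu']
      refine (((evalAt_spec hu).pow _).mul (hall _)).mono ?_
      omega
    · exact (hall _).mono (by omega)
  obtain ⟨n, c, f, hc, hzf, -⟩ := exists_sum_of_forall_ordGE (z := z) hx (fun v => -D v) hT.1
    (fun v hv => by simpa using hT.2 v hv)
    (fun v _ => by simpa using hz (ConstExt.ext k M v))
    (fun w _ hw => by simpa [ConstExt.extDiv_apply_of_notMem _ hw] using hz w)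
  subst hzf
  refine Submodule.sum_mem _ fun i _ => ?_
  rw [← Algebra.smul_def]
  refine Submodule.smul_mem _ _ (Submodule.subset_span ⟨f i, ?_, rfl⟩)
  rw [SetLike.mem_coe, mem_riemannRochSpace]
  exact fun v => ConstExt.ordGE_of_ordGE_sum hc (by simpa using hz (ConstExt.ext k M v)) i

variable (k M) in
/-- Extending the constants does not change the dimension of a Riemann–Roch space. -/
theorem ell_extDiv' (D : Divisor K L) : ell (ConstExt.extDiv k M D) = ell D := by
  refine le_antisymm ?_ (ConstExt.ell_le_ell_extDiv D)
  rw [ell, riemannRochSpace_extDiv']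
  exact ConstExt.finrank_span_image_riemannRochSpace_le D

variable (K L k M) in
/-- **The genus is unchanged.** Extending the constants does not change the genus of a function
field. -/
theorem genusFF_eq' : genusFF k M = genusFF K L := by
  obtain ⟨v⟩ := nonempty_place K L
  set m := 2 * (genusFF K L + genusFF k M) + 1
  let D : Divisor K L := Finsupp.single v (m : ℤ)
  have hd : Divisor.degree D = m := by rw [Divisor.degree_single, deg_eq_one]; simp
  have h1 := ell_extDiv' (M := M) (k := k) D
  have h2 := ell_of_degree_ge (D := D) (by rw [hd]; simp only [m]; omega)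
  have h3 := ell_of_degree_ge (D := ConstExt.extDiv k M D)
    (by rw [ConstExt.degree_extDiv, hd]; simp only [m]; omega)
  rw [ConstExt.degree_extDiv] at h3
  omega

section Exists

variable (K L k)

/-- The extension of the constants of `L` to `k`. -/
abbrev CExt : Type u := FractionRing (k ⊗[K] L)

/-- The tensor product of `L` with the new constants is a domain. -/
instance : IsDomain (k ⊗[K] L) := isDomain_tensor L

/-- The functions of `L` in the extension. -/
instance algebraCExt : Algebra L (CExt K L k) :=
  ((algebraMap (k ⊗[K] L) (CExt K L k)).comp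
    Algebra.TensorProduct.includeRight.toRingHom).toAlgebra

/-- The fields `K`, `L` and the extension form a tower. -/
instance : IsScalarTower K L (CExt K L k) := IsScalarTower.of_algebraMap_eq fun c => by
  change _ = algebraMap (k ⊗[K] L) (CExt K L k)
    (Algebra.TensorProduct.includeRight (algebraMap K L c))
  rw [AlgHom.commutes, ← IsScalarTower.algebraMap_apply K (k ⊗[K] L) (CExt K L k)]

/-- The field `CExt` extends the constants of `L` to `k`. -/
instance isConstExt_cext : IsConstExt K k L (CExt K L k) :=
  isConstExt_of_isFractionRing K k L (CExt K L k) fun _ => rfl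

/-- The extension of the constants is a function field over `k`. -/
instance isFunctionField_cext : IsFunctionField k (CExt K L k) :=
  ConstExt.isFunctionField (k := K) (F₀ := L)

end Exists

end Fermat.AV

end
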