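import Fermat.Agent.AV.Gauss
import Mathlib.LinearAlgebra.FiniteDimensional.Lemmas

/-!
# Reduction of subspaces of coordinate spaces along a valuation

A subspace of dimension `n` has `n` integral vectors with independent reductions; and the residue
field of a valuation ring of an algebraically closed field is algebraically closed.
-/

set_option autoImplicit false

noncomputable section

universe u

namespace Fermat.AV

variable {K : Type u} [Field K] {k : Type u} [Field k] [Algebra K k] {k₀ : Type u} [Field k₀]
  [Algebra K k₀] (S : Specialisation K k k₀) {ι : Type*} [Finite ι]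

/-- **A subspace keeps its dimension in the reduction.** -/
theorem Specialisation.exists_reductions (n : ℕ) :
    ∀ V : Submodule k (ι → k), n ≤ Module.finrank k V →
      ∃ v : Fin n → ι → S.ring.1, (∀ i, (fun j => (v i j : k)) ∈ V) ∧
        LinearIndependent k₀ fun i j => S.red (v i j) := by
  classical
  have := Fintype.ofFinite ι
  induction n with
  | zero => exact fun _ _ => ⟨Fin.elim0, fun i => i.elim0, linearIndependent_empty_type⟩
  | succ n ih =>
    intro V hV
    have hne : V ≠ ⊥ := fun h => by rw [h, finrank_bot] at hV; omega
    obtain ⟨z, hzV, hz⟩ := V.exists_mem_ne_zero_of_ne_bot hne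
    obtain ⟨j₁, hj₁⟩ := Function.ne_iff.mp hz
    -- divide a nonzero `z ∈ V` by its largest entry `z j`
    obtain ⟨j, -, hmax⟩ := Finset.exists_max_image Finset.univ (fun i => S.ring.1.valuation (z i))
      ⟨j₁, Finset.mem_univ _⟩
    have hzj : z j ≠ 0 := fun h => hj₁ (by
      have := hmax j₁ (Finset.mem_univ _)
      rw [h, map_zero, le_zero_iff, map_eq_zero] at this
      exact this)
    have hmem : ∀ i, z i / z j ∈ S.ring.1 := fun i => by
      rw [← S.ring.1.valuation_le_one_iff, map_div₀]
      exact div_le_one_of_le₀ (hmax i (Finset.mem_univ _)) zero_le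
    let p : V →ₗ[k] k := (LinearMap.proj j).comp V.subtype
    -- recurse on the vectors of `V` vanishing at `j`
    let W : Submodule k (ι → k) := V ⊓ LinearMap.ker (LinearMap.proj j)
    have hW : n ≤ Module.finrank k W := by
      have h1 := p.finrank_range_add_finrank_ker
      have h2 : Module.finrank k (LinearMap.range p) ≤ 1 :=
        (Submodule.finrank_le _).trans (Module.finrank_self k).le
      have h3 : Module.finrank k (LinearMap.ker p) = Module.finrank k W := by
        rw [show LinearMap.ker p = W.comap V.subtype from by ext ⟨x, hx⟩; simp [p, W]]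
        exact (Submodule.comapSubtypeEquivOfLe inf_le_left).finrank_eq
      omega
    obtain ⟨v, hv, hind⟩ := ih W hW
    refine ⟨Fin.cons (fun i => ⟨z i / z j, hmem i⟩) v, fun i => ?_, ?_⟩
    · refine Fin.cases ?_ (fun i => ?_) i
      · convert V.smul_mem (z j)⁻¹ hzV using 1
        funext i
        simp [div_eq_inv_mul]
      · simpa using (hv i).1
    · have e : (fun i l => S.red (Fin.cons (α := fun _ => ι → S.ring.1)
          (fun i => ⟨z i / z j, hmem i⟩) v i l)) =
          Fin.cons (fun l => S.red ⟨z l / z j, hmem l⟩) (fun i l => S.red (v i l)) := by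
        funext i
        refine Fin.cases ?_ (fun i => ?_) i <;> simp
      -- the new reduction is `1` at `j`, the others `0`
      rw [e, linearIndependent_finCons]
      refine ⟨hind, fun h => ?_⟩
      have h0 : ∀ x ∈ Submodule.span k₀ (Set.range fun i l => S.red (v i l)), x j = 0 := by
        intro x hx
        induction hx using Submodule.span_induction with
        | mem x hx =>
          obtain ⟨i, rfl⟩ := hx
          have : v i j = 0 := Subtype.ext (by simpa using (hv i).2)
          simp [this]
        | zero => rfl
        | add x y _ _ hx hy => simp [hx, hy]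
        | smul c x _ hx => simp [hx]
      have h1 := h0 _ h
      rw [show (⟨z j / z j, hmem j⟩ : S.ring.1) = 1 from Subtype.ext (div_self hzj), map_one] at h1
      exact one_ne_zero h1

include S in
/-- The residue field of a valuation ring of an algebraically closed field is algebraically
closed. -/
theorem Specialisation.isAlgClosed [IsAlgClosed k] : IsAlgClosed k₀ := by
  refine IsAlgClosed.of_exists_root _ fun p hp hirr => ?_
  obtain ⟨q, hq, hdeg, hm⟩ := Polynomial.lifts_and_natDegree_eq_and_monic
    (Polynomial.mem_lifts_of_surjective S.red_surjective p) hp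
  have hd : 0 < q.natDegree := hdeg ▸ hirr.natDegree_pos
  obtain ⟨x, hx⟩ := IsAlgClosed.exists_root (q.map S.ring.1.subtype) (fun h => by
    rw [Polynomial.degree_eq_natDegree (hm.map _).ne_zero, hm.natDegree_map] at h
    exact hd.ne' (WithBot.coe_eq_coe.mp h))
  have hint : IsIntegral S.ring.1 x := ⟨q, hm, by
    rwa [Polynomial.IsRoot, Polynomial.eval_map] at hx⟩
  obtain ⟨y, rfl⟩ := IsIntegrallyClosed.isIntegral_iff.mp hint
  refine ⟨S.red y, ?_⟩
  rw [← hq, Polynomial.eval_map, Polynomial.eval₂_at_apply]
  have h0 : q.eval y = 0 := Subtype.ext (by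
    rw [Polynomial.IsRoot, Polynomial.eval_map] at hx
    exact ((Polynomial.eval₂_at_apply S.ring.1.subtype y).symm.trans hx))
  rw [h0, map_zero]

/-- The reduction to the residue field. -/
def Val.residue (v : Val K k) : Specialisation K k (IsLocalRing.ResidueField v.1) where
  ring := v
  red := IsLocalRing.residue v.1
  red_algebraMap _ := rfl
  red_surjective := IsLocalRing.residue_surjective
  isUnit_of_red x hx := (IsLocalRing.residue_ne_zero_iff_isUnit x).mp hx

end Fermat.AV

end
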