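import Mathlib.RingTheory.Valuation.ValuationSubring
import Mathlib.RingTheory.Valuation.LocalSubring
import Mathlib.GroupTheory.QuotientGroup.Basic
import Mathlib.RingTheory.Norm.Transitivity
import Mathlib.RingTheory.IntegralClosure.IntegrallyClosed

/-!
# Divisors on all valuations of a field

A divisor assigns to every valuation ring containing the constants an element of the value group;
the classes are taken modulo the functions.  Restriction along field maps and the passage to the
residue field of a valuation ring are the only operations.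
-/

set_option autoImplicit false

noncomputable section

universe u

namespace Fermat.AV

variable (K : Type u) [Field K] (M : Type u) [Field M] [Algebra K M]

/-- The valuation rings of `M` containing `K`. -/
abbrev Val : Type u := {v : ValuationSubring M // ∀ c : K, algebraMap K M c ∈ v}

/-- A divisor: a value for every valuation. -/
abbrev VDiv : Type u := ∀ v : Val K M, Mˣ ⧸ (v.1.unitGroup)

/-- The divisor of a function. -/
def princ : Mˣ →* VDiv K M :=
  MonoidHom.pi fun v => QuotientGroup.mk' v.1.unitGroup

/-- The divisor is that of a function. -/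
def IsPrinc (E : VDiv K M) : Prop := E ∈ (princ K M).range

variable {K M}

/-- The trivial divisor is principal. -/
theorem IsPrinc.one : IsPrinc K M 1 := one_mem _
/-- Products of principal divisors are principal. -/
theorem IsPrinc.mul {E E' : VDiv K M} (h : IsPrinc K M E) (h' : IsPrinc K M E') :
    IsPrinc K M (E * E') := mul_mem h h'
/-- Inverses of principal divisors are principal. -/
theorem IsPrinc.inv {E : VDiv K M} (h : IsPrinc K M E) : IsPrinc K M E⁻¹ := inv_mem h
/-- Quotients of principal divisors are principal. -/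
theorem IsPrinc.div {E E' : VDiv K M} (h : IsPrinc K M E) (h' : IsPrinc K M E') :
    IsPrinc K M (E / E') := div_mem h h'

/-- A principal divisor has one representative at all valuations. -/
theorem isPrinc_iff {E : VDiv K M} :
    IsPrinc K M E ↔ ∃ f : Mˣ, ∀ v, E v = QuotientGroup.mk f := by
  refine ⟨?_, fun ⟨f, hf⟩ => ⟨f, funext fun v => (hf v).symm⟩⟩
  rintro ⟨f, rfl⟩
  exact ⟨f, fun v => rfl⟩

/-- A unit of a valuation ring lies in it together with its inverse. -/
theorem mem_unitGroup_iff' {v : ValuationSubring M} {x : Mˣ} :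
    x ∈ v.unitGroup ↔ (x : M) ∈ v ∧ ((x⁻¹ : Mˣ) : M) ∈ v := by
  rw [ValuationSubring.mem_unitGroup_iff, ← v.valuation_le_one_iff, ← v.valuation_le_one_iff,
    Units.val_inv_eq_inv_val, map_inv₀]
  constructor
  · intro h; rw [h, inv_one]; exact ⟨le_rfl, le_rfl⟩
  · intro ⟨h, h'⟩
    refine le_antisymm h ?_
    have h0 : (0 : v.ValueGroup) < v.valuation (x : M) :=
      zero_lt_iff.mpr ((map_ne_zero _).mpr x.ne_zero)
    exact (inv_le_one₀ h0).mp h'

section Map

variable {M' : Type u} [Field M'] [Algebra K M'] (φ : M →ₐ[K] M')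

/-- Restriction of a valuation. -/
def Val.comap (v : Val K M') : Val K M :=
  ⟨v.1.comap φ.toRingHom, fun c => by
    rw [ValuationSubring.mem_comap]
    change φ (algebraMap K M c) ∈ v.1
    rw [φ.commutes]
    exact v.2 c⟩

/-- A field map preserves the units of compatible valuation rings. -/
theorem map_mem_unitGroup {v : Val K M'} {x : Mˣ} (hx : x ∈ (v.comap φ).1.unitGroup) :
    Units.map φ.toRingHom.toMonoidHom x ∈ v.1.unitGroup := by
  rw [mem_unitGroup_iff'] at hx ⊢
  exact ⟨hx.1, hx.2⟩

/-- The image of a divisor in a larger field. -/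
def VDiv.map : VDiv K M →* VDiv K M' :=
  MonoidHom.pi fun v => (QuotientGroup.map _ v.1.unitGroup (Units.map φ.toRingHom.toMonoidHom)
    fun _ hx => map_mem_unitGroup φ hx).comp (Pi.evalMonoidHom _ (v.comap φ))

/-- The image of a divisor is computed on a representative at the restricted valuation. -/
theorem VDiv.map_apply (E : VDiv K M) (v : Val K M') {x : Mˣ}
    (h : E (v.comap φ) = QuotientGroup.mk x) :
    VDiv.map φ E v = QuotientGroup.mk (Units.map φ.toRingHom.toMonoidHom x) := by
  simp only [VDiv.map, MonoidHom.pi_apply, MonoidHom.coe_comp, Function.comp_apply,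
    Pi.evalMonoidHom_apply, h]
  rfl

/-- Images of principal divisors are principal. -/
theorem IsPrinc.map {E : VDiv K M} (h : IsPrinc K M E) : IsPrinc K M' (VDiv.map φ E) := by
  obtain ⟨f, hf⟩ := isPrinc_iff.mp h
  exact isPrinc_iff.mpr ⟨_, fun v => VDiv.map_apply φ E v (hf _)⟩

end Map

section Residue

/-- A valuation ring with a map of its residues onto a field. -/
structure Specialisation (K M M₀ : Type u) [Field K] [Field M] [Algebra K M] [Field M₀]
    [Algebra K M₀] where
  /-- The valuation ring of `M`, containing the constants `K`. -/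
  ring : Val K M
  /-- The reduction map from the valuation ring to `M₀`. -/
  red : ring.1 →+* M₀
  /-- The reduction respects constants. -/
  red_algebraMap : ∀ c : K, red ⟨algebraMap K M c, ring.2 c⟩ = algebraMap K M₀ c
  /-- The reduction is onto. -/
  red_surjective : Function.Surjective red
  /-- An element of nonzero reduction is a unit. -/
  isUnit_of_red : ∀ x, red x ≠ 0 → IsUnit x

variable {M₀ : Type u} [Field M₀] [Algebra K M₀] (S : Specialisation K M M₀)

/-- A non-unit of the valuation ring reduces to zero. -/
theorem Specialisation.red_eq_zero_of_inv_notMem {x : M} (hx : x ∈ S.ring.1)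
    (hx' : x⁻¹ ∉ S.ring.1) : S.red ⟨x, hx⟩ = 0 := by
  by_contra h
  obtain ⟨u, hu⟩ := S.isUnit_of_red _ h
  have e : ((u⁻¹ : S.ring.1ˣ) : S.ring.1).1 = x⁻¹ := by
    refine eq_inv_of_mul_eq_one_left ?_
    have := congrArg Subtype.val u.inv_mul
    rwa [hu] at this
  exact hx' (e ▸ Subtype.prop _)

/-- The composite of the valuation ring with a valuation ring of the residue field. -/
def Specialisation.compVal (w : Val K M₀) : Val K M :=
  ⟨{ w.1.toSubring.comap S.red |>.map S.ring.1.subtype with
      mem_or_inv_mem' := fun x => by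
        have key : ∀ y : M, (h : y ∈ S.ring.1) → S.red ⟨y, h⟩ ∈ w.1 →
            y ∈ (w.1.toSubring.comap S.red).map S.ring.1.subtype := fun y h hy =>
          ⟨⟨y, h⟩, hy, rfl⟩
        rcases eq_or_ne x 0 with rfl | hx0
        · exact Or.inl (Subring.zero_mem _)
        by_cases hx : x ∈ S.ring.1
        · by_cases hx' : x⁻¹ ∈ S.ring.1
          · have e : S.red ⟨x⁻¹, hx'⟩ = (S.red ⟨x, hx⟩)⁻¹ := by
              refine eq_inv_of_mul_eq_one_left ?_
              rw [← map_mul, ← map_one S.red]
              exact congrArg _ (Subtype.ext (inv_mul_cancel₀ hx0))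
            rcases w.1.mem_or_inv_mem (S.red ⟨x, hx⟩) with h | h
            · exact Or.inl (key x hx h)
            · exact Or.inr (key _ hx' (e ▸ h))
          · exact Or.inl (key x hx (S.red_eq_zero_of_inv_notMem hx hx' ▸ w.1.zero_mem))
        · have hx' := (S.ring.1.mem_or_inv_mem x).resolve_left hx
          exact Or.inr (key _ hx' (S.red_eq_zero_of_inv_notMem hx' (by rwa [inv_inv]) ▸
            w.1.zero_mem)) },
    fun c => ⟨⟨algebraMap K M c, S.ring.2 c⟩, by
      change S.red _ ∈ w.1
      rw [S.red_algebraMap]
      exact w.2 c, rfl⟩⟩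

/-- The composite ring consists of the elements whose reduction lies in the second ring. -/
theorem Specialisation.mem_compVal {w : Val K M₀} {x : M} :
    x ∈ (S.compVal w).1 ↔ ∃ h : x ∈ S.ring.1, S.red ⟨x, h⟩ ∈ w.1 := by
  constructor
  · rintro ⟨⟨y, hy⟩, hw, rfl⟩
    exact ⟨hy, hw⟩
  · rintro ⟨h, hw⟩
    exact ⟨⟨x, h⟩, hw, rfl⟩

/-- The composite ring lies in the first ring. -/
theorem Specialisation.compVal_le (w : Val K M₀) : (S.compVal w).1 ≤ S.ring.1 := fun _ hx =>
  (S.mem_compVal.mp hx).choose

/-- A unit of the composite reduces to a unit. -/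
theorem Specialisation.red_mem_unitGroup {w : Val K M₀} {x : S.ring.1ˣ}
    (hx : Units.map S.ring.1.subtype.toMonoidHom x ∈ (S.compVal w).1.unitGroup) :
    Units.map S.red.toMonoidHom x ∈ w.1.unitGroup := by
  rw [mem_unitGroup_iff'] at hx ⊢
  obtain ⟨⟨h, hw⟩, h', hw'⟩ := S.mem_compVal.mp hx.1, S.mem_compVal.mp hx.2
  exact ⟨hw, hw'⟩

end Residue

end Fermat.AV

end
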