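import Fermat.Agent.AV.PtVal
import Fermat.Agent.AV.VDiv
import Mathlib.AlgebraicGeometry.ValuativeCriterion
import Fermat.Prelude.Def_AlgebraicGeometry_RelativeGroupLaw

/-!
# The divisor of a point

Local equations of a divisor on a proper integral scheme give every point with values in a field a
divisor on the valuations of the field: at a valuation, the equation at the centre divided by the
one at the image of the point.
-/

set_option autoImplicit false
set_option linter.unusedSectionVars false

noncomputable section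

universe u

open CategoryTheory AlgebraicGeometry IsLocalRing NeronModelInfra

namespace Fermat.AV

variable {K : Type u} [Field K] {A : Scheme.{u}} (f : A ⟶ Spec (CommRingCat.of K))

/-- The structure map of a field or ring over `K`. -/
abbrev specOf (M : Type u) [CommRing M] [Algebra K M] :
    Spec (CommRingCat.of M) ⟶ Spec (CommRingCat.of K) :=
  Spec.map (CommRingCat.ofHom (algebraMap K M))

/-- Points with values in an algebra over the constants. -/
abbrev Pt (M : Type u) [CommRing M] [Algebra K M] := SchemeHomOver (specOf (K := K) M) f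

variable {f}

/-- The image of a point along a map of algebras. -/
def Pt.map {M M' : Type u} [CommRing M] [Algebra K M] [CommRing M'] [Algebra K M']
    (φ : M →ₐ[K] M') (p : Pt f M) : Pt f M' :=
  ⟨Spec.map (CommRingCat.ofHom φ.toRingHom) ≫ p.1, by
    rw [Category.assoc, p.2, ← Spec.map_comp]
    exact congrArg Spec.map (CommRingCat.hom_ext φ.comp_algebraMap)⟩

variable {M : Type u} [Field M] [Algebra K M] [IsProper f]

/-- The structure map of a valuation ring. -/
def valStr (v : Val K M) : K →+* v.1 := (algebraMap K M).codRestrict v.1.toSubring v.2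

/-- By properness a point extends to every valuation ring. -/
theorem exists_lift_val (v : Val K M) (p : Pt f M) :
    ∃ ψ : Spec (CommRingCat.of v.1) ⟶ A,
      Spec.map (CommRingCat.ofHom v.1.subtype) ≫ ψ = p.1 ∧
      ψ ≫ f = Spec.map (CommRingCat.ofHom (valStr v)) := by
  have h : ValuativeCriterion f := (IsProper.eq_valuativeCriterion.le _ _ f ‹IsProper f›).1.1.1
  have hc : p.1 ≫ f = Spec.map (CommRingCat.ofHom (algebraMap v.1 M)) ≫
      Spec.map (CommRingCat.ofHom (valStr v)) := by
    rw [p.2, ← Spec.map_comp]
    exact congrArg Spec.map rfl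
  obtain ⟨⟨l, h1, h2⟩⟩ := (h.existence ⟨v.1, M, p.1, _, ⟨hc⟩⟩).exists_lift
  exact ⟨l, h1, h2⟩

/-- The extension of a point to a valuation ring. -/
def valLift (v : Val K M) (p : Pt f M) : Spec (CommRingCat.of v.1) ⟶ A :=
  (exists_lift_val v p).choose

/-- The extension restricts to the point. -/
theorem valLift_gen (v : Val K M) (p : Pt f M) :
    Spec.map (CommRingCat.ofHom v.1.subtype) ≫ valLift v p = p.1 :=
  (exists_lift_val v p).choose_spec.1

/-- The extension is over the constants. -/
theorem valLift_over (v : Val K M) (p : Pt f M) :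
    valLift v p ≫ f = Spec.map (CommRingCat.ofHom (valStr v)) :=
  (exists_lift_val v p).choose_spec.2

/-- The extension is unique, by separatedness. -/
theorem eq_valLift {v : Val K M} {p : Pt f M} {ψ : Spec (CommRingCat.of v.1) ⟶ A}
    (h1 : Spec.map (CommRingCat.ofHom v.1.subtype) ≫ ψ = p.1)
    (h2 : ψ ≫ f = Spec.map (CommRingCat.ofHom (valStr v))) : ψ = valLift v p := by
  have h : ValuativeCriterion f := (IsProper.eq_valuativeCriterion.le _ _ f ‹IsProper f›).1.1.1
  have hc : p.1 ≫ f = Spec.map (CommRingCat.ofHom (algebraMap v.1 M)) ≫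
      Spec.map (CommRingCat.ofHom (valStr v)) := by
    rw [p.2, ← Spec.map_comp]
    exact congrArg Spec.map rfl
  have := (h.uniqueness ⟨v.1, M, p.1, _, ⟨hc⟩⟩).elim ⟨ψ, h1, h2⟩
    ⟨valLift v p, valLift_gen v p, valLift_over v p⟩
  exact congrArg CommSq.LiftStruct.l this

/-- The image in `A` of the closed point under a point with values in `M`. -/
def Pt.img (p : Pt f M) : A := p.1 (closedPoint M)

/-- The centre of a valuation. -/
def centre (v : Val K M) (p : Pt f M) : A := valLift v p (closedPoint v.1)

/-- The image of a point specialises to each of its centres. -/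
theorem img_specializes (v : Val K M) (p : Pt f M) : p.img ⤳ centre v p := by
  have h := (specializes_closedPoint
    ((Spec.map (CommRingCat.ofHom v.1.subtype)) (closedPoint M))).map (valLift v p).continuous
  have e := congrArg (fun ψ : Spec (CommRingCat.of M) ⟶ A => ψ (closedPoint M)) (valLift_gen v p)
  exact (specializes_of_eq e.symm).trans h

/-- The centre of the restriction of a valuation. -/
theorem centre_map {M' : Type u} [Field M'] [Algebra K M'] (φ : M →ₐ[K] M') (v : Val K M')
    (p : Pt f M) : centre v (p.map φ) = centre (v.comap φ) p := by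
  let ι : (v.comap φ).1 →+* v.1 :=
    ((φ.toRingHom).comp (v.comap φ).1.subtype).codRestrict v.1.toSubring fun x => x.2
  have : IsLocalHom ι := ⟨fun x hx => by
    obtain ⟨u, hu⟩ := hx
    have hu' : φ x.1 * ((u⁻¹ : v.1ˣ) : v.1).1 = 1 := by
      have := congrArg Subtype.val u.mul_inv
      rwa [hu] at this
    have hmem : φ x.1⁻¹ ∈ v.1 := by
      rw [map_inv₀, ← eq_inv_of_mul_eq_one_right hu']
      exact Subtype.prop _
    have hx0 : x.1 ≠ 0 := fun e => by rw [e, map_zero, zero_mul] at hu'; exact zero_ne_one hu'
    exact ⟨⟨x, ⟨x.1⁻¹, hmem⟩, Subtype.ext (mul_inv_cancel₀ hx0),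
      Subtype.ext (inv_mul_cancel₀ hx0)⟩, rfl⟩⟩
  have h : Spec.map (CommRingCat.ofHom ι) ≫ valLift (v.comap φ) p = valLift v (p.map φ) := by
    refine eq_valLift ?_ ?_
    · rw [← Category.assoc, ← Spec.map_comp,
        show CommRingCat.ofHom ι ≫ CommRingCat.ofHom v.1.subtype =
          CommRingCat.ofHom (v.comap φ).1.subtype ≫ CommRingCat.ofHom φ.toRingHom from rfl,
        Spec.map_comp, Category.assoc, valLift_gen]
      rfl
    · rw [Category.assoc, valLift_over, ← Spec.map_comp]
      exact congrArg Spec.map (CommRingCat.hom_ext (RingHom.ext fun c =>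
        Subtype.ext (φ.commutes c)))
  rw [centre, ← h]
  exact congrArg (valLift (v.comap φ) p) (IsLocalRing.comap_closedPoint ι)

section Divisor

variable [IsIntegral A]

/-- A divisor given by local equations. -/
structure CDiv (A : Scheme.{u}) [IsIntegral A] where
  /-- The local equation of the divisor at a point, a rational function. -/
  g : A → A.functionField
  /-- The equations are nonzero. -/
  ne_zero : ∀ x, g x ≠ 0
  /-- The equation at a point serves, up to units, at all points of a neighbourhood. -/
  spread : ∀ x, ∃ U : A.Opens, x ∈ U ∧ ∀ y ∈ U, IsUnitAt y (g x / g y)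

variable (D : CDiv A)

/-- Equations at a point and at a generalisation differ by a unit at the latter. -/
theorem CDiv.isUnitAt_specializes {x y : A} (h : y ⤳ x) : IsUnitAt y (D.g x / D.g y) := by
  obtain ⟨U, hU, hU'⟩ := D.spread x
  exact hU' y (h.mem_open U.isOpen hU)

/-- The value of a rational function at a point, as a unit (`1` if it has no unit value). -/
def ptUnit (p : Pt f M) (a : A.functionField) : Mˣ :=
  open Classical in if h : ∃ m : Mˣ, PtVal p.1 a (m : M) then h.choose else 1

/-- A unit value is the value as a unit. -/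
theorem ptUnit_eq {p : Pt f M} {a : A.functionField} {m : Mˣ} (h : PtVal p.1 a (m : M)) :
    ptUnit p a = m := by
  have he : ∃ m : Mˣ, PtVal p.1 a (m : M) := ⟨m, h⟩
  rw [ptUnit, dif_pos he]
  exact Units.ext (he.choose_spec.unique h)

/-- A unit near the image of the point has `ptUnit` as its value. -/
theorem ptVal_ptUnit {p : Pt f M} {a : A.functionField} (h : IsUnitAt p.img a) :
    PtVal p.1 a (ptUnit p a : M) := by
  obtain ⟨m, hm, -⟩ := h.exists_ptVal p.1
  rw [ptUnit_eq hm]
  exact hm

/-- The value of a product of units is the product of the values. -/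
theorem ptUnit_mul {p : Pt f M} {a b : A.functionField} (ha : IsUnitAt p.img a)
    (hb : IsUnitAt p.img b) : ptUnit p (a * b) = ptUnit p a * ptUnit p b :=
  ptUnit_eq ((ptVal_ptUnit ha).mul (ptVal_ptUnit hb))

/-- Values as units are natural in the field. -/
theorem ptUnit_map {M' : Type u} [Field M'] [Algebra K M'] (φ : M →ₐ[K] M') {p : Pt f M}
    {a : A.functionField} (h : IsUnitAt p.img a) :
    ptUnit (p.map φ) a = Units.map φ.toRingHom.toMonoidHom (ptUnit p a) :=
  ptUnit_eq ((ptVal_ptUnit h).map (CommRingCat.ofHom φ.toRingHom))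

/-- A unit at the centre has a value that is a unit of the valuation ring. -/
theorem ptUnit_mem_unitGroup {v : Val K M} {p : Pt f M} {a : A.functionField}
    (h : IsUnitAt (centre v p) a) : ptUnit p a ∈ v.1.unitGroup := by
  obtain ⟨m, hm, -⟩ := h.exists_ptVal (valLift v p)
  have h' : PtVal p.1 a (v.1.subtype (m : v.1)) :=
    (hm.map (CommRingCat.ofHom v.1.subtype)).congr (valLift_gen v p)
  rw [ptUnit_eq (m := Units.map v.1.subtype.toMonoidHom m) h', mem_unitGroup_iff']
  exact ⟨(m : v.1).2, ((m⁻¹ : v.1ˣ) : v.1).2⟩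

/-- **The divisor of a point.** At a valuation, the local equation at the centre of the point over
the one at its image. -/
def ptClass (p : Pt f M) : VDiv K M :=
  fun v => QuotientGroup.mk (ptUnit p (D.g (centre v p) / D.g p.img))

/-- The divisor of a point, with any equation valid at the centre. -/
theorem ptClass_eq {p : Pt f M} {v : Val K M} {a : A.functionField} (ha : IsUnitAt p.img a)
    (h : IsUnitAt (centre v p) (D.g (centre v p) / D.g p.img / a)) :
    ptClass D p v = QuotientGroup.mk (ptUnit p a) := by
  have h1 := h.of_specializes (img_specializes v p)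
  rw [ptClass, QuotientGroup.eq]
  have e : ptUnit p (D.g (centre v p) / D.g p.img) =
      ptUnit p (D.g (centre v p) / D.g p.img / a) * ptUnit p a := by
    rw [← ptUnit_mul h1 ha, div_mul_cancel₀ _ ha.1]
  rw [e, mul_inv, mul_assoc, inv_mul_cancel, mul_one]
  exact inv_mem (ptUnit_mem_unitGroup h)

/-- The divisor of a point commutes with field maps. -/
theorem ptClass_map {M' : Type u} [Field M'] [Algebra K M'] (φ : M →ₐ[K] M') (p : Pt f M) :
    ptClass D (p.map φ) = VDiv.map φ (ptClass D p) := by
  funext v
  have himg : (p.map φ).img = p.img := by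
    exact congrArg p.1 (Subsingleton.elim (α := Spec (CommRingCat.of M)) _ _)
  rw [VDiv.map_apply φ _ v (x := ptUnit p (D.g (centre (v.comap φ) p) / D.g p.img)) rfl, ptClass,
    centre_map, himg, ptUnit_map φ (D.isUnitAt_specializes (img_specializes _ p))]

section Specialise

variable {M₀ : Type u} [Field M₀] [Algebra K M₀] (S : Specialisation K M M₀)

/-- The specialisation of a point. -/
def Pt.specialise (p : Pt f M) : Pt f M₀ :=
  ⟨Spec.map (CommRingCat.ofHom S.red) ≫ valLift S.ring p, by
    rw [Category.assoc, valLift_over, ← Spec.map_comp]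
    exact congrArg Spec.map (CommRingCat.hom_ext (RingHom.ext fun c => S.red_algebraMap c))⟩

/-- The image of the specialised point is the centre of the specialisation. -/
theorem img_specialise (p : Pt f M) : (p.specialise S).img = centre S.ring p := by
  have : IsLocalHom S.red := ⟨fun x hx => S.isUnit_of_red x hx.ne_zero⟩
  change (Spec.map (CommRingCat.ofHom S.red) ≫ valLift S.ring p) (closedPoint M₀) = _
  exact congrArg (valLift S.ring p) (IsLocalRing.comap_closedPoint S.red)

/-- The centre of a specialised point is the centre at the composite valuation. -/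
theorem centre_specialise (w : Val K M₀) (p : Pt f M) :
    centre w (p.specialise S) = centre (S.compVal w) p := by
  let i : (S.compVal w).1 →+* S.ring.1 := (S.compVal w).1.inclusion S.ring.1 (S.compVal_le w)
  let r : (S.compVal w).1 →+* w.1 := (S.red.comp i).codRestrict w.1.toSubring fun x =>
    (S.mem_compVal.mp x.2).choose_spec
  -- the reduction `r` to the ring of `w` is local
  have : IsLocalHom r := ⟨fun x hx => by
    obtain ⟨u, hu⟩ := hx
    have hred : S.red (i x) ≠ 0 := fun e => u.ne_zero (by
      rw [hu]; exact Subtype.ext e)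
    obtain ⟨y, hy⟩ := S.isUnit_of_red _ hred
    have hinv : S.red ((y⁻¹ : S.ring.1ˣ) : S.ring.1) = ((u⁻¹ : w.1ˣ) : w.1).1 := by
      refine mul_left_cancel₀ hred ?_
      rw [← map_mul, ← hy, Units.mul_inv, map_one]
      have := congrArg Subtype.val u.mul_inv
      rw [hu] at this
      rw [hy]
      exact this.symm
    have hmem : ((y⁻¹ : S.ring.1ˣ) : S.ring.1).1 ∈ (S.compVal w).1 :=
      S.mem_compVal.mpr ⟨Subtype.prop _, by rw [hinv]; exact Subtype.prop _⟩
    have h1 : x.1 * ((y⁻¹ : S.ring.1ˣ) : S.ring.1).1 = 1 := by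
      have := congrArg Subtype.val y.mul_inv
      rwa [hy] at this
    exact ⟨⟨x, ⟨_, hmem⟩, Subtype.ext h1, Subtype.ext ((mul_comm _ _).trans h1)⟩, rfl⟩⟩
  -- both lifts are those of the composite valuation, so the centres agree
  have hi : Spec.map (CommRingCat.ofHom i) ≫ valLift (S.compVal w) p = valLift S.ring p := by
    refine eq_valLift ?_ ?_
    · rw [← Category.assoc, ← Spec.map_comp]
      exact valLift_gen (S.compVal w) p
    · rw [Category.assoc, valLift_over, ← Spec.map_comp]
      rfl
  have h : Spec.map (CommRingCat.ofHom r) ≫ valLift (S.compVal w) p =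
      valLift w (p.specialise S) := by
    refine eq_valLift ?_ ?_
    · change _ = Spec.map (CommRingCat.ofHom S.red) ≫ valLift S.ring p
      rw [← hi, ← Category.assoc, ← Category.assoc, ← Spec.map_comp, ← Spec.map_comp]
      rfl
    · rw [Category.assoc, valLift_over, ← Spec.map_comp]
      exact congrArg Spec.map (CommRingCat.hom_ext (RingHom.ext fun c =>
        Subtype.ext (S.red_algebraMap c)))
  rw [centre, ← h]
  exact congrArg (valLift (S.compVal w) p) (IsLocalRing.comap_closedPoint r)

/-- The divisor `E₀` is the specialisation of the divisor `E`. -/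
def SpecialisesTo (E : VDiv K M) (E₀ : VDiv K M₀) : Prop :=
  ∃ h : Mˣ, E S.ring = QuotientGroup.mk h ∧ ∀ w : Val K M₀, ∃ x : S.ring.1ˣ,
    E (S.compVal w) = QuotientGroup.mk (Units.map S.ring.1.subtype.toMonoidHom x * h) ∧
    E₀ w = QuotientGroup.mk (Units.map S.red.toMonoidHom x)

variable {S}

/-- Products specialise to products. -/
theorem SpecialisesTo.mul {E E' : VDiv K M} {E₀ E₀' : VDiv K M₀} (h : SpecialisesTo S E E₀)
    (h' : SpecialisesTo S E' E₀') : SpecialisesTo S (E * E') (E₀ * E₀') := by
  obtain ⟨a, ha, hx⟩ := h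
  obtain ⟨b, hb, hy⟩ := h'
  refine ⟨a * b, by rw [Pi.mul_apply, ha, hb]; rfl, fun w => ?_⟩
  obtain ⟨x, hx1, hx2⟩ := hx w
  obtain ⟨y, hy1, hy2⟩ := hy w
  refine ⟨x * y, ?_, ?_⟩
  · rw [Pi.mul_apply, hx1, hy1, ← QuotientGroup.mk_mul, map_mul, mul_mul_mul_comm]
  · rw [Pi.mul_apply, hx2, hy2, ← QuotientGroup.mk_mul, map_mul]

/-- Inverses specialise to inverses. -/
theorem SpecialisesTo.inv {E : VDiv K M} {E₀ : VDiv K M₀} (h : SpecialisesTo S E E₀) :
    SpecialisesTo S E⁻¹ E₀⁻¹ := by
  obtain ⟨a, ha, hx⟩ := h
  refine ⟨a⁻¹, by rw [Pi.inv_apply, ha]; rfl, fun w => ?_⟩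
  obtain ⟨x, hx1, hx2⟩ := hx w
  refine ⟨x⁻¹, ?_, ?_⟩
  · rw [Pi.inv_apply, hx1, map_inv, ← QuotientGroup.mk_inv, mul_inv]
  · rw [Pi.inv_apply, hx2, map_inv]; rfl

/-- Quotients specialise to quotients. -/
theorem SpecialisesTo.div {E E' : VDiv K M} {E₀ E₀' : VDiv K M₀} (h : SpecialisesTo S E E₀)
    (h' : SpecialisesTo S E' E₀') : SpecialisesTo S (E / E') (E₀ / E₀') := by
  convert h.mul h'.inv using 1
  · exact funext fun v => div_eq_mul_inv (E v) (E' v)
  · exact funext fun v => div_eq_mul_inv (E₀ v) (E₀' v)

/-- A principal divisor specialises to a principal one. -/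
theorem SpecialisesTo.isPrinc {E : VDiv K M} {E₀ : VDiv K M₀} (h : SpecialisesTo S E E₀)
    (hE : IsPrinc K M E) : IsPrinc K M₀ E₀ := by
  obtain ⟨F, hF⟩ := isPrinc_iff.mp hE
  obtain ⟨a, ha, hx⟩ := h
  have hu : F / a ∈ S.ring.1.unitGroup := by
    have := (hF S.ring).symm.trans ha
    rw [QuotientGroup.eq] at this
    simpa [div_eq_mul_inv, mul_comm] using inv_mem this
  let e : S.ring.1ˣ := S.ring.1.unitGroupMulEquiv ⟨_, hu⟩
  have he : Units.map S.ring.1.subtype.toMonoidHom e = F / a := Units.ext rfl
  refine isPrinc_iff.mpr ⟨Units.map S.red.toMonoidHom e, fun w => ?_⟩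
  obtain ⟨x, hx1, hx2⟩ := hx w
  rw [hx2, QuotientGroup.eq, ← map_inv, ← map_mul]
  refine S.red_mem_unitGroup ?_
  rw [map_mul, map_inv, he]
  have := hx1.symm.trans (hF _)
  rw [QuotientGroup.eq] at this
  convert this using 1
  rw [mul_inv_rev, div_eq_mul_inv, mul_comm F a⁻¹, mul_left_comm, ← mul_assoc]

/-- The divisor of a point specialises to the divisor of its specialisation. -/
theorem ptClass_specialisesTo (p : Pt f M) :
    SpecialisesTo S (ptClass D p) (ptClass D (p.specialise S)) := by
  refine ⟨ptUnit p (D.g (centre S.ring p) / D.g p.img), rfl, fun w => ?_⟩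
  set c := centre (S.compVal w) p
  set c₀ := centre S.ring p
  have hc : c₀ ⤳ c := by
    have := img_specializes w (p.specialise S)
    rwa [img_specialise, centre_specialise] at this
  have hu := D.isUnitAt_specializes hc
  obtain ⟨m, hm, -⟩ := hu.exists_ptVal (valLift S.ring p)
  have hm' : ptUnit p (D.g c / D.g c₀) = Units.map S.ring.1.subtype.toMonoidHom m :=
    ptUnit_eq ((hm.map (CommRingCat.ofHom S.ring.1.subtype)).congr (valLift_gen S.ring p))
  refine ⟨m, ?_, ?_⟩
  · change QuotientGroup.mk _ = _
    rw [← hm', ← ptUnit_mul (hu.of_specializes (img_specializes S.ring p))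
      (D.isUnitAt_specializes (img_specializes S.ring p)), div_mul_div_cancel₀ (D.ne_zero _)]
  · change QuotientGroup.mk _ = _
    rw [img_specialise, centre_specialise]
    exact congrArg _ (ptUnit_eq (hm.map (CommRingCat.ofHom S.red)))

end Specialise

end Divisor

end Fermat.AV

end
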