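import Fermat.Agent.AV.CurveExt
import Fermat.Agent.AV.LinRed
import Fermat.Agent.AV.PointClass

/-!
# Divisors on the valuations of a curve with extended constants

A divisor with local equations on the models over valuation rings of the constants is effective at
a valuation as soon as it is at the places and at the Gauss valuation below it.  Hence the spaces
of sections can only grow under specialisation, and a divisor trivial at all places is principal
if it is after specialisation at a rational place.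
-/

set_option autoImplicit false
set_option linter.unusedSectionVars false

noncomputable section

universe u

open AlgebraicCurve IntermediateField Fermat.FF Fermat.JAC
open scoped TensorProduct

namespace Fermat.AV

variable {K : Type u} [Field K] {k : Type u} [Field k] [Algebra K k]
  {M : Type u} [Field M] [Algebra K M] [Algebra k M] [IsScalarTower K k M]

/-- The divisor is effective at the valuation after multiplication by the function. -/
def EffAt (E : VDiv K M) (u : Val K M) (F : M) : Prop :=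
  ∀ e : Mˣ, E u = QuotientGroup.mk e → F * e ∈ u.1

/-- Effectiveness can be tested on any representative. -/
theorem effAt_iff {E : VDiv K M} {u : Val K M} {F : M} {e : Mˣ} (he : E u = QuotientGroup.mk e) :
    EffAt E u F ↔ F * e ∈ u.1 := by
  refine ⟨fun h => h e he, fun h e' he' => ?_⟩
  have hu : e⁻¹ * e' ∈ u.1.unitGroup := QuotientGroup.eq.mp (he.symm.trans he')
  have e'' : F * (e' : M) = F * e * ((e⁻¹ * e' : Mˣ) : M) := by
    rw [Units.val_mul, mul_assoc, Units.mul_inv_cancel_left]
  rw [e'']
  exact u.1.mul_mem _ _ h (mem_unitGroup_iff'.mp hu).1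

/-- Every value of a divisor has a representative. -/
theorem exists_mk_eq (E : VDiv K M) (u : Val K M) : ∃ e : Mˣ, E u = QuotientGroup.mk e :=
  ⟨_, (QuotientGroup.out_eq' (E u)).symm⟩

variable (k) in
/-- The valuations over the extended constants. -/
def IsOver (u : Val K M) : Prop := ∀ a : k, algebraMap k M a ∈ u.1

variable (k) in
/-- **The sections of a divisor.** The functions making the divisor effective at every valuation
over the constants. -/
def Lsp (E : VDiv K M) : Submodule k M where
  carrier := {F | ∀ u, IsOver k u → EffAt E u F}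
  zero_mem' u _ e _ := by rw [zero_mul]; exact u.1.zero_mem
  add_mem' ha hb u hu e he := by rw [add_mul]; exact u.1.add_mem _ _ (ha u hu e he) (hb u hu e he)
  smul_mem' a F hF u hu e he := by
    rw [Algebra.smul_def, mul_assoc]
    exact u.1.mul_mem _ _ (hu a) (hF u hu e he)

/-- The valuation of a place. -/
def placeVal (w : Place k M) : Val K M :=
  ⟨w.toValuationSubring, fun c => by
    rw [IsScalarTower.algebraMap_apply K k M]; exact w.algebraMap_mem' _⟩

/-- The valuation of a place contains the constants. -/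
theorem isOver_placeVal (w : Place k M) : IsOver k (placeVal (K := K) w) := w.algebraMap_mem'

variable (K k M) in
/-- The trivial valuation of the constants. -/
def topVal : Val K k := ⟨⊤, fun _ => ValuationSubring.mem_top _⟩

section Curve

variable {L : Type u} [Field L] [Algebra K L] [Algebra L M] [IsScalarTower K L M]

/-- The ring of an affine chart of the model over a valuation ring of the constants. -/
def chartRing (M : Type u) [Field M] [Algebra k M] [Algebra L M] (O : Val K k) (x : L) :
    Subring M :=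
  Subring.closure (algebraMap k M '' (O.1 : Set k) ∪ algebraMap L M '' (intClosure K x : Set L))

/-- Integral constants lie in the chart. -/
theorem algebraMap_const_mem_chartRing {O : Val K k} {x : L} {a : k} (ha : a ∈ O.1) :
    algebraMap k M a ∈ chartRing M O x :=
  Subring.subset_closure (.inl ⟨a, ha, rfl⟩)

/-- Functions integral over `K[x]` lie in the chart. -/
theorem algebraMap_mem_chartRing {O : Val K k} {x f : L} (hf : f ∈ intClosure K x) :
    algebraMap L M f ∈ chartRing M O x :=
  Subring.subset_closure (.inr ⟨f, hf, rfl⟩)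

/-- The chart is generated by the integral constants and the functions integral over `K[x]`. -/
theorem chartRing_le {O : Val K k} {x : L} {R : Subring M}
    (h1 : ∀ a ∈ O.1, algebraMap k M a ∈ R) (h2 : ∀ f ∈ intClosure K x, algebraMap L M f ∈ R) :
    chartRing M O x ≤ R :=
  Subring.closure_le.mpr (by
    rintro _ (⟨a, ha, rfl⟩ | ⟨f, hf, rfl⟩)
    exacts [h1 a ha, h2 f hf])

variable (L k) in
/-- **Local equations on all models.** On each chart over a valuation ring of the constants the
divisor has, away from some nonzero function, a single equation. -/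
def LocallyEq (E : VDiv K M) : Prop :=
  ∀ (O : Val K k) (x : L), Transcendental K x → Algebra.IsSeparable K⟮x⟯ L →
    ∀ u : Val K M, chartRing M O x ≤ u.1.toSubring →
      ∃ s ∈ chartRing M O x, s ≠ 0 ∧ s⁻¹ ∈ u.1 ∧ ∃ e : Mˣ, ∀ u' : Val K M,
        chartRing M O x ≤ u'.1.toSubring → s⁻¹ ∈ u'.1 → E u' = QuotientGroup.mk e

/-- A principal divisor has local equations. -/
theorem locallyEq_princ (f : Mˣ) : LocallyEq k L (princ K M f) := fun _ _ _ _ u _ =>
  ⟨1, Subring.one_mem _, one_ne_zero, by rw [inv_one]; exact u.1.one_mem, f, fun _ _ _ => rfl⟩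

/-- The trivial divisor has local equations. -/
theorem LocallyEq.one : LocallyEq k L (1 : VDiv K M) := by
  rw [← map_one (princ K M)]; exact locallyEq_princ 1

/-- Inverses keep local equations. -/
theorem LocallyEq.inv {E : VDiv K M} (h : LocallyEq k L E) : LocallyEq k L E⁻¹ :=
  fun O x hx hs u hu => by
    obtain ⟨s, hs1, hs0, hsu, e, he⟩ := h O x hx hs u hu
    exact ⟨s, hs1, hs0, hsu, e⁻¹, fun u' h1 h2 => by rw [Pi.inv_apply, he u' h1 h2]; rfl⟩

/-- Products keep local equations. -/
theorem LocallyEq.mul {E E' : VDiv K M} (h : LocallyEq k L E) (h' : LocallyEq k L E') :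
    LocallyEq k L (E * E') := fun O x hx hs u hu => by
  obtain ⟨s, hs1, hs0, hsu, e, he⟩ := h O x hx hs u hu
  obtain ⟨t, ht1, ht0, htu, f, hf⟩ := h' O x hx hs u hu
  refine ⟨s * t, Subring.mul_mem _ hs1 ht1, mul_ne_zero hs0 ht0,
    by rw [mul_inv]; exact u.1.mul_mem _ _ hsu htu, e * f, fun u' h1 h2 => ?_⟩
  have k1 : s⁻¹ ∈ u'.1 := by
    rw [show s⁻¹ = t * (s * t)⁻¹ by field_simp]
    exact u'.1.mul_mem _ _ (h1 ht1) h2
  have k2 : t⁻¹ ∈ u'.1 := by
    rw [show t⁻¹ = s * (s * t)⁻¹ by field_simp]
    exact u'.1.mul_mem _ _ (h1 hs1) h2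
  rw [Pi.mul_apply, he u' h1 k1, hf u' h1 k2]
  rfl

/-- Quotients keep local equations. -/
theorem LocallyEq.div {E E' : VDiv K M} (h : LocallyEq k L E) (h' : LocallyEq k L E') :
    LocallyEq k L (E / E') := by
  convert h.mul h'.inv using 1
  exact funext fun v => div_eq_mul_inv (E v) (E' v)

variable [IsAlgClosed K] [IsFunctionField K L]

/-- Some chart lies in each valuation ring. -/
theorem exists_chart (O : Val K k) (u : Val K M) (h : ∀ a ∈ O.1, algebraMap k M a ∈ u.1) :
    ∃ x : L, Transcendental K x ∧ Algebra.IsSeparable K⟮x⟯ L ∧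
      chartRing M O x ≤ u.1.toSubring := by
  obtain ⟨x₀, hx₀, -, hs₀⟩ := IsFunctionField.exists_separating (K := K) (F := L)
  have key : ∀ x : L, algebraMap L M x ∈ u.1 → chartRing M O x ≤ u.1.toSubring := fun x hx => by
    refine chartRing_le h fun f hf => ?_
    have hle : ∀ a : Algebra.adjoin K {x}, algebraMap L M a ∈ u.1 := fun a => by
      obtain ⟨a, ha⟩ := a
      change algebraMap L M a ∈ u.1
      induction ha using Algebra.adjoin_induction with
      | mem z hz => rw [Set.mem_singleton_iff.mp hz]; exact hx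
      | algebraMap c => rw [← IsScalarTower.algebraMap_apply]; exact u.2 c
      | add a b _ _ ha hb => rw [map_add]; exact u.1.add_mem _ _ ha hb
      | mul a b _ _ ha hb => rw [map_mul]; exact u.1.mul_mem _ _ ha hb
    obtain ⟨p, hp, hp0⟩ := mem_intClosure.mp hf
    let φ : Algebra.adjoin K {x} →+* u.1 :=
      ((algebraMap L M).comp (algebraMap (Algebra.adjoin K {x}) L)).codRestrict u.1.toSubring hle
    have hint : IsIntegral u.1 (algebraMap L M f) := ⟨p.map φ, hp.map φ, by
      rw [Polynomial.eval₂_map, show (algebraMap u.1 M).comp φ =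
        (algebraMap L M).comp (algebraMap (Algebra.adjoin K {x}) L) from RingHom.ext fun _ => rfl,
        ← Polynomial.hom_eval₂, hp0, map_zero]⟩
    obtain ⟨y, hy⟩ := IsIntegrallyClosed.isIntegral_iff.mp hint
    rw [← hy]
    exact y.2
  rcases u.1.mem_or_inv_mem (algebraMap L M x₀) with h1 | h1
  · exact ⟨x₀, hx₀, hs₀, key x₀ h1⟩
  · rw [← map_inv₀] at h1
    refine ⟨x₀⁻¹, fun halg => hx₀ (by simpa using halg.inv), ?_, key _ h1⟩
    rw [adjoin_inv_eq]
    exact hs₀

variable [IsAlgClosed k] [IsFunctionField k M] [IsConstExt K k L M]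

/-- A place with the coordinate regular contains the chart. -/
theorem chartRing_le_place {O : Val K k} {x : L} {w : Place k M}
    (hw : OrdGE w (algebraMap L M x) 0) : chartRing M O x ≤ (placeVal (K := K) w).1.toSubring := by
  refine chartRing_le (fun a _ => w.algebraMap_mem' a) fun f hf => ?_
  change algebraMap L M f ∈ w.toValuationSubring
  rw [mem_iff_ordGE]
  by_cases hr : w ∈ Set.range (ConstExt.ext k M (k := K) (F₀ := L))
  · obtain ⟨v, rfl⟩ := hr
    rw [ConstExt.ordGE_ext_iff] at hw ⊢
    exact mem_intClosure_iff.mp hf v hw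
  · exact (ordGE_ord w _).mono (le_of_eq (by
      by_contra h0
      exact hr (ConstExt.mem_range_ext_of_ord_ne_zero (Ne.symm h0))))

variable (L) in
include K in
/-- A finite-dimensional space of functions, multiplied by a given one, has a common denominator
in the span of the functions of the smaller field. -/
theorem exists_common_denom (V : Submodule k M) [FiniteDimensional k V] (h : M) :
    ∃ Y : M, Y ≠ 0 ∧ ∀ F ∈ V, F * h * Y ∈ Submodule.span k (Set.range (algebraMap L M)) := by
  classical
  have hd : ∀ z : M, ∃ q : M, q ≠ 0 ∧ q ∈ Submodule.span k (Set.range (algebraMap L M)) ∧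
      z * q ∈ Submodule.span k (Set.range (algebraMap L M)) := fun z => by
    rcases eq_or_ne z 0 with rfl | hz
    · exact ⟨1, one_ne_zero, Submodule.subset_span ⟨1, map_one _⟩, by simp⟩
    obtain ⟨x, hx, y, hy, e⟩ := exists_eq_div_span K (L := L) (k := k) z
    have hy0 : y ≠ 0 := fun h0 => hz (by rw [e, h0, div_zero])
    exact ⟨y, hy0, hy, by rwa [e, div_mul_cancel₀ _ hy0]⟩
  choose q hq0 hq hzq using hd
  obtain ⟨s, hs⟩ : V.FG := Module.Finite.iff_fg.mp inferInstance
  have hprod : ∀ t : Finset M,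
      (∏ z ∈ t, q (z * h)) ∈ Submodule.span k (Set.range (algebraMap L M)) := fun t => by
    induction t using Finset.induction with
    | empty =>
      simpa using Submodule.subset_span (R := k) (M := M) (s := Set.range (algebraMap L M))
        ⟨1, map_one (algebraMap L M)⟩
    | insert a t ha ih => rw [Finset.prod_insert ha]; exact mul_mem_span_range K k M (hq _) ih
  refine ⟨∏ z ∈ s, q (z * h), Finset.prod_ne_zero_iff.mpr fun z _ => hq0 _, fun F hF => ?_⟩
  rw [← hs] at hF
  induction hF using Submodule.span_induction with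
  | mem z hz =>
    rw [← Finset.mul_prod_erase _ _ hz, ← mul_assoc]
    exact mul_mem_span_range K k M (hzq _) (hprod _)
  | zero => rw [zero_mul, zero_mul]; exact zero_mem _
  | add x y _ _ hx hy => rw [add_mul, add_mul]; exact add_mem hx hy
  | smul c x _ hx => rw [smul_mul_assoc, smul_mul_assoc]; exact Submodule.smul_mem _ _ hx

variable (L) in
/-- A finite-dimensional part of the span of the functions of the smaller field is spanned within
a finite-dimensional space of them. -/
theorem exists_finite_le_span (V : Submodule k M) [FiniteDimensional k V]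
    (hV : V ≤ Submodule.span k (Set.range (algebraMap L M))) :
    ∃ W : Submodule K L, FiniteDimensional K W ∧
      V ≤ Submodule.span k (algebraMap L M '' (W : Set L)) := by
  obtain ⟨s, hs⟩ : V.FG := Module.Finite.iff_fg.mp inferInstance
  choose T hT hTmem using fun z : s =>
    Submodule.mem_span_finite_of_mem_span (hV (hs ▸ Submodule.subset_span z.2))
  choose g hg using fun (z : s) (t : T z) => hT z t.2
  refine ⟨Submodule.span K (Set.range fun t : Σ z, T z => g t.1 t.2),
    FiniteDimensional.span_of_finite K (Set.finite_range _), ?_⟩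
  rw [← hs, Submodule.span_le]
  refine fun z hz => Submodule.span_mono (fun t ht => ?_) (hTmem ⟨z, hz⟩)
  exact ⟨g ⟨z, hz⟩ ⟨t, ht⟩, Submodule.subset_span ⟨⟨⟨z, hz⟩, ⟨t, ht⟩⟩, rfl⟩, hg _ _⟩

section Key

variable {k₀ : Type u} [Field k₀] [Algebra K k₀] {M₀ : Type u} [Field M₀] [Algebra K M₀]
  [Algebra k₀ M₀] [Algebra L M₀] [IsScalarTower K k₀ M₀] [IsScalarTower K L M₀]
  [IsConstExt K k₀ L M₀] (S : Specialisation K k k₀)

/-- Every chart over the ring of the specialisation lies in the Gauss ring. -/
theorem Specialisation.chartRing_le_gauss (x : L) :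
    chartRing M S.ring x ≤ (S.gauss L M M₀).ring.1.toSubring := by
  refine chartRing_le (fun a ha => S.algebraMap_mem_gaussVal.mpr ha) fun f _ => ?_
  have := S.intMap_mem_gaussVal (L := L) (M := M) (M₀ := M₀) (1 ⊗ₜ f)
  rwa [S.intMap_tmul, OneMemClass.coe_one, map_one, one_mul] at this

/-- The Gauss reduction extends the reduction of the constants. -/
theorem Specialisation.gauss_red_algebraMap {a : k} (ha : a ∈ S.ring.1) :
    (S.gauss L M M₀).red ⟨algebraMap k M a, S.algebraMap_mem_gaussVal.mpr ha⟩ =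
      algebraMap k₀ M₀ (S.red ⟨a, ha⟩) := by
  have e := S.gauss_red_intMap (L := L) (M := M) (M₀ := M₀) (⟨a, ha⟩ ⊗ₜ 1)
  rw [S.intRed_tmul, map_one, mul_one] at e
  rw [← e]
  exact congrArg _ (Subtype.ext ((S.intMap_tmul _ _).trans (by rw [map_one, mul_one])).symm)

/-- An element of the chart ring is a combination over `k` of functions integral over `K[x]`. -/
theorem span_intClosure_of_mem_chartRing {O : Val K k} {x : L} {z : M}
    (hz : z ∈ chartRing M O x) :
    z ∈ Submodule.span k (algebraMap L M '' (intClosure K x : Set L)) := by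
  have hone : (1 : M) ∈ Submodule.span k (algebraMap L M '' (intClosure K x : Set L)) :=
    Submodule.subset_span ⟨1, (intClosure K x).one_mem, map_one _⟩
  induction hz using Subring.closure_induction with
  | mem y hy =>
    rcases hy with ⟨a, -, rfl⟩ | hy
    · rw [Algebra.algebraMap_eq_smul_one]; exact Submodule.smul_mem _ _ hone
    · exact Submodule.subset_span hy
  | zero => exact zero_mem _
  | one => exact hone
  | add a b _ _ ha hb => exact add_mem ha hb
  | neg a _ ha => exact neg_mem ha
  | mul a b ha0 hb0 ha hb =>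
    refine Submodule.span_mono ?_ ((Submodule.span_mul_span k _ _).le (Submodule.mul_mem_mul ha hb))
    rintro _ ⟨_, ⟨l, hl, rfl⟩, _, ⟨m, hm, rfl⟩, rfl⟩
    exact ⟨l * m, (intClosure K x).mul_mem hl hm, map_mul _ _ _⟩

/-- A nonzero element of the span is a constant times an element of the chart that is a unit at the
Gauss valuation. -/
theorem Specialisation.exists_chart_primitive {x : L} {z : M} (h0 : z ≠ 0)
    (hz : z ∈ Submodule.span k (algebraMap L M '' (intClosure K x : Set L))) :
    ∃ a : k, ∃ w ∈ chartRing M S.ring x, z = algebraMap k M a * w ∧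
      w⁻¹ ∈ (S.gauss L M M₀).ring.1 := by
  obtain ⟨a, w, -, hw, rfl, hmem⟩ :=
    S.exists_primitive (M₀ := M₀) (intClosure K x).toSubmodule hz h0
  refine ⟨a, _, hmem, rfl, ⟨1, w, hw, ?_⟩⟩
  rw [map_one, inv_mul_cancel₀ (S.intMap_ne_zero hw)]

/-- A section effective at the Gauss valuation becomes integral on the chart. -/
theorem exists_pow_mul_mem_chartRing {E : VDiv K M} {F : M} (hF : F ∈ Lsp k E)
    (hS : EffAt E (S.gauss L M M₀).ring F) {x : L} (hx : Transcendental K x)
    (hsep : Algebra.IsSeparable K⟮x⟯ L) {s : M} (hs : s ∈ chartRing M S.ring x) (hs0 : s ≠ 0)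
    (hsS : s⁻¹ ∈ (S.gauss L M M₀).ring.1) {e : Mˣ}
    (he : ∀ u : Val K M, chartRing M S.ring x ≤ u.1.toSubring → s⁻¹ ∈ u.1 →
      E u = QuotientGroup.mk e) :
    ∃ N : ℕ, s ^ N * (F * e) ∈ chartRing M S.ring x := by
  classical
  set y := F * e with hy
  set 𝔤 := (S.gauss L M M₀).ring
  have hyS : y ∈ 𝔤.1 := hS e (he _ (S.chartRing_le_gauss x) hsS)
  set N : ℕ := ∑ w ∈ (finite_setOf_ord_ne_zero (K := k) y).toFinset, (w.ord y).natAbs
  refine ⟨N, ?_⟩
  -- `s ^ N` cancels the poles of `y` where `s` vanishes; elsewhere `E` is effective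
  have hall : ∀ w : Place k M, OrdGE w (algebraMap L M x) 0 → OrdGE w (s ^ N * y) 0 := by
    intro w hw
    have hchart := chartRing_le_place (O := S.ring) hw
    have hs1 : OrdGE w s 0 := (mem_iff_ordGE w).mp (hchart hs)
    by_cases hws : s⁻¹ ∈ (placeVal (K := K) w).1
    · have := hF _ (isOver_placeVal w) e (he _ hchart hws)
      exact ((hs1.pow N).mul ((mem_iff_ordGE w).mp this)).mono (by omega)
    · have h1 := (not_mem_iff w).mp hws
      rw [w.ord_inv] at h1
      have h2 : OrdGE w (s ^ N) N :=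
        (((ordGE_ord w s).mono (show (1 : ℤ) ≤ w.ord s by omega)).pow N).mono (by omega)
      have hN : (w.ord y).natAbs ≤ N := by
        by_cases h : w.ord y = 0
        · simp [h]
        · exact Finset.single_le_sum (f := fun w : Place k M => (w.ord y).natAbs)
            (fun _ _ => Nat.zero_le _) (by simpa using h)
      exact (h2.mul (ordGE_ord w y)).mono (by omega)
  have := hsep
  have hspan := mem_span_intClosure hx hall
  rcases eq_or_ne y 0 with h0 | h0
  · rw [h0, mul_zero]; exact Subring.zero_mem _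
  -- write the product as a constant times a primitive chart element
  obtain ⟨a, w, hw, haw, hwi⟩ :=
    S.exists_chart_primitive (M₀ := M₀) (mul_ne_zero (pow_ne_zero N hs0) h0) hspan
  have hw0 : w ≠ 0 := fun h => mul_ne_zero (pow_ne_zero N hs0) h0 (by rw [haw, h, mul_zero])
  rw [haw]
  -- the constant is integral, as the product and `w⁻¹` are in the Gauss ring
  refine Subring.mul_mem _ (algebraMap_const_mem_chartRing ?_) hw
  refine S.algebraMap_mem_gaussVal (L := L) (M := M) (M₀ := M₀) |>.mp ?_
  rw [show algebraMap k M a = s ^ N * y * w⁻¹ by rw [haw, mul_assoc, mul_inv_cancel₀ hw0, mul_one]]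
  exact 𝔤.1.mul_mem _ _ (𝔤.1.mul_mem _ _ (pow_mem (S.chartRing_le_gauss x hs) N) hyS) hwi

/-- **Effectiveness at the places and at the Gauss valuation gives it everywhere above.** -/
theorem effAt_of_effAt {E : VDiv K M} (hE : LocallyEq k L E) {F : M} (hF : F ∈ Lsp k E)
    (hS : EffAt E (S.gauss L M M₀).ring F) {u : Val K M}
    (hu : ∀ a, algebraMap k M a ∈ u.1 ↔ a ∈ S.ring.1) : EffAt E u F := by
  classical
  obtain ⟨x, hx, hsep, hle⟩ := exists_chart (L := L) S.ring u fun a ha => (hu a).mpr ha
  obtain ⟨s, hs, hs0, hsu, e, he⟩ := hE S.ring x hx hsep u hle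
  rw [effAt_iff (he u hle hsu)]
  have hsS : s⁻¹ ∈ (S.gauss L M M₀).ring.1 := by
    obtain ⟨a, w, hw, rfl, hwi⟩ :=
      S.exists_chart_primitive (M₀ := M₀) hs0 (span_intClosure_of_mem_chartRing hs)
    rw [mul_inv]
    refine Subring.mul_mem _ ?_ hwi
    rw [← map_inv₀]
    refine S.algebraMap_mem_gaussVal.mpr ((hu a⁻¹).mp ?_)
    have : algebraMap k M a⁻¹ = (algebraMap k M a * w)⁻¹ * w := by
      rw [map_inv₀, mul_inv, mul_assoc, inv_mul_cancel₀ fun h => hs0 (by rw [h, mul_zero]), mul_one]
    rw [this]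
    exact u.1.mul_mem _ _ hsu (hle hw)
  obtain ⟨N, hN⟩ := exists_pow_mul_mem_chartRing S hF hS hx hsep hs hs0 hsS he
  rw [show F * (e : M) = (s⁻¹) ^ N * (s ^ N * (F * e)) by
    rw [inv_pow, inv_mul_cancel_left₀ (pow_ne_zero N hs0)]]
  exact u.1.mul_mem _ _ (pow_mem hsu N) (hle hN)

/-- A divisor trivial at the places is constant on the valuations above a given one. -/
theorem eq_mk_of_trivial {G : VDiv K M} (hG : LocallyEq k L G)
    (htriv : ∀ u : Val K M, IsOver k u → G u = 1) {a : kˣ}
    (ha : G (S.gauss L M M₀).ring = QuotientGroup.mk (Units.map (algebraMap k M).toMonoidHom a))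
    {u : Val K M} (hu : ∀ a, algebraMap k M a ∈ u.1 ↔ a ∈ S.ring.1) :
    G u = QuotientGroup.mk (Units.map (algebraMap k M).toMonoidHom a) := by
  set a' := Units.map (algebraMap k M).toMonoidHom a
  set G' := G / princ K M a' with hG'
  have hp : ∀ u : Val K M, IsOver k u → G' u = 1 := fun u hu => by
    change G u / QuotientGroup.mk a' = 1
    rw [htriv u hu, one_div, inv_eq_one, QuotientGroup.eq_one_iff, mem_unitGroup_iff']
    refine ⟨hu _, ?_⟩
    rw [Units.val_inv_eq_inv_val]
    change (algebraMap k M a)⁻¹ ∈ u.1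
    rw [← map_inv₀]
    exact hu _
  have hS1 : G' (S.gauss L M M₀).ring = 1 := by
    change G _ / QuotientGroup.mk a' = 1
    rw [ha, div_self']
  have h1 : ∀ H : VDiv K M, LocallyEq k L H → (∀ u : Val K M, IsOver k u → H u = 1) →
      H (S.gauss L M M₀).ring = 1 → EffAt H u 1 := fun H hH hHp hH1 =>
    effAt_of_effAt S hH (fun v hv => (effAt_iff (e := 1) (hHp v hv)).mpr (by
      rw [one_mul]; exact v.1.one_mem))
      ((effAt_iff (e := 1) hH1).mpr (by rw [one_mul]; exact Subring.one_mem _)) hu
  obtain ⟨e, he⟩ := exists_mk_eq G' u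
  have heu := h1 G' (hG.div (locallyEq_princ a')) hp hS1 e he
  have heu' := h1 G'⁻¹ (hG.div (locallyEq_princ a')).inv
    (fun v hv => by rw [Pi.inv_apply, hp v hv, inv_one]) (by rw [Pi.inv_apply, hS1, inv_one]) e⁻¹
    (by rw [Pi.inv_apply, he]; rfl)
  rw [one_mul] at heu heu'
  have : G' u = 1 := by
    rw [he, QuotientGroup.eq_one_iff, mem_unitGroup_iff']
    exact ⟨heu, heu'⟩
  exact div_eq_one.mp this

/-- **The reduction of a section is a section of the specialised divisor.** -/
theorem red_mem_Lsp {E : VDiv K M} (hE : LocallyEq k L E) {E₀ : VDiv K M₀} {h : Mˣ}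
    (hh : E (S.gauss L M M₀).ring = QuotientGroup.mk h)
    (hw : ∀ w : Val K M₀, ∃ x : (S.gauss L M M₀).ring.1ˣ, E ((S.gauss L M M₀).compVal w) =
      QuotientGroup.mk (Units.map (S.gauss L M M₀).ring.1.subtype.toMonoidHom x * h) ∧
      E₀ w = QuotientGroup.mk (Units.map (S.gauss L M M₀).red.toMonoidHom x))
    {F : M} (hF : F ∈ Lsp k E) (hFS : F * h ∈ (S.gauss L M M₀).ring.1) :
    (S.gauss L M M₀).red ⟨_, hFS⟩ ∈ Lsp k₀ E₀ := fun w hwo => by
  set 𝔤 := S.gauss L M M₀
  obtain ⟨x, hx1, hx2⟩ := hw w
  rw [effAt_iff hx2]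
  have hu : ∀ a, algebraMap k M a ∈ (𝔤.compVal w).1 ↔ a ∈ S.ring.1 := fun a => by
    rw [𝔤.mem_compVal]
    refine ⟨fun ⟨ha, _⟩ => S.algebraMap_mem_gaussVal.mp ha, fun ha =>
      ⟨S.algebraMap_mem_gaussVal.mpr ha, ?_⟩⟩
    rw [show (𝔤.red ⟨algebraMap k M a, _⟩) = algebraMap k₀ M₀ (S.red ⟨a, ha⟩) from
      S.gauss_red_algebraMap ha]
    exact hwo _
  have h1 := effAt_of_effAt S hE hF ((effAt_iff hh).mpr hFS) hu _ hx1
  obtain ⟨hm, hmw⟩ := 𝔤.mem_compVal.mp h1
  change 𝔤.red ⟨_, hFS⟩ * 𝔤.red (x : 𝔤.ring.1) ∈ w.1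
  rw [← map_mul]
  convert hmw using 2
  refine Subtype.ext ?_
  change F * h * ((x : 𝔤.ring.1) : M) = F * (((x : 𝔤.ring.1) : M) * h)
  ring

variable [IsAlgClosed k₀] [IsFunctionField k₀ M₀]

/-- **The sections can only grow under specialisation.** -/
theorem finrank_Lsp_le {E : VDiv K M} (hE : LocallyEq k L E) {E₀ : VDiv K M₀}
    (hS : SpecialisesTo (S.gauss L M M₀) E E₀) [FiniteDimensional k (Lsp k E)]
    [FiniteDimensional k₀ (Lsp k₀ E₀)] :
    Module.finrank k (Lsp k E) ≤ Module.finrank k₀ (Lsp k₀ E₀) := by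
  classical
  obtain ⟨h, hh, hw⟩ := hS
  set 𝔤 := S.gauss L M M₀
  set n := Module.finrank k (Lsp k E)
  -- a common denominator `Y`, normalised to a Gauss unit, puts `s h Y` in `k • L`
  obtain ⟨Y₀, hY0, hY₀⟩ := exists_common_denom (K := K) L (Lsp k E) (h : M)
  obtain ⟨c, hc⟩ := S.exists_const_mul_unit (L := L) (M := M) (M₀ := M₀) (Units.mk0 _ hY0)
  set Y : Mˣ := Units.mk0 _ hY0 * (Units.map (algebraMap k M).toMonoidHom c)⁻¹ with hYdef
  let μ : (Lsp k E) →ₗ[k] M := (LinearMap.mulRight k ((h : M) * Y)).comp (Lsp k E).subtype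
  have hμ : Function.Injective μ := fun F G hFG => Subtype.ext
    (mul_right_cancel₀ (mul_ne_zero h.ne_zero Y.ne_zero) hFG)
  have hYspan : LinearMap.range μ ≤ Submodule.span k (Set.range (algebraMap L M)) := by
    rintro _ ⟨F, rfl⟩
    have e : μ F = (c : k)⁻¹ • ((F : M) * h * Y₀) := by
      show (F : M) * (h * Y) = _
      rw [hYdef, Units.val_mul, Units.val_inv_eq_inv_val, Algebra.smul_def, map_inv₀]
      show (F : M) * (h * (Y₀ * (algebraMap k M c)⁻¹)) = _
      ring
    rw [e]
    exact Submodule.smul_mem _ _ (hY₀ F F.2)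
  -- so the `s h Y` lie in the span of a finite-dimensional `VL` inside `L`
  obtain ⟨VL, _, hVL⟩ := exists_finite_le_span (K := K) L (LinearMap.range μ) hYspan
  let b := Module.finBasis K VL
  let Φ : (Fin (Module.finrank K VL) → k) →ₗ[k] M :=
    Fintype.linearCombination k (fun j => algebraMap L M (b j : L))
  have hrange : LinearMap.range μ ≤ LinearMap.range Φ := by
    refine hVL.trans (Submodule.span_le.mpr ?_)
    rintro _ ⟨g, hg, rfl⟩
    refine ⟨fun j => algebraMap K k (b.repr ⟨g, hg⟩ j), ?_⟩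
    have := congrArg Subtype.val (b.sum_repr ⟨g, hg⟩)
    simp only [Submodule.coe_sum, Submodule.coe_smul_of_tower] at this
    conv_rhs => rw [← this]
    rw [map_sum, Fintype.linearCombination_apply]
    exact Finset.sum_congr rfl fun j _ => (ConstExt.map_smul K k _ _).symm
  -- `U`, of dimension `≥ n`, has `n` vectors with independent reductions
  set U := Submodule.comap Φ (LinearMap.range μ)
  have hU : n ≤ Module.finrank k U := by
    have h1 : Module.finrank k (LinearMap.range μ) = n := LinearMap.finrank_range_of_inj hμ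
    rw [← h1, ← Submodule.map_comap_eq_self hrange]
    exact Submodule.finrank_map_le Φ U
  obtain ⟨v, hvU, hind⟩ := S.exists_reductions n U hU
  choose F hF using hvU
  have hYu := mem_unitGroup_iff'.mp hc
  let Ψ : (Fin (Module.finrank K VL) → k₀) →ₗ[k₀] M₀ :=
    Fintype.linearCombination k₀ (fun j => algebraMap L M₀ (b j : L))
  have hΨ : Function.Injective Ψ := LinearIndependent.fintypeLinearCombination_injective
    (ConstExt.linearIndependent (K := k₀) (F := M₀)
      (b.linearIndependent.map' VL.subtype VL.ker_subtype))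
  have hint : ∀ i, Φ (fun j => (v i j : k)) ∈ 𝔤.ring.1 ∧
      ∀ hm, 𝔤.red ⟨Φ (fun j => (v i j : k)), hm⟩ = Ψ (fun j => S.red (v i j)) := fun i => by
    have e : Φ (fun j => (v i j : k)) = S.intMap L M (∑ j, v i j ⊗ₜ (b j : L)) := by
      rw [map_sum, Fintype.linearCombination_apply]
      exact Finset.sum_congr rfl fun j _ => (Algebra.smul_def _ _).trans (S.intMap_tmul _ _).symm
    refine ⟨e ▸ S.intMap_mem_gaussVal _, fun hm => ?_⟩
    rw [show (⟨_, hm⟩ : 𝔤.ring.1) = ⟨_, S.intMap_mem_gaussVal _⟩ from Subtype.ext e,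
      S.gauss_red_intMap, map_sum, Fintype.linearCombination_apply]
    exact Finset.sum_congr rfl fun j _ => (S.intRed_tmul _ _).trans (Algebra.smul_def _ _).symm
  have hz : ∀ i, (F i : M) * h = Φ (fun j => (v i j : k)) * ((Y⁻¹ : Mˣ) : M) := fun i => by
    rw [← hF i]
    change _ = (F i : M) * (h * Y) * _
    rw [mul_assoc, mul_assoc, Units.mul_inv, mul_one]
  have hzS : ∀ i, (F i : M) * h ∈ 𝔤.ring.1 := fun i =>
    hz i ▸ 𝔤.ring.1.mul_mem _ _ (hint i).1 hYu.2
  -- their reductions are `n` independent sections of `E₀`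
  have hmem : ∀ i, 𝔤.red ⟨_, hzS i⟩ ∈ Lsp k₀ E₀ := fun i =>
    red_mem_Lsp S hE hh hw (F i).2 (hzS i)
  have hY' : 𝔤.red ⟨_, hYu.2⟩ ≠ 0 := fun h0 => by
    have := congrArg 𝔤.red (show (⟨_, hYu.1⟩ : 𝔤.ring.1) * ⟨_, hYu.2⟩ = 1 from
      Subtype.ext Y.mul_inv)
    rw [map_mul, h0, mul_zero, map_one] at this
    exact zero_ne_one this
  refine Fintype.card_fin n ▸ LinearIndependent.fintype_card_le_finrank
    (b := fun i => (⟨_, hmem i⟩ : Lsp k₀ E₀)) (LinearIndependent.of_comp (Lsp k₀ E₀).subtype ?_)
  have e : ((Lsp k₀ E₀).subtype ∘ fun i => (⟨_, hmem i⟩ : Lsp k₀ E₀)) =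
      (LinearMap.mulRight k₀ (𝔤.red ⟨_, hYu.2⟩)).comp Ψ ∘ fun i j => S.red (v i j) := by
    funext i
    change 𝔤.red ⟨_, hzS i⟩ = Ψ (fun j => S.red (v i j)) * 𝔤.red ⟨_, hYu.2⟩
    rw [← (hint i).2 (hint i).1, ← map_mul]
    exact congrArg 𝔤.red (Subtype.ext (hz i))
  rw [e]
  exact hind.map' _ (LinearMap.ker_eq_bot.mpr fun a b hab => hΨ (mul_right_cancel₀ hY' hab))

end Key

/-- **The seesaw.**  A divisor trivial at the places, whose specialisation at a rational place is
principal, is principal. -/
theorem isPrinc_of_trivial {G : VDiv K M} (hG : LocallyEq k L G)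
    (htriv : ∀ u : Val K M, IsOver k u → G u = 1) (Sp : Specialisation K M k)
    (hring : IsOver k Sp.ring) (hred : ∀ a : k, Sp.red ⟨algebraMap k M a, hring a⟩ = a)
    {G₀ : VDiv K k} (hsp : SpecialisesTo Sp G G₀) (h₀ : IsPrinc K k G₀) : IsPrinc K M G := by
  obtain ⟨c, hc⟩ := isPrinc_iff.mp h₀
  obtain ⟨h, hh, hw⟩ := hsp
  have hh' : h ∈ Sp.ring.1.unitGroup := by
    rw [← QuotientGroup.eq_one_iff, ← hh, htriv _ hring]
  let eh : Sp.ring.1ˣ := Sp.ring.1.unitGroupMulEquiv ⟨h, hh'⟩
  have heh : Units.map Sp.ring.1.subtype.toMonoidHom eh = h := Units.ext rfl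
  -- the constant candidate `c · red(h)`
  refine isPrinc_iff.mpr ⟨Units.map (algebraMap k M).toMonoidHom
    (c * Units.map Sp.red.toMonoidHom eh), fun u => ?_⟩
  let O : Val K k := u.comap (IsScalarTower.toAlgHom K k M)
  have hu : ∀ a, algebraMap k M a ∈ u.1 ↔ a ∈ O.1 := fun a => Iff.rfl
  let S := O.residue
  have := S.isAlgClosed
  -- over each `O` the divisor is constant, equal to some `a`
  obtain ⟨e, he⟩ := exists_mk_eq G (S.gauss L M (CExt K L (IsLocalRing.ResidueField O.1))).ring
  obtain ⟨a, ha⟩ := S.exists_const_mul_unit (L := L) (M := M)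
    (M₀ := CExt K L (IsLocalRing.ResidueField O.1)) e
  have hea : G (S.gauss L M (CExt K L (IsLocalRing.ResidueField O.1))).ring =
      QuotientGroup.mk (Units.map (algebraMap k M).toMonoidHom a) := by
    rw [he, QuotientGroup.eq]
    simpa [mul_comm] using inv_mem ha
  rw [eq_mk_of_trivial S hG htriv hea hu]
  -- compare `a` with the candidate at the composite of `Sp` and `O`
  obtain ⟨x, hx1, hx2⟩ := hw O
  have hu0 : ∀ b, algebraMap k M b ∈ (Sp.compVal O).1 ↔ b ∈ O.1 := fun b => by
    rw [Sp.mem_compVal]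
    refine ⟨fun ⟨hb, hb'⟩ => ?_, fun hb => ⟨hring b, by rw [hred b]; exact hb⟩⟩
    rwa [show (⟨algebraMap k M b, hb⟩ : Sp.ring.1) = ⟨_, hring b⟩ from rfl, hred b] at hb'
  have h3 := (eq_mk_of_trivial S hG htriv hea hu0).symm.trans hx1
  rw [QuotientGroup.eq, ← heh, ← map_mul] at h3
  let ea : Sp.ring.1ˣ := Units.map
    ((algebraMap k M).codRestrict Sp.ring.1.toSubring hring).toMonoidHom a
  have hea' : Units.map Sp.ring.1.subtype.toMonoidHom ea =
      Units.map (algebraMap k M).toMonoidHom a :=
    Units.ext rfl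
  rw [← hea', ← map_inv, ← map_mul] at h3
  have h4 := Sp.red_mem_unitGroup h3
  rw [map_mul, map_inv, map_mul, show Units.map Sp.red.toMonoidHom ea = a from
    Units.ext (hred a)] at h4
  have h5 : (c : kˣ)⁻¹ * Units.map Sp.red.toMonoidHom x ∈ O.1.unitGroup :=
    QuotientGroup.eq.mp ((hc O).symm.trans hx2)
  rw [QuotientGroup.eq, ← map_inv, ← map_mul]
  refine map_mem_unitGroup (IsScalarTower.toAlgHom K k M) (v := u) ?_
  change a⁻¹ * (c * Units.map Sp.red.toMonoidHom eh) ∈ O.1.unitGroup
  have := mul_mem h4 (inv_mem h5)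
  convert this using 1
  simp only [mul_inv, inv_inv]
  generalize Units.map Sp.red.toMonoidHom x = r
  generalize Units.map Sp.red.toMonoidHom eh = s
  apply Additive.ofMul.injective
  simp only [ofMul_mul, ofMul_inv]
  abel

end Curve

end Fermat.AV

end
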