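import Fermat.Agent.AV.GroupPt
import Fermat.Agent.AV.LinRed
import Fermat.Agent.JAC.ConstExtExists
import Mathlib.AlgebraicGeometry.FunctionField
import Mathlib.FieldTheory.IsAlgClosed.AlgebraicClosure
import Mathlib.RingTheory.Flat.Basic

/-!
# Degenerations of points

Every algebraically closed field has an extension with a point that specialises over it to every
given point; specialisations extend to larger fields.
-/

set_option autoImplicit false

noncomputable section

universe u

open CategoryTheory AlgebraicGeometry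
open scoped TensorProduct

namespace Fermat.AV

variable {K : Type u} [Field K]

/-- An algebraically closed extension of a field over `K`. -/
structure AlgExt (K : Type u) [Field K] (k : Type u) [Field k] [Algebra K k] where
  /-- The algebraically closed field extending `k`. -/
  carrier : Type u
  [field : Field carrier]
  [algebra : Algebra K carrier]
  [algClosed : IsAlgClosed carrier]
  /-- The embedding of `k` into `carrier` over `K`. -/
  map : k →ₐ[K] carrier

attribute [instance] AlgExt.field AlgExt.algebra AlgExt.algClosed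

variable {k : Type u} [Field k] [Algebra K k] {k₁ : Type u} [Field k₁] [Algebra K k₁]
  [IsAlgClosed k₁]

/-- **A reduction of a subring extends to a specialisation.** -/
theorem exists_specialisation_hom {B : Type u} [CommRing B] [Algebra K B] (j : B →ₐ[K] k₁)
    (hj : Function.Injective j) (φ : B →ₐ[K] k) (hφ : Function.Surjective φ) :
    ∃ (X : AlgExt K k) (S : Specialisation K k₁ X.carrier),
      ∀ b : B, ∃ h : j b ∈ S.ring.1, S.red ⟨j b, h⟩ = X.map (φ b) := by
  let e : B ≃+* j.toRingHom.range := RingEquiv.ofBijective j.toRingHom.rangeRestrict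
    ⟨fun a b h => hj (congrArg Subtype.val h), j.toRingHom.rangeRestrict_surjective⟩
  let I : Ideal j.toRingHom.range := (RingHom.ker φ.toRingHom).comap e.symm.toRingHom
  have hI : I ≠ ⊤ := Ideal.comap_ne_top _ (RingHom.ker_ne_top _)
  -- a valuation ring with the kernel of `φ` among its nonunits
  obtain ⟨V, hV, hIV⟩ := Ideal.image_subset_nonunits_valuationSubring (A := j.toRingHom.range) I hI
  let v : Val K k₁ := ⟨V, fun c => hV ⟨algebraMap K B c, j.commutes c⟩⟩
  let iv : Algebra K v.1 := valAlgebra v
  have := v.residue.isAlgClosed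
  let jv : B →ₐ[K] v.1 := ⟨j.toRingHom.codRestrict V.toSubring fun b => hV ⟨b, rfl⟩,
    fun c => Subtype.ext (j.commutes c)⟩
  let r : B →ₐ[K] IsLocalRing.ResidueField v.1 := ⟨(IsLocalRing.residue v.1).comp jv.toRingHom,
    fun c => congrArg (IsLocalRing.residue v.1) (jv.commutes c)⟩
  -- so its residue map factors through `φ`
  have hker : ∀ b : B, φ b = 0 → r b = 0 := fun b hb => by
    change IsLocalRing.residue v.1 (jv b) = 0
    rw [IsLocalRing.residue_eq_zero_iff, IsLocalRing.mem_maximalIdeal, mem_nonunits_iff]
    intro hu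
    have hmem : j b ∈ V.nonunits := hIV ⟨e b, by
      change e.symm (e b) ∈ RingHom.ker φ.toRingHom
      rw [e.symm_apply_apply]; exact hb, rfl⟩
    obtain ⟨w, hw⟩ := hu
    rcases V.mem_nonunits_iff_or.mp hmem with h0 | h0
    · exact w.ne_zero (by rw [hw]; exact Subtype.ext h0)
    · refine h0 ?_
      have : (j b)⁻¹ = ((w⁻¹ : v.1ˣ) : v.1).1 := by
        refine inv_eq_of_mul_eq_one_right ?_
        have := congrArg Subtype.val w.mul_inv
        rwa [hw] at this
      rw [this]
      exact Subtype.prop _
  -- hence `k` maps to the residue field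
  let ψ : k →ₐ[K] IsLocalRing.ResidueField v.1 :=
    (Ideal.Quotient.liftₐ (RingHom.ker φ) r fun b hb => hker b hb).comp
      (Ideal.quotientKerAlgEquivOfSurjective hφ).symm.toAlgHom
  refine ⟨{ carrier := IsLocalRing.ResidueField v.1, map := ψ }, v.residue,
    fun b => ⟨hV ⟨b, rfl⟩, ?_⟩⟩
  change r b = ψ (φ b)
  simp only [ψ, AlgHom.comp_apply]
  rw [show (Ideal.quotientKerAlgEquivOfSurjective hφ).symm.toAlgHom (φ b) =
    Ideal.Quotient.mk _ b from (Ideal.quotientKerAlgEquivOfSurjective hφ).symm_apply_eq.mpr rfl]
  rfl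

/-- Specialisations extend to larger fields. -/
theorem Specialisation.exists_extend {k₀ : Type u} [Field k₀] [Algebra K k₀]
    (S : Specialisation K k k₀) (e : k →ₐ[K] k₁) :
    ∃ (X : AlgExt K k₀) (S' : Specialisation K k₁ X.carrier),
      ∀ a : S.ring.1, ∃ h : e (a : k) ∈ S'.ring.1, S'.red ⟨e a, h⟩ = X.map (S.red a) :=
  exists_specialisation_hom (e.comp S.inclAlg) (e.injective.comp Subtype.val_injective) S.redAlg
    S.red_surjective

variable {A : Scheme.{u}} {f : A ⟶ Spec (CommRingCat.of K)}

section Specialise

variable [IsProper f] {k₀ : Type u} [Field k₀] [Algebra K k₀] (S : Specialisation K k₁ k₀)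

omit [IsAlgClosed k₁] in
/-- The specialisation of a point with a lift to a reduced ring. -/
theorem Pt.specialise_eq {B : Type u} [CommRing B] [Algebra K B] (q : Pt f B) (j : B →ₐ[K] k₁)
    (r : B →ₐ[K] k₀) (h : ∀ b, ∃ h : j b ∈ S.ring.1, S.red ⟨j b, h⟩ = r b) :
    (q.map j).specialise S = q.map r := by
  let jv : B →+* S.ring.1 := j.toRingHom.codRestrict S.ring.1.toSubring fun b => (h b).choose
  have hl : Spec.map (CommRingCat.ofHom jv) ≫ q.1 = valLift S.ring (q.map j) := by
    refine eq_valLift ?_ ?_
    · rw [← Category.assoc, ← Spec.map_comp]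
      rfl
    · rw [Category.assoc, q.2, ← Spec.map_comp]
      exact congrArg Spec.map (CommRingCat.hom_ext (RingHom.ext fun c =>
        Subtype.ext (j.commutes c)))
  refine Subtype.ext ?_
  change Spec.map (CommRingCat.ofHom S.red) ≫ valLift S.ring (q.map j) = _
  rw [← hl, ← Category.assoc, ← Spec.map_comp]
  change Spec.map (CommRingCat.ofHom (S.red.comp jv)) ≫ q.1 = _
  rw [show S.red.comp jv = r.toRingHom from RingHom.ext fun b => (h b).choose_spec]
  rfl

omit [IsAlgClosed k₁] in
/-- Specialisation of a point of a smaller field along an extended specialisation. -/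
theorem Pt.specialise_extend {k₀' : Type u} [Field k₀'] [Algebra K k₀']
    (S₀ : Specialisation K k k₀') (e : k →ₐ[K] k₁) (e₀ : k₀' →ₐ[K] k₀)
    (h : ∀ a : S₀.ring.1, ∃ h : e (a : k) ∈ S.ring.1, S.red ⟨e a, h⟩ = e₀ (S₀.red a))
    (p : Pt f k) : (p.map e).specialise S = (p.specialise S₀).map e₀ := by
  let q : Pt f S₀.ring.1 := ⟨valLift S₀.ring p, valLift_over S₀.ring p⟩
  have h1 : q.map S₀.inclAlg = p := Subtype.ext (valLift_gen S₀.ring p)
  conv_lhs => rw [← h1, Pt.map_map]
  rw [Pt.specialise_eq S q _ (e₀.comp S₀.redAlg) h, ← Pt.map_map]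
  rfl

end Specialise

variable [IsIntegral A]

variable (f) in
/-- The function field as a field over the constants. -/
def FunField (_f : A ⟶ Spec (CommRingCat.of K) := f) : Type u := A.functionField

/-- The function field is a field. -/
instance : Field (FunField f) := inferInstanceAs (Field A.functionField)

/-- The function field is an algebra over the constants. -/
instance : Algebra K (FunField f) :=
  (Spec.preimage (A.fromSpecStalk (genericPoint A) ≫ f)).hom.toAlgebra

variable (f) in
/-- The generic point of `A`, as a point with values in its function field. -/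
def genPt : Pt f (FunField f) :=
  ⟨A.fromSpecStalk (genericPoint A), (Spec.map_preimage _).symm⟩

/-- The algebra structure over the constants on the functions of an affine open. -/
@[reducible]
def chartAlgebra {V : A.Opens} (hV : IsAffineOpen V) : Algebra K Γ(A, V) :=
  (Spec.preimage (hV.fromSpec ≫ f)).hom.toAlgebra

/-- The inclusion of an affine open, as a point with values in its functions. -/
def chartPt {V : A.Opens} (hV : IsAffineOpen V) :
    letI := chartAlgebra (f := f) hV
    Pt f Γ(A, V) :=
  letI := chartAlgebra (f := f) hV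
  ⟨hV.fromSpec, (Spec.map_preimage _).symm⟩

omit [IsIntegral A] in
/-- A point with values in a local ring factors through any chart around its closed point. -/
theorem exists_chart_hom {M : Type u} [CommRing M] [IsLocalRing M] [Algebra K M] {V : A.Opens}
    (hV : IsAffineOpen V) (p : Pt f M) (hp : p.1 (IsLocalRing.closedPoint M) ∈ V) :
    letI := chartAlgebra (f := f) hV
    ∃ ψ : Γ(A, V) →ₐ[K] M, Pt.map ψ (chartPt hV) = p := by
  let := chartAlgebra (f := f) hV
  have hrange : Set.range p.1 ⊆ Set.range hV.fromSpec := by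
    rw [hV.range_fromSpec]
    rintro _ ⟨z, rfl⟩
    exact ((IsLocalRing.specializes_closedPoint z).map p.1.continuous).mem_open V.isOpen hp
  let φ₀ := Spec.preimage (IsOpenImmersion.lift hV.fromSpec p.1 hrange)
  have hφ₀ : Spec.map φ₀ ≫ hV.fromSpec = p.1 := by
    rw [Spec.map_preimage, IsOpenImmersion.lift_fac]
  have hφK : Spec.preimage (hV.fromSpec ≫ f) ≫ φ₀ = CommRingCat.ofHom (algebraMap K M) := by
    refine Spec.map_injective ?_
    rw [Spec.map_comp, Spec.map_preimage (hV.fromSpec ≫ f), ← Category.assoc, hφ₀]
    exact p.2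
  exact ⟨⟨φ₀.hom, fun c => ConcreteCategory.congr_hom hφK c⟩, Subtype.ext hφ₀⟩

/-- The functions on a chart inside the function field. -/
def genHom {V : A.Opens} (hV : IsAffineOpen V) [Nonempty V] :
    letI := chartAlgebra (f := f) hV
    Γ(A, V) →ₐ[K] FunField f :=
  letI := chartAlgebra (f := f) hV
  ⟨(A.germToFunctionField V).hom, fun c => by
    have h1 : Spec.map (A.germToFunctionField V) ≫ hV.fromSpec =
        A.fromSpecStalk (genericPoint A) := by
      rw [← hV.fromSpecStalk_eq_fromSpecStalk (genericPoint_mem V)]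
      rfl
    have h2 : Spec.preimage (hV.fromSpec ≫ f) ≫ A.germToFunctionField V =
        Spec.preimage (A.fromSpecStalk (genericPoint A) ≫ f) := by
      refine Spec.map_injective ?_
      rw [Spec.map_comp, Spec.map_preimage, Spec.map_preimage, ← Category.assoc, h1]
    exact ConcreteCategory.congr_hom h2 c⟩

/-- `genHom` sends the tautological point of the chart to the generic point. -/
theorem map_genHom {V : A.Opens} (hV : IsAffineOpen V) [Nonempty V] :
    letI := chartAlgebra (f := f) hV
    Pt.map (genHom hV) (chartPt (f := f) hV) = genPt f := by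
  let := chartAlgebra (f := f) hV
  refine Subtype.ext ?_
  change Spec.map (A.germToFunctionField V) ≫ hV.fromSpec = A.fromSpecStalk (genericPoint A)
  rw [← hV.fromSpecStalk_eq_fromSpecStalk (genericPoint_mem V)]
  rfl

variable (f) in
/-- **A point specialising over `k` to every point.** -/
theorem exists_generic [IsProper f] [IsAlgClosed K] [IsAlgClosed k] :
    ∃ (X : AlgExt K k) (η : Pt f X.carrier), ∀ y : Pt f k,
      ∃ (Y : AlgExt K k) (S : Specialisation K X.carrier Y.carrier),
        (∀ a : k, ∃ h : X.map a ∈ S.ring.1, S.red ⟨X.map a, h⟩ = Y.map a) ∧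
          η.specialise S = y.map Y.map := by
  have : IsDomain (k ⊗[K] FunField f) := Fermat.JAC.isDomain_tensor (FunField f)
  -- `η` is the generic point, with values in the closure of `Frac (k ⊗ K(A))`
  let T := AlgebraicClosure (FractionRing (k ⊗[K] FunField f))
  let τ : k ⊗[K] FunField f →ₐ[K] T := IsScalarTower.toAlgHom K (k ⊗[K] FunField f) T
  have hτ : Function.Injective τ := by
    change Function.Injective (algebraMap (k ⊗[K] FunField f) T)
    rw [IsScalarTower.algebraMap_eq (k ⊗[K] FunField f) (FractionRing (k ⊗[K] FunField f)) T]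
    exact (algebraMap (FractionRing (k ⊗[K] FunField f)) T).injective.comp
      (IsFractionRing.injective _ _)
  refine ⟨{ carrier := T, map := τ.comp Algebra.TensorProduct.includeLeft },
    (genPt f).map (τ.comp Algebra.TensorProduct.includeRight), fun y => ?_⟩
  -- on an affine `V ∋ y`, `y` is a map `φ` on `Γ(V)`
  obtain ⟨V, hV, hyV, -⟩ := exists_isAffineOpen_mem_and_subset
    (TopologicalSpace.Opens.mem_top y.img)
  have : Nonempty V := ⟨⟨_, hyV⟩⟩
  let := chartAlgebra (f := f) hV
  let g := genHom (f := f) hV
  have hg : Function.Injective g := A.germToFunctionField_injective V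
  have hgen : Pt.map g (chartPt hV) = genPt f := map_genHom hV
  let q : Pt f Γ(A, V) := chartPt hV
  obtain ⟨φ, hqy⟩ := exists_chart_hom hV y hyV
  let j : k ⊗[K] Γ(A, V) →ₐ[K] T := τ.comp (Algebra.TensorProduct.map (AlgHom.id K k) g)
  have hj : Function.Injective j :=
    hτ.comp (Module.Flat.lTensor_preserves_injective_linearMap (M := k) g.toLinearMap hg)
  let r : k ⊗[K] Γ(A, V) →ₐ[K] k := Algebra.TensorProduct.productMap (AlgHom.id K k) φ
  -- specialise `k ⊗ Γ(V) ⊆ T` along `a ⊗ b ↦ a φ(b)`
  obtain ⟨Y, S, hS⟩ := exists_specialisation_hom j hj r fun a => ⟨a ⊗ₜ 1, by simp [r]⟩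
  refine ⟨Y, S, fun a => ?_, ?_⟩
  · obtain ⟨h, h'⟩ := hS (a ⊗ₜ 1)
    have e : j (a ⊗ₜ 1) = τ (a ⊗ₜ 1) := by simp [j]
    refine ⟨e ▸ h, ?_⟩
    rw [show Y.map a = Y.map (r (a ⊗ₜ 1)) by simp [r], ← h']
    exact congrArg S.red (Subtype.ext e.symm)
  · have h1 : (genPt f).map (τ.comp Algebra.TensorProduct.includeRight) =
        (q.map Algebra.TensorProduct.includeRight).map j := by
      rw [← hgen, Pt.map_map, Pt.map_map]
      congr 1
    rw [h1, Pt.specialise_eq S _ j (Y.map.comp r) hS, Pt.map_map, ← hqy, Pt.map_map]
    congr 1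
    exact AlgHom.ext fun b => by simp [r]

end Fermat.AV

end
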