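import Fermat.Agent.AV.CurvePoint
import Fermat.Agent.AV.Degenerate

/-!
# Places as specialisations

A rational place is a specialisation; a section vanishing at a point gives one vanishing at the
specialised point.
-/

set_option autoImplicit false
set_option linter.unusedSectionVars false

noncomputable section

universe u

open AlgebraicCurve IntermediateField Fermat.FF Fermat.JAC
open scoped TensorProduct

namespace Fermat.AV

variable {K : Type u} [Field K] {k : Type u} [Field k] [Algebra K k]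
  {M : Type u} [Field M] [Algebra K M] [Algebra k M] [IsScalarTower K k M]

/-- Two specialisations one after the other. -/
def Specialisation.comp {M₁ M₂ : Type u} [Field M₁] [Algebra K M₁] [Field M₂] [Algebra K M₂]
    (S₁ : Specialisation K M M₁) (S₂ : Specialisation K M₁ M₂) : Specialisation K M M₂ where
  ring := S₁.compVal S₂.ring
  red := S₂.red.comp ((S₁.red.comp ((S₁.compVal S₂.ring).1.inclusion S₁.ring.1
    (S₁.compVal_le S₂.ring))).codRestrict S₂.ring.1.toSubring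
      fun z => (S₁.mem_compVal.mp z.2).choose_spec)
  red_algebraMap c := by
    change S₂.red ⟨S₁.red ⟨algebraMap K M c, _⟩, _⟩ = _
    simp only [S₁.red_algebraMap]
    exact S₂.red_algebraMap c
  red_surjective z := by
    obtain ⟨b, rfl⟩ := S₂.red_surjective z
    obtain ⟨a, ha⟩ := S₁.red_surjective (b : M₁)
    -- lift through the two reductions
    refine ⟨⟨a, S₁.mem_compVal.mpr ⟨a.2, ?_⟩⟩, ?_⟩
    · rw [ha]; exact b.2
    · exact congrArg S₂.red (Subtype.ext ha)
  isUnit_of_red z hz := by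
    obtain ⟨h1, h2⟩ := S₁.mem_compVal.mp z.2
    have hu : IsUnit (⟨S₁.red ⟨(z : M), h1⟩, h2⟩ : S₂.ring.1) := S₂.isUnit_of_red _ hz
    obtain ⟨b, hb⟩ := hu
    have hne : S₁.red ⟨(z : M), h1⟩ ≠ 0 := fun h => b.ne_zero (by rw [hb]; exact Subtype.ext h)
    -- invert first for `S₁`; its reduction is then the inverse for `S₂`
    obtain ⟨a, ha⟩ := S₁.isUnit_of_red _ hne
    have hz0 : (z : M) ≠ 0 := fun h => a.ne_zero (by rw [ha]; exact Subtype.ext h)
    have hinv : (z : M)⁻¹ = ((a⁻¹ : S₁.ring.1ˣ) : S₁.ring.1).1 := by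
      refine inv_eq_of_mul_eq_one_right ?_
      have := congrArg Subtype.val a.mul_inv
      rwa [ha] at this
    refine ⟨⟨z, ⟨(z : M)⁻¹, S₁.mem_compVal.mpr ⟨hinv ▸ Subtype.prop _, ?_⟩⟩,
      Subtype.ext (mul_inv_cancel₀ hz0), Subtype.ext (inv_mul_cancel₀ hz0)⟩, rfl⟩
    have e : S₁.red ((a⁻¹ : S₁.ring.1ˣ) : S₁.ring.1) = ((b⁻¹ : S₂.ring.1ˣ) : S₂.ring.1).1 := by
      refine mul_left_cancel₀ hne ?_
      rw [← map_mul, ← ha, Units.mul_inv, map_one]
      have := congrArg Subtype.val b.mul_inv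
      rw [hb] at this
      rw [ha]
      exact this.symm
    rw [show (⟨(z : M)⁻¹, _⟩ : S₁.ring.1) = ((a⁻¹ : S₁.ring.1ˣ) : S₁.ring.1) from Subtype.ext hinv,
      e]
    exact Subtype.prop _

/-- A composite specialisation reduces in two steps. -/
theorem Specialisation.comp_red {M₁ M₂ : Type u} [Field M₁] [Algebra K M₁] [Field M₂]
    [Algebra K M₂] (S₁ : Specialisation K M M₁) (S₂ : Specialisation K M₁ M₂) {z : M}
    (h : z ∈ (S₁.comp S₂).ring.1) (h₁ : z ∈ S₁.ring.1) (h₂ : S₁.red ⟨z, h₁⟩ ∈ S₂.ring.1) :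
    (S₁.comp S₂).red ⟨z, h⟩ = S₂.red ⟨S₁.red ⟨z, h₁⟩, h₂⟩ := rfl

/-- An element invertible in the valuation ring of a specialisation has nonzero reduction. -/
theorem Specialisation.red_ne_zero_of_inv_mem {N : Type u} [Field N] [Algebra K N]
    (C : Specialisation K M N) {z : M} (hz : z ∈ C.ring.1) (hz' : z⁻¹ ∈ C.ring.1) (h0 : z ≠ 0) :
    C.red ⟨z, hz⟩ ≠ 0 :=
  ((IsUnit.of_mul_eq_one (⟨z⁻¹, hz'⟩ : C.ring.1) (Subtype.ext (mul_inv_cancel₀ h0)) :
    IsUnit (⟨z, hz⟩ : C.ring.1)).map C.red).ne_zero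

/-- Two specialisations agreeing on generators agree on the ring they generate. -/
theorem red_eq_of_closure {N : Type u} [Field N] [Algebra K N] {C₁ C₂ : Specialisation K M N}
    {G : Set M} (h1 : Subring.closure G ≤ C₁.ring.1.toSubring)
    (h2 : Subring.closure G ≤ C₂.ring.1.toSubring)
    (hgen : ∀ g ∈ G, ∀ (a : g ∈ C₁.ring.1) (b : g ∈ C₂.ring.1), C₁.red ⟨g, a⟩ = C₂.red ⟨g, b⟩)
    {z : M} (hz : z ∈ Subring.closure G) (a : z ∈ C₁.ring.1) (b : z ∈ C₂.ring.1) :
    C₁.red ⟨z, a⟩ = C₂.red ⟨z, b⟩ := by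
  let ε₁ : Subring.closure G →+* N :=
    C₁.red.comp ((Subring.closure G).subtype.codRestrict C₁.ring.1.toSubring fun w => h1 w.2)
  let ε₂ : Subring.closure G →+* N :=
    C₂.red.comp ((Subring.closure G).subtype.codRestrict C₂.ring.1.toSubring fun w => h2 w.2)
  have h : ε₁ ⟨z, hz⟩ = ε₂ ⟨z, hz⟩ := by
    induction hz using Subring.closure_induction with
    | mem y hy => exact hgen y hy _ _
    | zero => exact (map_zero ε₁).trans (map_zero ε₂).symm
    | one => exact (map_one ε₁).trans (map_one ε₂).symm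
    | add p q hp hq ihp ihq =>
      exact (map_add ε₁ ⟨p, hp⟩ ⟨q, hq⟩).trans
        ((congrArg₂ (· + ·) (ihp (h1 hp) (h2 hp)) (ihq (h1 hq) (h2 hq))).trans
          (map_add ε₂ ⟨p, hp⟩ ⟨q, hq⟩).symm)
    | neg p hp ihp =>
      exact (map_neg ε₁ ⟨p, hp⟩).trans ((congrArg (- ·) (ihp (h1 hp) (h2 hp))).trans
        (map_neg ε₂ ⟨p, hp⟩).symm)
    | mul p q hp hq ihp ihq =>
      exact (map_mul ε₁ ⟨p, hp⟩ ⟨q, hq⟩).trans
        ((congrArg₂ (· * ·) (ihp (h1 hp) (h2 hp)) (ihq (h1 hq) (h2 hq))).trans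
          (map_mul ε₂ ⟨p, hp⟩ ⟨q, hq⟩).symm)
  exact h

variable [IsAlgClosed k] [IsFunctionField k M]

/-- Evaluation at a place, as a specialisation with ring the valuation ring of the place. -/
def placeSpec (Q : Place k M) : Specialisation K M k where
  ring := placeVal Q
  red :=
    { toFun := fun z => evalAt Q (z : M)
      map_one' := evalAt_one Q
      map_mul' := fun a b => evalAt_mul ((mem_iff_ordGE Q).mp a.2) ((mem_iff_ordGE Q).mp b.2)
      map_zero' := by
        change evalAt Q (0 : M) = 0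
        rw [← map_zero (algebraMap k M), evalAt_algebraMap]
      map_add' := fun a b => evalAt_add ((mem_iff_ordGE Q).mp a.2) ((mem_iff_ordGE Q).mp b.2) }
  red_algebraMap c := by
    change evalAt Q (algebraMap K M c) = _
    rw [IsScalarTower.algebraMap_apply K k M, evalAt_algebraMap]
  red_surjective a := ⟨⟨algebraMap k M a, Q.algebraMap_mem' a⟩, evalAt_algebraMap Q a⟩
  isUnit_of_red z hz := by
    have hz0 : (z : M) ≠ 0 := fun h => hz (by
      change evalAt Q (z : M) = 0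
      rw [h, ← map_zero (algebraMap k M), evalAt_algebraMap])
    have h1 : OrdGE Q (z : M)⁻¹ 0 := by
      refine (ordGE_ord Q _).mono ?_
      rw [Q.ord_inv]
      by_contra h
      exact hz ((evalAt_eq_zero_iff ((mem_iff_ordGE Q).mp z.2)).mpr
        ((ordGE_ord Q _).mono (by omega)))
    exact ⟨⟨z, ⟨_, (mem_iff_ordGE Q).mpr h1⟩, Subtype.ext (mul_inv_cancel₀ hz0),
      Subtype.ext (inv_mul_cancel₀ hz0)⟩, rfl⟩

/-- The reduction of a rational place is evaluation. -/
theorem placeSpec_red (Q : Place k M) (z : (placeSpec (K := K) Q).ring.1) :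
    (placeSpec (K := K) Q).red z = evalAt Q (z : M) := rfl

variable {L : Type u} [Field L] [Algebra K L] [Algebra L M] [IsScalarTower K L M]
  [IsAlgClosed K] [IsFunctionField K L] [IsConstExt K k L M]

variable (M) in
/-- A point with values in the constants gives a place. -/
theorem exists_place_of_hom (c : L →ₐ[K] k) :
    ∃ Q : Place k M, ∀ l : L,
      OrdGE Q (algebraMap L M l) 0 ∧ evalAt Q (algebraMap L M l) = c l := by
  classical
  let j : k ⊗[K] L →ₐ[K] M :=
    Algebra.TensorProduct.productMap (IsScalarTower.toAlgHom K k M) (IsScalarTower.toAlgHom K L M)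
  have hj : Function.Injective j := by
    rw [injective_iff_map_eq_zero]
    intro w hw
    obtain ⟨a, rfl⟩ := TensorProduct.eq_repr_basis_right (M := k) (Module.Basis.ofVectorSpace K L) w
    have hb := ConstExt.linearIndependent (K := k) (F := M)
      (Module.Basis.ofVectorSpace K L).linearIndependent
    simp only [Finsupp.sum, map_sum] at hw
    have h := linearIndependent_iff'.mp hb a.support (fun i => a i)
      (by simpa [j, Algebra.smul_def] using hw)
    refine Finset.sum_eq_zero fun i hi => ?_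
    change a i ⊗ₜ[K] _ = 0
    rw [h i hi, TensorProduct.zero_tmul]
  let φ : k ⊗[K] L →ₐ[K] k := Algebra.TensorProduct.productMap (AlgHom.id K k) c
  -- `R = k ⊗ L` inside `M`, and the maximal ideal of the point `c`
  let R : Subalgebra k M :=
    { j.range.toSubsemiring with
      algebraMap_mem' := fun a => ⟨a ⊗ₜ 1, by simp [j]⟩ }
  let e : k ⊗[K] L ≃+* R := RingEquiv.ofBijective
    (j.toRingHom.codRestrict R.toSubring fun w => ⟨w, rfl⟩)
    ⟨fun a b h => hj (congrArg Subtype.val h), fun ⟨z, w, hw⟩ => ⟨w, Subtype.ext hw⟩⟩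
  let I : Ideal R := (RingHom.ker φ.toRingHom).comap e.symm.toRingHom
  have hI : I ≠ ⊤ := Ideal.comap_ne_top _ (RingHom.ker_ne_top _)
  obtain ⟨x, hx, -, -⟩ := IsFunctionField.exists_separating (K := K) (F := L)
  have hmem : ∀ l : L, e (1 ⊗ₜ l - c l ⊗ₜ 1) ∈ I := fun l => by
    change e.symm (e _) ∈ RingHom.ker φ.toRingHom
    rw [e.symm_apply_apply]
    simp [φ]
  have hval : ∀ l : L, ((e (1 ⊗ₜ l - c l ⊗ₜ 1) : R) : M) =
      algebraMap L M l - algebraMap k M (c l) := fun l => by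
    change j _ = _
    simp [j]
  -- `Q`: a place centred at that ideal
  obtain ⟨Q, hreg, hcen⟩ := exists_place_center R I hI (hmem x) (fun h => by
    have := congrArg Subtype.val h
    rw [hval, ZeroMemClass.coe_zero, sub_eq_zero] at this
    exact ConstExt.transcendental K k M hx (this ▸ isAlgebraic_algebraMap _))
  refine ⟨Q, fun l => ?_⟩
  have h1 := hcen _ (hmem l)
  rw [hval] at h1
  have h0 : OrdGE Q (algebraMap L M l) 0 := by
    simpa using (h1.mono (zero_le_one : (0 : ℤ) ≤ 1)).add (ordGE_algebraMap Q (c l))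
  exact ⟨h0, evalAt_eq h1⟩

variable {k₀ : Type u} [Field k₀] [Algebra K k₀] {M₀ : Type u} [Field M₀] [Algebra K M₀]
  [Algebra k₀ M₀] [Algebra L M₀] [IsScalarTower K k₀ M₀] [IsScalarTower K L M₀]
  [IsConstExt K k₀ L M₀] [IsAlgClosed k₀] [IsFunctionField k₀ M₀] (S : Specialisation K k k₀)

/-- A function field has a separating element regular at a given place. -/
theorem exists_separating_ordGE (w : Place k₀ M₀) :
    ∃ x : L, Transcendental K x ∧ Algebra.IsSeparable K⟮x⟯ L ∧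
      OrdGE w (algebraMap L M₀ x) 0 := by
  obtain ⟨x₀, hx₀, -, hs₀⟩ := IsFunctionField.exists_separating (K := K) (F := L)
  rcases le_total 0 (w.ord (algebraMap L M₀ x₀)) with h' | h'
  · exact ⟨x₀, hx₀, hs₀, (ordGE_ord w _).mono h'⟩
  · exact ⟨x₀⁻¹, fun halg => hx₀ (by simpa using halg.inv), by rw [adjoin_inv_eq]; exact hs₀,
      (ordGE_ord w _).mono (by rw [map_inv₀, w.ord_inv]; omega)⟩

/-- Reducing then evaluating and evaluating then reducing agree on a chart ring regular at `w`. -/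
theorem chartRing_comp_agree (Q : Place k M) (w : Place k₀ M₀)
    (hQ : ∀ l : L, OrdGE w (algebraMap L M₀ l) 0 → OrdGE Q (algebraMap L M l) 0 ∧
      ∃ h : evalAt Q (algebraMap L M l) ∈ S.ring.1,
        S.red ⟨_, h⟩ = evalAt w (algebraMap L M₀ l))
    {x : L} (hxw : OrdGE w (algebraMap L M₀ x) 0) :
    chartRing M S.ring x ≤ ((placeSpec (K := K) Q).comp S).ring.1.toSubring ∧
    chartRing M S.ring x ≤ ((S.gauss L M M₀).comp (placeSpec (K := K) w)).ring.1.toSubring ∧
    ∀ z ∈ chartRing M S.ring x, ∀ (a : z ∈ ((placeSpec (K := K) Q).comp S).ring.1)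
      (b : z ∈ ((S.gauss L M M₀).comp (placeSpec (K := K) w)).ring.1),
      ((placeSpec (K := K) Q).comp S).red ⟨z, a⟩ =
        ((S.gauss L M M₀).comp (placeSpec (K := K) w)).red ⟨z, b⟩ := by
  set 𝔤 := S.gauss L M M₀
  let C₁ := (placeSpec (K := K) Q).comp S
  let C₂ := 𝔤.comp (placeSpec (K := K) w)
  have hC₂ : ∀ f ∈ intClosure K x, algebraMap L M f ∈ C₂.ring.1 := fun f hf => by
    have hg : algebraMap L M f ∈ 𝔤.ring.1 :=
      S.chartRing_le_gauss x (algebraMap_mem_chartRing hf)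
    refine 𝔤.mem_compVal.mpr ⟨hg, ?_⟩
    rw [S.gauss_red_algebraMap' f hg]
    exact chartRing_le_place (O := topVal K k₀) hxw (algebraMap_mem_chartRing hf)
  have hwf : ∀ f ∈ intClosure K x, OrdGE w (algebraMap L M₀ f) 0 := fun f hf => by
    exact (mem_iff_ordGE w).mp
      (chartRing_le_place (O := topVal K k₀) hxw (algebraMap_mem_chartRing hf))
  have hle₁ : chartRing M S.ring x ≤ C₁.ring.1.toSubring := by
    refine chartRing_le (fun b hb => ?_) fun f hf => ?_
    · refine (placeSpec (K := K) Q).mem_compVal.mpr ⟨Q.algebraMap_mem' b, ?_⟩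
      rw [placeSpec_red, evalAt_algebraMap]
      exact hb
    · obtain ⟨h1, h2, -⟩ := hQ f (hwf f hf)
      exact (placeSpec (K := K) Q).mem_compVal.mpr ⟨(mem_iff_ordGE Q).mpr h1, h2⟩
  have hle₂ : chartRing M S.ring x ≤ C₂.ring.1.toSubring := by
    refine chartRing_le (fun b hb => ?_) hC₂
    refine 𝔤.mem_compVal.mpr ⟨S.algebraMap_mem_gaussVal.mpr hb, ?_⟩
    rw [show (𝔤.red ⟨algebraMap k M b, _⟩) = algebraMap k₀ M₀ (S.red ⟨b, hb⟩) from
      S.gauss_red_algebraMap hb]
    exact w.algebraMap_mem' _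
  -- the two reductions agree on generators, hence on the chart ring
  have hgen :
    ∀ g ∈ algebraMap k M '' (S.ring.1 : Set k) ∪ algebraMap L M '' (intClosure K x : Set L),
      ∀ (a : g ∈ C₁.ring.1) (b : g ∈ C₂.ring.1), C₁.red ⟨g, a⟩ = C₂.red ⟨g, b⟩ := by
    rintro _ (⟨b, hb, rfl⟩ | ⟨f, hf, rfl⟩) ha hb'
    · obtain ⟨a1, a2⟩ := (placeSpec (K := K) Q).mem_compVal.mp ha
      obtain ⟨b1, b2⟩ := 𝔤.mem_compVal.mp hb'
      rw [Specialisation.comp_red _ _ ha a1 a2, Specialisation.comp_red _ _ hb' b1 b2]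
      exact (congrArg S.red (Subtype.ext (show evalAt Q (algebraMap k M b) = b from
        evalAt_algebraMap Q b))).trans ((evalAt_algebraMap w (S.red ⟨b, hb⟩)).symm.trans
          (congrArg (evalAt w) (S.gauss_red_algebraMap hb).symm))
    · obtain ⟨a1, a2⟩ := (placeSpec (K := K) Q).mem_compVal.mp ha
      obtain ⟨b1, b2⟩ := 𝔤.mem_compVal.mp hb'
      rw [Specialisation.comp_red _ _ ha a1 a2, Specialisation.comp_red _ _ hb' b1 b2]
      exact (hQ f (hwf f hf)).2.choose_spec.trans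
        (congrArg (evalAt w) (S.gauss_red_algebraMap' f b1).symm)
  exact ⟨hle₁, hle₂, fun z hz a b => red_eq_of_closure hle₁ hle₂ hgen hz a b⟩

/-- **A zero specialises to a zero.** A section of a divisor vanishing at a place gives, after
specialisation, one vanishing at the specialised place. -/
theorem one_le_ell_sub_single {E : VDiv K M} {E₀ : VDiv K M₀} (hE : LocallyEq k L E)
    (hE₀ : LocallyEq k₀ L E₀) (hS : SpecialisesTo (S.gauss L M M₀) E E₀)
    (Q : Place k M) (w : Place k₀ M₀)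
    (hQ : ∀ l : L, OrdGE w (algebraMap L M₀ l) 0 → OrdGE Q (algebraMap L M l) 0 ∧
      ∃ h : evalAt Q (algebraMap L M l) ∈ S.ring.1,
        S.red ⟨_, h⟩ = evalAt w (algebraMap L M₀ l))
    (hF : 1 ≤ ell (divV hE - Finsupp.single Q 1)) :
    1 ≤ ell (divV hE₀ - Finsupp.single w 1) := by
  classical
  obtain ⟨h, hh, hw⟩ := hS
  set 𝔤 := S.gauss L M M₀
  obtain ⟨F₁, hF₁, hF₁0⟩ : ∃ F ∈ riemannRochSpace (divV hE - Finsupp.single Q 1), F ≠ 0 := by
    refine Submodule.exists_mem_ne_zero_of_ne_bot fun h0 => ?_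
    rw [ell, h0, finrank_bot] at hF
    omega
  -- scale the section `F` so that `F h` is a Gauss unit
  obtain ⟨a, ha⟩ := S.exists_const_mul_unit (L := L) (M := M) (M₀ := M₀) (Units.mk0 F₁ hF₁0 * h)
  set F : M := (a : k)⁻¹ • F₁
  have hFQ : F ∈ riemannRochSpace (divV hE - Finsupp.single Q 1) := Submodule.smul_mem _ _ hF₁
  have hFL : F ∈ Lsp k E := by
    rw [Lsp_eq hE]
    refine riemannRochSpace_mono ?_ hFQ
    exact sub_le_self _ (by simp)
  have hFe : F * h = ((Units.mk0 F₁ hF₁0 * h *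
      (Units.map (algebraMap k M).toMonoidHom a)⁻¹ : Mˣ) : M) := by
    simp only [F, Algebra.smul_def, Units.val_mul, Units.val_mk0, Units.val_inv_eq_inv_val,
      map_inv₀]
    change _ = _ * _ * (algebraMap k M a)⁻¹
    ring
  have hua := mem_unitGroup_iff'.mp ha
  have hFS : F * h ∈ 𝔤.ring.1 := hFe ▸ hua.1
  have hEff : EffAt E 𝔤.ring F := (effAt_iff hh).mpr hFS
  have hred0 : 𝔤.red ⟨_, hFS⟩ ≠ 0 := 𝔤.red_ne_zero_of_inv_mem hFS
    (by rw [hFe, ← Units.val_inv_eq_inv_val]; exact hua.2) (by rw [hFe]; exact Units.ne_zero _)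
  -- a chart at `w`, with local equation `e`: `s ^ N F e` vanishes at `Q`
  obtain ⟨x, hx, hsep, hxw⟩ := exists_separating_ordGE (K := K) (L := L) w
  let C₁ := (placeSpec (K := K) Q).comp S
  let C₂ := 𝔤.comp (placeSpec (K := K) w)
  obtain ⟨hle₁, hle₂, hagree⟩ := chartRing_comp_agree S Q w hQ hxw
  obtain ⟨s, hs, hs0, hsu, e, he⟩ := hE S.ring x hx hsep C₂.ring hle₂
  have hs1 : s⁻¹ ∈ C₁.ring.1 := by
    by_contra h
    exact C₂.red_ne_zero_of_inv_mem (hle₂ hs) hsu hs0
      ((hagree s hs (hle₁ hs) (hle₂ hs)).symm.trans (C₁.red_eq_zero_of_inv_notMem _ h))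
  obtain ⟨N, hN⟩ := exists_pow_mul_mem_chartRing S hFL hEff hx hsep hs hs0
    (𝔤.compVal_le _ hsu) he
  have hQe : OrdGE Q (F * e) 1 := by
    have h1 := mem_riemannRochSpace.mp hFQ Q
    rw [Finsupp.sub_apply, divV_apply, Finsupp.single_eq_same, ordV_eq (e := e)
      (he _ (fun z hz => (placeSpec (K := K) Q).compVal_le _ (hle₁ hz))
        ((placeSpec (K := K) Q).compVal_le _ hs1))] at h1
    exact (h1.mul (ordGE_ord Q (e : M))).mono (by omega)
  obtain ⟨a1, a2⟩ := (placeSpec (K := K) Q).mem_compVal.mp (hle₁ hN)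
  have hz0 : C₁.red ⟨_, hle₁ hN⟩ = 0 := by
    have hsQ : OrdGE Q s 0 :=
      (mem_iff_ordGE Q).mp ((placeSpec (K := K) Q).compVal_le _ (hle₁ hs))
    have h1 : OrdGE Q (s ^ N * (F * e)) 1 := ((hsQ.pow N).mul hQe).mono (by omega)
    rw [Specialisation.comp_red _ _ (hle₁ hN) a1 a2, ← map_zero S.red]
    exact congrArg S.red (Subtype.ext ((evalAt_eq_zero_iff (h1.mono zero_le_one)).mpr h1))
  -- hence its reduction vanishes at `w`
  rw [hagree _ hN (hle₁ hN) (hle₂ hN)] at hz0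
  obtain ⟨hzg, hzw⟩ := 𝔤.mem_compVal.mp (hle₂ hN)
  rw [Specialisation.comp_red _ _ (hle₂ hN) hzg hzw] at hz0
  have hzw1 : OrdGE w (𝔤.red ⟨_, hzg⟩) 1 :=
    (evalAt_eq_zero_iff ((mem_iff_ordGE w).mp hzw)).mp hz0
  obtain ⟨x', hx'1, hx'2⟩ := hw (placeVal w)
  obtain ⟨hη, -⟩ := mem_unitGroup_iff'.mp (QuotientGroup.eq.mp ((he _ hle₂ hsu).symm.trans hx'1))
  obtain ⟨hηg, hηw⟩ := 𝔤.mem_compVal.mp hη
  obtain ⟨hsg, hsw⟩ := 𝔤.mem_compVal.mp hsu
  -- so `red (F h)` is a nonzero section of `divV hE₀ - w`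
  refine Nat.one_le_iff_ne_zero.mpr fun h0 => hred0 ?_
  have hbot : riemannRochSpace (divV hE₀ - Finsupp.single w 1) = ⊥ :=
    Submodule.finrank_eq_zero.mp h0
  have hmem := red_mem_Lsp S hE hh hw hFL hFS
  rw [Lsp_eq hE₀] at hmem
  rw [← Submodule.mem_bot k₀, ← hbot, mem_riemannRochSpace]
  intro v
  rcases eq_or_ne v w with rfl | hv
  · rw [Finsupp.sub_apply, divV_apply, Finsupp.single_eq_same, ordV_eq hx'2]
    have key : 𝔤.red ⟨_, hFS⟩ * ((Units.map 𝔤.red.toMonoidHom x' : M₀ˣ) : M₀) =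
        𝔤.red ⟨_, hzg⟩ * 𝔤.red ⟨_, hsg⟩ ^ N * 𝔤.red ⟨_, hηg⟩ := by
      rw [← map_pow, ← map_mul, ← map_mul]
      change 𝔤.red ⟨_, hFS⟩ * 𝔤.red (x' : 𝔤.ring.1) = _
      rw [← map_mul]
      refine congrArg 𝔤.red (Subtype.ext ?_)
      change F * h * ((x' : 𝔤.ring.1) : M) = s ^ N * (F * e) * s⁻¹ ^ N *
        ((e⁻¹ * (Units.map 𝔤.ring.1.subtype.toMonoidHom x' * h) : Mˣ) : M)
      rw [Units.val_mul, Units.val_mul, Units.val_inv_eq_inv_val, inv_pow]
      change _ = _ * ((e : M)⁻¹ * (((x' : 𝔤.ring.1) : M) * h))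
      field_simp
    have h1 : OrdGE v (𝔤.red ⟨_, hFS⟩ * ((Units.map 𝔤.red.toMonoidHom x' : M₀ˣ) : M₀)) 1 := by
      rw [key]
      exact ((hzw1.mul (((mem_iff_ordGE v).mp hsw).pow N)).mul ((mem_iff_ordGE v).mp hηw)).mono
        (by omega)
    have := h1.mul (ordGE_ord v ((Units.map 𝔤.red.toMonoidHom x' : M₀ˣ) : M₀)⁻¹)
    rw [mul_inv_cancel_right₀ (Units.ne_zero _), v.ord_inv] at this
    exact this.mono (by omega)
  · simpa [Finsupp.single_eq_of_ne hv] using mem_riemannRochSpace.mp hmem v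

end Fermat.AV

end
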