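import Mathlib.AlgebraicGeometry.Morphisms.FormallyUnramified
import Mathlib.RingTheory.Spectrum.Prime.RingHom
import Fermat.Prelude.Def_GoodReductionJacobian_RelativeGroupLawKernel

/-!
# Multiplication by `n` on a commutative group scheme is unramified

Points that are the identity modulo a square zero ideal are described by ring maps out of an affine
neighbourhood of the identity; their product is the sum, by functoriality in the ring of triples
`(k, a, b)` with `a` and `b` congruent to `k`.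
-/

set_option autoImplicit false

noncomputable section

universe u

open CategoryTheory CategoryTheory.Limits AlgebraicGeometry NeronModelInfra GoodReductionJacobian

namespace Fermat.AV

variable {K : Type u} [Field K] {A : Scheme.{u}} {f : A ⟶ Spec (CommRingCat.of K)}
  (L : RelativeGroupLaw K f)

/-- The identity over a base is the identity section pulled back. -/
theorem one_val {T : Scheme.{u}} (t : T ⟶ Spec (CommRingCat.of K)) :
    (L.one t).1 = t ≫ (L.one (𝟙 (Spec (CommRingCat.of K)))).1 :=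
  (congrArg Subtype.val (L.one_natural (𝟙 _) t t (Category.comp_id t))).symm

section Lift

/-- A surjection with kernel in the nilradical is surjective on spectra. -/
theorem surjective_SpecMap {R S : CommRingCat.{u}} (φ : R ⟶ S) (hφ : Function.Surjective φ)
    (hker : RingHom.ker φ.hom ≤ nilradical R) : Function.Surjective (Spec.map φ) := fun x => by
  let x' : PrimeSpectrum R := x
  have hx : x' ∈ Set.range (PrimeSpectrum.comap φ.hom) := by
    rw [range_comap_of_surjective _ φ.hom hφ, PrimeSpectrum.mem_zeroLocus]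
    exact hker.trans (nilpotent_le_prime x')
  exact hx
where
  nilpotent_le_prime {R : CommRingCat.{u}} (x : PrimeSpectrum R) : nilradical R ≤ x.asIdeal := by
    intro a ha
    exact Ideal.IsPrime.mem_of_pow_mem x.2 _ ((mem_nilradical.mp ha).choose_spec ▸
      x.asIdeal.zero_mem)

/-- A morphism landing in an affine open after a surjective map factors through it. -/
theorem exists_lift {B R S : CommRingCat.{u}} (j : Spec B ⟶ A) [IsOpenImmersion j] (φ : R ⟶ S)
    (hφ : Function.Surjective (Spec.map φ)) (z : Spec R ⟶ A) (w : B ⟶ S)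
    (h : Spec.map φ ≫ z = Spec.map w ≫ j) :
    ∃ ζ : B ⟶ R, z = Spec.map ζ ≫ j ∧ ζ ≫ φ = w := by
  have hr : Set.range z ⊆ Set.range j := by
    rintro _ ⟨x, rfl⟩
    obtain ⟨y, rfl⟩ := hφ x
    exact ⟨Spec.map w y, by rw [← Scheme.Hom.comp_apply, ← h, Scheme.Hom.comp_apply]⟩
  refine ⟨Spec.preimage (IsOpenImmersion.lift j z hr), ?_, ?_⟩
  · rw [Spec.map_preimage, IsOpenImmersion.lift_fac]
  · rw [← Spec.map_inj, ← cancel_mono j, Spec.map_comp, Category.assoc, Spec.map_preimage,
      IsOpenImmersion.lift_fac, h]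

end Lift

section Triples

variable {R S : CommRingCat.{u}} (τ : CommRingCat.of K ⟶ R) (φ : R ⟶ S)

/-- The triples `(k, a, b)` with `a` and `b` congruent to `k`. -/
def triples : Subring (K × R × R) where
  carrier := {x | φ x.2.1 = φ (τ x.1) ∧ φ x.2.2 = φ (τ x.1)}
  one_mem' := ⟨by simp, by simp⟩
  zero_mem' := ⟨by simp, by simp⟩
  mul_mem' := fun {x y} hx hy => ⟨by simp [hx.1, hy.1], by simp [hx.2, hy.2]⟩
  add_mem' := fun {x y} hx hy => ⟨by simp [hx.1, hy.1], by simp [hx.2, hy.2]⟩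
  neg_mem' := fun {x} hx => ⟨by simp [hx.1], by simp [hx.2]⟩

/-- The triples `(k, a, b)` with `a` and `b` congruent to `k`, as a commutative ring. -/
abbrev triR : CommRingCat.{u} := CommRingCat.of (triples τ φ)

/-- The structure map `k ↦ (k, k, k)` into the triples. -/
def triBase : CommRingCat.of K ⟶ triR τ φ :=
  CommRingCat.ofHom (((RingHom.id K).prod (τ.hom.prod τ.hom)).codRestrict (triples τ φ)
    fun _ => ⟨rfl, rfl⟩)

/-- The projection of a triple `(k, a, b)` to `k`. -/
def triK : triR τ φ ⟶ CommRingCat.of K :=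
  CommRingCat.ofHom ((RingHom.fst K (R × R)).comp (triples τ φ).subtype)

/-- The projection of a triple `(k, a, b)` to `a`. -/
def triL : triR τ φ ⟶ R :=
  CommRingCat.ofHom (((RingHom.fst R R).comp (RingHom.snd K (R × R))).comp (triples τ φ).subtype)

/-- The projection of a triple `(k, a, b)` to `b`. -/
def triM : triR τ φ ⟶ R :=
  CommRingCat.ofHom (((RingHom.snd R R).comp (RingHom.snd K (R × R))).comp (triples τ φ).subtype)

variable (h2 : ∀ a b : R, φ a = 0 → φ b = 0 → a * b = 0)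

/-- The sum `(k, a, b) ↦ a + b - k` of a triple. -/
def triS : triR τ φ ⟶ R :=
  CommRingCat.ofHom
    { toFun := fun x => x.1.2.1 + x.1.2.2 - τ x.1.1
      map_one' := by simp
      map_zero' := by simp
      map_add' := fun x y => by simp; ring
      map_mul' := fun x y => by
        obtain ⟨⟨k, a, b⟩, ha, hb⟩ := x
        obtain ⟨⟨l, c, d⟩, hc, hd⟩ := y
        have h0 : ∀ {u v : R}, φ u = φ v → φ (u - v) = 0 := fun h => by rw [map_sub, h, sub_self]
        have h1 := h2 (a - τ k) (d - τ l) (h0 ha) (h0 hd)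
        have h3 := h2 (b - τ k) (c - τ l) (h0 hb) (h0 hc)
        simp only [Subring.coe_mul, Prod.fst_mul, Prod.snd_mul, map_mul]
        linear_combination -h1 - h3 }

/-- The base followed by the first projection is the identity. -/
theorem triBase_triK : triBase τ φ ≫ triK τ φ = 𝟙 _ := rfl

/-- The base followed by the second projection is `τ`. -/
theorem triBase_triL : triBase τ φ ≫ triL τ φ = τ := rfl

/-- The base followed by the third projection is `τ`. -/
theorem triBase_triM : triBase τ φ ≫ triM τ φ = τ := rfl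

/-- The base followed by the sum is `τ`. -/
theorem triBase_triS : triBase τ φ ≫ triS τ φ h2 = τ := by
  ext k
  change τ k + τ k - τ k = τ k
  rw [add_sub_cancel_right]

include h2 in
/-- The base maps onto the spectrum of the triples, a nilpotent thickening of it. -/
theorem surjective_triK : Function.Surjective (Spec.map (triK τ φ)) := by
  refine surjective_SpecMap _ (fun k => ⟨triBase τ φ k, rfl⟩) fun x hx => ?_
  obtain ⟨⟨k, a, b⟩, ha, hb⟩ := x
  replace hx : k = 0 := hx
  subst hx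
  simp only [map_zero] at ha hb
  exact ⟨2, Subtype.ext (by simp [pow_two, h2 a a ha ha, h2 b b hb hb])⟩

/-- A map to the triples is determined by its three components. -/
theorem triR_hom_ext {B : CommRingCat.{u}} {ζ ζ' : B ⟶ triR τ φ}
    (h0 : ζ ≫ triK τ φ = ζ' ≫ triK τ φ) (h1 : ζ ≫ triL τ φ = ζ' ≫ triL τ φ)
    (h3 : ζ ≫ triM τ φ = ζ' ≫ triM τ φ) : ζ = ζ' := by
  ext b
  · exact ConcreteCategory.congr_hom h0 b
  · exact ConcreteCategory.congr_hom h1 b
  · exact ConcreteCategory.congr_hom h3 b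

end Triples

section Kernel

variable {B : CommRingCat.{u}} (j : Spec B ⟶ A) [IsOpenImmersion j] (ε : B ⟶ CommRingCat.of K)
  (hε : Spec.map ε ≫ j = (L.one (𝟙 (Spec (CommRingCat.of K)))).1)

include hε in
omit [IsOpenImmersion j] in
/-- The identity over an affine base is `ε` followed by the chart. -/
theorem one_spec {R : CommRingCat.{u}} (τ : CommRingCat.of K ⟶ R) :
    (L.one (Spec.map τ)).1 = Spec.map (ε ≫ τ) ≫ j := by
  rw [one_val, ← hε, Spec.map_comp, Category.assoc]

include hε in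
/-- **The product of two points that are the identity modulo a square zero ideal is the sum.** -/
theorem exists_mul_eq {R S : CommRingCat.{u}} (τ : CommRingCat.of K ⟶ R) (φ : R ⟶ S)
    (h2 : ∀ a b : R, φ a = 0 → φ b = 0 → a * b = 0) {ζ ζ' : B ⟶ R}
    (hζ : ζ ≫ φ = ε ≫ τ ≫ φ) (hζ' : ζ' ≫ φ = ε ≫ τ ≫ φ)
    {x y : SchemeHomOver (Spec.map τ) f} (hx : x.1 = Spec.map ζ ≫ j)
    (hy : y.1 = Spec.map ζ' ≫ j) :
    ∃ ζ'' : B ⟶ R, ζ'' ≫ φ = ε ≫ τ ≫ φ ∧ (L.mul _ x y).1 = Spec.map ζ'' ≫ j ∧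
      ∀ b, ζ'' b = ζ b + ζ' b - τ (ε b) := by
  let e := ε ≫ τ
  have hc : ∀ {z : B ⟶ R}, z ≫ φ = ε ≫ τ ≫ φ → ∀ b, φ (z b) = φ (τ (ε b)) := fun h b =>
    ConcreteCategory.congr_hom h b
  -- the maps to the triples
  let mk : ∀ z z' : B ⟶ R, z ≫ φ = ε ≫ τ ≫ φ → z' ≫ φ = ε ≫ τ ≫ φ → (B ⟶ triR τ φ) :=
    fun z z' h h' => CommRingCat.ofHom
      ((ε.hom.prod (z.hom.prod z'.hom)).codRestrict (triples τ φ) fun b => ⟨hc h b, hc h' b⟩)
  have he : e ≫ φ = ε ≫ τ ≫ φ := Category.assoc _ _ _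
  have hβ : ∀ {z : B ⟶ R} {q : SchemeHomOver (Spec.map τ) f}, q.1 = Spec.map z ≫ j →
      Spec.map z ≫ j ≫ f = Spec.map τ := fun {z q} hq => by rw [← Category.assoc, ← hq]; exact q.2
  have hone := one_spec L j ε hε τ
  -- the structure map of the neighbourhood
  set β := Spec.preimage (j ≫ f)
  have hβ' : ∀ {R' : CommRingCat.{u}} (w : B ⟶ R') (τ' : CommRingCat.of K ⟶ R'),
      Spec.map w ≫ j ≫ f = Spec.map τ' ↔ β ≫ w = τ' := fun w τ' => by
    rw [← Spec.map_inj, Spec.map_comp, Spec.map_preimage]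
  have h0 : β ≫ ε = 𝟙 _ := (hβ' ε (𝟙 _)).mp (by
    rw [← Category.assoc, hε, Spec.map_id]; exact (L.one _).2)
  have h1 : ∀ {z z' : B ⟶ R} (h : z ≫ φ = ε ≫ τ ≫ φ) (h' : z' ≫ φ = ε ≫ τ ≫ φ),
      β ≫ z = τ → β ≫ z' = τ →
      (Spec.map (mk z z' h h') ≫ j) ≫ f = Spec.map (triBase τ φ) := fun h h' e1 e2 => by
    rw [Category.assoc, hβ']
    exact triR_hom_ext τ φ h0 e1 e2
  have b1 : β ≫ ζ = τ := (hβ' _ _).mp (hβ hx)
  have b2 : β ≫ ζ' = τ := (hβ' _ _).mp (hβ hy)
  have b3 : β ≫ e = τ := (hβ' _ _).mp (hβ (q := L.one _) hone)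
  let X : SchemeHomOver (Spec.map (triBase τ φ)) f := ⟨_, h1 hζ he b1 b3⟩
  let Y : SchemeHomOver (Spec.map (triBase τ φ)) f := ⟨_, h1 he hζ' b3 b2⟩
  -- naturality
  have push : ∀ {R' : CommRingCat.{u}} (ψ : triR τ φ ⟶ R') (τ' : CommRingCat.of K ⟶ R')
      (h : triBase τ φ ≫ ψ = τ') (p q : SchemeHomOver (Spec.map τ') f),
      Spec.map ψ ≫ X.1 = p.1 → Spec.map ψ ≫ Y.1 = q.1 →
      Spec.map ψ ≫ (L.mul _ X Y).1 = (L.mul _ p q).1 := fun ψ τ' h p q hp hq => by
    have hψ : Spec.map ψ ≫ Spec.map (triBase τ φ) = Spec.map τ' := by rw [← Spec.map_comp, h]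
    rw [← schemeHomOverComp_coe (Spec.map ψ) hψ, L.mul_natural _ _ _ hψ]
    exact congrArg Subtype.val (congrArg₂ _ (Subtype.ext hp) (Subtype.ext hq))
  have pushK : Spec.map (triK τ φ) ≫ (L.mul _ X Y).1 = Spec.map ε ≫ j := by
    rw [push _ (𝟙 _) (triBase_triK τ φ) (L.one _) (L.one _)
      (by rw [one_spec L j ε hε, Category.comp_id, ← Category.assoc, ← Spec.map_comp]; rfl)
      (by rw [one_spec L j ε hε, Category.comp_id, ← Category.assoc, ← Spec.map_comp]; rfl),
      L.one_mul, one_spec L j ε hε, Category.comp_id]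
  have pushL : Spec.map (triL τ φ) ≫ (L.mul _ X Y).1 = Spec.map ζ ≫ j := by
    rw [push _ τ (triBase_triL τ φ) x (L.one _)
      (by rw [hx, ← Category.assoc, ← Spec.map_comp]; rfl)
      (by rw [hone, ← Category.assoc, ← Spec.map_comp]; rfl), L.mul_one, hx]
  have pushM : Spec.map (triM τ φ) ≫ (L.mul _ X Y).1 = Spec.map ζ' ≫ j := by
    rw [push _ τ (triBase_triM τ φ) (L.one _) y
      (by rw [hone, ← Category.assoc, ← Spec.map_comp]; rfl)
      (by rw [hy, ← Category.assoc, ← Spec.map_comp]; rfl), L.one_mul, hy]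
  obtain ⟨ω, hω, hωK⟩ := exists_lift j (triK τ φ) (surjective_triK τ φ h2) _ ε pushK
  have hω' : ω = mk ζ ζ' hζ hζ' := triR_hom_ext τ φ hωK
    (Spec.map_inj.mp ((cancel_mono j).mp (by rw [Spec.map_comp, Category.assoc, ← hω, pushL]; rfl)))
    (Spec.map_inj.mp ((cancel_mono j).mp (by rw [Spec.map_comp, Category.assoc, ← hω, pushM]; rfl)))
  subst hω'
  -- push along the sum
  have hX : mk ζ e hζ he ≫ triS τ φ h2 = ζ := by
    ext b
    change ζ b + τ (ε b) - τ (ε b) = ζ b
    rw [add_sub_cancel_right]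
  have hY : mk e ζ' he hζ' ≫ triS τ φ h2 = ζ' := by
    ext b
    change τ (ε b) + ζ' b - τ (ε b) = ζ' b
    rw [add_sub_cancel_left]
  refine ⟨mk ζ ζ' hζ hζ' ≫ triS τ φ h2, ?_, ?_, fun b => rfl⟩
  · ext b
    change φ (ζ b + ζ' b - τ (ε b)) = φ (τ (ε b))
    rw [map_sub, map_add, hc hζ b, hc hζ' b, add_sub_cancel_right]
  · rw [← push _ τ (triBase_triS τ φ h2) x y
      (by rw [hx, ← Category.assoc, ← Spec.map_comp, hX])
      (by rw [hy, ← Category.assoc, ← Spec.map_comp, hY]), hω, ← Category.assoc, ← Spec.map_comp]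

include hε in
/-- Multiples of a point that is the identity modulo a square zero ideal. -/
theorem exists_nsmul_eq {R S : CommRingCat.{u}} (τ : CommRingCat.of K ⟶ R) (φ : R ⟶ S)
    (h2 : ∀ a b : R, φ a = 0 → φ b = 0 → a * b = 0) {ζ : B ⟶ R} (hζ : ζ ≫ φ = ε ≫ τ ≫ φ)
    {x : SchemeHomOver (Spec.map τ) f} (hx : x.1 = Spec.map ζ ≫ j) (n : ℕ) :
    ∃ ζ' : B ⟶ R, ζ' ≫ φ = ε ≫ τ ≫ φ ∧ (L.nsmul _ n x).1 = Spec.map ζ' ≫ j ∧
      ∀ b, ζ' b = τ (ε b) + n * (ζ b - τ (ε b)) := by
  induction n with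
  | zero => exact ⟨ε ≫ τ, Category.assoc _ _ _, one_spec L j ε hε τ, fun b => by simp⟩
  | succ n ih =>
    obtain ⟨z, hz, hzx, hzb⟩ := ih
    obtain ⟨z', hz', hzx', hzb'⟩ := exists_mul_eq L j ε hε τ φ h2 hz hζ hzx hx
    exact ⟨z', hz', hzx', fun b => by rw [hzb', hzb]; push_cast; ring⟩

end Kernel

variable (hc : L.IsCommutative)

/-- The points over a base, as a commutative group. -/
@[reducible]
def pointCommGroup {T : Scheme.{u}} (t : T ⟶ Spec (CommRingCat.of K)) :
    CommGroup (SchemeHomOver t f) :=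
  { L.pointGroup t with mul_comm := fun x y => hc t x y }

/-- Powers in the group of points are multiples for the group law. -/
theorem pointGroup_pow {T : Scheme.{u}} (t : T ⟶ Spec (CommRingCat.of K)) (x : SchemeHomOver t f)
    (n : ℕ) : letI := L.pointGroup t; x ^ n = L.nsmul t n x := by
  let := L.pointGroup t
  induction n with
  | zero => exact pow_zero x
  | succ n ih => rw [pow_succ, ih]; rfl

/-- Composition with multiplication by `n`. -/
theorem comp_schemeNsmul {T : Scheme.{u}} {t : T ⟶ Spec (CommRingCat.of K)}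
    (x : SchemeHomOver t f) (n : ℕ) : x.1 ≫ L.schemeNsmul n = (L.nsmul t n x).1 := by
  have h := L.nsmul_natural f t x.1 x.2 n RelativeGroupLaw.idPoint
  refine (congrArg Subtype.val h).trans ?_
  rw [show schemeHomOverComp x.1 x.2 RelativeGroupLaw.idPoint = x from
    Subtype.ext (Category.comp_id _)]

include hc in
/-- **Multiplication by an integer prime to the characteristic is unramified.** -/
theorem formallyUnramified_schemeNsmul {n : ℕ} (hn : (n : K) ≠ 0) :
    FormallyUnramified (L.schemeNsmul n) := by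
  refine FormallyUnramified.of_hom_ext _ fun R S φ hφ hI g₁ g₂ hg hgn => ?_
  set τ := Spec.preimage (g₁ ≫ f)
  have ht1 : g₁ ≫ f = Spec.map τ := (Spec.map_preimage _).symm
  have ht2 : g₂ ≫ f = Spec.map τ := by
    rw [← ht1, ← L.schemeNsmul_over n, ← Category.assoc, ← hgn, Category.assoc]
  let x₁ : SchemeHomOver (Spec.map τ) f := ⟨g₁, ht1⟩
  let x₂ : SchemeHomOver (Spec.map τ) f := ⟨g₂, ht2⟩
  let := pointCommGroup L hc (Spec.map τ)
  let := pointCommGroup L hc (Spec.map (τ ≫ φ))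
  have hpow : (x₁ / x₂) ^ n = 1 := by
    have e : x₁ ^ n = x₂ ^ n := by
      apply Subtype.ext
      rw [pointGroup_pow, pointGroup_pow, ← comp_schemeNsmul, ← comp_schemeNsmul]
      exact hgn
    rw [div_pow, e, div_self']
  set z := x₁ / x₂
  -- the difference is the identity modulo the ideal
  have hzφ : Spec.map φ ≫ z.1 = (L.one (Spec.map (τ ≫ φ))).1 := by
    have hψ : Spec.map φ ≫ Spec.map τ = Spec.map (τ ≫ φ) := (Spec.map_comp τ φ).symm
    let Φ : SchemeHomOver (Spec.map τ) f →* SchemeHomOver (Spec.map (τ ≫ φ)) f :=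
      MonoidHom.mk' (schemeHomOverComp (Spec.map φ) hψ) fun a b => L.mul_natural _ _ _ hψ a b
    have e : Φ x₁ = Φ x₂ := Subtype.ext hg
    change (Φ z).1 = _
    rw [map_div, e, div_self']
    rfl
  -- an affine neighbourhood of the identity
  obtain ⟨B, j, hj, y, hy⟩ := A.exists_Spec_apply_eq
    ((L.one (𝟙 (Spec (CommRingCat.of K)))).1 (IsLocalRing.closedPoint K))
  have := hj
  have hr : Set.range (L.one (𝟙 (Spec (CommRingCat.of K)))).1 ⊆ Set.range j := by
    rintro _ ⟨a, rfl⟩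
    exact ⟨y, by rw [Subsingleton.elim a (IsLocalRing.closedPoint K)]; exact hy⟩
  set ε := Spec.preimage (IsOpenImmersion.lift j _ hr)
  have hε : Spec.map ε ≫ j = (L.one (𝟙 (Spec (CommRingCat.of K)))).1 := by
    rw [Spec.map_preimage, IsOpenImmersion.lift_fac]
  have hker : RingHom.ker φ.hom ≤ nilradical R := fun a ha => ⟨2, by
    have := Ideal.pow_mem_pow ha 2
    rwa [hI, Ideal.mem_bot] at this⟩
  have h2 : ∀ a b : R, φ a = 0 → φ b = 0 → a * b = 0 := fun a b ha hb => by
    have := Ideal.mul_mem_mul (I := RingHom.ker φ.hom) (J := RingHom.ker φ.hom) ha hb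
    rwa [← pow_two, hI, Ideal.mem_bot] at this
  obtain ⟨ζ, hζ, hζφ⟩ := exists_lift j φ (surjective_SpecMap φ hφ hker) z.1 (ε ≫ τ ≫ φ)
    (by rw [hzφ, one_spec L j ε hε])
  obtain ⟨ζ', -, hζ', hb⟩ := exists_nsmul_eq L j ε hε τ φ h2 hζφ hζ n
  rw [← pointGroup_pow, hpow] at hζ'
  have hζe : ζ' = ε ≫ τ :=
    Spec.map_inj.mp ((cancel_mono j).mp (hζ'.symm.trans (one_spec L j ε hε τ)))
  have hu : IsUnit (n : R) := by
    rw [← map_natCast τ.hom n]
    exact (Ne.isUnit hn).map τ.hom
  have hz1 : z = 1 := Subtype.ext (by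
    rw [hζ]
    refine Eq.trans ?_ (one_spec L j ε hε τ).symm
    refine congrArg (Spec.map · ≫ j) ?_
    ext b
    have := hb b
    rw [hζe, CommRingCat.comp_apply, left_eq_add, hu.mul_right_eq_zero, sub_eq_zero] at this
    exact this)
  exact congrArg Subtype.val (div_eq_one.mp hz1)

end Fermat.AV

end
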