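import Fermat.Agent.AV.PointClass
import Fermat.Agent.AV.Infinitesimal

/-!
# Points with values in fields as groups, and the second and third differences of their divisors

`diff3_map` and `diff3_specialisesTo`: the third difference commutes with field maps and
specialisation, the formal part of the theorem of the cube (`CurveCube`, `Curves`).
-/

set_option autoImplicit false

noncomputable section

universe u

open CategoryTheory AlgebraicGeometry NeronModelInfra GoodReductionJacobian

namespace Fermat.AV

variable {K : Type u} [Field K] {A : Scheme.{u}} {f : A ⟶ Spec (CommRingCat.of K)}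
  (L : RelativeGroupLaw K f) (hc : L.IsCommutative)

/-- The points with values in an algebra, as a commutative group. -/
@[reducible]
def ptGroup (M : Type u) [CommRing M] [Algebra K M] : CommGroup (Pt f M) :=
  pointCommGroup L hc (specOf (K := K) M)

/-- The map of groups of points along a map of algebras. -/
def Pt.mapHom {M M' : Type u} [CommRing M] [Algebra K M] [CommRing M'] [Algebra K M']
    (φ : M →ₐ[K] M') :
    letI := ptGroup L hc M; letI := ptGroup L hc M'
    Pt f M →* Pt f M' :=
  letI := ptGroup L hc M; letI := ptGroup L hc M'
  MonoidHom.mk' (Pt.map φ) fun a b => by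
    have hψ : Spec.map (CommRingCat.ofHom φ.toRingHom) ≫ specOf (K := K) M =
        specOf (K := K) M' := by
      rw [← Spec.map_comp]
      exact congrArg Spec.map (CommRingCat.hom_ext φ.comp_algebraMap)
    exact L.mul_natural _ _ _ hψ a b

/-- The map of groups of points is the image of points. -/
theorem Pt.mapHom_apply {M M' : Type u} [CommRing M] [Algebra K M] [CommRing M'] [Algebra K M']
    (φ : M →ₐ[K] M') (p : Pt f M) :
    letI := ptGroup L hc M; letI := ptGroup L hc M'
    Pt.mapHom L hc φ p = p.map φ := rfl

/-- Images of points compose. -/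
theorem Pt.map_map {M M' M'' : Type u} [CommRing M] [Algebra K M] [CommRing M'] [Algebra K M']
    [CommRing M''] [Algebra K M''] (φ : M →ₐ[K] M') (ψ : M' →ₐ[K] M'') (p : Pt f M) :
    (p.map φ).map ψ = p.map (ψ.comp φ) :=
  Subtype.ext (by
    change Spec.map _ ≫ Spec.map _ ≫ p.1 = Spec.map _ ≫ p.1
    rw [← Category.assoc, ← Spec.map_comp]
    rfl)

variable [IsProper f] {M : Type u} [Field M] [Algebra K M] {M₀ : Type u} [Field M₀] [Algebra K M₀]
  (S : Specialisation K M M₀)

/-- Specialisation of points is a homomorphism. -/
def Pt.specialiseHom :
    letI := ptGroup L hc M; letI := ptGroup L hc M₀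
    Pt f M →* Pt f M₀ :=
  letI := ptGroup L hc M; letI := ptGroup L hc M₀
  MonoidHom.mk' (Pt.specialise S) fun a b => by
    set t := Spec.map (CommRingCat.ofHom (valStr S.ring))
    let la : SchemeHomOver t f := ⟨valLift S.ring a, valLift_over _ _⟩
    let lb : SchemeHomOver t f := ⟨valLift S.ring b, valLift_over _ _⟩
    have hg : Spec.map (CommRingCat.ofHom S.ring.1.subtype) ≫ t = specOf (K := K) M := by
      rw [← Spec.map_comp]; rfl
    have hr : Spec.map (CommRingCat.ofHom S.red) ≫ t = specOf (K := K) M₀ := by
      rw [← Spec.map_comp]
      exact congrArg Spec.map (CommRingCat.hom_ext (RingHom.ext fun c => S.red_algebraMap c))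
    have h : (L.mul t la lb).1 = valLift S.ring (a * b) := by
      refine eq_valLift ?_ (L.mul t la lb).2
      rw [← schemeHomOverComp_coe _ hg, L.mul_natural _ _ _ hg]
      exact congrArg Subtype.val (congrArg₂ (L.mul _) (Subtype.ext (valLift_gen _ a))
        (Subtype.ext (valLift_gen _ b)))
    refine Subtype.ext ?_
    change Spec.map _ ≫ valLift S.ring (a * b) = _
    rw [← h]
    exact congrArg Subtype.val (L.mul_natural _ _ _ hr la lb)

section Difference

variable [IsIntegral A] (D : CDiv A)

/-- The second difference of the divisor at `z` in the directions `y`, `w`. -/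
def diff2 (z y w : Pt f M) : VDiv K M :=
  letI := ptGroup L hc M
  ptClass D (z * y * w) * ptClass D z / (ptClass D (z * y) * ptClass D (z * w))

/-- The third difference at the origin. -/
def diff3 (x y w : Pt f M) : VDiv K M :=
  letI := ptGroup L hc M
  diff2 L hc D x y w / diff2 L hc D 1 y w

/-- The second difference commutes with field maps. -/
theorem diff2_map {M' : Type u} [Field M'] [Algebra K M'] (φ : M →ₐ[K] M') (z y w : Pt f M) :
    diff2 L hc D (z.map φ) (y.map φ) (w.map φ) = VDiv.map φ (diff2 L hc D z y w) := by
  let := ptGroup L hc M; let := ptGroup L hc M'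
  have e : ∀ a b : Pt f M, a.map φ * b.map φ = (a * b).map φ := fun a b =>
    ((Pt.mapHom L hc φ).map_mul a b).symm
  change ptClass D (z.map φ * y.map φ * w.map φ) * ptClass D (z.map φ) /
      (ptClass D (z.map φ * y.map φ) * ptClass D (z.map φ * w.map φ)) =
    VDiv.map φ (ptClass D (z * y * w) * ptClass D z / (ptClass D (z * y) * ptClass D (z * w)))
  rw [e z y, e (z * y) w, e z w]
  simp only [ptClass_map]
  exact ((map_div (VDiv.map φ) _ _).trans
    (congrArg₂ _ (map_mul (VDiv.map φ) _ _) (map_mul (VDiv.map φ) _ _))).symm

/-- The third difference commutes with field maps. -/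
theorem diff3_map {M' : Type u} [Field M'] [Algebra K M'] (φ : M →ₐ[K] M') (x y w : Pt f M) :
    diff3 L hc D (x.map φ) (y.map φ) (w.map φ) = VDiv.map φ (diff3 L hc D x y w) := by
  let := ptGroup L hc M; let := ptGroup L hc M'
  change diff2 L hc D (x.map φ) (y.map φ) (w.map φ) / diff2 L hc D 1 (y.map φ) (w.map φ) =
    VDiv.map φ (diff2 L hc D x y w / diff2 L hc D 1 y w)
  rw [← show (1 : Pt f M).map φ = 1 from (Pt.mapHom L hc φ).map_one, diff2_map, diff2_map]
  exact (map_div (VDiv.map φ) _ _).symm

variable {S}

/-- The second difference specialises to that of the specialised points. -/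
theorem diff2_specialisesTo (z y w : Pt f M) :
    SpecialisesTo S (diff2 L hc D z y w)
      (diff2 L hc D (z.specialise S) (y.specialise S) (w.specialise S)) := by
  let := ptGroup L hc M; let := ptGroup L hc M₀
  have e : ∀ a b : Pt f M, a.specialise S * b.specialise S = (a * b).specialise S := fun a b =>
    ((Pt.specialiseHom L hc S).map_mul a b).symm
  change SpecialisesTo S
    (ptClass D (z * y * w) * ptClass D z / (ptClass D (z * y) * ptClass D (z * w)))
    (ptClass D (z.specialise S * y.specialise S * w.specialise S) * ptClass D (z.specialise S) /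
      (ptClass D (z.specialise S * y.specialise S) * ptClass D (z.specialise S * w.specialise S)))
  rw [e z y, e (z * y) w, e z w]
  exact SpecialisesTo.div ((ptClass_specialisesTo D _).mul (ptClass_specialisesTo D _))
    ((ptClass_specialisesTo D _).mul (ptClass_specialisesTo D _))

/-- The third difference specialises to that of the specialised points. -/
theorem diff3_specialisesTo (x y w : Pt f M) :
    SpecialisesTo S (diff3 L hc D x y w)
      (diff3 L hc D (x.specialise S) (y.specialise S) (w.specialise S)) := by
  let := ptGroup L hc M; let := ptGroup L hc M₀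
  change SpecialisesTo S (diff2 L hc D x y w / diff2 L hc D 1 y w)
    (diff2 L hc D (x.specialise S) (y.specialise S) (w.specialise S) /
      diff2 L hc D 1 (y.specialise S) (w.specialise S))
  have h := diff2_specialisesTo L hc D (S := S) 1 y w
  rw [show (1 : Pt f M).specialise S = 1 from (Pt.specialiseHom L hc S).map_one] at h
  exact SpecialisesTo.div (diff2_specialisesTo L hc D x y w) h

/-- The change of the second difference under a translation. -/
theorem diff2_translate (a z y w : Pt f M) :
    letI := ptGroup L hc M
    diff2 L hc D (a * z) y w / diff2 L hc D z y w =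
      diff3 L hc D a (z * y) w / diff3 L hc D a z w := by
  let := ptGroup L hc M
  simp only [diff3, diff2, one_mul, mul_assoc]
  funext v
  simp only [Pi.div_apply, Pi.mul_apply]
  simp only [div_eq_mul_inv]
  generalize ptClass D (a * (z * (y * w))) v = t1
  generalize ptClass D (a * z) v = t2
  generalize ptClass D (a * (z * y)) v = t3
  generalize ptClass D (a * (z * w)) v = t4
  generalize ptClass D (z * (y * w)) v = t5
  generalize ptClass D z v = t6
  generalize ptClass D (z * y) v = t7
  generalize ptClass D (z * w) v = t8
  generalize ptClass D a v = t9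
  generalize ptClass D (1 : Pt f M) v = t10
  generalize ptClass D w v = t11
  generalize ptClass D (a * w) v = t12
  apply Additive.ofMul.injective
  simp only [ofMul_mul, ofMul_inv]
  abel

end Difference

end Fermat.AV

end
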