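import Fermat.Agent.AV.CurveDiv
import Fermat.Agent.AV.GroupPt
import Mathlib.AlgebraicGeometry.Morphisms.FiniteType

/-!
# Points on the models of a curve with extended constants

The point of a curve, the constant points and their products extend to the models locally, so
their divisors have local equations.
-/

set_option autoImplicit false
set_option linter.unusedSectionVars false

noncomputable section

universe u

open CategoryTheory AlgebraicGeometry IntermediateField GoodReductionJacobian
open AlgebraicCurve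
open Fermat.FF Fermat.JAC

namespace Fermat.AV

variable {K : Type u} [Field K] [IsAlgClosed K] {A : Scheme.{u}}
  {f : A ⟶ Spec (CommRingCat.of K)} [IsProper f]
  {k : Type u} [Field k] [Algebra K k]
  {M : Type u} [Field M] [Algebra K M] [Algebra k M] [IsScalarTower K k M]
  {L : Type u} [Field L] [Algebra K L] [Algebra L M] [IsScalarTower K L M] [IsFunctionField K L]

variable (M) in
/-- A chart with a function inverted. -/
def chartLoc (O : Val K k) (x : L) (s : M) : Subalgebra K M where
  toSubsemiring := (Subring.closure ((chartRing M O x : Set M) ∪ {s⁻¹})).toSubsemiring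
  algebraMap_mem' c := Subring.subset_closure (.inl (by
    rw [IsScalarTower.algebraMap_apply K k M]; exact algebraMap_const_mem_chartRing (O.2 c)))

/-- The chart lies in its localisation. -/
theorem mem_chartLoc_of_mem {O : Val K k} {x : L} {s z : M} (hz : z ∈ chartRing M O x) :
    z ∈ chartLoc M O x s :=
  Subring.subset_closure (.inl hz)

/-- The inverted function has its inverse in the localised chart. -/
theorem inv_mem_chartLoc {O : Val K k} {x : L} {s : M} : s⁻¹ ∈ chartLoc M O x s :=
  Subring.subset_closure (.inr rfl)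

/-- The localised chart is generated by the chart and the inverse. -/
theorem chartLoc_le {O : Val K k} {x : L} {s : M} {R : Subring M}
    (h1 : chartRing M O x ≤ R) (h2 : s⁻¹ ∈ R) {z : M} (hz : z ∈ chartLoc M O x s) : z ∈ R :=
  Subring.closure_le.mpr (Set.union_subset h1 (Set.singleton_subset_iff.mpr h2)) hz

/-- Inverting a multiple gives a larger ring. -/
theorem chartLoc_mono {O : Val K k} {x : L} {s t : M} (hs : s ≠ 0) (ht : t ∈ chartRing M O x)
    (ht0 : t ≠ 0) {z : M} (hz : z ∈ chartLoc M O x s) : z ∈ chartLoc M O x (s * t) :=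
  chartLoc_le (R := (chartLoc M O x (s * t)).toSubring) (fun _ h => mem_chartLoc_of_mem h) (by
    rw [show s⁻¹ = t * (s * t)⁻¹ by field_simp]
    exact (chartLoc M O x (s * t)).mul_mem (mem_chartLoc_of_mem ht) inv_mem_chartLoc) hz

/-- An element of a localised chart ring lands in the chart ring after multiplying by a power of
the denominator. -/
theorem exists_pow_mul_mem {O : Val K k} {x : L} {s z : M} (hs : s ∈ chartRing M O x) (hs0 : s ≠ 0)
    (hz : z ∈ chartLoc M O x s) : ∃ n : ℕ, z * s ^ n ∈ chartRing M O x := by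
  change z ∈ Subring.closure _ at hz
  induction hz using Subring.closure_induction with
  | mem y hy =>
    rcases hy with hy | rfl
    · exact ⟨0, by simpa using hy⟩
    · exact ⟨1, by rw [pow_one, inv_mul_cancel₀ hs0]; exact Subring.one_mem _⟩
  | zero => exact ⟨0, by simp⟩
  | one => exact ⟨0, by simp⟩
  | add a b _ _ ha hb =>
    obtain ⟨m, hm⟩ := ha
    obtain ⟨n, hn⟩ := hb
    refine ⟨m + n, ?_⟩
    rw [show (a + b) * s ^ (m + n) = a * s ^ m * s ^ n + b * s ^ n * s ^ m by ring]
    exact Subring.add_mem _ (Subring.mul_mem _ hm (pow_mem hs n))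
      (Subring.mul_mem _ hn (pow_mem hs m))
  | neg a _ ha =>
    obtain ⟨m, hm⟩ := ha
    exact ⟨m, by rw [neg_mul]; exact Subring.neg_mem _ hm⟩
  | mul a b _ _ ha hb =>
    obtain ⟨m, hm⟩ := ha
    obtain ⟨n, hn⟩ := hb
    refine ⟨m + n, ?_⟩
    rw [show a * b * s ^ (m + n) = a * s ^ m * (b * s ^ n) by ring]
    exact Subring.mul_mem _ hm hn

variable (k L) in
/-- **A point extends locally to all models.** -/
def ModelPt (p : Pt f M) : Prop :=
  ∀ (O : Val K k) (x : L), Transcendental K x → Algebra.IsSeparable K⟮x⟯ L →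
    ∀ u : Val K M, chartRing M O x ≤ u.1.toSubring →
      ∃ s ∈ chartRing M O x, s ≠ 0 ∧ s⁻¹ ∈ u.1 ∧
        ∃ q : Pt f (chartLoc M O x s), q.map (chartLoc M O x s).val = p

/-- The product of two model points is a model point, for a commutative group law. -/
theorem ModelPt.mul (G : RelativeGroupLaw K f) (hc : G.IsCommutative) {p p' : Pt f M}
    (hp : ModelPt k L p) (hp' : ModelPt k L p') :
    letI := ptGroup G hc M
    ModelPt k L (p * p') := by
  let := ptGroup G hc M
  intro O x hx hsep u hu
  obtain ⟨s, hs, hs0, hsu, q, hq⟩ := hp O x hx hsep u hu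
  obtain ⟨t, ht, ht0, htu, q', hq'⟩ := hp' O x hx hsep u hu
  refine ⟨s * t, Subring.mul_mem _ hs ht, mul_ne_zero hs0 ht0,
    by rw [mul_inv]; exact u.1.mul_mem _ _ hsu htu, ?_⟩
  let i : chartLoc M O x s →ₐ[K] chartLoc M O x (s * t) :=
    (chartLoc M O x s).val.codRestrict _ fun z => chartLoc_mono hs0 ht ht0 z.2
  let i' : chartLoc M O x t →ₐ[K] chartLoc M O x (s * t) :=
    (chartLoc M O x t).val.codRestrict _ fun z => mul_comm t s ▸ chartLoc_mono ht0 hs hs0 z.2
  let := ptGroup G hc (chartLoc M O x (s * t))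
  refine ⟨q.map i * q'.map i', ?_⟩
  rw [← Pt.mapHom_apply G hc, map_mul, Pt.mapHom_apply, Pt.mapHom_apply, Pt.map_map, Pt.map_map]
  exact congrArg₂ (· * ·) hq hq'

/-- A constant point extends. -/
theorem modelPt_const (y : Pt f k) : ModelPt k L (y.map (IsScalarTower.toAlgHom K k M)) := by
  intro O x _ _ u _
  refine ⟨1, Subring.one_mem _, one_ne_zero, by rw [inv_one]; exact u.1.one_mem, ?_⟩
  let i : O.1 →ₐ[K] chartLoc M O x 1 :=
    ((IsScalarTower.toAlgHom K k M).comp ⟨O.1.subtype, fun _ => rfl⟩).codRestrict _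
      fun a => mem_chartLoc_of_mem (algebraMap_const_mem_chartRing a.2)
  let q : Pt f O.1 := ⟨valLift O y, valLift_over O y⟩
  refine ⟨q.map i, ?_⟩
  rw [Pt.map_map]
  refine Subtype.ext ?_
  change Spec.map _ ≫ valLift O y = Spec.map _ ≫ y.1
  rw [← valLift_gen O y, ← Category.assoc, ← Spec.map_comp]
  rfl

/-- The point `1` of a commutative group scheme is a model point. -/
theorem modelPt_one (G : RelativeGroupLaw K f) (hc : G.IsCommutative) :
    letI := ptGroup G hc M
    ModelPt k L (1 : Pt f M) := by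
  let := ptGroup G hc k; let := ptGroup G hc M
  have h := modelPt_const (L := L) (M := M) (1 : Pt f k)
  rwa [← Pt.mapHom_apply G hc, map_one] at h

variable [IsAlgClosed k] [IsFunctionField k M] [IsConstExt K k L M]

/-- The point of the curve extends. -/
theorem modelPt_curve (ι : Pt f L) : ModelPt k L (ι.map (IsScalarTower.toAlgHom K L M)) := by
  classical
  intro O x hx hsep u hu
  set v := u.comap (IsScalarTower.toAlgHom K L M)
  have hR : ∀ g ∈ intClosure K x, g ∈ v.1 := fun g hg => hu (algebraMap_mem_chartRing hg)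
  obtain ⟨V, hV, hcV, -⟩ := exists_isAffineOpen_mem_and_subset
    (TopologicalSpace.Opens.mem_top (centre v ι))
  have hrange : ∀ y, valLift v ι y ∈ V := fun y =>
    ((IsLocalRing.specializes_closedPoint y).map (valLift v ι).continuous).mem_open V.isOpen hcV
  have hrange' : Set.range (valLift v ι) ⊆ Set.range hV.fromSpec := by
    rw [hV.range_fromSpec]
    rintro _ ⟨y, rfl⟩
    exact hrange y
  -- at `v`, `ι` extends into an affine open `V`
  let φ : Γ(A, V) ⟶ CommRingCat.of v.1 :=
    Spec.preimage (IsOpenImmersion.lift hV.fromSpec (valLift v ι) hrange')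
  have hφ : Spec.map φ ≫ hV.fromSpec = valLift v ι := by
    rw [Spec.map_preimage, IsOpenImmersion.lift_fac]
  have hft := f.finiteType_appLE (isAffineOpen_top (Spec (CommRingCat.of K))) hV le_top
  obtain ⟨T, hT⟩ := hft
  let val : Γ(A, V) → L := fun b => (φ b).1
  -- a unit `r` at `v` vanishing at the poles of the generators' values
  let B : Finset (Place K L) := (T.biUnion fun b =>
    (finite_setOf_ord_ne_zero (K := K) (val b)).toFinset).filter
      fun Q => OrdGE Q x 0 ∧ ∃ b ∈ T, Q.ord (val b) < 0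
  have hBv : ∀ Q ∈ B, Q.toValuationSubring ≠ v.1 := fun Q hQ h => by
    obtain ⟨-, b, -, hb⟩ := (Finset.mem_filter.mp hQ).2
    exact ((not_mem_iff Q).mpr hb) (h ▸ (φ b).2)
  obtain ⟨r, hr, hr0, hrv, hrB⟩ :=
    exists_unit_vanishing hx hR B (fun Q hQ => (Finset.mem_filter.mp hQ).2.1) hBv
  have hs := algebraMap_mem_chartRing (M := M) (O := O) hr
  set s := algebraMap L M r
  refine ⟨s, hs, (_root_.map_ne_zero _).mpr hr0, by rw [← map_inv₀]; exact hrv, ?_⟩
  set R := chartLoc M O x s
  -- so the generators, hence the point, land in the localised chart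
  have hT' : ∀ b ∈ T, algebraMap L M (val b) ∈ R := by
    intro b hb
    obtain ⟨n, hn⟩ : ∃ n : ℕ, val b * r ^ n ∈ intClosure K x := by
      refine ⟨∑ Q ∈ B, (Q.ord (val b)).natAbs, mem_intClosure_iff.mpr fun Q hQ => ?_⟩
      set n := ∑ Q ∈ B, (Q.ord (val b)).natAbs
      have hrQ := mem_intClosure_iff.mp hr Q hQ
      by_cases hneg : Q.ord (val b) < 0
      · have hQB : Q ∈ B := Finset.mem_filter.mpr
          ⟨Finset.mem_biUnion.mpr ⟨b, hb, by simp; omega⟩, hQ, b, hb, hneg⟩
        have hle : (Q.ord (val b)).natAbs ≤ n :=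
          Finset.single_le_sum (f := fun Q : Place K L => (Q.ord (val b)).natAbs)
            (fun _ _ => Nat.zero_le _) hQB
        have h2 : OrdGE Q (r ^ n) n :=
          (((ordGE_ord Q r).mono (show (1 : ℤ) ≤ Q.ord r by have := hrB Q hQB; omega)).pow n).mono
            (by omega)
        exact ((ordGE_ord Q _).mul h2).mono (by omega)
      · exact ((ordGE_ord Q _).mul (hrQ.pow n)).mono (by omega)
    have e : algebraMap L M (val b) = algebraMap L M (val b * r ^ n) * s⁻¹ ^ n := by
      rw [map_mul, map_pow, inv_pow,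
        mul_inv_cancel_right₀ (pow_ne_zero n ((_root_.map_ne_zero _).mpr hr0))]
    rw [e]
    exact R.mul_mem (mem_chartLoc_of_mem (algebraMap_mem_chartRing hn))
      (R.pow_mem inv_mem_chartLoc n)
  let ψ : Γ(A, V) →+* M := ((algebraMap L M).comp v.1.subtype).comp φ.hom
  set e₀ := (f.appLE ⊤ V le_top).hom
  have hstr : ∀ c : Γ(Spec (CommRingCat.of K), ⊤),
      φ (e₀ c) = valStr v ((Scheme.ΓSpecIso (CommRingCat.of K)).hom c) := by
    intro c
    have h : (Spec.map φ ≫ hV.fromSpec) ≫ f = Spec.map (CommRingCat.ofHom (valStr v)) := by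
      rw [hφ]; exact valLift_over v ι
    rw [Category.assoc, ← IsAffineOpen.SpecMap_appLE_fromSpec f
      (isAffineOpen_top (Spec (CommRingCat.of K))) hV (le_top : V ≤ f ⁻¹ᵁ ⊤),
      ← Category.assoc, ← Spec.map_comp, IsAffineOpen.fromSpec_top] at h
    have h2 : Spec.map (f.appLE ⊤ V le_top ≫ φ) =
        Spec.map ((Scheme.ΓSpecIso (CommRingCat.of K)).hom ≫ CommRingCat.ofHom (valStr v)) := by
      rw [Spec.map_comp ((Scheme.ΓSpecIso (CommRingCat.of K)).hom), ← h, Category.assoc,
        Scheme.isoSpec_Spec_inv, ← Spec.map_comp, Iso.hom_inv_id, Spec.map_id, Category.comp_id]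
    exact ConcreteCategory.congr_hom (Spec.map_injective h2) c
  have hmem : ∀ b, ψ b ∈ R := fun b => by
    let := e₀.toAlgebra
    have hb : b ∈ Algebra.adjoin Γ(Spec (CommRingCat.of K), ⊤) (T : Set Γ(A, V)) := by
      rw [hT]; trivial
    induction hb using Algebra.adjoin_induction with
    | mem y hy => exact hT' y hy
    | algebraMap c =>
      change algebraMap L M (φ (e₀ c)).1 ∈ R
      rw [hstr c]
      change algebraMap L M (algebraMap K L _) ∈ R
      rw [← IsScalarTower.algebraMap_apply]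
      exact R.algebraMap_mem _
    | add y z _ _ hy hz => rw [map_add]; exact R.add_mem hy hz
    | mul y z _ _ hy hz => rw [map_mul]; exact R.mul_mem hy hz
  let ρ : Γ(A, V) ⟶ CommRingCat.of R := CommRingCat.ofHom (ψ.codRestrict R hmem)
  have hgen : Spec.map (CommRingCat.ofHom R.val.toRingHom) ≫ Spec.map ρ ≫ hV.fromSpec =
      Spec.map (CommRingCat.ofHom (algebraMap L M)) ≫ ι.1 := by
    rw [← valLift_gen v ι, ← hφ, ← Category.assoc, ← Category.assoc, ← Category.assoc,
      ← Spec.map_comp, ← Spec.map_comp, ← Spec.map_comp]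
    rfl
  have hover : (Spec.map ρ ≫ hV.fromSpec) ≫ f = specOf (K := K) R := by
    rw [← Spec.map_preimage ((Spec.map ρ ≫ hV.fromSpec) ≫ f)]
    refine congrArg Spec.map (CommRingCat.hom_ext (RingHom.ext fun c => Subtype.ext ?_))
    have h := congrArg (· ≫ f) hgen
    simp only [Category.assoc] at h
    rw [ι.2] at h
    have h' : Spec.map (Spec.preimage ((Spec.map ρ ≫ hV.fromSpec) ≫ f) ≫
        CommRingCat.ofHom R.val.toRingHom) =
        Spec.map (CommRingCat.ofHom (algebraMap K M)) := by
      rw [Spec.map_comp, Spec.map_preimage, Category.assoc, h, ← Spec.map_comp]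
      exact congrArg Spec.map (CommRingCat.hom_ext (IsScalarTower.algebraMap_eq K L M).symm)
    exact ConcreteCategory.congr_hom (Spec.map_injective h') c
  exact ⟨⟨Spec.map ρ ≫ hV.fromSpec, hover⟩, Subtype.ext hgen⟩

variable [IsIntegral A] (D : CDiv A)

/-- **The divisor of a point on the models has local equations.** -/
theorem ModelPt.locallyEq {p : Pt f M} (hp : ModelPt k L p) : LocallyEq k L (ptClass D p) := by
  intro O x hx hsep u hu
  obtain ⟨s, hs, hs0, hsu, hex⟩ := hp O x hx hsep u hu
  set R := chartLoc M O x s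
  obtain ⟨q, hq⟩ := hex
  have hin : ∀ u' : Val K M, chartRing M O x ≤ u'.1.toSubring → s⁻¹ ∈ u'.1 →
      ∀ z ∈ R, z ∈ u'.1 := fun u' h1 h2 z hz => chartLoc_le h1 h2 hz
  let j : ∀ u' : Val K M, (∀ z ∈ R, z ∈ u'.1) → (R →+* u'.1) := fun u' h =>
    R.val.toRingHom.codRestrict u'.1.toSubring fun z => h z z.2
  -- the model point gives the lifts at all valuations above the chart
  have hlift : ∀ u' (h : ∀ z ∈ R, z ∈ u'.1),
      Spec.map (CommRingCat.ofHom (j u' h)) ≫ q.1 = valLift u' p := fun u' h => by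
    refine eq_valLift ?_ ?_
    · rw [← hq, ← Category.assoc, ← Spec.map_comp]
      rfl
    · rw [Category.assoc, q.2, ← Spec.map_comp]
      rfl
  have hR := hin u hu hsu
  set c := centre u p
  obtain ⟨U, hU, hU'⟩ := D.spread c
  set 𝔮 := (Spec.map (CommRingCat.ofHom (j u hR))) (IsLocalRing.closedPoint u.1)
  have h𝔮 : q.1 𝔮 = c := by
    change _ = valLift u p (IsLocalRing.closedPoint u.1)
    rw [← hlift u hR]; rfl
  -- a basic open around the centre, inside `U` where `D` has one equation
  obtain ⟨_, ⟨_, ⟨a, rfl⟩, rfl⟩, ha, haU⟩ :=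
    PrimeSpectrum.isBasis_basic_opens.exists_subset_of_mem_open
      (show 𝔮 ∈ (q.1 ⁻¹ᵁ U : Set (Spec (CommRingCat.of R))) from
        show q.1 𝔮 ∈ U by rw [h𝔮]; exact hU)
      (q.1 ⁻¹ᵁ U).isOpen
  have haunit : (a : M)⁻¹ ∈ u.1 := by
    have h1 : IsUnit (j u hR a) := by
      by_contra h
      exact ha h
    obtain ⟨w, hw⟩ := h1
    have : (a : M)⁻¹ = ((w⁻¹ : u.1ˣ) : u.1).1 := by
      refine inv_eq_of_mul_eq_one_right ?_
      have := congrArg Subtype.val w.mul_inv
      rwa [hw] at this
    rw [this]; exact Subtype.prop _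
  have ha0 : (a : M) ≠ 0 := fun h0 => ha (by
    rw [show a = 0 from Subtype.ext h0]; exact Submodule.zero_mem _)
  obtain ⟨n, hn⟩ := exists_pow_mul_mem hs hs0 a.2
  set b := (a : M) * s ^ n
  have hb0 : b ≠ 0 := mul_ne_zero ha0 (pow_ne_zero n hs0)
  -- on this smaller chart that equation works
  refine ⟨s * b, Subring.mul_mem _ hs hn, mul_ne_zero hs0 hb0, ?_,
    ptUnit p (D.g c / D.g p.img), fun u' h1 h2 => ?_⟩
  · rw [mul_inv, show b⁻¹ = (a : M)⁻¹ * s⁻¹ ^ n by rw [mul_inv, inv_pow]]
    exact u.1.mul_mem _ _ hsu (u.1.mul_mem _ _ haunit (pow_mem hsu n))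
  have hs' : s⁻¹ ∈ u'.1 := by
    rw [show s⁻¹ = b * (s * b)⁻¹ by field_simp]
    exact u'.1.mul_mem _ _ (h1 hn) h2
  have ha' : (a : M)⁻¹ ∈ u'.1 := by
    rw [show (a : M)⁻¹ = s ^ n * (s * (s * b)⁻¹) by simp only [b]; field_simp]
    exact u'.1.mul_mem _ _ (pow_mem (h1 hs) n) (u'.1.mul_mem _ _ (h1 hs) h2)
  have hR' := hin u' h1 hs'
  have hc' : centre u' p ∈ U := by
    change valLift u' p (IsLocalRing.closedPoint u'.1) ∈ U
    rw [← hlift u' hR']
    change q.1 ((Spec.map (CommRingCat.ofHom (j u' hR'))) (IsLocalRing.closedPoint u'.1)) ∈ U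
    refine haU ?_
    intro hmem
    refine (IsLocalRing.mem_maximalIdeal _).mp hmem (isUnit_iff_exists_inv.mpr ⟨⟨_, ha'⟩, ?_⟩)
    exact Subtype.ext (mul_inv_cancel₀ ha0)
  refine ptClass_eq D (D.isUnitAt_specializes (img_specializes u p)) ?_
  rw [div_div_div_cancel_right₀ (D.ne_zero _)]
  have h3 := (hU' _ hc').inv
  rwa [inv_div] at h3

variable (G : RelativeGroupLaw K f) (hc : G.IsCommutative)

/-- The third difference of model points has local equations. -/
theorem locallyEq_diff3 {p y w : Pt f M} (hp : ModelPt k L p) (hy : ModelPt k L y)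
    (hw : ModelPt k L w) : LocallyEq k L (diff3 G hc D p y w) := by
  let := ptGroup G hc M
  have h2 : ∀ z : Pt f M, ModelPt k L z → LocallyEq k L (diff2 G hc D z y w) := fun z hz => by
    have hzy := hz.mul G hc hy
    exact (((hzy.mul G hc hw).locallyEq D).mul (hz.locallyEq D)).div
      ((hzy.locallyEq D).mul ((hz.mul G hc hw).locallyEq D))
  exact (h2 p hp).div (h2 1 (modelPt_one G hc))

end Fermat.AV

end
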