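import Fermat.Agent.AV.LocalAlgebra
import Fermat.Agent.AV.Degenerate
import Mathlib.AlgebraicGeometry.Morphisms.Smooth
import Mathlib.RingTheory.Smooth.AdicCompletion
import Mathlib.RingTheory.Unramified.Field
import Mathlib.RingTheory.RingHom.Etale
import Mathlib.RingTheory.RingHom.StandardSmooth

/-!
# Coordinates at a rational point of a smooth scheme

A rational point has an affine neighbourhood étale over affine space.  Formal étaleness gives it
points with values in power series with prescribed coordinates, and the coordinates generate the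
maximal ideal of the local ring.
-/

set_option autoImplicit false

noncomputable section

universe u

open CategoryTheory AlgebraicGeometry IsLocalRing

namespace Fermat.AV

variable {K : Type u} [Field K] {A : Scheme.{u}} {f : A ⟶ Spec (CommRingCat.of K)}

/-- Every point has a chart étale over affine space. -/
theorem exists_etale_chart (g : ℕ) [SmoothOfRelativeDimension g f] (x : A) :
    ∃ (V : A.Opens) (hV : IsAffineOpen V), x ∈ V ∧
      letI := chartAlgebra (f := f) hV
      ∃ s : MvPolynomial (Fin g) K →ₐ[K] Γ(A, V), s.toRingHom.Etale := by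
  obtain ⟨U, hU, V, hV, hxV, e, hstd⟩ :=
    SmoothOfRelativeDimension.exists_isStandardSmoothOfRelativeDimension (n := g) (f := f) x
  refine ⟨V, hV, hxV, ?_⟩
  let := chartAlgebra (f := f) hV
  obtain rfl : U = ⊤ := eq_top_iff.mpr fun y _ => by
    rw [Subsingleton.elim (α := Spec (CommRingCat.of K)) y (f x)]
    exact e hxV
  have hcomp : (Scheme.ΓSpecIso (CommRingCat.of K)).inv ≫ f.appLE ⊤ V e =
      Spec.preimage (hV.fromSpec ≫ f) := by
    refine Spec.map_injective ?_
    rw [Spec.map_preimage, ← hU.SpecMap_appLE_fromSpec f hV e, Spec.map_comp]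
    congr 1
    exact (Scheme.isoSpec_Spec_inv (CommRingCat.of K)).symm.trans IsAffineOpen.fromSpec_top.symm
  have hK : RingHom.IsStandardSmoothOfRelativeDimension g
      (Spec.preimage (hV.fromSpec ≫ f)).hom := by
    rw [← hcomp, CommRingCat.hom_comp]
    exact RingHom.isStandardSmoothOfRelativeDimension_respectsIso.2 _
      (Scheme.ΓSpecIso (CommRingCat.of K)).symm.commRingCatIsoToRingEquiv hstd
  have : Algebra.IsStandardSmoothOfRelativeDimension g K Γ(A, V) := hK
  obtain ⟨s, hs⟩ :=
    Algebra.IsStandardSmoothOfRelativeDimension.exists_etale_mvPolynomial g K Γ(A, V)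
  exact ⟨s, hs⟩

/-- Coordinates at a rational point. -/
theorem exists_coords (g : ℕ) [SmoothOfRelativeDimension g f] (p : Pt f K) :
    ∃ (V : A.Opens) (hV : IsAffineOpen V), p.1 (closedPoint K) ∈ V ∧
      letI := chartAlgebra (f := f) hV
      ∃ (ε : Γ(A, V) →ₐ[K] K) (s : MvPolynomial (Fin g) K →ₐ[K] Γ(A, V)),
        Pt.map ε (chartPt hV) = p ∧ s.toRingHom.Etale ∧ ∀ l, ε (s (MvPolynomial.X l)) = 0 := by
  obtain ⟨V, hV, hpV, s, hs⟩ := exists_etale_chart (f := f) g (p.1 (closedPoint K))
  let := chartAlgebra (f := f) hV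
  obtain ⟨ε, hε⟩ := exists_chart_hom hV p hpV
  let sh : MvPolynomial (Fin g) K ≃ₐ[K] MvPolynomial (Fin g) K :=
    AlgEquiv.ofAlgHom
      (MvPolynomial.aeval fun l => MvPolynomial.X l - MvPolynomial.C (ε (s (MvPolynomial.X l))))
      (MvPolynomial.aeval fun l => MvPolynomial.X l + MvPolynomial.C (ε (s (MvPolynomial.X l))))
      (MvPolynomial.algHom_ext fun l => by simp)
      (MvPolynomial.algHom_ext fun l => by simp)
  refine ⟨V, hV, hpV, ε, s.comp sh.toAlgHom, hε, ?_, fun l => ?_⟩
  · exact RingHom.Etale.respectsIso.2 s.toRingHom sh.toRingEquiv hs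
  · simp [sh]

section Algebra

variable [IsAlgClosed K] {g : ℕ} {B : Type u} [CommRing B] [Algebra K B]
  (s : MvPolynomial (Fin g) K →ₐ[K] B) (hs : s.toRingHom.Etale) (ε : B →ₐ[K] K)
  (hε : ∀ l, ε (s (MvPolynomial.X l)) = 0)

local notation "𝔐" => maximalIdeal (MvPowerSeries (Fin g) K)

/-- The kernel of a rational point is prime. -/
instance isPrime_ker_point (ε : B →ₐ[K] K) : (RingHom.ker ε.toRingHom).IsPrime :=
  RingHom.ker_isPrime ε.toRingHom

omit [IsAlgClosed K] in
include hs in
/-- An algebra with etale coordinates is of finite type. -/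
theorem finiteType_of_etale_coords : Algebra.FiniteType K B := by
  let : Algebra (MvPolynomial (Fin g) K) B := s.toRingHom.toAlgebra
  have : IsScalarTower K (MvPolynomial (Fin g) K) B :=
    IsScalarTower.of_algebraMap_eq fun c => (s.commutes c).symm
  have : Algebra.Etale (MvPolynomial (Fin g) K) B := hs
  exact Algebra.FiniteType.trans (S := MvPolynomial (Fin g) K) inferInstance inferInstance

include hs hε in
omit [IsAlgClosed K] in
/-- **Formal points with prescribed coordinates.** -/
theorem exists_formal_lift (u : Fin g → MvPowerSeries (Fin g) K) (hu : ∀ l, u l ∈ 𝔐) :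
    ∃ ζ : B →ₐ[K] MvPowerSeries (Fin g) K, (∀ l, ζ (s (MvPolynomial.X l)) = u l) ∧
      ∀ b, ζ b - algebraMap K (MvPowerSeries (Fin g) K) (ε b) ∈ 𝔐 := by
  let au : MvPolynomial (Fin g) K →ₐ[K] MvPowerSeries (Fin g) K := MvPolynomial.aeval u
  let : Algebra (MvPolynomial (Fin g) K) B := s.toRingHom.toAlgebra
  let : Algebra (MvPolynomial (Fin g) K) (MvPowerSeries (Fin g) K) := au.toRingHom.toAlgebra
  have : Algebra.Etale (MvPolynomial (Fin g) K) B := hs
  have : IsAdicComplete 𝔐 (MvPowerSeries (Fin g) K) := by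
    rw [maximalIdeal_mvPowerSeries]; infer_instance
  let mk := Ideal.Quotient.mkₐ K 𝔐
  have hfac : mk.comp au = (Algebra.ofId K _).comp (ε.comp s) :=
    MvPolynomial.algHom_ext fun l => by
      change Ideal.Quotient.mk 𝔐 (au (MvPolynomial.X l)) = _
      rw [AlgHom.comp_apply, AlgHom.comp_apply, hε l, map_zero]
      simp [au, Ideal.Quotient.eq_zero_iff_mem, hu l]
  let f₁ : B →ₐ[MvPolynomial (Fin g) K] MvPowerSeries (Fin g) K ⧸ 𝔐 :=
    { ((Algebra.ofId K _).comp ε).toRingHom with
      commutes' := fun p => (DFunLike.congr_fun hfac p).symm }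
  obtain ⟨ζ, hζ⟩ := Algebra.FormallySmooth.exists_mkₐ_comp_eq_of_isAdicComplete f₁
  refine ⟨{ ζ.toRingHom with commutes' := fun c => ?_ }, fun l => ?_, fun b => ?_⟩
  · change ζ (algebraMap K B c) = _
    rw [← s.commutes c]
    refine (ζ.commutes _).trans ?_
    exact au.commutes c
  · refine (ζ.commutes (MvPolynomial.X l)).trans ?_
    exact MvPolynomial.aeval_X u l
  · rw [← Ideal.Quotient.eq]
    exact DFunLike.congr_fun hζ b

include hs hε in
/-- The coordinates generate the ideal of the point near it. -/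
theorem exists_mul_mem_span {b : B} (hb : ε b = 0) :
    ∃ c : B, ε c ≠ 0 ∧ c * b ∈ Ideal.span (Set.range fun l => s (MvPolynomial.X l)) := by
  classical
  set I : Ideal B := Ideal.span (Set.range fun l => s (MvPolynomial.X l))
  let : Algebra (MvPolynomial (Fin g) K) B := s.toRingHom.toAlgebra
  have : IsScalarTower K (MvPolynomial (Fin g) K) B :=
    IsScalarTower.of_algebraMap_eq fun c => (s.commutes c).symm
  have : Algebra.Etale (MvPolynomial (Fin g) K) B := hs
  have hzero : (Ideal.Quotient.mkₐ K I).comp s =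
      (Algebra.ofId K (B ⧸ I)).comp (MvPolynomial.aeval fun _ => (0 : K)) :=
    MvPolynomial.algHom_ext fun l => by
      have hl : s (MvPolynomial.X l) ∈ I := Ideal.subset_span ⟨l, rfl⟩
      simp [Ideal.Quotient.eq_zero_iff_mem, hl]
  -- the fibre is unramified over the field
  let : Algebra (MvPolynomial (Fin g) K) K :=
    (MvPolynomial.aeval (R := K) fun _ : Fin g => (0 : K)).toRingHom.toAlgebra
  have : IsScalarTower (MvPolynomial (Fin g) K) K (B ⧸ I) :=
    IsScalarTower.of_algebraMap_eq fun p => by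
      rw [IsScalarTower.algebraMap_apply (MvPolynomial (Fin g) K) B (B ⧸ I)]
      exact DFunLike.congr_fun hzero p
  have : Algebra.FormallyUnramified (MvPolynomial (Fin g) K) (B ⧸ I) :=
    Algebra.FormallyUnramified.of_surjective (IsScalarTower.toAlgHom _ B (B ⧸ I))
      Ideal.Quotient.mk_surjective
  have : Algebra.FormallyUnramified K (B ⧸ I) :=
    Algebra.FormallyUnramified.of_restrictScalars (MvPolynomial (Fin g) K) K (B ⧸ I)
  have : Algebra.FiniteType K B := Algebra.FiniteType.trans (S := MvPolynomial (Fin g) K)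
    inferInstance inferInstance
  have : Algebra.FiniteType K (B ⧸ I) :=
    Algebra.FiniteType.of_surjective (Ideal.Quotient.mkₐ K I) Ideal.Quotient.mk_surjective
  have hI : ∀ x ∈ I, ε.toRingHom x = 0 := fun x hx => by
    refine (Ideal.span_le (I := RingHom.ker ε.toRingHom)).mpr ?_ hx
    rintro _ ⟨l, rfl⟩; exact hε l
  let εb : B ⧸ I →+* K := Ideal.Quotient.lift I ε.toRingHom hI
  have : (RingHom.ker εb).IsPrime := RingHom.ker_isPrime εb
  let R' := Localization.AtPrime (RingHom.ker εb)
  have : Algebra.FormallyUnramified (B ⧸ I) R' :=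
    Algebra.FormallyUnramified.of_isLocalization (RingHom.ker εb).primeCompl
  have : Algebra.FormallyUnramified K R' := Algebra.FormallyUnramified.comp K (B ⧸ I) R'
  have : Algebra.EssFiniteType (B ⧸ I) R' :=
    Algebra.EssFiniteType.of_isLocalization R' (RingHom.ker εb).primeCompl
  have : Algebra.EssFiniteType K R' := Algebra.EssFiniteType.comp K (B ⧸ I) R'
  have hfield := Algebra.FormallyUnramified.isField_of_isAlgClosed_of_isLocalRing K (A := R')
  have hmem : algebraMap (B ⧸ I) R' (Ideal.Quotient.mk I b) = 0 := by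
    have h := (IsLocalization.AtPrime.to_map_mem_maximal_iff R' (RingHom.ker εb)
      (Ideal.Quotient.mk I b)).mpr hb
    rwa [IsLocalRing.isField_iff_maximalIdeal_eq.mp hfield, Ideal.mem_bot] at h
  obtain ⟨⟨c', hc'⟩, hc''⟩ :=
    (IsLocalization.map_eq_zero_iff (RingHom.ker εb).primeCompl R' _).mp hmem
  obtain ⟨c, rfl⟩ := Ideal.Quotient.mk_surjective c'
  exact ⟨c, hc', Ideal.Quotient.eq_zero_iff_mem.mp (by rw [map_mul]; exact hc'')⟩

variable (R : Type u) [CommRing R] [Algebra B R] [Algebra K R] [IsScalarTower K B R]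
  [IsLocalization.AtPrime R (RingHom.ker ε.toRingHom)]

include hs hε in
/-- **A formal point gives parameters of the local ring.** -/
theorem exists_isParam [IsLocalRing R] [IsNoetherianRing R]
    (ζ : B →ₐ[K] MvPowerSeries (Fin g) K)
    (h1 : ∀ l, ζ (s (MvPolynomial.X l)) - MvPowerSeries.X l ∈ 𝔐 ^ 2)
    (h2 : ∀ b, ζ b - algebraMap K (MvPowerSeries (Fin g) K) (ε b) ∈ 𝔐) :
    ∃ φ : R →ₐ[K] MvPowerSeries (Fin g) K, (∀ b, φ (algebraMap B R b) = ζ b) ∧
      IsParam φ fun l => algebraMap B R (s (MvPolynomial.X l)) := by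
  set 𝔭 := RingHom.ker ε.toRingHom
  -- `ζ` inverts elements not vanishing at `ε`, so extends to the localisation
  have hu : ∀ c : 𝔭.primeCompl, IsUnit (ζ c) := fun c => by
    have hc : ε (c : B) ≠ 0 := c.2
    by_contra hn
    have := sub_mem ((mem_maximalIdeal _).mpr hn) (h2 c)
    rw [sub_sub_cancel] at this
    exact this ((isUnit_iff_ne_zero.mpr hc).map _)
  let φ₀ : R →+* MvPowerSeries (Fin g) K := IsLocalization.lift (g := ζ.toRingHom) hu
  let φ : R →ₐ[K] MvPowerSeries (Fin g) K :=
    { φ₀ with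
      commutes' := fun c => by
        rw [IsScalarTower.algebraMap_apply K B R]
        exact (IsLocalization.lift_eq hu _).trans (ζ.commutes c) }
  have hφ : ∀ b, φ (algebraMap B R b) = ζ b := fun b => IsLocalization.lift_eq hu b
  have hmax : ∀ b, algebraMap B R b ∈ maximalIdeal R ↔ b ∈ 𝔭 := fun b =>
    IsLocalization.AtPrime.to_map_mem_maximal_iff R 𝔭 b
  refine ⟨φ, hφ, le_antisymm (fun r hr => ?_) (Ideal.span_le.mpr ?_), fun r => ?_, fun l => ?_⟩
  -- the parameters span the maximal ideal
  · obtain ⟨b, c, rfl⟩ := IsLocalization.exists_mk'_eq 𝔭.primeCompl r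
    have hb : ε b = 0 := (IsLocalization.AtPrime.mk'_mem_maximal_iff R 𝔭 b c).mp hr
    obtain ⟨d, hd, hdb⟩ := exists_mul_mem_span s hs ε hε hb
    rw [IsLocalization.mk'_eq_mul_mk'_one]
    refine Ideal.mul_mem_right _ _ ?_
    have h' := Ideal.mem_map_of_mem (algebraMap B R) hdb
    rw [Ideal.map_span, ← Set.range_comp, map_mul] at h'
    exact (Ideal.unit_mul_mem_iff_mem _
      (IsLocalization.map_units R (⟨d, hd⟩ : 𝔭.primeCompl))).mp h'
  · rintro _ ⟨l, rfl⟩
    exact (hmax _).mpr (hε l)
  -- and the residue field is `K`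
  · obtain ⟨b, c, rfl⟩ := IsLocalization.exists_mk'_eq 𝔭.primeCompl r
    refine ⟨ε b / ε c, ?_⟩
    have hu' := IsLocalization.map_units R c
    refine (Ideal.mul_unit_mem_iff_mem _ hu').mp ?_
    rw [sub_mul, IsLocalization.mk'_spec, IsScalarTower.algebraMap_apply K B R, ← map_mul,
      ← map_sub, hmax]
    change ε (b - algebraMap K B (ε b / ε c) * c) = 0
    rw [map_sub, map_mul, ε.commutes, Algebra.algebraMap_self, RingHom.id_apply,
      div_mul_cancel₀ _ (show ε (c : B) ≠ 0 from c.2), sub_self]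
  · rw [hφ]
    exact h1 l

include hs hε in
/-- **Near the point the denominators of finitely many fractions are generated by one.** -/
theorem exists_denominator_near [Infinite K] {ι : Type*} (S : Finset ι)
    (num den : ι → B) (hden : ∀ i, den i ≠ 0) [IsDomain B] :
    ∃ j : B, j ≠ 0 ∧ (∀ i ∈ S, ∃ c, ε c ≠ 0 ∧ den i ∣ c * j * num i) ∧
      ∀ r, (∀ i ∈ S, ∃ c, ε c ≠ 0 ∧ den i ∣ c * r * num i) → ∃ c, ε c ≠ 0 ∧ j ∣ c * r := by
  classical
  set 𝔭 := RingHom.ker ε.toRingHom
  let R := Localization.AtPrime 𝔭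
  have : Algebra.FiniteType K B := finiteType_of_etale_coords s hs
  have : IsNoetherianRing B := Algebra.FiniteType.isNoetherianRing K B
  have : IsNoetherianRing R := IsLocalization.isNoetherianRing 𝔭.primeCompl R inferInstance
  obtain ⟨ζ, hζ1, hζ2⟩ := exists_formal_lift s hs ε hε MvPowerSeries.X fun l => by
    rw [maximalIdeal_mvPowerSeries]; exact Ideal.subset_span ⟨l, rfl⟩
  obtain ⟨φ, -, hφ⟩ := exists_isParam s hs ε hε R ζ (fun l => by rw [hζ1]; simp) hζ2
  have hinj : Function.Injective (algebraMap B R) :=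
    IsLocalization.injective R 𝔭.primeCompl_le_nonZeroDivisors
  -- in the local ring at `ε`, a least common denominator `J`
  obtain ⟨J, hJ0, hJ⟩ := hφ.exists_denominator S (fun i => algebraMap B R (num i))
    (fun i => algebraMap B R (den i)) fun i e => hden i (hinj (by rw [e, map_zero]))
  obtain ⟨j, c₀, hj⟩ := IsLocalization.exists_mk'_eq 𝔭.primeCompl J
  have hjJ : algebraMap B R j = J * algebraMap B R c₀ := by rw [← hj, IsLocalization.mk'_spec]
  -- divisibility there is divisibility up to a `c` with `ε c ≠ 0`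
  have hdvd : ∀ a x : B, (algebraMap B R a ∣ algebraMap B R x) ↔ ∃ c, ε c ≠ 0 ∧ a ∣ c * x := by
    intro a x
    constructor
    · rintro ⟨y, hy⟩
      obtain ⟨y', c, rfl⟩ := IsLocalization.exists_mk'_eq 𝔭.primeCompl y
      refine ⟨c, c.2, y', hinj ?_⟩
      rw [map_mul, map_mul, hy, ← mul_assoc, mul_comm _ (algebraMap B R a), mul_assoc,
        IsLocalization.mk'_spec']
    · rintro ⟨c, hc, y, hy⟩
      refine (IsUnit.dvd_mul_left (IsLocalization.map_units R (⟨c, hc⟩ : 𝔭.primeCompl))).mp ?_
      rw [← map_mul, hy, map_mul]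
      exact dvd_mul_right _ _
  refine ⟨j, fun e => hJ0 ?_, fun i hi => ?_, fun r hr => ?_⟩
  · rw [e, map_zero] at hjJ
    exact (IsLocalization.map_units R c₀).mul_left_eq_zero.mp hjJ.symm
  · obtain ⟨c, hc, h⟩ := (hdvd (den i) (j * num i)).mp (by
      rw [map_mul, hjJ]
      exact (hJ (J * algebraMap B R c₀)).mpr (dvd_mul_right _ _) i hi)
    exact ⟨c, hc, by rwa [mul_assoc]⟩
  · refine (hdvd j r).mp ?_
    rw [hjJ, (IsLocalization.map_units R c₀).mul_right_dvd]
    refine (hJ _).mp fun i hi => ?_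
    rw [← map_mul]
    obtain ⟨c, hc, h⟩ := hr i hi
    exact (hdvd _ _).mpr ⟨c, hc, by rwa [← mul_assoc]⟩

end Algebra

end Fermat.AV

end
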