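import Fermat.Agent.AV.CurveCube
import Fermat.Agent.AV.Origin
import Fermat.Agent.FF.Constructions
import Mathlib.RingTheory.Unramified.Finite

/-!
# The cube at the generic point

The lines of a system of coordinates at the identity are curves through it, and their sum maps
onto the scheme, as it has the variables as coordinates to first order.  So the theorem of the cube
with a curve as one factor gives the vanishing of the third difference at the generic point.

`cubeVanish_genPt`, from `cubeVanish_line` (`CurveCube`); `Quadratic` draws the consequence.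
-/

set_option autoImplicit false
set_option linter.unusedSectionVars false

noncomputable section

universe u

open CategoryTheory AlgebraicGeometry GoodReductionJacobian IsLocalRing
open AlgebraicCurve Fermat.FF
open scoped TensorProduct

namespace Fermat.AV

variable {K : Type u} [Field K] {A : Scheme.{u}} {f : A ⟶ Spec (CommRingCat.of K)}

/-- A point of a chart determines its map on the sections. -/
theorem map_chartPt_injective {V : A.Opens} (hV : IsAffineOpen V) {M : Type u} [CommRing M]
    [Algebra K M] :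
    letI := chartAlgebra (f := f) hV
    Function.Injective fun ψ : Γ(A, V) →ₐ[K] M => Pt.map ψ (chartPt (f := f) hV) := by
  let := chartAlgebra (f := f) hV
  intro ψ ψ' h
  have h1 : Spec.map (CommRingCat.ofHom ψ.toRingHom) ≫ hV.fromSpec =
      Spec.map (CommRingCat.ofHom ψ'.toRingHom) ≫ hV.fromSpec := congrArg Subtype.val h
  have h2 := Spec.map_injective ((cancel_mono hV.fromSpec).mp h1)
  exact AlgHom.ext fun b => RingHom.congr_fun (congrArg CommRingCat.Hom.hom h2) b

variable [IsIntegral A]

/-- An injective point of a chart comes from the generic point. -/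
theorem exists_map_genPt_of_chart {V : A.Opens} (hV : IsAffineOpen V) [Nonempty V] {M : Type u}
    [Field M] [Algebra K M] :
    letI := chartAlgebra (f := f) hV
    ∀ ψ : Γ(A, V) →ₐ[K] M, Function.Injective ψ →
      ∃ σ : FunField f →ₐ[K] M, σ.comp (genHom hV) = ψ ∧
        Pt.map σ (genPt f) = Pt.map ψ (chartPt hV) := by
  let := chartAlgebra (f := f) hV
  intro ψ hψ
  have := functionField_isFractionRing_of_isAffineOpen A V hV
  let σ₀ : A.functionField →+* M := IsFractionRing.lift (g := ψ.toRingHom) hψ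
  have hσ : ∀ b, σ₀ (A.germToFunctionField V b) = ψ b := fun b =>
    IsFractionRing.lift_algebraMap hψ b
  let σ : FunField f →ₐ[K] M :=
    { (σ₀ : FunField f →+* M) with
      commutes' := fun c => by
        rw [← (genHom (f := f) hV).commutes c]
        exact (hσ _).trans (ψ.commutes c) }
  refine ⟨σ, AlgHom.ext hσ, ?_⟩
  rw [← map_genHom hV, Pt.map_map]
  exact congrArg (fun ψ' => Pt.map ψ' (chartPt hV)) (AlgHom.ext hσ)

variable [IsAlgClosed K] [IsProper f] (G : RelativeGroupLaw K f) (hc : G.IsCommutative)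
  (D : CDiv A)

/-- The cube vanishes at the point in every algebraically closed field. -/
def CubeVanish {M : Type u} [Field M] [Algebra K M] (x : Pt f M) : Prop :=
  ∀ (k : Type u) [Field k] [Algebra K k] [IsAlgClosed k] (φ : M →ₐ[K] k) (y w : Pt f k),
    IsPrinc K k (diff3 G hc D (x.map φ) y w)

/-- The vanishing of the third difference is stable under products of points. -/
theorem CubeVanish.mul {M : Type u} [Field M] [Algebra K M] {x x' : Pt f M}
    (h : CubeVanish G hc D x) (h' : CubeVanish G hc D x') :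
    letI := ptGroup G hc M
    CubeVanish G hc D (x * x') := by
  intro k _ _ _ φ y w
  let := ptGroup G hc M
  let := ptGroup G hc k
  rw [show (x * x').map φ = x.map φ * x'.map φ from (Pt.mapHom G hc φ).map_mul x x']
  set a := x.map φ
  set z := x'.map φ
  have e : diff3 G hc D (a * z) y w =
      (diff3 G hc D a (z * y) w / diff3 G hc D a z w) * diff3 G hc D z y w := by
    rw [← diff2_translate G hc D a z y w]
    exact (div_mul_div_cancel (diff2 G hc D (a * z) y w) (diff2 G hc D z y w)
      (diff2 G hc D 1 y w)).symm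
  rw [e]
  exact ((h k φ (z * y) w).div (h k φ z w)).mul (h' k φ y w)

/-- The third difference vanishes at the unit point. -/
theorem cubeVanish_one {M : Type u} [Field M] [Algebra K M] :
    letI := ptGroup G hc M
    CubeVanish G hc D (1 : Pt f M) := by
  intro k _ _ _ φ y w
  rw [Pt.map_one' G hc φ, diff3_one_left G hc D y w]
  exact IsPrinc.one

/-- The points with vanishing third difference are stable under finite products. -/
theorem CubeVanish.prod {M : Type u} [Field M] [Algebra K M] {ι : Type*} (S : Finset ι)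
    (x : ι → Pt f M) (h : ∀ i ∈ S, CubeVanish G hc D (x i)) :
    letI := ptGroup G hc M
    CubeVanish G hc D (∏ i ∈ S, x i) := by
  classical
  let := ptGroup G hc M
  induction S using Finset.induction_on with
  | empty => rw [Finset.prod_empty]; exact cubeVanish_one G hc D
  | insert i S hi ih =>
    rw [Finset.prod_insert hi]
    exact CubeVanish.mul G hc D (h i (Finset.mem_insert_self i S))
      (ih fun j hj => h j (Finset.mem_insert_of_mem hj))

/-- The vanishing of the third difference descends along an embedding of fields. -/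
theorem CubeVanish.of_map {M M' : Type u} [Field M] [Algebra K M] [Field M'] [Algebra K M']
    {x : Pt f M} (σ : M →ₐ[K] M') (h : CubeVanish G hc D (x.map σ)) : CubeVanish G hc D x := by
  intro k _ _ _ φ y w
  let : Algebra M k := φ.toRingHom.toAlgebra
  let : Algebra M M' := σ.toRingHom.toAlgebra
  have : IsScalarTower K M k := IsScalarTower.of_algebraMap_eq fun c => (φ.commutes c).symm
  have : IsScalarTower K M M' := IsScalarTower.of_algebraMap_eq fun c => (σ.commutes c).symm
  obtain ⟨I, hI⟩ := Ideal.exists_maximal (M' ⊗[M] k)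
  let : Field (M' ⊗[M] k ⧸ I) := Ideal.Quotient.field I
  let Ω := AlgebraicClosure (M' ⊗[M] k ⧸ I)
  let toΩ : M' ⊗[M] k →ₐ[K] Ω :=
    (IsScalarTower.toAlgHom K (M' ⊗[M] k ⧸ I) Ω).comp (Ideal.Quotient.mkₐ K I)
  let α : M' →ₐ[K] Ω :=
    toΩ.comp ((Algebra.TensorProduct.includeLeft (S := M)).restrictScalars K)
  let β : k →ₐ[K] Ω := toΩ.comp (Algebra.TensorProduct.includeRight.restrictScalars K)
  have hαβ : α.comp σ = β.comp φ := AlgHom.ext fun m => by
    change toΩ (σ m ⊗ₜ[M] 1) = toΩ (1 ⊗ₜ[M] φ m)
    congr 1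
    have h1 : σ m = m • (1 : M') := by rw [Algebra.smul_def, mul_one]; rfl
    have h2 : φ m = m • (1 : k) := by rw [Algebra.smul_def, mul_one]; rfl
    rw [h1, h2, TensorProduct.smul_tmul]
  refine IsPrinc.descend β ?_
  rw [← diff3_map, Pt.map_map, ← hαβ, ← Pt.map_map]
  exact h Ω α (y.map β) (w.map β)

section Coordinates

variable {g : ℕ} {V : A.Opens} (hV : IsAffineOpen V)

local notation "𝔐" => maximalIdeal (MvPowerSeries (Fin g) K)

/-- The image of a variable under an injection of power series is transcendental. -/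
private theorem transcendental_map_X {k : Type u} [Field k] [Algebra K k] (i : Fin g)
    (j : MvPowerSeries (Fin g) K →ₐ[K] k) (hj : Function.Injective j) :
    Transcendental K (j (MvPowerSeries.X i)) := by
  rw [transcendental_iff_injective]
  have e : (Polynomial.aeval (j (MvPowerSeries.X i)) : Polynomial K →ₐ[K] k) =
      (j.comp ((MvPolynomial.coeToMvPowerSeries.algHom K).comp
        (Polynomial.aeval (MvPolynomial.X i : MvPolynomial (Fin g) K)))) :=
    Polynomial.algHom_ext (by simp)
  have h1 : Function.Injective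
      (Polynomial.aeval (MvPolynomial.X i : MvPolynomial (Fin g) K)) :=
    transcendental_iff_injective.mp (MvPolynomial.transcendental_X K i)
  rw [e]
  intro p q hpq
  refine h1 (MvPolynomial.coe_injective (Fin g) K (hj ?_))
  simpa [MvPolynomial.coeToMvPowerSeries.algHom_apply] using hpq

/-- A finite extension of a rational function field inside `k` is a function field. -/
private theorem isFunctionField_restrictScalars {k : Type u} [Field k] [Algebra K k] {x : k}
    (L₀ : IntermediateField (IntermediateField.adjoin K ({x} : Set k)) k)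
    [FiniteDimensional (IntermediateField.adjoin K ({x} : Set k)) L₀]
    (x' : L₀.restrictScalars K) (hx' : Transcendental K x') (h : (x' : k) = x) :
    IsFunctionField K (L₀.restrictScalars K) := by
  classical
  let L := L₀.restrictScalars K
  let F := IntermediateField.adjoin K ({x} : Set k)
  refine isFunctionField_of_finite hx' ?_
  -- the rational functions in `x'` are those in `x`
  have hmap : (IntermediateField.adjoin K {x'}).map L.val = F := by
    rw [IntermediateField.adjoin_map, Set.image_singleton]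
    exact congrArg (fun y : k => IntermediateField.adjoin K ({y} : Set k)) h
  let e : IntermediateField.adjoin K {x'} →+* F :=
    ((L.val).toRingHom.comp (algebraMap _ L)).codRestrict F.toSubfield.toSubring fun z => by
      change L.val (z : L) ∈ F
      rw [← hmap]; exact ⟨z, z.2, rfl⟩
  have he : Function.Surjective e := fun z => by
    obtain ⟨w, hw, hwz⟩ : (z : k) ∈ (IntermediateField.adjoin K {x'}).map L.val := by
      rw [hmap]; exact z.2
    exact ⟨⟨w, hw⟩, Subtype.ext hwz⟩
  obtain ⟨T, hT⟩ := (inferInstance : Module.Finite F L₀).fg_top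
  refine ⟨⟨T.image (fun z => (⟨z.1, z.2⟩ : L)), eq_top_iff.mpr fun z _ => ?_⟩⟩
  obtain ⟨κ, hκ⟩ := Submodule.mem_span_finset'.mp
    (hT.symm ▸ Submodule.mem_top : (⟨z.1, z.2⟩ : L₀) ∈ Submodule.span F (T : Set L₀))
  choose κ' hκ' using fun a : T => he (κ a)
  have hz : z = ∑ a : T, κ' a • (⟨a.1.1, a.1.2⟩ : L) := Subtype.ext (by
    have h0 := congrArg Subtype.val hκ
    simp only [AddSubmonoidClass.coe_finsetSum] at h0 ⊢
    refine h0.symm.trans (Finset.sum_congr rfl fun a _ => ?_)
    change (κ a : k) * (a.1 : k) = ((κ' a : L) : k) * (a.1 : k)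
    rw [← hκ' a]
    rfl)
  rw [hz]
  exact Submodule.sum_mem _ fun a _ => Submodule.smul_mem _ _
    (Submodule.subset_span (Finset.mem_coe.mpr (Finset.mem_image_of_mem _ a.2)))

/-- A function whose expansion lies in `𝔐` vanishes at the base point. -/
private theorem eq_zero_of_mem :
    letI := chartAlgebra (f := f) hV
    ∀ (ε : Γ(A, V) →ₐ[K] K) (ζ : Γ(A, V) →ₐ[K] MvPowerSeries (Fin g) K)
      (_ : ∀ b, ζ b - algebraMap K (MvPowerSeries (Fin g) K) (ε b) ∈ 𝔐) {b : Γ(A, V)},
      ζ b ∈ 𝔐 → ε b = 0 := by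
  let := chartAlgebra (f := f) hV
  intro ε ζ hζε b hb
  have h := sub_mem hb (hζε b)
  rw [sub_sub_cancel, mem_maximalIdeal, mem_nonunits_iff] at h
  by_contra hne
  exact h ((isUnit_iff_ne_zero.mpr hne).map _)

/-- A place of a function field centred at the base point of the chart. -/
private theorem exists_place_of_line {L : Type u} [Field L] [Algebra K L] [IsFunctionField K L] :
    letI := chartAlgebra (f := f) hV
    ∀ (ε : Γ(A, V) →ₐ[K] K) (ζ' : Γ(A, V) →ₐ[K] L) (b₀ : Γ(A, V))
      (_ : ∀ b, ζ' b = 0 → ε b = 0) (_ : ε b₀ = 0) (_ : ζ' b₀ ≠ 0),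
      ∃ P₀ : Place K L, ∀ b, OrdGE P₀ (ζ' b) 0 ∧ evalAt P₀ (ζ' b) = ε b := by
  let := chartAlgebra (f := f) hV
  intro ε ζ' b₀ hker hb₀ hne
  let R := ζ'.range
  have hlift : RingHom.ker ζ'.rangeRestrict.toRingHom ≤ RingHom.ker ε.toRingHom :=
    fun b hb => hker b (congrArg Subtype.val hb)
  let ε' : R →+* K := RingHom.liftOfSurjective ζ'.rangeRestrict.toRingHom
    ζ'.rangeRestrict_surjective ⟨ε.toRingHom, hlift⟩
  have hε' : ∀ b, ε' (ζ'.rangeRestrict b) = ε b := fun b =>
    RingHom.liftOfRightInverse_comp_apply ζ'.rangeRestrict.toRingHom _ _ _ b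
  obtain ⟨P₀, hP₀reg, hP₀cen⟩ := exists_place_center R (RingHom.ker ε')
    (RingHom.ker_ne_top ε') (r₀ := ζ'.rangeRestrict b₀) (by rw [RingHom.mem_ker, hε', hb₀])
    (fun h => hne (congrArg Subtype.val h))
  refine ⟨P₀, fun b => ⟨hP₀reg (ζ'.rangeRestrict b), evalAt_eq ?_⟩⟩
  have h1 := hP₀cen (ζ'.rangeRestrict (b - algebraMap K _ (ε b))) (by
    rw [RingHom.mem_ker, hε', map_sub, ε.commutes, Algebra.algebraMap_self, RingHom.id_apply,
      sub_self])
  have h1' : OrdGE P₀ (ζ' (b - algebraMap K _ (ε b))) 1 := h1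
  rwa [map_sub, ζ'.commutes] at h1'

/-- **The cube vanishes at a transcendental point on the formal line of a coordinate** through
the origin: the point of an injective `j` after `ζ`, where `ζ` kills the other coordinates. -/
theorem cubeVanish_line {k : Type u} [Field k] [Algebra K k] :
    letI := chartAlgebra (f := f) hV
    ∀ (s : MvPolynomial (Fin g) K →ₐ[K] Γ(A, V)), s.toRingHom.Etale →
    ∀ (ε : Γ(A, V) →ₐ[K] K), (letI := ptGroup G hc K; Pt.map ε (chartPt (f := f) hV) = 1) →
    ∀ (ζ : Γ(A, V) →ₐ[K] MvPowerSeries (Fin g) K) (i : Fin g)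
      (_ : ∀ l, ζ (s (MvPolynomial.X l)) = if l = i then MvPowerSeries.X i else 0)
      (_ : ∀ b, ζ b - algebraMap K (MvPowerSeries (Fin g) K) (ε b) ∈ 𝔐)
      (j : MvPowerSeries (Fin g) K →ₐ[K] k), Function.Injective j →
      CubeVanish G hc D (Pt.map (j.comp ζ) (chartPt (f := f) hV)) := by
  let := chartAlgebra (f := f) hV
  let := ptGroup G hc K
  intro s hs ε hε1 ζ i hζs hζε j hj
  classical
  let x : k := j (MvPowerSeries.X i)
  have hx : Transcendental K x := transcendental_map_X i j hj
  let F := IntermediateField.adjoin K ({x} : Set k)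
  have hxF : x ∈ F := IntermediateField.mem_adjoin_simple_self K x
  -- the fibre over the line is finite over the rational functions
  let aF : MvPolynomial (Fin g) K →ₐ[K] F :=
    MvPolynomial.aeval fun l => if l = i then ⟨x, hxF⟩ else 0
  let : Algebra (MvPolynomial (Fin g) K) Γ(A, V) := s.toRingHom.toAlgebra
  have : Algebra.Etale (MvPolynomial (Fin g) K) Γ(A, V) := hs
  let : Algebra (MvPolynomial (Fin g) K) F := aF.toRingHom.toAlgebra
  let : Algebra (MvPolynomial (Fin g) K) k := ((F.val).comp aF).toRingHom.toAlgebra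
  have : IsScalarTower (MvPolynomial (Fin g) K) F k := IsScalarTower.of_algebraMap_eq fun _ => rfl
  have hcomp : (j.comp ζ).comp s = F.val.comp aF := MvPolynomial.algHom_ext fun l => by
    simp only [AlgHom.comp_apply, hζs, aF, MvPolynomial.aeval_X]
    split_ifs <;> simp [x]
  let bP : Γ(A, V) →ₐ[MvPolynomial (Fin g) K] k :=
    { (j.comp ζ).toRingHom with commutes' := fun p => DFunLike.congr_fun hcomp p }
  have : Module.Finite F (F ⊗[MvPolynomial (Fin g) K] Γ(A, V)) :=
    Algebra.FormallyUnramified.finite_of_free F _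
  let Φ : F ⊗[MvPolynomial (Fin g) K] Γ(A, V) →ₐ[F] k :=
    Algebra.TensorProduct.lift (Algebra.ofId F k) bP fun _ _ => Commute.all _ _
  have hCfin : ∀ z ∈ Φ.range, IsIntegral F z := by
    rintro _ ⟨z, rfl⟩
    exact (Algebra.IsIntegral.isIntegral z).map Φ
  have : FiniteDimensional F Φ.range :=
    Module.Finite.of_surjective Φ.rangeRestrict.toLinearMap Φ.rangeRestrict_surjective
  let L₀ : IntermediateField F k := Φ.range.toIntermediateField fun z hz =>
    Φ.range.inv_mem_of_algebraic (x := ⟨z, hz⟩) (hCfin z hz).isAlgebraic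
  have : FiniteDimensional F L₀ := ‹FiniteDimensional F Φ.range›
  let L := L₀.restrictScalars K
  have hmem : ∀ b, j (ζ b) ∈ L := fun b => by
    refine ⟨1 ⊗ₜ b, ?_⟩
    change Φ (1 ⊗ₜ b) = j (ζ b)
    rw [Algebra.TensorProduct.lift_tmul, map_one, one_mul]
    rfl
  have hFL : ∀ z : F, (z : k) ∈ L := fun z => L₀.algebraMap_mem z
  let x' : L := ⟨x, hFL ⟨x, hxF⟩⟩
  have hx' : Transcendental K x' :=
    fun h => hx ((isAlgebraic_algHom_iff L.val Subtype.val_injective).mpr h)
  have : IsFunctionField K L :=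
    isFunctionField_restrictScalars L₀ x' hx' rfl
  let c : L →ₐ[K] k := L.val
  let ζ' : Γ(A, V) →ₐ[K] L := (j.comp ζ).codRestrict L.toSubalgebra hmem
  have hcζ : c.comp ζ' = j.comp ζ := rfl
  rw [← hcζ, ← Pt.map_map]
  set ι := Pt.map ζ' (chartPt (f := f) hV)
  -- the place over the identity
  obtain ⟨P₀, hev⟩ := exists_place_of_line hV ε ζ' (s (MvPolynomial.X i))
    (fun b hb => eq_zero_of_mem hV ε ζ hζε (by
      rw [show ζ b = 0 from hj ((congrArg Subtype.val hb).trans (map_zero j).symm)]
      exact zero_mem _))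
    (eq_zero_of_mem hV ε ζ hζε (by
      rw [hζs i, if_pos rfl, maximalIdeal_mvPowerSeries]; exact Ideal.subset_span ⟨i, rfl⟩))
    (fun h => hx' (by
      have e : ζ' (s (MvPolynomial.X i)) = x' := Subtype.ext (by
        change j (ζ (s (MvPolynomial.X i))) = x
        rw [hζs i, if_pos rfl])
      rw [← e, h]
      exact isAlgebraic_zero))
  have hι : ι.specialise (placeSpec P₀) = 1 := by
    rw [← hε1]
    exact Pt.specialise_eq (placeSpec P₀) (chartPt hV) ζ' ε fun b =>
      ⟨(mem_iff_ordGE P₀).mpr (hev b).1, (hev b).2⟩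
  intro k' _ _ _ φ y w
  rw [Pt.map_map]
  exact isPrinc_diff3_curve G hc D ι P₀ hι (φ.comp c) y w

/-- The constant coefficient, as an algebra map. -/
private def coeffRes : MvPowerSeries (Fin g) K →ₐ[K] K :=
  ⟨MvPowerSeries.constantCoeff, fun c => MvPowerSeries.constantCoeff_C c⟩

/-- The maximal ideal is the kernel of the constant coefficient. -/
private theorem mem_max_iff (a : MvPowerSeries (Fin g) K) : a ∈ 𝔐 ↔ coeffRes a = 0 := by
  rw [mem_maximalIdeal, mem_nonunits_iff, MvPowerSeries.isUnit_iff_constantCoeff,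
    isUnit_iff_ne_zero, not_not]
  rfl

/-- An expansion is congruent to the value at the base point exactly when it restricts to it. -/
private theorem sub_mem_max_iff (a : MvPowerSeries (Fin g) K) (c : K) :
    a - algebraMap K (MvPowerSeries (Fin g) K) c ∈ 𝔐 ↔ coeffRes a = c := by
  rw [mem_max_iff, map_sub, sub_eq_zero, AlgHom.commutes]
  rfl

/-- A point over power series with constant term in the chart has closed point in the chart. -/
private theorem closedPoint_mem_chart (x : Pt f (MvPowerSeries (Fin g) K))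
    (h : (x.map coeffRes).1 (closedPoint K) ∈ V) :
    x.1 (closedPoint (MvPowerSeries (Fin g) K)) ∈ V := by
  have : IsLocalHom (coeffRes (K := K) (g := g)).toRingHom :=
    ⟨fun a ha => MvPowerSeries.isUnit_iff_constantCoeff.mpr ha⟩
  have e : Spec.map (CommRingCat.ofHom (coeffRes (K := K) (g := g)).toRingHom) (closedPoint K) =
      closedPoint (MvPowerSeries (Fin g) K) :=
    IsLocalRing.comap_closedPoint (f := (coeffRes (K := K) (g := g)).toRingHom)
  rw [← e]; exact h

/-- Points congruent to the identity modulo a square zero ideal multiply by adding. -/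
private theorem prod_infinitesimal {R₂ : Type u} [CommRing R₂] [Algebra K R₂] (φ₂ : R₂ →+* K)
    (h2 : ∀ a b : R₂, φ₂ a = 0 → φ₂ b = 0 → a * b = 0) :
    letI := chartAlgebra (f := f) hV
    ∀ (ε : Γ(A, V) →ₐ[K] K), (letI := ptGroup G hc K; Pt.map ε (chartPt (f := f) hV) = 1) →
    ∀ (η : Fin g → Γ(A, V) →ₐ[K] R₂), (∀ i b, φ₂ (η i b) = φ₂ (algebraMap K R₂ (ε b))) →
    ∀ S : Finset (Fin g), letI := ptGroup G hc R₂; ∃ z : Γ(A, V) ⟶ CommRingCat.of R₂,
      (∏ i ∈ S, Pt.map (η i) (chartPt (f := f) hV)).1 = Spec.map z ≫ hV.fromSpec ∧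
      ∀ b, z b = algebraMap K R₂ (ε b) + ∑ i ∈ S, (η i b - algebraMap K R₂ (ε b)) := by
  classical
  let := chartAlgebra (f := f) hV
  intro ε hε1 η hη S
  let := ptGroup G hc K
  let := ptGroup G hc R₂
  let τ : CommRingCat.of K ⟶ CommRingCat.of R₂ := CommRingCat.ofHom (algebraMap K R₂)
  let φ : CommRingCat.of R₂ ⟶ CommRingCat.of K := CommRingCat.ofHom φ₂
  let εc : Γ(A, V) ⟶ CommRingCat.of K := CommRingCat.ofHom ε.toRingHom
  -- the identity is the point `ε` of the chart
  have hεc : Spec.map εc ≫ hV.fromSpec = (G.one (𝟙 (Spec (CommRingCat.of K)))).1 := by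
    refine (congrArg Subtype.val hε1).trans ?_
    change (G.one (Spec.map (CommRingCat.ofHom (algebraMap K K)))).1 = _
    rw [one_val]
    exact (congrArg (· ≫ _) (Spec.map_id _)).trans (Category.id_comp _)
  -- carry along that the product reduces to `ε`
  suffices ∃ z : Γ(A, V) ⟶ CommRingCat.of R₂, z ≫ φ = εc ≫ τ ≫ φ ∧
      (∏ i ∈ S, Pt.map (η i) (chartPt (f := f) hV)).1 = Spec.map z ≫ hV.fromSpec ∧
      ∀ b, z b = algebraMap K R₂ (ε b) + ∑ i ∈ S, (η i b - algebraMap K R₂ (ε b)) from
    this.imp fun _ h => h.2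
  induction S using Finset.induction_on with
  | empty =>
    refine ⟨εc ≫ τ, Category.assoc _ _ _, ?_, fun b => ?_⟩
    · rw [Finset.prod_empty]; exact one_spec G hV.fromSpec εc hεc τ
    · rw [Finset.sum_empty, add_zero]; rfl
  | insert i S hi ih =>
    obtain ⟨z, hz, hzS, hzb⟩ := ih
    let ζc : Γ(A, V) ⟶ CommRingCat.of R₂ := CommRingCat.ofHom (η i).toRingHom
    have hζc : ζc ≫ φ = εc ≫ τ ≫ φ := by ext b; exact hη i b
    -- multiplying by one more infinitesimal point adds the differences
    obtain ⟨z', hz', hz'S, hz'b⟩ := exists_mul_eq G hV.fromSpec εc hεc τ φ h2 hζc hz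
      (x := Pt.map (η i) (chartPt (f := f) hV))
      (y := ∏ i ∈ S, Pt.map (η i) (chartPt (f := f) hV)) rfl hzS
    refine ⟨z', hz', ?_, fun b => ?_⟩
    · rw [Finset.prod_insert hi]; exact hz'S
    · rw [hz'b, hzb, Finset.sum_insert hi]
      change η i b + _ - algebraMap K R₂ (ε b) = _
      ring

/-- The sum of the lines has the variables as coordinates to first order. -/
private theorem linear_part_prod_lines :
    letI := chartAlgebra (f := f) hV
    ∀ (s : MvPolynomial (Fin g) K →ₐ[K] Γ(A, V)) (ε : Γ(A, V) →ₐ[K] K),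
      (letI := ptGroup G hc K; Pt.map ε (chartPt (f := f) hV) = 1) →
      (∀ l, ε (s (MvPolynomial.X l)) = 0) →
    ∀ (ζ : Fin g → Γ(A, V) →ₐ[K] MvPowerSeries (Fin g) K),
      (∀ i l, ζ i (s (MvPolynomial.X l)) = if l = i then MvPowerSeries.X i else 0) →
      (∀ i b, coeffRes (ζ i b) = ε b) →
    ∀ (ξ : Γ(A, V) →ₐ[K] MvPowerSeries (Fin g) K),
      (letI := ptGroup G hc (MvPowerSeries (Fin g) K);
        Pt.map ξ (chartPt (f := f) hV) = ∏ i, Pt.map (ζ i) (chartPt (f := f) hV)) →
      ∀ l, ξ (s (MvPolynomial.X l)) - MvPowerSeries.X l ∈ 𝔐 ^ 2 := by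
  classical
  let := chartAlgebra (f := f) hV
  let := ptGroup G hc (MvPowerSeries (Fin g) K)
  intro s ε hε1 hε ζ hζs hres ξ hξ l
  let R₂ := MvPowerSeries (Fin g) K ⧸ 𝔐 ^ 2
  let π : MvPowerSeries (Fin g) K →ₐ[K] R₂ := Ideal.Quotient.mkₐ K _
  let φ₂ : R₂ →+* K := Ideal.Quotient.lift (𝔐 ^ 2) coeffRes.toRingHom fun a ha =>
    (mem_max_iff a).mp (Ideal.pow_le_self two_ne_zero ha)
  have h2 : ∀ a b : R₂, φ₂ a = 0 → φ₂ b = 0 → a * b = 0 := by
    intro a b ha hb
    obtain ⟨a, rfl⟩ := Ideal.Quotient.mk_surjective a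
    obtain ⟨b, rfl⟩ := Ideal.Quotient.mk_surjective b
    rw [← map_mul, Ideal.Quotient.eq_zero_iff_mem, pow_two]
    exact Ideal.mul_mem_mul ((mem_max_iff a).mpr ha) ((mem_max_iff b).mpr hb)
  let := ptGroup G hc R₂
  -- modulo `𝔐 ^ 2` the product of infinitesimal points adds coordinates
  obtain ⟨z, hzS, hzb⟩ := prod_infinitesimal G hc hV φ₂ h2 ε hε1 (fun i => π.comp (ζ i))
    (fun i b => by
      change coeffRes (ζ i b) = φ₂ (algebraMap K R₂ (ε b))
      rw [hres, ← π.commutes]
      exact (AlgHom.commutes (coeffRes (K := K) (g := g)) (ε b)).symm) Finset.univ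
  have hπx : Pt.map π (∏ i, Pt.map (ζ i) (chartPt (f := f) hV)) =
      ∏ i, Pt.map (π.comp (ζ i)) (chartPt (f := f) hV) := by
    change Pt.mapHom G hc π _ = _
    rw [map_prod]
    exact Finset.prod_congr rfl fun i _ => by rw [Pt.mapHom_apply, Pt.map_map]
  -- `ξ` is that product
  have hz : π (ξ (s (MvPolynomial.X l))) = z (s (MvPolynomial.X l)) := by
    have h1 : Spec.map (CommRingCat.ofHom (π.comp ξ).toRingHom) ≫ hV.fromSpec =
        Spec.map z ≫ hV.fromSpec := by
      refine Eq.trans ?_ hzS
      rw [← hπx, ← hξ, Pt.map_map]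
      rfl
    exact ConcreteCategory.congr_hom (Spec.map_injective ((cancel_mono hV.fromSpec).mp h1)) _
  rw [← Ideal.Quotient.eq_zero_iff_mem]
  change π (ξ (s (MvPolynomial.X l)) - MvPowerSeries.X l) = 0
  rw [map_sub, hz, hzb, hε, map_zero, zero_add, Finset.sum_eq_single l]
  · rw [AlgHom.comp_apply, hζs, if_pos rfl, sub_zero, sub_self]
  · intro i _ hil
    rw [AlgHom.comp_apply, hζs, if_neg (Ne.symm hil), map_zero, sub_zero]
  · exact fun h => absurd (Finset.mem_univ l) h

/-- An expansion with the variables as linear part is injective. -/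
private theorem injective_of_linear_part :
    letI := chartAlgebra (f := f) hV
    ∀ (s : MvPolynomial (Fin g) K →ₐ[K] Γ(A, V)), s.toRingHom.Etale →
    ∀ (ε : Γ(A, V) →ₐ[K] K), (∀ l, ε (s (MvPolynomial.X l)) = 0) →
    ∀ (ξ : Γ(A, V) →ₐ[K] MvPowerSeries (Fin g) K),
      (∀ l, ξ (s (MvPolynomial.X l)) - MvPowerSeries.X l ∈ 𝔐 ^ 2) →
      (∀ b, ξ b - algebraMap K (MvPowerSeries (Fin g) K) (ε b) ∈ 𝔐) →
      Nonempty V → Function.Injective ξ := by
  let := chartAlgebra (f := f) hV
  intro s hs ε hε ξ hlin hξε hVne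
  set 𝔭 := RingHom.ker ε.toRingHom
  let R := Localization.AtPrime 𝔭
  have : Algebra.FiniteType K Γ(A, V) := finiteType_of_etale_coords s hs
  have : IsNoetherianRing Γ(A, V) := Algebra.FiniteType.isNoetherianRing K Γ(A, V)
  have : IsNoetherianRing R := IsLocalization.isNoetherianRing 𝔭.primeCompl R inferInstance
  obtain ⟨φR, hφR, hparam⟩ := exists_isParam s hs ε hε R ξ hlin hξε
  exact fun a b hab => by
    refine IsLocalization.injective R 𝔭.primeCompl_le_nonZeroDivisors (hparam.injective ?_)
    rw [hφR, hφR, hab]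

end Coordinates

/-- **The theorem of the cube at the generic point.** -/
theorem cubeVanish_genPt (g : ℕ) [SmoothOfRelativeDimension g f] :
    CubeVanish G hc D (genPt f) := by
  classical
  let := ptGroup G hc K
  obtain ⟨V, hV, h1V, hrest⟩ := exists_coords (f := f) g (1 : Pt f K)
  let := chartAlgebra (f := f) hV
  obtain ⟨ε, s, hε1, hs, hε⟩ := hrest
  have : Nonempty V := ⟨⟨_, h1V⟩⟩
  set T := MvPowerSeries (Fin g) K
  set 𝔐 := maximalIdeal T
  have : IsDomain T := NoZeroDivisors.to_isDomain _
  have hX : ∀ l, (MvPowerSeries.X l : T) ∈ 𝔐 := fun l => by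
    simp only [𝔐, T]; rw [maximalIdeal_mvPowerSeries]; exact Ideal.subset_span ⟨l, rfl⟩
  choose ζ hζs hζε using fun i : Fin g => exists_formal_lift s hs ε hε
    (fun l => if l = i then MvPowerSeries.X i else 0)
    (fun l => by split_ifs; exacts [hX i, zero_mem _])
  let := ptGroup G hc T
  set x : Pt f T := ∏ i, Pt.map (ζ i) (chartPt (f := f) hV)
  -- the closed point of the sum is the identity
  have hres : ∀ i b, coeffRes (ζ i b) = ε b := fun i b => (sub_mem_max_iff _ _).mp (hζε i b)
  have hx1 : x.map coeffRes = 1 := by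
    change Pt.mapHom G hc coeffRes x = 1
    rw [map_prod]
    refine Finset.prod_eq_one fun i _ => ?_
    rw [Pt.mapHom_apply, Pt.map_map, ← hε1]
    exact congrArg (fun ψ => Pt.map ψ (chartPt hV)) (AlgHom.ext fun b => hres i b)
  obtain ⟨ξ, hξ⟩ := exists_chart_hom hV x (closedPoint_mem_chart x (by rw [hx1]; exact h1V))
  have hξε : ∀ b, ξ b - algebraMap K T (ε b) ∈ 𝔐 := fun b => by
    have h : (coeffRes (K := K) (g := g)).comp ξ = ε := map_chartPt_injective (f := f) hV (by
      simp only [← Pt.map_map, hξ, hx1, hε1])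
    exact (sub_mem_max_iff _ _).mpr (DFunLike.congr_fun h b)
  -- so it is injective
  have hξinj : Function.Injective ξ := injective_of_linear_part hV s hs ε hε ξ
    (linear_part_prod_lines G hc hV s ε hε1 hε ζ hζs hres ξ hξ) hξε ‹_›
  let k := AlgebraicClosure (FractionRing T)
  let j : T →ₐ[K] k := IsScalarTower.toAlgHom K T k
  have hj : Function.Injective j := by
    change Function.Injective (algebraMap T k)
    rw [IsScalarTower.algebraMap_eq T (FractionRing T) k]
    exact (algebraMap (FractionRing T) k).injective.comp (IsFractionRing.injective _ _)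
  obtain ⟨σ, -, hσ⟩ := exists_map_genPt_of_chart (f := f) hV (j.comp ξ) (hj.comp hξinj)
  refine CubeVanish.of_map G hc D σ ?_
  let := ptGroup G hc k
  have e : Pt.map σ (genPt f) = ∏ i, Pt.map (j.comp (ζ i)) (chartPt (f := f) hV) := by
    rw [hσ, ← Pt.map_map, hξ]
    change Pt.mapHom G hc j x = _
    rw [map_prod]
    exact Finset.prod_congr rfl fun i _ => by rw [Pt.mapHom_apply, Pt.map_map]
  rw [e]
  exact CubeVanish.prod G hc D _ _ fun i _ =>
    cubeVanish_line G hc D hV s hs ε hε1 (ζ i) i (hζs i) (hζε i) j hj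

end Fermat.AV

end
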