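import Fermat.Agent.AV.EtaleCriterion
import Fermat.Agent.AV.Infinitesimal
import Mathlib.AlgebraicGeometry.AlgClosed.Basic
import Mathlib.AlgebraicGeometry.Morphisms.FlatRank
import Mathlib.AlgebraicGeometry.Morphisms.UniversallyOpen
import Mathlib.AlgebraicGeometry.ZariskisMainTheorem
import Mathlib.RingTheory.Etale.Field
import Fermat.Prelude.Def_JacJ1Iface

/-!
# The torsion points of an abelian scheme over a field are counted by the degree of `[n]`

For `n` prime to the characteristic multiplication by `n` is finite, étale and surjective, and the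
`n`-torsion points over an algebraically closed field are as many as its degree.
-/

set_option autoImplicit false
set_option linter.unusedSectionVars false

noncomputable section

universe u

open CategoryTheory CategoryTheory.Limits AlgebraicGeometry NeronModelInfra GoodReductionJacobian

namespace Fermat.AV

/-- An unramified morphism of finite type is quasi-finite. -/
theorem locallyQuasiFinite_of_formallyUnramified {X Y : Scheme.{u}} (h : X ⟶ Y)
    [FormallyUnramified h] [LocallyOfFiniteType h] : LocallyQuasiFinite h := by
  rw [HasRingHomProperty.iff_appLE (P := @LocallyQuasiFinite)]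
  intro U V e
  have h1 := h.formallyUnramified_appLE U.2 V.2 e
  have h2 := h.finiteType_appLE U.2 V.2 e
  algebraize [(h.appLE U V e).hom]
  exact (inferInstance : Algebra.QuasiFinite Γ(Y, U) Γ(X, V))

/-- A finite étale scheme over an algebraically closed field has as many sections as its degree. -/
theorem natCard_sections {K : Type u} [Field K] [IsAlgClosed K] {P : Scheme.{u}}
    (p : P ⟶ Spec (CommRingCat.of K)) [IsFinite p] [Etale p] (s : Spec (CommRingCat.of K)) :
    Nat.card {x : Spec (CommRingCat.of K) ⟶ P // x ≫ p = 𝟙 _} = p.finrank s := by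
  have : IsAffine P := isAffine_of_isAffineHom p
  obtain ⟨ψ, hψ⟩ := Spec.map_surjective (P.isoSpec.inv ≫ p)
  have hfin : IsFinite (Spec.map ψ) := by rw [hψ]; infer_instance
  have het : Etale (Spec.map ψ) := by rw [hψ]; infer_instance
  rw [IsFinite.SpecMap_iff] at hfin
  rw [HasRingHomProperty.Spec_iff (P := @Etale)] at het
  algebraize [ψ.hom]
  have hrank : p.finrank s = Module.finrank K Γ(P, ⊤) := by
    rw [← Scheme.Hom.finrank_comp_left_of_isIso P.isoSpec.inv p, ← hψ,
      show ψ = CommRingCat.ofHom (algebraMap K Γ(P, ⊤)) from rfl]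
    exact (Scheme.Hom.finrank_SpecMap_algebraMap K Γ(P, ⊤) s).trans
      (by rw [Module.rankAtStalk_eq_finrank_of_free]; rfl)
  have : Finite (PrimeSpectrum Γ(P, ⊤)) :=
    haveI : IsArtinianRing Γ(P, ⊤) := isArtinian_of_tower K inferInstance
    inferInstance
  have := Fintype.ofFinite (PrimeSpectrum Γ(P, ⊤))
  have hcard : Module.finrank K Γ(P, ⊤) = Nat.card (PrimeSpectrum Γ(P, ⊤)) := by
    rw [(Algebra.FormallyEtale.equivPiOfIsSepClosed K Γ(P, ⊤)).toLinearEquiv.finrank_eq,
      Module.finrank_pi, Nat.card_eq_fintype_card]
  rw [hrank, hcard, Nat.card_congr (pointEquivClosedPoint p)]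
  refine (Nat.card_congr (Equiv.subtypeUnivEquiv fun x => ?_)).trans
    (Nat.card_congr P.isoSpec.hom.homeomorph.toEquiv)
  have : T1Space P := by
    have : IsArtinianRing Γ(P, ⊤) := isArtinian_of_tower K inferInstance
    have : T1Space (Spec Γ(P, ⊤)) := show T1Space (PrimeSpectrum Γ(P, ⊤)) from inferInstance
    exact P.isoSpec.hom.homeomorph.symm.t1Space
  exact isClosed_singleton

variable {K : Type u} [Field K] {A : Scheme.{u}} {f : A ⟶ Spec (CommRingCat.of K)}
  (L : RelativeGroupLaw K f) (hc : L.IsCommutative) (hA : AbelianSchemePropertyBundle K f)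
  (g : ℕ) [SmoothOfRelativeDimension g f] {n : ℕ} (hn : (n : K) ≠ 0)

include hA in
/-- An abelian scheme over a field is connected. -/
theorem connectedSpace_of_bundle : ConnectedSpace A := by
  have h := hA.connectedFibres (IsLocalRing.closedPoint K)
  refine connectedSpace_iff_univ.mpr ?_
  convert h using 1
  exact (Set.eq_univ_of_forall fun x => Subsingleton.elim (α := Spec (CommRingCat.of K)) _ _).symm

include hc g hn in
/-- Multiplication by `n` is étale. -/
theorem etale_schemeNsmul : Etale (L.schemeNsmul n) := by
  have := formallyUnramified_schemeNsmul L hc hn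
  have : SmoothOfRelativeDimension g (L.schemeNsmul n ≫ f) := by
    rw [L.schemeNsmul_over]; infer_instance
  exact etale_of_formallyUnramified g (L.schemeNsmul n) f

include hc hA g hn in
/-- Multiplication by `n` is finite. -/
theorem isFinite_schemeNsmul : IsFinite (L.schemeNsmul n) := by
  have := formallyUnramified_schemeNsmul L hc hn
  have := hA.proper
  have : IsProper (L.schemeNsmul n ≫ f) := by rw [L.schemeNsmul_over]; infer_instance
  have : IsProper (L.schemeNsmul n) := IsProper.of_comp _ f
  have := locallyQuasiFinite_of_formallyUnramified (L.schemeNsmul n)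
  exact IsFinite.of_isProper_of_locallyQuasiFinite _

/-- Torsion points are the sections of the kernel. -/
def torsionEquivSections :
    {x : SchemeHomOver (𝟙 (Spec (CommRingCat.of K))) f //
        L.IsTorsionPoint (𝟙 (Spec (CommRingCat.of K))) n x} ≃
      {x : Spec (CommRingCat.of K) ⟶ L.schemeKer n // x ≫ L.schemeKerStr n = 𝟙 _} where
  toFun x := ⟨pullback.lift x.1.1 (𝟙 _) (by
    rw [comp_schemeNsmul, show L.nsmul _ n x.1 = L.one _ from x.2, Category.id_comp]),
    pullback.lift_snd _ _ _⟩
  invFun y := ⟨⟨y.1 ≫ pullback.fst _ _, by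
      have h := congrArg (fun w => y.1 ≫ w ≫ f) (pullback.condition (f := L.schemeNsmul n)
        (g := (L.one (𝟙 (Spec (CommRingCat.of K)))).1))
      simp only [Category.assoc, L.schemeNsmul_over] at h
      rw [Category.assoc, h]
      exact (reassoc_of% y.2) _ |>.trans (L.one _).2⟩, Subtype.ext (by
    rw [← comp_schemeNsmul, Category.assoc, pullback.condition]
    exact (reassoc_of% y.2) _)⟩
  left_inv x := Subtype.ext (Subtype.ext (pullback.lift_fst _ _ _))
  right_inv y := Subtype.ext (pullback.hom_ext (pullback.lift_fst _ _ _)
    ((pullback.lift_snd _ _ _).trans y.2.symm))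

variable [IsAlgClosed K]

include hc hA g hn in
/-- **The number of torsion points is the degree of multiplication by `n`.** -/
theorem natCard_isTorsionPoint_eq_finrank (a : A) :
    Nat.card {x : SchemeHomOver (𝟙 (Spec (CommRingCat.of K))) f //
        L.IsTorsionPoint (𝟙 (Spec (CommRingCat.of K))) n x} = (L.schemeNsmul n).finrank a := by
  have := etale_schemeNsmul L hc g hn
  have := isFinite_schemeNsmul L hc hA g hn
  have := connectedSpace_of_bundle hA
  rw [Nat.card_congr (torsionEquivSections L),
    natCard_sections (L.schemeKerStr n) (IsLocalRing.closedPoint K)]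
  exact (Scheme.Hom.finrank_pullback_snd (L.schemeNsmul n)
    (L.one (𝟙 (Spec (CommRingCat.of K)))).1 _).trans
    ((L.schemeNsmul n).isLocallyConstant_finrank.apply_eq_of_preconnectedSpace _ _)

include hc hA g hn in
/-- Multiplication by `n` is surjective. -/
theorem surjective_schemeNsmul : Surjective (L.schemeNsmul n) := by
  have := etale_schemeNsmul L hc g hn
  have := isFinite_schemeNsmul L hc hA g hn
  have := connectedSpace_of_bundle hA
  rw [← Scheme.Hom.one_le_finrank_iff_surjective]
  intro a
  rw [(L.schemeNsmul n).isLocallyConstant_finrank.apply_eq_of_preconnectedSpace a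
    ((L.schemeNsmul n) a)]
  exact Scheme.Hom.one_le_finrank_map _ a

end Fermat.AV

end
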