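import Fermat.Agent.AV.Curves
import Fermat.Agent.AV.Nsmul

/-!
# The degree of multiplication by `n` on the function field

Multiplication by `n` prime to the characteristic induces an embedding of the function field in
itself, sending the generic point to its `n`th power; the field is finite separable over the image,
of degree the number of torsion points.  A chart étale over affine space gives a separating
transcendence basis.

`exists_nsmulHom` and `exists_sepBasis`; `Main` compares this degree with the growth of sections.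
-/

set_option autoImplicit false

noncomputable section

universe u

open CategoryTheory AlgebraicGeometry NeronModelInfra GoodReductionJacobian

namespace Fermat.AV

variable {K : Type u} [Field K] {A : Scheme.{u}} {f : A ⟶ Spec (CommRingCat.of K)} [IsIntegral A]

/-- The function field is the fraction field of the sections on an affine chart. -/
theorem isFractionRing_genHom {V : A.Opens} (hV : IsAffineOpen V) [Nonempty V] :
    letI := chartAlgebra (f := f) hV
    letI : Algebra Γ(A, V) (FunField f) := (genHom (f := f) hV).toRingHom.toAlgebra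
    IsFractionRing Γ(A, V) (FunField f) :=
  functionField_isFractionRing_of_isAffineOpen A V hV

/-- A finite flat morphism to an integral scheme has on a chart the rank of the rings. -/
theorem finrank_eq_finrank_sections {X : Scheme.{u}} (h : X ⟶ A) [IsFinite h] [Flat h] {V : A.Opens}
    (hV : IsAffineOpen V) [Nonempty V] (x : A) (hx : x ∈ V) :
    letI := (h.app V).hom.toAlgebra
    h.finrank x = Module.finrank Γ(A, V) Γ(X, h ⁻¹ᵁ V) := by
  let := (h.app V).hom.toAlgebra
  have hU : IsAffineOpen (h ⁻¹ᵁ V) := hV.preimage h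
  have hsq : IsPullback hU.fromSpec (Spec.map (h.app V)) h hV.fromSpec := by
    refine (IsOpenImmersion.isPullback (Spec.map (h.app V)) hU.fromSpec hV.fromSpec h ?_ ?_).flip
    · rw [Scheme.Hom.app_eq_appLE, hV.SpecMap_appLE_fromSpec h hU le_rfl]
    · rw [hU.opensRange_fromSpec, hV.opensRange_fromSpec]
  have : Module.Finite Γ(A, V) Γ(X, h ⁻¹ᵁ V) := by
    have h1 := h.finite_app V hV
    exact h1
  have : Module.Flat Γ(A, V) Γ(X, h ⁻¹ᵁ V) := by
    have h1 : (h.app V).hom.Flat := by
      rw [Scheme.Hom.app_eq_appLE]; exact h.flat_appLE hV hU le_rfl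
    exact h1
  obtain ⟨w, rfl⟩ : x ∈ Set.range hV.fromSpec := by rw [hV.range_fromSpec]; exact hx
  rw [← Scheme.Hom.finrank_of_isPullback _ _ _ _ hsq w]
  refine (Scheme.Hom.finrank_SpecMap_algebraMap Γ(A, V) Γ(X, h ⁻¹ᵁ V) w).trans ?_
  have key : ∀ q : PrimeSpectrum Γ(A, V), Module.rankAtStalk Γ(X, h ⁻¹ᵁ V) q =
      Module.finrank Γ(A, V) Γ(X, h ⁻¹ᵁ V) := fun q =>
    (Ideal.finrank_fiber_eq_rankAtStalk q.asIdeal).symm.trans (Ideal.finrank_fiber_eq_finrank _)
  exact key w

variable (L : RelativeGroupLaw K f) (hc : L.IsCommutative) (hA : AbelianSchemePropertyBundle K f)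
  (g : ℕ) [SmoothOfRelativeDimension g f] [IsAlgClosed K] {n : ℕ} (hn : (n : K) ≠ 0)

include hA g hn in
/-- **Multiplication by `n` on the function field.** -/
theorem exists_nsmulHom :
    ∃ σ : FunField f →ₐ[K] FunField f,
      (letI := ptGroup L hc (FunField f); Pt.map σ (genPt f) = genPt f ^ n) ∧
      FiniteDimensional σ.fieldRange (FunField f) ∧
      Algebra.IsSeparable σ.fieldRange (FunField f) ∧
      Module.finrank σ.fieldRange (FunField f) =
        Nat.card {x : SchemeHomOver (𝟙 (Spec (CommRingCat.of K))) f //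
          L.IsTorsionPoint (𝟙 (Spec (CommRingCat.of K))) n x} := by
  have := isFinite_schemeNsmul L hc hA g hn
  have := etale_schemeNsmul L hc g hn
  have := surjective_schemeNsmul L hc hA g hn
  let := ptGroup L hc (FunField f)
  set h := L.schemeNsmul n
  obtain ⟨V, hV, hxV, -⟩ := exists_etale_chart (f := f) g (genericPoint A)
  set x₁ := genericPoint A
  have : Nonempty V := ⟨⟨x₁, hxV⟩⟩
  have : Nonempty (h ⁻¹ᵁ V : A.Opens) := by
    obtain ⟨y, hy⟩ := h.surjective x₁
    exact ⟨⟨y, show h y ∈ V by rw [hy]; exact hxV⟩⟩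
  have hU : IsAffineOpen (h ⁻¹ᵁ V) := hV.preimage h
  let iB := chartAlgebra (f := f) hV
  let iB' := chartAlgebra (f := f) hU
  have hSpec : Spec.map (h.app V) ≫ hV.fromSpec = hU.fromSpec ≫ h := by
    rw [Scheme.Hom.app_eq_appLE, hV.SpecMap_appLE_fromSpec h hU le_rfl]
  have hcomm : Spec.preimage (hV.fromSpec ≫ f) ≫ h.app V = Spec.preimage (hU.fromSpec ≫ f) := by
    refine Spec.map_injective ?_
    rw [Spec.map_comp, Spec.map_preimage, Spec.map_preimage, ← Category.assoc, hSpec,
      Category.assoc, L.schemeNsmul_over]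
  let φ : Γ(A, V) →ₐ[K] Γ(A, h ⁻¹ᵁ V) :=
    ⟨(h.app V).hom, fun c => ConcreteCategory.congr_hom hcomm c⟩
  let ψ : Γ(A, V) →ₐ[K] FunField f := (genHom hU).comp φ
  have hψ : Function.Injective ψ := by
    refine (A.germToFunctionField_injective (h ⁻¹ᵁ V)).comp ((injective_iff_map_eq_zero _).mpr ?_)
    intro b hb
    refine (basicOpen_eq_bot_iff b).mp (eq_bot_iff.mpr fun x hx => ?_)
    obtain ⟨y, rfl⟩ := h.surjective x
    have hy : y ∈ h ⁻¹ᵁ A.basicOpen b := hx
    rw [Scheme.preimage_basicOpen, show h.app V b = 0 from hb, A.basicOpen_zero] at hy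
    exact hy
  have hpow : Pt.map ψ (chartPt hV) = genPt f ^ n := by
    have h0 : Spec.map (A.germToFunctionField (h ⁻¹ᵁ V)) ≫ hU.fromSpec = (genPt f).1 :=
      congrArg Subtype.val (map_genHom (f := f) hU)
    refine Subtype.ext ?_
    rw [pointGroup_pow L (specOf (K := K) (FunField f)) (genPt f) n, ← comp_schemeNsmul]
    refine Eq.trans ?_ (congrArg (· ≫ L.schemeNsmul n) h0)
    change Spec.map (h.app V ≫ A.germToFunctionField (h ⁻¹ᵁ V)) ≫ hV.fromSpec =
      (Spec.map (A.germToFunctionField (h ⁻¹ᵁ V)) ≫ hU.fromSpec) ≫ h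
    refine Eq.trans ?_ ((congrArg (Spec.map (A.germToFunctionField (h ⁻¹ᵁ V)) ≫ ·) hSpec).trans
      (Category.assoc _ _ _).symm)
    rw [Spec.map_comp, Category.assoc]
  -- `σ` is the map induced by `h` on the sections over `V`
  obtain ⟨σ, hσψ, hσ⟩ := exists_map_genPt_of_chart (f := f) hV ψ hψ
  refine ⟨σ, hσ.trans hpow, ?_⟩
  -- the algebras
  let a₁ : Algebra Γ(A, V) Γ(A, h ⁻¹ᵁ V) := (h.app V).hom.toAlgebra
  let a₂ : Algebra Γ(A, h ⁻¹ᵁ V) (FunField f) := (genHom (f := f) hU).toRingHom.toAlgebra
  let a₃ : Algebra Γ(A, V) (FunField f) := ψ.toRingHom.toAlgebra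
  let ψ' : Γ(A, V) →+* σ.fieldRange := ψ.toRingHom.codRestrict σ.fieldRange.toSubfield.toSubring
    fun b => ⟨genHom hV b, DFunLike.congr_fun hσψ b⟩
  let a₄ : Algebra Γ(A, V) σ.fieldRange := ψ'.toAlgebra
  have : IsScalarTower Γ(A, V) Γ(A, h ⁻¹ᵁ V) (FunField f) :=
    IsScalarTower.of_algebraMap_eq fun _ => rfl
  have : IsScalarTower Γ(A, V) σ.fieldRange (FunField f) :=
    IsScalarTower.of_algebraMap_eq fun _ => rfl
  have : IsFractionRing Γ(A, h ⁻¹ᵁ V) (FunField f) := isFractionRing_genHom hU
  have : FaithfulSMul Γ(A, V) σ.fieldRange :=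
    (faithfulSMul_iff_algebraMap_injective _ _).mpr fun a b hab =>
      hψ (congrArg Subtype.val hab)
  have : IsFractionRing Γ(A, V) σ.fieldRange := by
    refine IsFractionRing.of_field _ _ fun z => ?_
    obtain ⟨_, w, rfl⟩ := z
    let : Algebra Γ(A, V) A.functionField := (A.germToFunctionField V).hom.toAlgebra
    have := functionField_isFractionRing_of_isAffineOpen A V hV
    obtain ⟨b, c, -, hw⟩ := IsFractionRing.div_surjective (A := Γ(A, V)) (K := A.functionField) w
    refine ⟨b, c, Subtype.ext ?_⟩
    change σ w = ((algebraMap Γ(A, V) σ.fieldRange b / algebraMap Γ(A, V) σ.fieldRange c :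
      σ.fieldRange) : FunField f)
    rw [IntermediateField.coe_div, ← hw]
    refine (map_div₀ σ.toRingHom _ _).trans ?_
    change σ (genHom hV b) / σ (genHom hV c) = ψ b / ψ c
    rw [← AlgHom.comp_apply, ← AlgHom.comp_apply, hσψ]
  have : Module.Finite Γ(A, V) Γ(A, h ⁻¹ᵁ V) := h.finite_app V hV
  have : Algebra.IsAlgebraic Γ(A, V) Γ(A, h ⁻¹ᵁ V) := Algebra.IsIntegral.isAlgebraic
  have : FaithfulSMul Γ(A, V) Γ(A, h ⁻¹ᵁ V) :=
    (faithfulSMul_iff_algebraMap_injective _ _).mpr fun a b hab =>
      hψ (congrArg (genHom (f := f) hU) hab)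
  -- the degree is the rank over `V`, the number of points in a fibre, and `h` is unramified
  have hrank : Module.finrank σ.fieldRange (FunField f) =
      Module.finrank Γ(A, V) Γ(A, h ⁻¹ᵁ V) := IsFractionRing.finrank_eq _ _ _ _
  have hcard := natCard_isTorsionPoint_eq_finrank L hc hA g hn x₁
  rw [finrank_eq_finrank_sections h hV x₁ hxV, ← hrank] at hcard
  have hpos : 0 < Module.finrank σ.fieldRange (FunField f) := by
    rw [hrank, ← finrank_eq_finrank_sections h hV x₁ hxV]
    exact (Scheme.Hom.one_le_finrank_iff_surjective h).mpr inferInstance x₁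
  have : FiniteDimensional σ.fieldRange (FunField f) := Module.finite_of_finrank_pos hpos
  have : Algebra.FormallyUnramified Γ(A, V) Γ(A, h ⁻¹ᵁ V) := by
    have h1 : (h.app V).hom.FormallyUnramified := by
      rw [Scheme.Hom.app_eq_appLE]; exact h.formallyUnramified_appLE hV hU le_rfl
    exact h1
  have : Algebra.FormallyUnramified Γ(A, h ⁻¹ᵁ V) (FunField f) :=
    Algebra.FormallyUnramified.of_isLocalization (nonZeroDivisors Γ(A, h ⁻¹ᵁ V))
  have : Algebra.FormallyUnramified Γ(A, V) (FunField f) :=
    Algebra.FormallyUnramified.comp Γ(A, V) Γ(A, h ⁻¹ᵁ V) (FunField f)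
  have : Algebra.FormallyUnramified σ.fieldRange (FunField f) :=
    Algebra.FormallyUnramified.of_restrictScalars Γ(A, V) σ.fieldRange (FunField f)
  exact ⟨inferInstance, Algebra.FormallyUnramified.isSeparable σ.fieldRange (FunField f),
    hcard.symm⟩

omit [IsAlgClosed K] in
omit hn in
/-- **A chart étale over affine space gives a separating transcendence basis.** -/
theorem exists_sepBasis (p : Pt f K) :
    ∃ t : Fin g → FunField f, AlgebraicIndependent K t ∧
      FiniteDimensional (IntermediateField.adjoin K (Set.range t)) (FunField f) ∧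
      Algebra.IsSeparable (IntermediateField.adjoin K (Set.range t)) (FunField f) := by
  obtain ⟨V, hV, hpV, hrest⟩ := exists_coords (f := f) g p
  let := chartAlgebra (f := f) hV
  obtain ⟨ε, s, -, hs, hε⟩ := hrest
  have : Nonempty V := ⟨⟨_, hpV⟩⟩
  -- `t` are étale coordinates on a chart at `p`
  let t : Fin g → FunField f := fun l => genHom hV (s (MvPolynomial.X l))
  have hts : MvPolynomial.aeval t = (genHom (f := f) hV).comp s :=
    MvPolynomial.algHom_ext fun l => by simp [t]
  -- they are independent, having a formal inverse into power series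
  have hinj : Function.Injective s := by
    obtain ⟨ζ, hζ, -⟩ := exists_formal_lift s hs ε hε MvPowerSeries.X fun l => by
      rw [maximalIdeal_mvPowerSeries]; exact Ideal.subset_span ⟨l, rfl⟩
    have e : ζ.comp s = MvPolynomial.coeToMvPowerSeries.algHom K :=
      MvPolynomial.algHom_ext fun l => by
        simp [hζ, MvPolynomial.coeToMvPowerSeries.algHom_apply]
    intro a b hab
    refine MvPolynomial.coe_injective (Fin g) K ?_
    have h1 := congrArg ζ hab
    simpa [← AlgHom.comp_apply, e, MvPolynomial.coeToMvPowerSeries.algHom_apply] using h1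
  refine ⟨t, ?_, ?_⟩
  · rw [algebraicIndependent_iff_injective_aeval, hts]
    exact (A.germToFunctionField_injective V).comp hinj
  -- `K(A)` is unramified, essentially of finite type over `K(t)`
  set F := IntermediateField.adjoin K (Set.range t)
  let : Algebra (MvPolynomial (Fin g) K) Γ(A, V) := s.toRingHom.toAlgebra
  have : Algebra.Etale (MvPolynomial (Fin g) K) Γ(A, V) := hs
  let : Algebra Γ(A, V) (FunField f) := (genHom (f := f) hV).toRingHom.toAlgebra
  let : Algebra (MvPolynomial (Fin g) K) (FunField f) :=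
    ((genHom (f := f) hV).comp s).toRingHom.toAlgebra
  let aF : MvPolynomial (Fin g) K →ₐ[K] F :=
    MvPolynomial.aeval fun l => ⟨t l, IntermediateField.subset_adjoin K _ ⟨l, rfl⟩⟩
  let : Algebra (MvPolynomial (Fin g) K) F := aF.toRingHom.toAlgebra
  have : IsScalarTower (MvPolynomial (Fin g) K) Γ(A, V) (FunField f) :=
    IsScalarTower.of_algebraMap_eq fun _ => rfl
  have : IsScalarTower (MvPolynomial (Fin g) K) F (FunField f) := by
    refine IsScalarTower.of_algebraMap_eq fun q => ?_
    have e : F.val.comp aF = (genHom (f := f) hV).comp s :=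
      MvPolynomial.algHom_ext fun l => by simp [aF, t]
    exact (DFunLike.congr_fun e q).symm
  have : IsFractionRing Γ(A, V) (FunField f) := isFractionRing_genHom hV
  have : Algebra.FormallyUnramified Γ(A, V) (FunField f) :=
    Algebra.FormallyUnramified.of_isLocalization (nonZeroDivisors Γ(A, V))
  have : Algebra.FormallyUnramified (MvPolynomial (Fin g) K) (FunField f) :=
    Algebra.FormallyUnramified.comp _ Γ(A, V) (FunField f)
  have : Algebra.FormallyUnramified F (FunField f) :=
    Algebra.FormallyUnramified.of_restrictScalars (MvPolynomial (Fin g) K) F (FunField f)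
  have : Algebra.EssFiniteType Γ(A, V) (FunField f) :=
    Algebra.EssFiniteType.of_isLocalization (FunField f) (nonZeroDivisors Γ(A, V))
  have : Algebra.EssFiniteType (MvPolynomial (Fin g) K) (FunField f) :=
    Algebra.EssFiniteType.comp _ Γ(A, V) (FunField f)
  have : Algebra.EssFiniteType F (FunField f) :=
    Algebra.EssFiniteType.of_comp (MvPolynomial (Fin g) K) F (FunField f)
  exact ⟨Algebra.FormallyUnramified.finite_of_free F _,
    Algebra.FormallyUnramified.isSeparable F (FunField f)⟩

end Fermat.AV

end
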