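import Mathlib.AlgebraicGeometry.Morphisms.Etale
import Mathlib.RingTheory.Kaehler.JacobiZariski
import Mathlib.LinearAlgebra.Dimension.Constructions
import Mathlib.RingTheory.OrzechProperty
import Mathlib.RingTheory.FiniteType

/-!
# Unramified maps between smooth schemes of the same dimension are étale

`etale_of_formallyUnramified`; `Nsmul` applies it to multiplication by `n`, unramified by
`Infinitesimal`.
-/

set_option autoImplicit false

universe u

open CategoryTheory AlgebraicGeometry TensorProduct

namespace Fermat.AV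

/-- An unramified map of standard smooth algebras of the same relative dimension is étale. -/
theorem etale_of_subsingleton_kaehler (n : ℕ) (R B S : Type u) [CommRing R] [CommRing B]
    [CommRing S] [Algebra R B] [Algebra R S] [Algebra B S] [IsScalarTower R B S]
    [Algebra.IsStandardSmoothOfRelativeDimension n R B]
    [Algebra.IsStandardSmoothOfRelativeDimension n R S] [Subsingleton Ω[S⁄B]] :
    Algebra.Etale B S := by
  have : Algebra.IsStandardSmooth R B :=
    Algebra.IsStandardSmoothOfRelativeDimension.isStandardSmooth n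
  have : Algebra.IsStandardSmooth R S :=
    Algebra.IsStandardSmoothOfRelativeDimension.isStandardSmooth n
  have hfp : Algebra.FinitePresentation B S :=
    Algebra.FinitePresentation.of_restrict_scalars_finitePresentation R B S
  refine ⟨⟨inferInstance, ?_⟩, hfp⟩
  -- the base change map on differentials is bijective
  have hsurj : Function.Surjective (KaehlerDifferential.mapBaseChange R B S) := fun x =>
    (KaehlerDifferential.exact_mapBaseChange_map R B S x).mp (Subsingleton.elim _ _)
  have hinj : Function.Injective (KaehlerDifferential.mapBaseChange R B S) := by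
    rcases subsingleton_or_nontrivial S with hS | hS
    · have := Module.subsingleton S (S ⊗[B] Ω[B⁄R])
      exact Function.injective_of_subsingleton _
    have : Nontrivial B := (algebraMap B S).domain_nontrivial
    have hB : Module.finrank B Ω[B⁄R] = n := Module.finrank_eq_of_rank_eq
      (Algebra.IsStandardSmoothOfRelativeDimension.rank_kaehlerDifferential n)
    have hS' : Module.finrank S Ω[S⁄R] = n := Module.finrank_eq_of_rank_eq
      (Algebra.IsStandardSmoothOfRelativeDimension.rank_kaehlerDifferential n)
    have e : (S ⊗[B] Ω[B⁄R]) ≃ₗ[S] Ω[S⁄R] := LinearEquiv.ofFinrankEq _ _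
      (by rw [Module.finrank_baseChange, hB, hS'])
    have h := OrzechProperty.injective_of_surjective_endomorphism
      ((e.symm : Ω[S⁄R] →ₗ[S] S ⊗[B] Ω[B⁄R]).comp (KaehlerDifferential.mapBaseChange R B S))
      (e.symm.surjective.comp hsurj)
    exact Function.Injective.of_comp h
  refine ⟨fun a b => ?_⟩
  have hzero : ∀ x : Algebra.H1Cotangent B S, x = 0 := fun x => by
    have h : Algebra.H1Cotangent.δ R B S x = 0 := hinj (by
      rw [Function.Exact.apply_apply_eq_zero (Algebra.H1Cotangent.exact_δ_mapBaseChange R B S),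
        map_zero])
    obtain ⟨y, rfl⟩ := (Algebra.H1Cotangent.exact_map_δ R B S x).mp h
    rw [Subsingleton.elim y 0, map_zero]
  rw [hzero a, hzero b]

/-- An unramified map between schemes smooth of the same dimension over an affine base is
étale. -/
theorem etale_of_formallyUnramified (n : ℕ) {X Y S : Scheme.{u}} [IsAffine S] (f : X ⟶ Y)
    (p : Y ⟶ S) [hp : SmoothOfRelativeDimension n p] [hq : SmoothOfRelativeDimension n (f ≫ p)]
    [FormallyUnramified f] : Etale f := by
  rw [HasRingHomProperty.iff_exists_appLE (P := @Etale)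
    (RingHom.Etale.stableUnderComposition.stableUnderCompositionWithLocalizationAway
      fun R S _ _ _ r _ => RingHom.etale_algebraMap.mpr
        (Algebra.Etale.of_isLocalizationAway r)).1]
  intro x
  obtain ⟨U, hU, V, hV, hfx, e, hstd⟩ :=
    hp.exists_isStandardSmoothOfRelativeDimension (f x)
  obtain ⟨W₀, hW₀, hx₀, hW₀V⟩ := TopologicalSpace.Opens.isBasis_iff_nbhd.mp X.isBasis_affineOpens
    (show x ∈ f ⁻¹ᵁ V from hfx)
  have e₀ : W₀ ≤ (f ≫ p) ⁻¹ᵁ U := fun y hy => e (hW₀V hy)
  have hloc := HasRingHomProperty.iff_appLE (P := @SmoothOfRelativeDimension n) |>.mp hq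
    ⟨U, hU⟩ ⟨W₀, hW₀⟩ e₀
  rw [RingHom.locally_iff_isLocalization
    RingHom.isStandardSmoothOfRelativeDimension_respectsIso] at hloc
  obtain ⟨s, hs, hloc⟩ := hloc
  apply hW₀.iSup_basicOpen_eq_self_iff.mpr at hs
  obtain ⟨⟨t, ht⟩, hxt⟩ := TopologicalSpace.Opens.mem_iSup.mp (hs.symm ▸ hx₀ : x ∈ _)
  have hle : X.basicOpen t ≤ f ⁻¹ᵁ V := (X.basicOpen_le t).trans hW₀V
  refine ⟨⟨V, hV⟩, ⟨X.basicOpen t, hW₀.basicOpen t⟩, hxt, hle, ?_⟩
  have : IsLocalization.Away t Γ(X, X.basicOpen t) := hW₀.isLocalization_basicOpen t
  have h2 : RingHom.IsStandardSmoothOfRelativeDimension n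
      ((f ≫ p).appLE U (X.basicOpen t) ((X.basicOpen_le t).trans e₀)).hom := by
    rw [← (f ≫ p).appLE_map e₀ (homOfLE (X.basicOpen_le t)).op]
    exact hloc t ht _
  rw [← Scheme.Hom.appLE_comp_appLE f p U V (X.basicOpen t) e hle] at h2
  have h3 := f.formallyUnramified_appLE hV (hW₀.basicOpen t) hle
  algebraize [(p.appLE U V e).hom, (f.appLE V (X.basicOpen t) hle).hom,
    ((f.appLE V (X.basicOpen t) hle).hom.comp (p.appLE U V e).hom)]
  exact etale_of_subsingleton_kaehler n Γ(S, U) Γ(Y, V) Γ(X, X.basicOpen t)

end Fermat.AV
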