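import Fermat.Agent.AV.VDiv
import Fermat.Agent.JAC.ConstExtExists
import Mathlib.RingTheory.TensorProduct.Free

/-!
# The Gauss extension of a specialisation of the constants

`M` is the field of an extension of the constants of `L/K` to an algebraically closed field `k`.
A specialisation of `k` extends to `M`, with the residue field extending the constants of `L` to
the residue field of `k`.
-/

set_option autoImplicit false
set_option linter.unusedSectionVars false

noncomputable section

universe u

open TensorProduct Fermat.JAC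

namespace Fermat.AV

variable {K : Type u} [Field K] {L : Type u} [Field L] [Algebra K L]
  {k : Type u} [Field k] [Algebra K k] {M : Type u} [Field M] [Algebra K M] [Algebra k M]
  [Algebra L M] [IsScalarTower K k M] [IsScalarTower K L M] [IsConstExt K k L M]
  {k₀ : Type u} [Field k₀] [Algebra K k₀] {M₀ : Type u} [Field M₀] [Algebra K M₀] [Algebra k₀ M₀]
  [Algebra L M₀] [IsScalarTower K k₀ M₀] [IsScalarTower K L M₀] [IsConstExt K k₀ L M₀]

/-- The constants of a valuation ring. -/
instance valAlgebra (v : Val K k) : Algebra K v.1 :=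
  ((algebraMap K k).codRestrict v.1.toSubring v.2).toAlgebra

/-- The constants of a valuation ring are those of the field. -/
@[simp]
theorem val_algebraMap_coe (v : Val K k) (c : K) : (algebraMap K v.1 c : k) = algebraMap K k c :=
  rfl

variable (S : Specialisation K k k₀)

/-- The reduction as a map of algebras. -/
def Specialisation.redAlg : S.ring.1 →ₐ[K] k₀ := ⟨S.red, S.red_algebraMap⟩

/-- The inclusion of the valuation ring as a map of algebras. -/
def Specialisation.inclAlg : S.ring.1 →ₐ[K] k := ⟨S.ring.1.subtype, fun _ => rfl⟩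

variable (L M M₀)

/-- The product map `S.ring ⊗ L → M`, whose image is the integral combinations of `L`. -/
def Specialisation.intMap : S.ring.1 ⊗[K] L →ₐ[K] M :=
  Algebra.TensorProduct.productMap ((IsScalarTower.toAlgHom K k M).comp S.inclAlg)
    (IsScalarTower.toAlgHom K L M)

/-- The reductions of integral constants times elements of `L`, as a map to `M₀`. -/
def Specialisation.intRed : S.ring.1 ⊗[K] L →ₐ[K] M₀ :=
  Algebra.TensorProduct.productMap ((IsScalarTower.toAlgHom K k₀ M₀).comp S.redAlg)
    (IsScalarTower.toAlgHom K L M₀)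

variable {L M M₀}

/-- An integral combination of one term. -/
@[simp]
theorem Specialisation.intMap_tmul (a : S.ring.1) (l : L) :
    S.intMap L M (a ⊗ₜ l) = algebraMap k M a * algebraMap L M l := rfl

/-- The reduction of a combination of one term. -/
@[simp]
theorem Specialisation.intRed_tmul (a : S.ring.1) (l : L) :
    S.intRed L M₀ (a ⊗ₜ l) = algebraMap k₀ M₀ (S.red a) * algebraMap L M₀ l := rfl

/-- An integral combination determines its tensor, by linear disjointness. -/
theorem Specialisation.intMap_injective : Function.Injective (S.intMap L M) := by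
  classical
  rw [injective_iff_map_eq_zero]
  intro w hw
  obtain ⟨c, rfl⟩ := TensorProduct.eq_repr_basis_right (M := S.ring.1)
    (Module.Basis.ofVectorSpace K L) w
  have hb := ConstExt.linearIndependent (K := k) (F := M)
    (Module.Basis.ofVectorSpace K L).linearIndependent
  simp only [Finsupp.sum, map_sum, S.intMap_tmul] at hw
  have h := linearIndependent_iff'.mp hb c.support (fun i => (c i : k))
    (by simpa [Algebra.smul_def] using hw)
  refine Finset.sum_eq_zero fun i hi => ?_
  change c i ⊗ₜ[K] _ = 0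
  rw [show c i = 0 from Subtype.ext (h i hi), TensorProduct.zero_tmul]

/-- A combination is a constant times a primitive integral one. -/
theorem Specialisation.exists_primitive (V : Submodule K L) {z : M}
    (hz : z ∈ Submodule.span k (algebraMap L M '' (V : Set L))) (h0 : z ≠ 0) :
    ∃ (a : k) (w : S.ring.1 ⊗[K] L), a ≠ 0 ∧ S.intRed L M₀ w ≠ 0 ∧
      z = algebraMap k M a * S.intMap L M w ∧
      S.intMap L M w ∈ Subring.closure
        (algebraMap k M '' (S.ring.1 : Set k) ∪ algebraMap L M '' (V : Set L)) := by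
  classical
  set b := Module.Basis.ofVectorSpace K V
  have hspan : z ∈ Submodule.span k (Set.range (algebraMap L M ∘ (fun i => (b i : L)))) := by
    refine Submodule.span_le.mpr ?_ hz
    rintro _ ⟨l, hl, rfl⟩
    change algebraMap L M ((⟨l, hl⟩ : V) : L) ∈ _
    rw [← b.linearCombination_repr ⟨l, hl⟩, Finsupp.linearCombination_apply, Finsupp.sum,
      Submodule.coe_sum, map_sum]
    refine Submodule.sum_mem _ fun i _ => ?_
    rw [Submodule.coe_smul, ConstExt.map_smul K k]
    exact Submodule.smul_mem _ _ (Submodule.subset_span ⟨i, rfl⟩)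
  -- write `z` in a basis of `V` and divide by the largest coefficient
  obtain ⟨c, hc⟩ := Finsupp.mem_span_range_iff_exists_finsupp.mp hspan
  have hne : c.support.Nonempty := Finset.nonempty_iff_ne_empty.mpr fun h => h0 (by
    rw [← hc, Finsupp.sum, h, Finset.sum_empty])
  obtain ⟨j, hj, hmax⟩ := Finset.exists_max_image c.support
    (fun i => S.ring.1.valuation (c i)) hne
  have hj0 : c j ≠ 0 := Finsupp.mem_support_iff.mp hj
  have hmem : ∀ i ∈ c.support, c i / c j ∈ S.ring.1 := fun i hi => by
    rw [← S.ring.1.valuation_le_one_iff, map_div₀]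
    exact div_le_one_of_le₀ (hmax i hi) zero_le
  let e : _ → S.ring.1 := fun i => if hi : i ∈ c.support then ⟨c i / c j, hmem i hi⟩ else 0
  refine ⟨c j, ∑ i ∈ c.support, e i ⊗ₜ (b i : L), hj0, fun h => ?_, ?_, ?_⟩
  -- the reduction is not zero, one of its coefficients being one
  · have hb := ConstExt.linearIndependent (K := k₀) (F := M₀)
      (b.linearIndependent.map' V.subtype V.ker_subtype)
    have := linearIndependent_iff'.mp hb c.support (fun i => S.red (e i))
      (by simpa [map_sum, Algebra.smul_def] using h) j hj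
    rw [show e j = 1 from by simp [e, hj0, Subtype.ext_iff], map_one] at this
    exact one_ne_zero this
  · rw [← hc, Finsupp.sum, map_sum, Finset.mul_sum]
    refine Finset.sum_congr rfl fun i hi => ?_
    rw [S.intMap_tmul, ← mul_assoc, ← map_mul, Algebra.smul_def]
    simp only [e, dif_pos hi, Function.comp_apply, mul_div_cancel₀ _ hj0]
  · rw [map_sum]
    -- each term is an integral constant times an element of `V`
    refine Subring.sum_mem _ fun i _ => ?_
    rw [S.intMap_tmul]
    exact Subring.mul_mem _ (Subring.subset_closure (.inl ⟨_, (e i).2, rfl⟩))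
      (Subring.subset_closure (.inr ⟨_, (b i).2, rfl⟩))

variable (K) in
include K in
/-- Every element is a quotient of combinations. -/
theorem exists_eq_div_span (z : M) : ∃ x ∈ Submodule.span k (Set.range (algebraMap L M)),
    ∃ y ∈ Submodule.span k (Set.range (algebraMap L M)), z = x / y := by
  have hz : z ∈ IntermediateField.adjoin k (Set.range (algebraMap L M)) := by
    rw [IsConstExt.adjoin_eq_top (k := K)]; trivial
  obtain ⟨x, hx, y, hy, rfl⟩ := IntermediateField.mem_adjoin_iff_div.mp hz
  have hA : ∀ w ∈ Algebra.adjoin k (Set.range (algebraMap L M)),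
      w ∈ Submodule.span k (Set.range (algebraMap L M)) := fun w hw => by
    rw [← Subalgebra.mem_toSubmodule, Algebra.adjoin_eq_span] at hw
    rwa [show (Submonoid.closure (Set.range (algebraMap L M)) : Set M) =
      Set.range (algebraMap L M) from congrArg SetLike.coe
        (Submonoid.closure_eq (MonoidHom.mrange (algebraMap L M : L →* M)))] at hw
  exact ⟨x, hA x hx, y, hA y hy, rfl⟩

variable (M₀) in
/-- The elements of the Gauss ring. -/
def Specialisation.gaussSubring : Subring M where
  carrier := {z | ∃ x y : S.ring.1 ⊗[K] L, S.intRed L M₀ y ≠ 0 ∧ z * S.intMap L M y =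
    S.intMap L M x}
  zero_mem' := ⟨0, 1, by rw [map_one]; exact one_ne_zero, by rw [zero_mul, map_zero]⟩
  one_mem' := ⟨1, 1, by rw [map_one]; exact one_ne_zero, by rw [one_mul]⟩
  neg_mem' := fun {z} ⟨x, y, hy, h⟩ => ⟨-x, y, hy, by rw [map_neg, neg_mul, h]⟩
  add_mem' := fun {z z'} ⟨x, y, hy, h⟩ ⟨x', y', hy', h'⟩ => ⟨x * y' + x' * y, y * y',
    by rw [map_mul]; exact mul_ne_zero hy hy', by
      rw [map_add, map_mul, map_mul, map_mul, ← h, ← h']; ring⟩
  mul_mem' := fun {z z'} ⟨x, y, hy, h⟩ ⟨x', y', hy', h'⟩ => ⟨x * x', y * y',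
    by rw [map_mul]; exact mul_ne_zero hy hy', by
      rw [map_mul, map_mul, ← h, ← h']; ring⟩

/-- A combination with nonzero reduction is nonzero. -/
theorem Specialisation.intMap_ne_zero {y : S.ring.1 ⊗[K] L} (hy : S.intRed L M₀ y ≠ 0) :
    S.intMap L M y ≠ 0 := fun h => hy (by
  rw [(injective_iff_map_eq_zero _).mp (S.intMap_injective) y h, map_zero])

variable (M₀) in
/-- The Gauss subring of a specialisation is a valuation ring. -/
theorem Specialisation.gaussSubring_mem_or_inv (z : M) :
    z ∈ S.gaussSubring M₀ (L := L) ∨ z⁻¹ ∈ S.gaussSubring M₀ (L := L) := by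
  rcases eq_or_ne z 0 with rfl | hz
  · exact Or.inl (Subring.zero_mem _)
  obtain ⟨x, hx, y, hy, rfl⟩ := exists_eq_div_span K (L := L) (k := k) z
  obtain ⟨hx0, hy0⟩ := div_ne_zero_iff.mp hz
  obtain ⟨a, w, ha, hw, rfl, -⟩ := S.exists_primitive (M₀ := M₀) (⊤ : Submodule K L)
    (by rwa [Submodule.top_coe, Set.image_univ]) hx0
  obtain ⟨a', w', ha', hw', rfl, -⟩ := S.exists_primitive (M₀ := M₀) (⊤ : Submodule K L)
    (by rwa [Submodule.top_coe, Set.image_univ]) hy0
  have key : ∀ {a a' : k} {w w' : S.ring.1 ⊗[K] L}, a' ≠ 0 → S.intRed L M₀ w' ≠ 0 →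
      a / a' ∈ S.ring.1 → algebraMap k M a * S.intMap L M w /
        (algebraMap k M a' * S.intMap L M w') ∈
        S.gaussSubring M₀ := fun {a a' w w'} ha' hw' h =>
    ⟨(⟨a / a', h⟩ ⊗ₜ 1) * w, w', hw', by
      have h0 := S.intMap_ne_zero (M := M) hw'
      have h1 : algebraMap k M a' ≠ 0 := (map_ne_zero _).mpr ha'
      rw [map_mul, S.intMap_tmul, map_one, mul_one, map_div₀]
      field_simp⟩
  rcases S.ring.1.mem_or_inv_mem (a / a') with h | h
  · exact Or.inl (key ha' hw' h)
  · rw [inv_div] at h ⊢
    exact Or.inr (key ha hw h)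

variable (L M M₀) in
/-- The Gauss valuation of `M` given by a specialisation of the constants. -/
def Specialisation.gaussVal : Val K M :=
  ⟨ValuationSubring.ofSubring (S.gaussSubring M₀ (L := L)) (S.gaussSubring_mem_or_inv M₀), fun c =>
    ⟨algebraMap K S.ring.1 c ⊗ₜ 1, 1, by rw [map_one]; exact one_ne_zero, by
      rw [map_one, mul_one, S.intMap_tmul, map_one, mul_one, val_algebraMap_coe,
        ← IsScalarTower.algebraMap_apply]⟩⟩

/-- Integral combinations lie in the Gauss ring. -/
theorem Specialisation.intMap_mem_gaussVal (x : S.ring.1 ⊗[K] L) :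
    S.intMap L M x ∈ (S.gaussVal L M M₀).1 :=
  ⟨x, 1, by rw [map_one]; exact one_ne_zero, by rw [map_one, mul_one]⟩

/-- The Gauss reduction of a quotient. -/
def Specialisation.gaussRedFun (z : (S.gaussVal L M M₀).1) : M₀ :=
  S.intRed L M₀ z.2.choose / S.intRed L M₀ z.2.choose_spec.choose

/-- The Gauss reduction does not depend on the presentation as a quotient. -/
theorem Specialisation.gaussRedFun_eq {z : (S.gaussVal L M M₀).1} {x y : S.ring.1 ⊗[K] L}
    (hy : S.intRed L M₀ y ≠ 0) (h : (z : M) * S.intMap L M y = S.intMap L M x) :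
    S.gaussRedFun z = S.intRed L M₀ x / S.intRed L M₀ y := by
  obtain ⟨hy', h'⟩ := z.2.choose_spec.choose_spec
  rw [gaussRedFun]
  generalize z.2.choose_spec.choose = y₁ at hy' h' ⊢
  generalize z.2.choose = x₁ at h' ⊢
  rw [div_eq_div_iff hy' hy, ← map_mul, ← map_mul]
  refine congrArg _ (S.intMap_injective (M := M) ?_)
  rw [map_mul, map_mul, ← h, ← h']
  ring

variable (L M M₀) in
/-- The reduction of the Gauss valuation. -/
def Specialisation.gaussRed : (S.gaussVal L M M₀).1 →+* M₀ where
  toFun := S.gaussRedFun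
  map_zero' := by
    rw [S.gaussRedFun_eq (x := 0) (y := 1) (by rw [map_one]; exact one_ne_zero)
      (by rw [ZeroMemClass.coe_zero, zero_mul, map_zero]), map_zero, zero_div]
  map_one' := by
    rw [S.gaussRedFun_eq (x := 1) (y := 1) (by rw [map_one]; exact one_ne_zero)
      (by rw [OneMemClass.coe_one, one_mul]), map_one, div_one]
  map_mul' z z' := by
    obtain ⟨x, y, hy, h⟩ := z.2
    obtain ⟨x', y', hy', h'⟩ := z'.2
    rw [S.gaussRedFun_eq (x := x * x') (y := y * y')
      (by rw [map_mul]; exact mul_ne_zero hy hy') (by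
        rw [MulMemClass.coe_mul, map_mul, map_mul, ← h, ← h']; ring),
      S.gaussRedFun_eq hy h, S.gaussRedFun_eq hy' h', map_mul, map_mul, div_mul_div_comm]
  map_add' z z' := by
    obtain ⟨x, y, hy, h⟩ := z.2
    obtain ⟨x', y', hy', h'⟩ := z'.2
    rw [S.gaussRedFun_eq (x := x * y' + x' * y) (y := y * y')
      (by rw [map_mul]; exact mul_ne_zero hy hy') (by
        rw [AddMemClass.coe_add, map_add, map_mul, map_mul, map_mul, ← h, ← h']; ring),
      S.gaussRedFun_eq hy h, S.gaussRedFun_eq hy' h', map_add, map_mul, map_mul, map_mul]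
    field_simp

variable (L M M₀) in
/-- **The Gauss specialisation.** The extension of a specialisation of the constants to the function
field with extended constants. -/
def Specialisation.gauss : Specialisation K M M₀ where
  ring := S.gaussVal L M M₀
  red := S.gaussRed L M M₀
  red_algebraMap c := by
    change S.gaussRedFun _ = _
    rw [S.gaussRedFun_eq (x := algebraMap K S.ring.1 c ⊗ₜ 1) (y := 1)
      (by rw [map_one]; exact one_ne_zero) (by
        rw [map_one, mul_one, S.intMap_tmul, map_one, mul_one, val_algebraMap_coe]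
        exact IsScalarTower.algebraMap_apply K k M c), map_one, div_one, S.intRed_tmul, map_one,
      mul_one, show S.red (algebraMap K S.ring.1 c) = algebraMap K k₀ c from S.red_algebraMap c,
      ← IsScalarTower.algebraMap_apply]
  red_surjective z := by
    -- reductions cover the span of `L`, hence every quotient
    have hr : ∀ x ∈ Submodule.span k₀ (Set.range (algebraMap L M₀)),
        ∃ w, S.intRed L M₀ w = x := by
      intro x hx
      induction hx using Submodule.span_induction with
      | mem x hx =>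
        obtain ⟨l, rfl⟩ := hx
        exact ⟨1 ⊗ₜ l, by rw [S.intRed_tmul, map_one, map_one, one_mul]⟩
      | zero => exact ⟨0, map_zero _⟩
      | add x y _ _ hx hy =>
        obtain ⟨w, rfl⟩ := hx
        obtain ⟨w', rfl⟩ := hy
        exact ⟨w + w', map_add _ _ _⟩
      | smul c x _ hx =>
        obtain ⟨w, rfl⟩ := hx
        obtain ⟨a, rfl⟩ := S.red_surjective c
        exact ⟨(a ⊗ₜ 1) * w, by rw [map_mul, S.intRed_tmul, map_one, mul_one, Algebra.smul_def]⟩
    obtain ⟨x, hx, y, hy, rfl⟩ := exists_eq_div_span K (L := L) (k := k₀) z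
    obtain ⟨w, rfl⟩ := hr x hx
    obtain ⟨w', rfl⟩ := hr y hy
    rcases eq_or_ne (S.intRed L M₀ w') 0 with h | h
    · exact ⟨0, by rw [map_zero, h, div_zero]⟩
    · have h0 := S.intMap_ne_zero (M := M) h
      exact ⟨⟨S.intMap L M w / S.intMap L M w', w, w', h, div_mul_cancel₀ _ h0⟩,
        S.gaussRedFun_eq h (div_mul_cancel₀ _ h0)⟩
  isUnit_of_red z hz := by
    -- the inverse fraction is again integral
    obtain ⟨x, y, hy, h⟩ := z.2
    have hx : S.intRed L M₀ x ≠ 0 := fun e => hz (by
      change S.gaussRedFun z = 0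
      rw [S.gaussRedFun_eq hy h, e, zero_div])
    have hz0 : (z : M) ≠ 0 := fun e => S.intMap_ne_zero (M := M) hx (by rw [← h, e, zero_mul])
    exact ⟨⟨z, ⟨(z : M)⁻¹, y, x, hx, by rw [← h, inv_mul_cancel_left₀ hz0]⟩,
      Subtype.ext (mul_inv_cancel₀ hz0), Subtype.ext (inv_mul_cancel₀ hz0)⟩, rfl⟩

/-- The Gauss reduction of an integral combination is its reduction. -/
theorem Specialisation.gauss_red_intMap (x : S.ring.1 ⊗[K] L) :
    (S.gauss L M M₀).red ⟨S.intMap L M x, S.intMap_mem_gaussVal x⟩ = S.intRed L M₀ x := by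
  refine (S.gaussRedFun_eq (x := x) (y := 1) (by rw [map_one]; exact one_ne_zero)
    (by rw [map_one, mul_one])).trans ?_
  rw [map_one, div_one]

/-- A constant lies in the Gauss ring exactly if it is integral. -/
theorem Specialisation.algebraMap_mem_gaussVal {a : k} :
    algebraMap k M a ∈ (S.gaussVal L M M₀).1 ↔ a ∈ S.ring.1 := by
  refine ⟨fun h => ?_, fun h => ?_⟩
  · by_contra ha
    have ha0 : a ≠ 0 := fun e => ha (e ▸ S.ring.1.zero_mem)
    have hi : a⁻¹ ∈ S.ring.1 := (S.ring.1.mem_or_inv_mem a).resolve_left ha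
    obtain ⟨x, y, hy, hxy⟩ := h
    refine hy ?_
    have e : y = (⟨a⁻¹, hi⟩ ⊗ₜ 1) * x := S.intMap_injective (M := M) (by
      rw [map_mul, S.intMap_tmul, map_one, mul_one, ← hxy, map_inv₀, inv_mul_cancel_left₀]
      exact (map_ne_zero _).mpr ha0)
    rw [e, map_mul, S.intRed_tmul, S.red_eq_zero_of_inv_notMem hi (by rwa [inv_inv]), map_zero,
      zero_mul, zero_mul]
  · have := S.intMap_mem_gaussVal (L := L) (M := M) (M₀ := M₀) (⟨a, h⟩ ⊗ₜ 1)
    rwa [S.intMap_tmul, map_one, mul_one] at this

/-- Every function is a constant times a unit of the Gauss ring. -/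
theorem Specialisation.exists_const_mul_unit (z : Mˣ) :
    ∃ a : kˣ, z * (Units.map (algebraMap k M).toMonoidHom a)⁻¹ ∈
      (S.gauss L M M₀).ring.1.unitGroup := by
  obtain ⟨x, hx, y, hy, h⟩ := exists_eq_div_span K (L := L) (k := k) (z : M)
  obtain ⟨hx0, hy0⟩ := div_ne_zero_iff.mp (h ▸ z.ne_zero)
  obtain ⟨a, w, ha, hw, rfl, -⟩ := S.exists_primitive (M₀ := M₀) (⊤ : Submodule K L)
    (by rwa [Submodule.top_coe, Set.image_univ]) hx0
  obtain ⟨a', w', ha', hw', rfl, -⟩ := S.exists_primitive (M₀ := M₀) (⊤ : Submodule K L)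
    (by rwa [Submodule.top_coe, Set.image_univ]) hy0
  refine ⟨Units.mk0 (a / a') (div_ne_zero ha ha'), mem_unitGroup_iff'.mpr ?_⟩
  have h0 := S.intMap_ne_zero (M := M) hw
  have h0' := S.intMap_ne_zero (M := M) hw'
  have h1 : algebraMap k M a ≠ 0 := (map_ne_zero _).mpr ha
  have h1' : algebraMap k M a' ≠ 0 := (map_ne_zero _).mpr ha'
  refine ⟨⟨w, w', hw', ?_⟩, ⟨w', w, hw, ?_⟩⟩
  · rw [Units.val_mul, h, Units.val_inv_eq_inv_val]
    change _ * (algebraMap k M (a / a'))⁻¹ * _ = _
    rw [map_div₀]
    field_simp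
  · rw [Units.val_inv_eq_inv_val, Units.val_mul, h, Units.val_inv_eq_inv_val]
    change (_ * (algebraMap k M (a / a'))⁻¹)⁻¹ * _ = _
    rw [map_div₀]
    field_simp

end Fermat.AV

end
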