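import Fermat.Agent.AV.Dominate
import Fermat.Agent.AV.CurveKey
import Mathlib.FieldTheory.Relrank
import Mathlib.RingTheory.Trace.Basic
import Mathlib.RingTheory.Polynomial.ScaleRoots
import Mathlib.RingTheory.Polynomial.UniqueFactorization

/-!
# The growth of the spaces of sections gives the degree

If an embedding of a field in itself turns a divisor with enough sections into its `n`th power up
to a principal divisor, then the field has degree `n ^ g` over the image, `g` being the
transcendence degree: the sections of `E ^ m` grow like `m ^ g`, bounded below by monomials in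
transcendental sections and above by the trace and the degree of polynomials.

`finrank_fieldRange_eq_pow`, applied in `Main` to multiplication by `n` and the symmetrised divisor.
-/

set_option autoImplicit false

noncomputable section

universe u

open IntermediateField
open scoped IntermediateField.algebraAdjoinAdjoin

namespace Fermat.AV

variable {K : Type u} [Field K] {M : Type u} [Field M] [Algebra K M] {g : ℕ} (t : Fin g → M)

/-- One and the coordinates. -/
def coord : Option (Fin g) → M := fun o => o.elim 1 t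

/-- The coordinate is the largest one at the valuation. -/
def IsMaxAt (v : Val K M) (o : Option (Fin g)) : Prop :=
  coord t o ≠ 0 ∧ ∀ o', coord t o' / coord t o ∈ v.1

/-- At every valuation some coordinate is largest. -/
theorem exists_isMaxAt (v : Val K M) : ∃ o, IsMaxAt t v o := by
  obtain ⟨o, -, ho⟩ := Finset.exists_max_image Finset.univ
    (fun o => v.1.valuation (coord t o)) Finset.univ_nonempty
  have h0 : coord t o ≠ 0 := fun h => by
    have := ho none (Finset.mem_univ _)
    rw [h, map_zero] at this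
    simp [coord] at this
  refine ⟨o, h0, fun o' => ?_⟩
  rw [← v.1.valuation_le_one_iff, map_div₀, div_le_one₀ (zero_lt_iff.mpr ((map_ne_zero _).mpr h0))]
  exact ho o' (Finset.mem_univ _)

variable (K) in
/-- The elements bounded by the `N`th power of the largest coordinate. -/
def bdSpace (N : ℕ) : Submodule K M where
  carrier := {z | ∀ v : Val K M, ∀ o, IsMaxAt t v o → z / coord t o ^ N ∈ v.1}
  zero_mem' v o _ := by rw [zero_div]; exact v.1.zero_mem
  add_mem' ha hb v o ho := by rw [add_div]; exact v.1.add_mem _ _ (ha v o ho) (hb v o ho)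
  smul_mem' a z hz v o ho := by
    rw [Algebra.smul_def, mul_div_assoc]
    exact v.1.mul_mem _ _ (v.2 a) (hz v o ho)

/-- `bdSpace` grows with the exponent. -/
theorem bdSpace_mono {N N' : ℕ} (h : N ≤ N') : bdSpace K t N ≤ bdSpace K t N' :=
    fun z hz v o ho => by
  obtain ⟨k, rfl⟩ := Nat.exists_eq_add_of_le h
  rw [pow_add, ← div_div, div_eq_mul_inv, ← inv_pow]
  refine v.1.mul_mem _ _ (hz v o ho) (pow_mem (S := v.1) ?_ _)
  have := ho.2 none
  rwa [coord, Option.elim_none, one_div] at this

/-- Constants are bounded by every power. -/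
theorem algebraMap_mem_bdSpace (c : K) (N : ℕ) : algebraMap K M c ∈ bdSpace K t N :=
  bdSpace_mono t N.zero_le fun v o _ => by rw [pow_zero, div_one]; exact v.2 c

/-- The bounds add under multiplication. -/
theorem mul_mem_bdSpace {N N' : ℕ} {a b : M} (ha : a ∈ bdSpace K t N) (hb : b ∈ bdSpace K t N') :
    a * b ∈ bdSpace K t (N + N') := fun v o ho => by
  rw [pow_add, mul_div_mul_comm]
  exact v.1.mul_mem _ _ (ha v o ho) (hb v o ho)

/-- A polynomial in the coordinates is bounded. -/
theorem exists_mem_bdSpace_of_mem_adjoin {z : M} (hz : z ∈ Algebra.adjoin K (Set.range t)) :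
    ∃ N, z ∈ bdSpace K t N := by
  induction hz using Algebra.adjoin_induction with
  | mem x hx =>
    obtain ⟨i, rfl⟩ := hx
    exact ⟨1, fun v o ho => by rw [pow_one]; exact ho.2 (some i)⟩
  | algebraMap c => exact ⟨0, algebraMap_mem_bdSpace t c 0⟩
  | add x y _ _ hx hy =>
    obtain ⟨N, hN⟩ := hx
    obtain ⟨N', hN'⟩ := hy
    exact ⟨max N N', add_mem (bdSpace_mono t (le_max_left _ _) hN)
      (bdSpace_mono t (le_max_right _ _) hN')⟩
  | mul x y _ _ hx hy =>
    obtain ⟨N, hN⟩ := hx
    obtain ⟨N', hN'⟩ := hy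
    exact ⟨N + N', mul_mem_bdSpace t hN hN'⟩

/-- A root of a monic polynomial over a valuation ring lies in it. -/
theorem mem_of_monic_root (v : ValuationSubring M) {q : Polynomial M} (hq : q.Monic)
    (hc : ∀ l, q.coeff l ∈ v) {z : M} (hz : q.eval z = 0) : z ∈ v := by
  have hq' : (↑q.coeffs : Set M) ⊆ v.toSubring := fun a ha => by
    obtain ⟨l, -, rfl⟩ := Polynomial.mem_coeffs_iff.mp ha
    exact hc l
  have hint : IsIntegral v z := ⟨q.toSubring v.toSubring hq',
    (Polynomial.monic_toSubring _ _ _).mpr hq, by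
      change Polynomial.eval₂ v.toSubring.subtype z _ = 0
      rw [← Polynomial.eval_map, Polynomial.map_toSubring]; exact hz⟩
  obtain ⟨y, hy⟩ := IsIntegrallyClosed.isIntegral_iff.mp hint
  rw [← hy]; exact y.2

/-- An element integral over the polynomials in the coordinates is bounded. -/
theorem exists_mem_bdSpace {z : M} (hz : IsIntegral (Algebra.adjoin K (Set.range t)) z) :
    ∃ N, z ∈ bdSpace K t N := by
  obtain ⟨p, hp, hp0⟩ := hz
  choose N hN using fun l => exists_mem_bdSpace_of_mem_adjoin t (p.coeff l).2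
  set c := (Finset.range p.natDegree).sup N with hcdef
  refine ⟨c, fun v o ho => ?_⟩
  set q := p.map (algebraMap (Algebra.adjoin K (Set.range t)) M)
  have hqdeg : q.natDegree = p.natDegree := hp.natDegree_map _
  have hq0 : q.eval z = 0 := by rw [Polynomial.eval_map]; exact hp0
  rw [div_eq_mul_inv, mul_comm]
  refine mem_of_monic_root v.1 (q := q.scaleRoots (coord t o ^ c)⁻¹)
    ((Polynomial.monic_scaleRoots_iff _).mpr (hp.map _)) (fun l => ?_) ?_
  · rw [Polynomial.coeff_scaleRoots, hqdeg]
    rcases lt_trichotomy l p.natDegree with h | rfl | h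
    · rw [inv_pow, ← pow_mul, ← div_eq_mul_inv]
      refine bdSpace_mono t ?_ (show q.coeff l ∈ bdSpace K t (N l) by
        rw [Polynomial.coeff_map]; exact hN l) v o ho
      calc N l ≤ c := Finset.le_sup (Finset.mem_range.mpr h)
        _ ≤ c * (p.natDegree - l) := Nat.le_mul_of_pos_right _ (by omega)
    · rw [← hqdeg, Polynomial.coeff_natDegree, (hp.map _).leadingCoeff, hqdeg, Nat.sub_self,
        pow_zero, mul_one]
      exact v.1.one_mem
    · rw [Polynomial.coeff_eq_zero_of_natDegree_lt (by omega), zero_mul]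
      exact v.1.zero_mem
  · exact Polynomial.scaleRoots_eval₂_eq_zero (RingHom.id M) hq0

variable {t}

/-- A bounded element is integral over the polynomials in the coordinates. -/
theorem isIntegral_of_mem_bdSpace {N : ℕ} {r : M} (hN : r ∈ bdSpace K t N) :
    IsIntegral (Algebra.adjoin K (Set.range t)) r := by
  set R := Algebra.adjoin K (Set.range t)
  have h1 : r ∈ (⨅ V : {V : ValuationSubring M // (R : Set M) ⊆ V.toSubring}, V.1.toSubring) := by
    refine Subring.mem_iInf.mpr fun V => ?_
    let v : Val K M := ⟨V.1, fun c => V.2 (R.algebraMap_mem c)⟩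
    have hmax : IsMaxAt t v none := ⟨one_ne_zero, fun o' => by
      change coord t o' / (1 : M) ∈ v.1
      rw [div_one]
      cases o' with
      | none => exact v.1.one_mem
      | some i => exact V.2 (Algebra.subset_adjoin ⟨i, rfl⟩)⟩
    have := hN v none hmax
    rwa [coord, Option.elim_none, one_pow, div_one] at this
  rw [iInf_valuationSubring_superset] at h1
  replace h1 : IsIntegral (Subring.closure (R : Set M)) r := h1
  have hle : Subring.closure (R : Set M) ≤ (algebraMap R M).range :=
    Subring.closure_le.mpr fun a ha => ⟨⟨a, ha⟩, rfl⟩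
  obtain ⟨P, hP, hP'⟩ := h1
  have hl : P.map (Subring.closure (R : Set M)).subtype ∈
      Polynomial.lifts (algebraMap R M) := by
    rw [Polynomial.lifts_iff_coeff_lifts]
    intro l
    rw [Polynomial.coeff_map]
    exact hle (Subtype.prop _)
  obtain ⟨Q, hQ, -, hQm⟩ := Polynomial.lifts_and_natDegree_eq_and_monic hl (hP.map _)
  refine ⟨Q, hQm, ?_⟩
  rw [← Polynomial.eval_map, hQ, Polynomial.eval_map]
  exact hP'

/-- A polynomial of degree above `N` in algebraically independent coordinates is not bounded by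
the `N`th power: a valuation at infinity shows it. -/
theorem aeval_notMem_bdSpace (ht : AlgebraicIndependent K t) {N : ℕ}
    {P : MvPolynomial (Fin g) K} (hD : N < P.totalDegree) :
    MvPolynomial.aeval t P ∉ bdSpace K t N := fun hN => by
  set r := MvPolynomial.aeval t P with hr
  obtain ⟨e, he, hed⟩ : ∃ e ∈ P.support, 0 < e.sum fun _ a => a := by
    by_contra h
    push Not at h
    have : P.totalDegree ≤ 0 := Finset.sup_le fun e he => h e he
    omega
  obtain ⟨i⟩ : Nonempty (Fin g) := by
    by_contra h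
    rw [not_nonempty_iff] at h
    simp [Finsupp.sum_fintype] at hed
  let j := (MvPolynomial.aeval (R := K) t).toRingHom
  have hj : Function.Injective j := ht
  have hXdeg : (MvPolynomial.X i : MvPolynomial (Fin g) K).totalDegree = 1 :=
    MvPolynomial.totalDegree_X i
  -- the valuation at infinity: the fractions of degree `≤ 0`, and those of degree `< 0`
  let A : Subring M :=
    { carrier := {x | ∃ P Q : MvPolynomial (Fin g) K, Q ≠ 0 ∧ P.totalDegree ≤ Q.totalDegree ∧
        x * j Q = j P}
      zero_mem' := ⟨0, 1, one_ne_zero, by simp, by simp⟩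
      one_mem' := ⟨1, 1, one_ne_zero, le_rfl, by simp⟩
      neg_mem' := fun {x} ⟨P, Q, hQ, hd, h⟩ => ⟨-P, Q, hQ, by simpa using hd, by simp [h]⟩
      add_mem' := fun {x y} ⟨P, Q, hQ, hd, h⟩ ⟨P', Q', hQ', hd', h'⟩ =>
        ⟨P * Q' + P' * Q, Q * Q', mul_ne_zero hQ hQ', by
          rw [MvPolynomial.totalDegree_mul_of_isDomain hQ hQ']
          refine (MvPolynomial.totalDegree_add _ _).trans (max_le ?_ ?_)
          · exact (MvPolynomial.totalDegree_mul _ _).trans (by omega)
          · exact (MvPolynomial.totalDegree_mul _ _).trans (by omega),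
          by rw [map_add, map_mul, map_mul, map_mul, ← h, ← h']; ring⟩
      mul_mem' := fun {x y} ⟨P, Q, hQ, hd, h⟩ ⟨P', Q', hQ', hd', h'⟩ =>
        ⟨P * P', Q * Q', mul_ne_zero hQ hQ', by
          rw [MvPolynomial.totalDegree_mul_of_isDomain hQ hQ']
          exact (MvPolynomial.totalDegree_mul _ _).trans (by omega),
          by rw [map_mul, map_mul, ← h, ← h']; ring⟩ }
  let I : Ideal A :=
    { carrier := {x | ∃ P Q : MvPolynomial (Fin g) K, P.totalDegree + 1 ≤ Q.totalDegree ∧
        (x : M) * j Q = j P}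
      zero_mem' := ⟨0, MvPolynomial.X i, by simp [hXdeg], by simp⟩
      add_mem' := fun {x y} ⟨P, Q, hd, h⟩ ⟨P', Q', hd', h'⟩ => by
        have hQ : Q ≠ 0 := fun e => by simp [e] at hd
        have hQ' : Q' ≠ 0 := fun e => by simp [e] at hd'
        refine ⟨P * Q' + P' * Q, Q * Q', ?_, by
          rw [map_add, map_mul, map_mul, map_mul, ← h, ← h', Subring.coe_add]; ring⟩
        rw [MvPolynomial.totalDegree_mul_of_isDomain hQ hQ']
        have := MvPolynomial.totalDegree_add (P * Q') (P' * Q)
        have := MvPolynomial.totalDegree_mul P Q'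
        have := MvPolynomial.totalDegree_mul P' Q
        omega
      smul_mem' := fun a x ⟨P, Q, hd, h⟩ => by
        obtain ⟨P', Q', hQ', hd', h'⟩ := a.2
        have hQ : Q ≠ 0 := fun e => by simp [e] at hd
        refine ⟨P' * P, Q' * Q, ?_, by
          rw [map_mul, map_mul, ← h, ← h', smul_eq_mul, Subring.coe_mul]; ring⟩
        rw [MvPolynomial.totalDegree_mul_of_isDomain hQ' hQ]
        have := MvPolynomial.totalDegree_mul P' P
        omega }
  have hI : I ≠ ⊤ := fun h => by
    obtain ⟨P', Q', hd, h1⟩ := (Ideal.eq_top_iff_one I).mp h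
    rw [OneMemClass.coe_one, one_mul] at h1
    rw [hj h1] at hd
    omega
  obtain ⟨V, hV, hVI⟩ := Ideal.image_subset_nonunits_valuationSubring (A := A) I hI
  let v : Val K M := ⟨V, fun c => hV ⟨MvPolynomial.C c, 1, one_ne_zero, by simp, by simp [j]⟩⟩
  have hti : t i ≠ 0 := ht.ne_zero i
  have hmax : IsMaxAt t v (some i) := ⟨hti, fun o' => hV (by
    refine ⟨o'.elim 1 MvPolynomial.X, MvPolynomial.X i, MvPolynomial.X_ne_zero i, ?_, ?_⟩
    · cases o' <;> simp [hXdeg]
    · cases o' <;> simp [coord, j, div_mul_cancel₀ _ hti, inv_mul_cancel₀ hti])⟩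
  have h1 : r / t i ^ N ∈ V := hN v (some i) hmax
  have hP0 : P ≠ 0 := fun h => by simp [h] at hD
  have hinv : t i ^ N / r ∈ A ∧ ∀ h : t i ^ N / r ∈ A, (⟨_, h⟩ : A) ∈ I := by
    have hr0 : r ≠ 0 := fun h => hP0 (hj (by
      change MvPolynomial.aeval t P = _
      rw [← hr, h, map_zero]))
    have hd : (MvPolynomial.X i ^ N : MvPolynomial (Fin g) K).totalDegree + 1 ≤ P.totalDegree := by
      have := MvPolynomial.totalDegree_pow (MvPolynomial.X i : MvPolynomial (Fin g) K) N
      rw [hXdeg, mul_one] at this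
      omega
    have he : t i ^ N / r * j P = j (MvPolynomial.X i ^ N) := by
      change _ * MvPolynomial.aeval t P = MvPolynomial.aeval t _
      rw [← hr, map_pow, MvPolynomial.aeval_X, div_mul_cancel₀ _ hr0]
    exact ⟨⟨_, P, hP0, by omega, he⟩, fun _ => ⟨_, P, hd, he⟩⟩
  have hnon : t i ^ N / r ∈ V.nonunits := hVI ⟨⟨_, hinv.1⟩, hinv.2 _, rfl⟩
  rcases V.mem_nonunits_iff_or.mp hnon with h0 | h0
  · rw [div_eq_zero_iff] at h0
    rcases h0 with h0 | h0
    · exact pow_ne_zero _ hti h0
    · exact hP0 (hj (by rw [map_zero]; exact hr.symm.trans h0))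
  · exact h0 (by rw [inv_div]; exact h1)

/-- An element of the field of the coordinates bounded by the `N`th power is a polynomial of degree
`≤ N` in them. -/
theorem exists_poly_of_mem_bdSpace (ht : AlgebraicIndependent K t) {N : ℕ} {r : M}
    (hr : r ∈ adjoin K (Set.range t)) (hN : r ∈ bdSpace K t N) :
    ∃ P : MvPolynomial (Fin g) K, P.totalDegree ≤ N ∧ MvPolynomial.aeval t P = r := by
  set R := Algebra.adjoin K (Set.range t)
  set F₀ := adjoin K (Set.range t)
  have hint := isIntegral_of_mem_bdSpace hN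
  have : IsIntegrallyClosed R := IsIntegrallyClosed.of_equiv ht.aevalEquiv.toRingEquiv
  obtain ⟨y, hy⟩ : ∃ y : R, algebraMap R F₀ y = ⟨r, hr⟩ :=
    IsIntegrallyClosed.isIntegral_iff.mp
      ((isIntegral_algHom_iff (IsScalarTower.toAlgHom R F₀ M)
        (algebraMap F₀ M).injective (x := (⟨r, hr⟩ : F₀))).mp hint)
  have hyr : (y : M) = r := congrArg Subtype.val hy
  obtain ⟨P, hP⟩ : ∃ P, ht.aevalEquiv P = y := ht.aevalEquiv.surjective y
  have hPr : MvPolynomial.aeval t P = r := by
    rw [← hyr, ← hP]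
    exact (ht.algebraMap_aevalEquiv P).symm
  refine ⟨P, ?_, hPr⟩
  by_contra hD
  exact aeval_notMem_bdSpace ht (not_le.mp hD) (hPr ▸ hN)

variable (t) in
/-- The monomials of bounded exponents. -/
def monom (q : ℕ) (a : Fin g → Fin (q + 1)) : M := ∏ i, t i ^ (a i : ℕ)

/-- The monomials in algebraically independent elements are independent. -/
theorem linearIndependent_monom (ht : AlgebraicIndependent K t) (q : ℕ) :
    LinearIndependent K (monom t q) := by
  have h := ((MvPolynomial.basisMonomials (Fin g) K).linearIndependent.comp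
    (fun a : Fin g → Fin (q + 1) => Finsupp.equivFunOnFinite.symm fun i => (a i : ℕ))
    fun a b hab => funext fun i => Fin.ext (by
      simpa using congrArg (fun s : Fin g →₀ ℕ => s i) hab)).map'
    (MvPolynomial.aeval t).toLinearMap (LinearMap.ker_eq_bot.mpr ht)
  have e : monom t q = fun a => MvPolynomial.aeval t (MvPolynomial.basisMonomials (Fin g) K
      (Finsupp.equivFunOnFinite.symm fun i => (a i : ℕ))) := by
    funext a
    simp [monom, MvPolynomial.aeval_monomial, Finsupp.prod_fintype]
  rw [e]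
  exact h

/-- A polynomial of degree `≤ N` is a combination of the monomials with exponents `≤ N`. -/
theorem aeval_mem_span_monom {N : ℕ} {P : MvPolynomial (Fin g) K} (hP : P.totalDegree ≤ N) :
    MvPolynomial.aeval t P ∈ Submodule.span K (Set.range (monom t N)) := by
  rw [P.as_sum, map_sum]
  refine Submodule.sum_mem _ fun e he => ?_
  rw [MvPolynomial.aeval_monomial, ← Algebra.smul_def]
  refine Submodule.smul_mem _ _ (Submodule.subset_span ⟨fun i => ⟨e i, ?_⟩, ?_⟩)
  · have h1 := (MvPolynomial.le_totalDegree he).trans hP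
    rw [Finsupp.sum_fintype _ _ (fun _ => rfl)] at h1
    have := Finset.single_le_sum (f := fun i => e i) (fun _ _ => Nat.zero_le _) (Finset.mem_univ i)
    omega
  · exact (Finsupp.prod_fintype _ _ fun i => pow_zero _).symm

/-- A finite set becomes integral after multiplication by one nonzero polynomial in the
coordinates. -/
theorem exists_mul_isIntegral [FiniteDimensional (adjoin K (Set.range t)) M] (T : Finset M) :
    ∃ G ∈ Algebra.adjoin K (Set.range t), G ≠ 0 ∧
      ∀ x ∈ T, IsIntegral (Algebra.adjoin K (Set.range t)) (G * x) := by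
  have : Algebra.IsAlgebraic (Algebra.adjoin K (Set.range t)) M :=
    (IsFractionRing.comap_isAlgebraic_iff (K := adjoin K (Set.range t))).mpr inferInstance
  obtain ⟨y, hy0, hy⟩ := Algebra.IsAlgebraic.exists_integral_multiples
    (Algebra.adjoin K (Set.range t)) T
  refine ⟨y, y.2, fun h => hy0 (Subtype.ext h), fun x hx => ?_⟩
  have := hy x hx
  rwa [Algebra.smul_def] at this

/-- **The bounded elements form spaces growing like a polynomial of degree `g`.** -/
theorem exists_finrank_bdSpace_le (ht : AlgebraicIndependent K t)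
    [FiniteDimensional (adjoin K (Set.range t)) M]
    [Algebra.IsSeparable (adjoin K (Set.range t)) M] :
    ∃ c : ℕ, ∀ N, FiniteDimensional K (bdSpace K t N) ∧
      Module.finrank K (bdSpace K t N) ≤
        Module.finrank (adjoin K (Set.range t)) M * (N + c + 1) ^ g := by
  classical
  set F₀ := adjoin K (Set.range t)
  let b := Module.finBasis F₀ M
  obtain ⟨G, hG, hG0, hGint⟩ := exists_mul_isIntegral (K := K) (t := t) (Finset.univ.image b)
  choose cb hcb using fun i => exists_mem_bdSpace t (hGint (b i) (Finset.mem_image_of_mem b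
    (Finset.mem_univ i)))
  refine ⟨Finset.univ.sup cb, fun N => ?_⟩
  set W := Submodule.span K (Set.range (monom t (N + Finset.univ.sup cb)))
  have : FiniteDimensional K W := FiniteDimensional.span_of_finite K (Set.finite_range _)
  -- the traces against a basis embed the bounded elements in a space of polynomials
  let Φ : bdSpace K t N →ₗ[K] (Fin (Module.finrank F₀ M) → W) := LinearMap.pi fun i =>
    LinearMap.codRestrict W
      (((IsScalarTower.toAlgHom K F₀ M).toLinearMap.comp
          ((Algebra.trace F₀ M).restrictScalars K)).comp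
        ((LinearMap.mulRight K (G * b i)).comp (bdSpace K t N).subtype)) fun F => by
      change (Algebra.trace F₀ M ((F : M) * (G * b i)) : M) ∈ W
      set r := Algebra.trace F₀ M ((F : M) * (G * b i))
      have hFb : (F : M) * (G * b i) ∈ bdSpace K t (N + Finset.univ.sup cb) :=
        mul_mem_bdSpace t F.2 (bdSpace_mono t (Finset.le_sup (Finset.mem_univ i)) (hcb i))
      have hbd : (r : M) ∈ bdSpace K t (N + Finset.univ.sup cb) := fun v o ho => by
        set w : ValuationSubring F₀ := v.1.comap (algebraMap F₀ M)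
        have hco : coord t o ∈ F₀ := by
          cases o with
          | none => exact one_mem F₀
          | some l => exact subset_adjoin K _ ⟨l, rfl⟩
        let s : F₀ := ⟨coord t o, hco⟩
        set c := N + Finset.univ.sup cb
        have hall : ∀ u : ValuationSubring M, u.comap (algebraMap F₀ M) = w →
            (F : M) * (G * b i) / coord t o ^ c ∈ u := by
          intro u hu
          have hmem : ∀ a : F₀, (a : M) ∈ u ↔ (a : M) ∈ v.1 := fun a => by
            have := SetLike.ext_iff.mp hu a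
            exact this
          let v' : Val K M := ⟨u, fun k => (hmem (algebraMap K F₀ k)).mpr (v.2 k)⟩
          refine hFb v' o ⟨ho.1, fun o' => ?_⟩
          have hco' : coord t o' ∈ F₀ := by
            cases o' with
            | none => exact one_mem F₀
            | some l => exact subset_adjoin K _ ⟨l, rfl⟩
          exact (hmem ⟨_, div_mem hco' hco⟩).mpr (ho.2 o')
        obtain ⟨p, hp, hp0⟩ := isIntegral_of_forall_comap (algebraMap F₀ M) w hall
        obtain ⟨y, hy⟩ := IsIntegrallyClosed.algebraMap_eq_of_integral (R := w)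
          (Algebra.isIntegral_trace (L := F₀) (⟨p, hp, hp0⟩ :
            IsIntegral w ((F : M) * (G * b i) / coord t o ^ c)))
        have hy2 : ((y : F₀) : M) ∈ v.1 := y.2
        have htr : (y : F₀) = (s ^ c)⁻¹ * r := by
          rw [show ((y : F₀)) = algebraMap w F₀ y from rfl, hy, div_eq_mul_inv, mul_comm,
            show (coord t o ^ c)⁻¹ = algebraMap F₀ M (s ^ c)⁻¹ by
              rw [map_inv₀, map_pow]; rfl,
            ← Algebra.smul_def, map_smul, smul_eq_mul]
        rw [htr] at hy2
        rw [div_eq_mul_inv, mul_comm]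
        simpa [s] using hy2
      obtain ⟨P, hP, hPr⟩ := exists_poly_of_mem_bdSpace ht r.2 hbd
      rw [← hPr]
      exact aeval_mem_span_monom hP
  have hΦ : Function.Injective Φ := by
    rw [← LinearMap.ker_eq_bot, Submodule.eq_bot_iff]
    intro F hF
    have h0 : ∀ i, Algebra.trace F₀ M ((F : M) * (G * b i)) = 0 := fun i =>
      (algebraMap F₀ M).injective (by
        rw [map_zero]; exact congrArg Subtype.val (congrFun hF i))
    refine Subtype.ext ?_
    have hz : (Algebra.traceForm F₀ M) ((F : M) * G) = 0 := b.ext fun i => by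
      rw [Algebra.traceForm_apply, mul_assoc, h0 i, LinearMap.zero_apply]
    have := (traceForm_nondegenerate F₀ M).1 _ (fun y => by rw [hz, LinearMap.zero_apply])
    exact (mul_eq_zero.mp this).resolve_right hG0
  have : FiniteDimensional K (Fin (Module.finrank F₀ M) → W) := inferInstance
  refine ⟨FiniteDimensional.of_injective Φ hΦ, ?_⟩
  refine (LinearMap.finrank_le_finrank_of_injective hΦ).trans ?_
  rw [Module.finrank_pi_fintype, Finset.sum_const, Finset.card_univ, Fintype.card_fin, smul_eq_mul]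
  refine Nat.mul_le_mul_left _ ((finrank_range_le_card _).trans_eq ?_)
  rw [Fintype.card_fun, Fintype.card_fin, Fintype.card_fin]

section Sections

/-- Sections multiply. -/
theorem mul_mem_Lsp {E E' : VDiv K M} {F F' : M} (h : F ∈ Lsp K E) (h' : F' ∈ Lsp K E') :
    F * F' ∈ Lsp K (E * E') := fun v hv => by
  obtain ⟨e, he⟩ := exists_mk_eq E v
  obtain ⟨e', he'⟩ := exists_mk_eq E' v
  rw [effAt_iff (e := e * e') (by rw [Pi.mul_apply, he, he']; rfl), Units.val_mul,
    mul_mul_mul_comm]
  exact v.1.mul_mem _ _ (h v hv e he) (h' v hv e' he')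

/-- `1` is a section of the trivial divisor. -/
theorem one_mem_Lsp_one : (1 : M) ∈ Lsp K (1 : VDiv K M) := fun v _ => by
  rw [effAt_iff (e := 1) rfl]
  simp

/-- Powers of sections are sections of the powers. -/
theorem pow_mem_Lsp {E : VDiv K M} {F : M} (h : F ∈ Lsp K E) (a : ℕ) : F ^ a ∈ Lsp K (E ^ a) := by
  induction a with
  | zero =>
    rw [pow_zero F, pow_zero E]
    exact one_mem_Lsp_one
  | succ a ih => rw [pow_succ F a, pow_succ E a]; exact mul_mem_Lsp ih h

/-- If `1` is a section, `F ^ a` is a section of `E ^ m` for `a ≤ m`. -/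
theorem pow_mem_Lsp_of_le {E : VDiv K M} {F : M} (h : F ∈ Lsp K E) (h1 : (1 : M) ∈ Lsp K E)
    {a m : ℕ} (ha : a ≤ m) : F ^ a ∈ Lsp K (E ^ m) := by
  obtain ⟨l, rfl⟩ := Nat.exists_eq_add_of_le ha
  rw [← mul_one (F ^ a), pow_add E a l, ← one_pow l]
  exact mul_mem_Lsp (pow_mem_Lsp h a) (pow_mem_Lsp h1 l)

/-- Monomials with exponents `≤ q` in sections are sections of `E ^ (g q)`. -/
theorem monom_mem_Lsp {E : VDiv K M} (h1 : (1 : M) ∈ Lsp K E) (ht : ∀ i, t i ∈ Lsp K E) (q : ℕ)
    (a : Fin g → Fin (q + 1)) : monom t q a ∈ Lsp K (E ^ (g * q)) := by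
  classical
  have : ∀ S : Finset (Fin g), ∏ i ∈ S, t i ^ (a i : ℕ) ∈ Lsp K (E ^ (S.card * q)) := by
    intro S
    induction S using Finset.induction_on with
    | empty =>
      rw [Finset.prod_empty, Finset.card_empty, zero_mul, pow_zero E]
      exact one_mem_Lsp_one
    | insert i S hi ih =>
      rw [Finset.prod_insert hi, Finset.card_insert_of_notMem hi, Nat.succ_mul,
        pow_add E (S.card * q) q, mul_comm (E ^ (S.card * q))]
      exact mul_mem_Lsp (pow_mem_Lsp_of_le (ht i) h1 (Nat.le_of_lt_succ (a i).2)) ih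
  simpa [monom] using this Finset.univ

/-- Multiplication by a function identifies the sections of linearly equivalent divisors. -/
def lspEquiv (E : VDiv K M) (f : Mˣ) : Lsp K (E * princ K M f) ≃ₗ[K] Lsp K E where
  toFun F := ⟨F * f, fun v hv e he => by
    have := F.2 v hv (e * f) (by rw [Pi.mul_apply, he]; rfl)
    rw [Units.val_mul] at this
    rw [mul_assoc, mul_comm (f : M)]
    exact this⟩
  invFun F := ⟨F * (f⁻¹ : Mˣ), fun v hv => by
    obtain ⟨e, he⟩ := exists_mk_eq E v
    rw [effAt_iff (e := e * f) (by rw [Pi.mul_apply, he]; rfl), Units.val_mul]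
    have := F.2 v hv e he
    rwa [mul_assoc, mul_left_comm ((f⁻¹ : Mˣ) : M), Units.inv_mul, mul_one]⟩
  map_add' F F' := Subtype.ext (add_mul _ _ _)
  map_smul' a F := Subtype.ext (smul_mul_assoc _ _ _)
  left_inv F := Subtype.ext (by simp)
  right_inv F := Subtype.ext (by simp)

/-- A bounded element is a section of a power. -/
theorem mem_Lsp_of_mem_bdSpace {E : VDiv K M} (h1 : (1 : M) ∈ Lsp K E)
    (ht : ∀ i, t i ∈ Lsp K E) {N : ℕ} {z : M} (hz : z ∈ bdSpace K t N) : z ∈ Lsp K (E ^ N) := by
  intro v hv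
  obtain ⟨o, ho⟩ := exists_isMaxAt t v
  obtain ⟨e, he⟩ := exists_mk_eq E v
  rw [effAt_iff (e := e ^ N) (by rw [Pi.pow_apply, he]; rfl), Units.val_pow_eq_pow_val]
  have hs : coord t o * e ∈ v.1 := by
    cases o with
    | none => exact h1 v hv e he
    | some i => exact ht i v hv e he
  have := v.1.mul_mem _ _ (hz v o ho) (pow_mem (S := v.1) hs N)
  rwa [mul_pow, ← mul_assoc, div_mul_cancel₀ _ (pow_ne_zero _ ho.1)] at this

/-- An embedding sends sections to sections of the pulled back divisor. -/
theorem map_mem_Lsp (τ : M →ₐ[K] M) {E : VDiv K M} {F : M} (h : F ∈ Lsp K E) :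
    τ F ∈ Lsp K (VDiv.map τ E) := fun v hv => by
  obtain ⟨e, he⟩ := exists_mk_eq E (v.comap τ)
  rw [effAt_iff (VDiv.map_apply τ E v he)]
  change τ F * τ (e : M) ∈ v.1
  rw [← map_mul]
  exact h (v.comap τ) (fun a => (v.comap τ).2 a) e he

end Sections

section Tower

variable (τ : M →ₐ[K] M) (F : IntermediateField K M)

/-- The degree over the image of a subfield is the product of the two degrees. -/
theorem finrank_map_tower :
    Module.finrank (F.map τ) M = Module.finrank F M * Module.finrank τ.fieldRange M := by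
  rw [← relfinrank_mul_finrank_top (IntermediateField.map_mono τ (le_top : F ≤ ⊤) |>.trans_eq
    (AlgHom.fieldRange_eq_map τ).symm), AlgHom.fieldRange_eq_map, relfinrank_map_map,
    relfinrank_top_right]

/-- Separability of the upper field over a subfield and over the image of `τ` gives it over the
image of the subfield. -/
theorem isSeparable_map_tower [Algebra.IsSeparable F M] [Algebra.IsSeparable τ.fieldRange M] :
    Algebra.IsSeparable (F.map τ) M := by
  have hle : F.map τ ≤ τ.fieldRange := fun x hx => by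
    obtain ⟨y, -, rfl⟩ := hx
    exact ⟨y, rfl⟩
  let : Algebra (F.map τ) τ.fieldRange := (IntermediateField.inclusion hle).toRingHom.toAlgebra
  have : IsScalarTower (F.map τ) τ.fieldRange M := IsScalarTower.of_algebraMap_eq fun _ => rfl
  have : Algebra.IsSeparable (F.map τ) τ.fieldRange := ⟨by
    rintro ⟨_, y, rfl⟩
    let ψ : F →+* F.map τ := (τ.toRingHom.comp (algebraMap F M)).codRestrict
      (F.map τ).toSubfield.toSubring fun a => ⟨a, a.2, rfl⟩
    have hsep : ((minpoly F y).map ψ).Separable :=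
      Polynomial.Separable.map (show (minpoly F y).Separable from
        Algebra.IsSeparable.isSeparable F y)
    refine hsep.of_dvd (minpoly.dvd _ _ ?_)
    apply (algebraMap τ.fieldRange M).injective
    rw [← Polynomial.aeval_algebraMap_apply, map_zero, Polynomial.aeval_def, Polynomial.eval₂_map]
    have h0 := congrArg τ.toRingHom (minpoly.aeval F y)
    rw [Polynomial.aeval_def, Polynomial.hom_eval₂, map_zero] at h0
    exact h0⟩
  exact Algebra.IsSeparable.trans (F.map τ) τ.fieldRange M

end Tower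

/-- Two naturals whose powers agree up to a bounded factor are equal. -/
theorem eq_of_pow_le {d e C : ℕ} (h1 : ∀ j, d ^ j ≤ C * e ^ j) (h2 : ∀ j, e ^ j ≤ C * d ^ j) :
    d = e := by
  wlog hde : e ≤ d generalizing d e
  · exact (this h2 h1 (le_of_lt (not_le.mp hde))).symm
  by_contra hne
  have hlt : e + 1 ≤ d := by omega
  have key : ∀ j, (e + j) * e ^ j ≤ e * (e + 1) ^ j := by
    intro j
    induction j with
    | zero => simp
    | succ j ih =>
      have hp : e ^ (j + 1) ≤ e * (e + 1) ^ j := by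
        rw [pow_succ']
        exact Nat.mul_le_mul_left _ (Nat.pow_le_pow_left (Nat.le_succ e) j)
      calc (e + (j + 1)) * e ^ (j + 1) = (e + j) * e ^ j * e + e ^ (j + 1) := by ring
        _ ≤ e * (e + 1) ^ j * e + e * (e + 1) ^ j := Nat.add_le_add (Nat.mul_le_mul_right _ ih) hp
        _ = e * (e + 1) ^ (j + 1) := by ring
  rcases Nat.eq_zero_or_pos e with rfl | he
  · have := h1 1
    simp at this
    omega
  set j := e * C + 1
  have h3 := (key j).trans (Nat.mul_le_mul_left e
    ((Nat.pow_le_pow_left hlt j).trans (h1 j)))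
  rw [← mul_assoc] at h3
  have h4 := Nat.le_of_mul_le_mul_right h3 (pow_pos he j)
  omega

/-- Pulling back along the identity changes nothing. -/
theorem map_id_vdiv (E : VDiv K M) : VDiv.map (AlgHom.id K M) E = E := by
  funext v
  obtain ⟨x, hx⟩ := exists_mk_eq E v
  have hv : v.comap (AlgHom.id K M) = v := Subtype.ext rfl
  rw [VDiv.map_apply _ E v (by rw [hv]; exact hx), hx]
  rfl

/-- Pulling back along a composite is pulling back twice. -/
theorem map_comp_vdiv (σ τ : M →ₐ[K] M) (E : VDiv K M) :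
    VDiv.map (σ.comp τ) E = VDiv.map σ (VDiv.map τ E) := by
  funext v
  obtain ⟨x, hx⟩ := exists_mk_eq E ((v.comap σ).comap τ)
  rw [VDiv.map_apply σ _ v (VDiv.map_apply τ E (v.comap σ) hx)]
  exact VDiv.map_apply (σ.comp τ) E v hx

/-- The iterates of an embedding multiplying a divisor class by `n` multiply it by the powers of
`n`. -/
theorem exists_iterate_isPrinc (σ : M →ₐ[K] M) [Algebra.IsSeparable σ.fieldRange M]
    {E : VDiv K M} {n : ℕ} (hσ : IsPrinc K M (VDiv.map σ E / E ^ n)) (j : ℕ) :
    ∃ τ : M →ₐ[K] M, Module.finrank τ.fieldRange M = Module.finrank σ.fieldRange M ^ j ∧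
      Algebra.IsSeparable τ.fieldRange M ∧ IsPrinc K M (VDiv.map τ E / E ^ n ^ j) := by
  induction j with
  | zero =>
    refine ⟨AlgHom.id K M, ?_, ?_, ?_⟩
    · rw [pow_zero, show (AlgHom.id K M).fieldRange = ⊤ from
        AlgHom.fieldRange_eq_top.mpr Function.surjective_id, IntermediateField.finrank_top]
    · rw [show (AlgHom.id K M).fieldRange = ⊤ from
        AlgHom.fieldRange_eq_top.mpr Function.surjective_id]
      exact ⟨fun x => isSeparable_algebraMap (⟨x, trivial⟩ : (⊤ : IntermediateField K M))⟩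
    · have : VDiv.map (AlgHom.id K M) E / E ^ n ^ 0 = 1 := by
        rw [map_id_vdiv, pow_zero, pow_one E]
        exact div_self' E
      rw [this]; exact IsPrinc.one
  | succ j ih =>
    obtain ⟨τ, hτ, hτs, hτp⟩ := ih
    refine ⟨σ.comp τ, ?_, ?_, ?_⟩
    · rw [show (σ.comp τ).fieldRange = τ.fieldRange.map σ from (AlgHom.map_fieldRange τ σ).symm,
        finrank_map_tower, hτ, pow_succ]
    · rw [show (σ.comp τ).fieldRange = τ.fieldRange.map σ from (AlgHom.map_fieldRange τ σ).symm]
      exact isSeparable_map_tower σ τ.fieldRange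
    · have h2 : VDiv.map (σ.comp τ) E / E ^ n ^ (j + 1) =
          VDiv.map σ (VDiv.map τ E / E ^ n ^ j) * (VDiv.map σ E / E ^ n) ^ n ^ j := by
        rw [map_comp_vdiv, map_div (VDiv.map σ) (VDiv.map τ E) (E ^ n ^ j),
          map_pow (VDiv.map σ) E (n ^ j), div_pow (VDiv.map σ E) (E ^ n) (n ^ j),
          ← pow_mul E n (n ^ j), ← pow_succ' n j]
        exact (div_mul_div_cancel (VDiv.map σ (VDiv.map τ E)) (VDiv.map σ E ^ n ^ j)
          (E ^ n ^ (j + 1))).symm
      rw [h2]
      exact (hτp.map σ).mul (pow_mem hσ _)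

variable (t) in
/-- Multiplication by a function clearing the local equations bounds the sections of the pulled
back powers. -/
theorem exists_injective_Lsp_pow (τ : M →ₐ[K] M) {E : VDiv K M} {G : M} (hG0 : G ≠ 0) {B : ℕ}
    (hGE : ∀ v, ∃ x : Mˣ, E v = QuotientGroup.mk x ∧ G * ((x⁻¹ : Mˣ) : M) ∈ bdSpace K t B)
    (m : ℕ) :
    ∃ Φ : Lsp K (VDiv.map τ E ^ m) →ₗ[K] bdSpace K (τ ∘ t) (B * m), Function.Injective Φ := by
  refine ⟨LinearMap.codRestrict _ ((LinearMap.mulRight K (τ G ^ m)).comp (Lsp K _).subtype)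
    fun F v o ho => ?_, fun F F' hFF => Subtype.ext
      (mul_right_cancel₀ (pow_ne_zero m (by simpa using hG0)) (congrArg Subtype.val hFF))⟩
  obtain ⟨x, hx, hGx⟩ := hGE (v.comap τ)
  set y := Units.map τ.toRingHom.toMonoidHom x
  have hy : VDiv.map τ E v = QuotientGroup.mk y := VDiv.map_apply τ E v hx
  have hFy : (F : M) * ((y ^ m : Mˣ) : M) ∈ v.1 :=
    F.2 v (fun a => v.2 a) (y ^ m) (by rw [Pi.pow_apply, hy]; rfl)
  have hco : ∀ o', τ (coord t o') = coord (τ ∘ t) o' := fun o' => by
    cases o' <;> simp [coord]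
  have hmax : IsMaxAt t (v.comap τ) o := by
    refine ⟨fun h0 => ho.1 (by rw [← hco, h0, map_zero]), fun o' => ?_⟩
    change τ (coord t o' / coord t o) ∈ v.1
    rw [map_div₀, hco, hco]
    exact ho.2 o'
  have hGy : τ (G * ((x⁻¹ : Mˣ) : M) / coord t o ^ B) ∈ v.1 := hGx (v.comap τ) o hmax
  rw [map_div₀, map_mul, map_pow, hco] at hGy
  have hprod := v.1.mul_mem _ _ hFy (pow_mem (S := v.1) hGy m)
  convert hprod using 1
  change (F : M) * τ G ^ m / _ = _
  rw [show τ (((x⁻¹ : Mˣ)) : M) = ((y⁻¹ : Mˣ) : M) from by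
    rw [← map_inv]; rfl, div_pow, mul_pow, ← pow_mul, Units.val_pow_eq_pow_val,
    Units.val_inv_eq_inv_val, inv_pow]
  field_simp

/-- The sections of the pulled back powers grow no faster than the bounded elements. -/
theorem finrank_Lsp_map_pow_le (τ : M →ₐ[K] M) {E : VDiv K M} {G : M} (hG0 : G ≠ 0) {B : ℕ}
    (hGE : ∀ v, ∃ x : Mˣ, E v = QuotientGroup.mk x ∧ G * ((x⁻¹ : Mˣ) : M) ∈ bdSpace K t B)
    {u : ℕ → ℕ} (hu : ∀ N, FiniteDimensional K (bdSpace K (τ ∘ t) N) ∧
      Module.finrank K (bdSpace K (τ ∘ t) N) ≤ u N) (m : ℕ) :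
    FiniteDimensional K (Lsp K (VDiv.map τ E ^ m)) ∧
      Module.finrank K (Lsp K (VDiv.map τ E ^ m)) ≤ u (B * m) := by
  obtain ⟨Φ, hΦ⟩ := exists_injective_Lsp_pow t τ hG0 hGE m
  have := (hu (B * m)).1
  exact ⟨FiniteDimensional.of_injective Φ hΦ,
    (LinearMap.finrank_le_finrank_of_injective hΦ).trans (hu _).2⟩

/-- Monomials times a basis over the image give independent sections of a pulled back power. -/
theorem exists_mul_pow_le_finrank (ht : AlgebraicIndependent K t) (τ : M →ₐ[K] M)
    [FiniteDimensional τ.fieldRange M] [FiniteDimensional (adjoin K (Set.range (τ ∘ t))) M]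
    {E : VDiv K M} (hE1 : (1 : M) ∈ Lsp K E) (hEt : ∀ i, t i ∈ Lsp K E)
    (hfd : ∀ m, FiniteDimensional K (Lsp K (VDiv.map τ E ^ m))) :
    ∃ a, Module.finrank τ.fieldRange M * (a + 1) ^ g ≤
      Module.finrank K (Lsp K (VDiv.map τ E ^ (g * a + a))) := by
  classical
  let b := Module.finBasis τ.fieldRange M
  -- `y` makes a basis `b` over the image of `τ` integral over `K[τ t]`
  obtain ⟨y, hy, hy0, hyint⟩ :=
    exists_mul_isIntegral (K := K) (t := τ ∘ t) (Finset.univ.image b)
  choose ab hab using fun i => exists_mem_bdSpace (τ ∘ t) (hyint (b i)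
    (Finset.mem_image_of_mem b (Finset.mem_univ i)))
  set a := Finset.univ.sup ab
  refine ⟨a, ?_⟩
  have hyR : y ∈ τ.fieldRange := by
    refine (Algebra.adjoin_le (S := τ.fieldRange.toSubalgebra) ?_) hy
    rintro _ ⟨i, rfl⟩; exact ⟨t i, rfl⟩
  obtain ⟨y₀, hy₀⟩ := hyR
  have := hfd (g * a + a)
  have hmem : ∀ i (w : Fin g → Fin (a + 1)),
      τ (monom t a w) * (y * b i) ∈ Lsp K (VDiv.map τ E ^ (g * a + a)) := fun i w => by
    rw [pow_add (VDiv.map τ E) (g * a) a]
    refine mul_mem_Lsp ?_ (mem_Lsp_of_mem_bdSpace (by simpa using map_mem_Lsp τ hE1)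
      (fun i => map_mem_Lsp τ (hEt i))
      (bdSpace_mono (τ ∘ t) (Finset.le_sup (Finset.mem_univ i)) (hab i)))
    rw [← map_pow (VDiv.map τ) E (g * a)]
    exact map_mem_Lsp τ (monom_mem_Lsp hE1 hEt a w)
  -- the `τ (monomial) * (y b i)` are independent sections
  have hli : LinearIndependent K fun p : Fin (Module.finrank τ.fieldRange M) ×
      (Fin g → Fin (a + 1)) => (⟨_, hmem p.1 p.2⟩ : Lsp K (VDiv.map τ E ^ (g * a + a))) := by
    refine LinearIndependent.of_comp (Lsp K _).subtype ?_
    rw [Fintype.linearIndependent_iff]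
    intro κ hκ p
    simp only [Function.comp_apply, Submodule.subtype_apply, Fintype.sum_prod_type] at hκ
    let z : Fin (Module.finrank τ.fieldRange M) → τ.fieldRange := fun i =>
      ⟨τ (y₀ * ∑ w, κ (i, w) • monom t a w), _, rfl⟩
    have hz : ∑ i, z i • b i = 0 := by
      rw [← hκ]
      refine Finset.sum_congr rfl fun i _ => ?_
      change τ (y₀ * ∑ w, κ (i, w) • monom t a w) * b i = _
      rw [map_mul, map_sum, show τ y₀ = y from hy₀, Finset.mul_sum, Finset.sum_mul]
      refine Finset.sum_congr rfl fun w _ => ?_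
      rw [map_smul, Algebra.smul_def, Algebra.smul_def]
      ring
    have h0 := congrArg Subtype.val
      (Fintype.linearIndependent_iff.mp b.linearIndependent z hz p.1)
    have h0' : y₀ * ∑ w, κ (p.1, w) • monom t a w = 0 := τ.injective (by
      rw [map_zero]; exact h0)
    have hy₀0 : y₀ ≠ 0 := fun h' => hy0 (by rw [← hy₀, h', map_zero])
    exact Fintype.linearIndependent_iff.mp (linearIndependent_monom ht a) _
      ((mul_eq_zero.mp h0').resolve_left hy₀0) p.2
  have hcard := hli.fintype_card_le_finrank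
  rwa [Fintype.card_prod, Fintype.card_fin, Fintype.card_fun, Fintype.card_fin,
    Fintype.card_fin] at hcard

/-- Monomials give independent sections of a power. -/
theorem pow_le_finrank_Lsp (ht : AlgebraicIndependent K t) {E : VDiv K M}
    (hE1 : (1 : M) ∈ Lsp K E) (hEt : ∀ i, t i ∈ Lsp K E) (q : ℕ)
    [FiniteDimensional K (Lsp K (E ^ (g * q)))] :
    (q + 1) ^ g ≤ Module.finrank K (Lsp K (E ^ (g * q))) := by
  have h := (LinearIndependent.of_comp (Lsp K (E ^ (g * q))).subtype
    (v := fun w => (⟨_, monom_mem_Lsp hE1 hEt q w⟩ : Lsp K (E ^ (g * q))))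
    (linearIndependent_monom ht q)).fintype_card_le_finrank
  rwa [Fintype.card_fun, Fintype.card_fin, Fintype.card_fin] at h

variable [FiniteDimensional (adjoin K (Set.range t)) M]
  [Algebra.IsSeparable (adjoin K (Set.range t)) M]

/-- **Two-sided bound for the degree of an embedding multiplying a divisor class by `N`.** -/
theorem finrank_fieldRange_bounds (ht : AlgebraicIndependent K t) {E : VDiv K M}
    (hE1 : (1 : M) ∈ Lsp K E) (hEt : ∀ i, t i ∈ Lsp K E) {G : M} (hG0 : G ≠ 0) {B : ℕ}
    (hGE : ∀ v, ∃ x : Mˣ, E v = QuotientGroup.mk x ∧ G * ((x⁻¹ : Mˣ) : M) ∈ bdSpace K t B) {c₀ : ℕ}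
    (hc₀ : ∀ m, FiniteDimensional K (bdSpace K t m) ∧ Module.finrank K (bdSpace K t m) ≤
      Module.finrank (adjoin K (Set.range t)) M * (m + c₀ + 1) ^ g)
    {N : ℕ} (hN : 0 < N) (τ : M →ₐ[K] M) [FiniteDimensional τ.fieldRange M]
    [Algebra.IsSeparable τ.fieldRange M] (hτp : IsPrinc K M (VDiv.map τ E / E ^ N)) :
    Module.finrank τ.fieldRange M ≤
        Module.finrank (adjoin K (Set.range t)) M * (B * (1 + g) + c₀ + 1) ^ g * N ^ g ∧
      N ^ g ≤ Module.finrank (adjoin K (Set.range t)) M * (B * g + 1) ^ g *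
        Module.finrank τ.fieldRange M := by
  set d := Module.finrank τ.fieldRange M
  set d₀ := Module.finrank (adjoin K (Set.range t)) M
  have hd : 0 < d := Module.finrank_pos
  have hF' : adjoin K (Set.range (τ ∘ t)) = (adjoin K (Set.range t)).map τ := by
    rw [IntermediateField.adjoin_map, Set.range_comp]
  have hd' : Module.finrank (adjoin K (Set.range (τ ∘ t))) M = d₀ * d := by
    rw [hF', finrank_map_tower]
  have : FiniteDimensional (adjoin K (Set.range (τ ∘ t))) M :=
    Module.finite_of_finrank_pos (by rw [hd']; exact Nat.mul_pos Module.finrank_pos hd)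
  have : Algebra.IsSeparable (adjoin K (Set.range (τ ∘ t))) M := by
    rw [hF']; exact isSeparable_map_tower τ _
  obtain ⟨f, hf⟩ := hτp
  have heq : ∀ m, Module.finrank K (Lsp K (VDiv.map τ E ^ m)) =
      Module.finrank K (Lsp K (E ^ (N * m))) := fun m => by
    have : VDiv.map τ E ^ m = E ^ (N * m) * princ K M (f ^ m) := by
      rw [map_pow (princ K M) f m, hf, div_pow (VDiv.map τ E) (E ^ N) m, pow_mul E N m]
      exact (mul_div_cancel ((E ^ N) ^ m) (VDiv.map τ E ^ m)).symm
    rw [this]
    exact (lspEquiv _ _).finrank_eq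
  obtain ⟨c, hc⟩ := exists_finrank_bdSpace_le (ht.map' (f := τ) τ.injective)
  have hup := finrank_Lsp_map_pow_le τ hG0 hGE hc
  have hup₀ : ∀ m, FiniteDimensional K (Lsp K (E ^ m)) ∧
      Module.finrank K (Lsp K (E ^ m)) ≤ d₀ * (B * m + c₀ + 1) ^ g := fun m => by
    have h := finrank_Lsp_map_pow_le (AlgHom.id K M) hG0 hGE hc₀ m
    rwa [map_id_vdiv] at h
  -- compare the two bounds for the sections of `τ^* E ^ m` and those of `E ^ (N m)`
  constructor
  · obtain ⟨a, ha⟩ := exists_mul_pow_le_finrank ht τ hE1 hEt fun m => (hup m).1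
    have hle : d * (a + 1) ^ g ≤ d₀ * (B * (1 + g) + c₀ + 1) ^ g * N ^ g * (a + 1) ^ g := by
      refine ha.trans (((heq _).trans_le (hup₀ _).2).trans ?_)
      rw [mul_assoc, mul_assoc, ← mul_pow, ← mul_pow]
      refine Nat.mul_le_mul_left _ (Nat.pow_le_pow_left ?_ g)
      rw [show (B * (1 + g) + c₀ + 1) * (N * (a + 1)) =
        B * (N * ((1 + g) * (a + 1))) + (c₀ + 1) * (N * (a + 1)) by ring, add_assoc]
      exact Nat.add_le_add (Nat.mul_le_mul_left _ (Nat.mul_le_mul_left _ (by nlinarith)))
        (Nat.le_mul_of_pos_right _ (Nat.mul_pos hN a.succ_pos))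
    exact Nat.le_of_mul_le_mul_right hle (pow_pos a.succ_pos g)
  · set q := c + 1
    have : FiniteDimensional K (Lsp K (E ^ (g * (N * q)))) := (hup₀ _).1
    have hle : N ^ g * q ^ g ≤ d₀ * (B * g + 1) ^ g * d * q ^ g := by
      rw [← mul_pow]
      refine ((Nat.pow_le_pow_left (Nat.le_succ _) g).trans
        (pow_le_finrank_Lsp ht hE1 hEt (N * q))).trans ?_
      rw [mul_left_comm g, ← heq]
      refine (hup _).2.trans ?_
      rw [hd', mul_right_comm d₀ ((B * g + 1) ^ g), mul_assoc (d₀ * d), ← mul_pow]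
      refine Nat.mul_le_mul_left _ (Nat.pow_le_pow_left ?_ g)
      simp only [q]
      nlinarith
    exact Nat.le_of_mul_le_mul_right hle (pow_pos c.succ_pos g)

/-- **The degree of an embedding multiplying a divisor by `n`.** -/
theorem finrank_fieldRange_eq_pow (ht : AlgebraicIndependent K t) (σ : M →ₐ[K] M)
    [FiniteDimensional σ.fieldRange M] [Algebra.IsSeparable σ.fieldRange M] (E₀ : VDiv K M)
    (hfin : ∃ T : Finset Mˣ, ∀ v, ∃ e ∈ T, E₀ v = QuotientGroup.mk e)
    (h1 : (1 : M) ∈ Lsp K E₀) (ht1 : ∀ i, t i ∈ Lsp K E₀) {n e : ℕ} (hn : n ≠ 0) (he : e ≠ 0)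
    (h : IsPrinc K M ((VDiv.map σ E₀ / E₀ ^ n) ^ e)) :
    Module.finrank σ.fieldRange M = n ^ g := by
  classical
  set E := E₀ ^ e
  have hE1 : (1 : M) ∈ Lsp K E := by simpa [E] using pow_mem_Lsp h1 e
  have hEt : ∀ i, t i ∈ Lsp K E := fun i => by
    simpa using pow_mem_Lsp_of_le (ht1 i) h1 (Nat.one_le_iff_ne_zero.mpr he)
  -- a function clearing the poles of the local equations
  obtain ⟨T, hT⟩ := hfin
  obtain ⟨G, hG, hG0, hGint⟩ :=
    exists_mul_isIntegral (K := K) (t := t) (T.image fun x => (((x ^ e)⁻¹ : Mˣ) : M))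
  obtain ⟨B, hB⟩ : ∃ B, ∀ x ∈ T, G * (((x ^ e)⁻¹ : Mˣ) : M) ∈ bdSpace K t B := by
    choose N hN using fun x : T => exists_mem_bdSpace t (hGint _ (Finset.mem_image_of_mem _ x.2))
    exact ⟨Finset.univ.sup N, fun x hx =>
      bdSpace_mono t (Finset.le_sup (Finset.mem_univ ⟨x, hx⟩)) (hN ⟨x, hx⟩)⟩
  have hGE : ∀ v, ∃ x : Mˣ, E v = QuotientGroup.mk x ∧ G * ((x⁻¹ : Mˣ) : M) ∈ bdSpace K t B :=
    fun v => by
      obtain ⟨x, hxT, hx⟩ := hT v
      exact ⟨x ^ e, by simp only [E, Pi.pow_apply, hx]; rfl, hB x hxT⟩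
  obtain ⟨c₀, hc₀⟩ := exists_finrank_bdSpace_le ht
  have hσ : IsPrinc K M (VDiv.map σ E / E ^ n) := by
    have : VDiv.map σ E / E ^ n = (VDiv.map σ E₀ / E₀ ^ n) ^ e := by
      change VDiv.map σ (E₀ ^ e) / (E₀ ^ e) ^ n = _
      rw [map_pow (VDiv.map σ) E₀ e, ← pow_mul E₀ e n, mul_comm e n, pow_mul E₀ n e]
      exact (div_pow (VDiv.map σ E₀) (E₀ ^ n) e).symm
    rw [this]; exact h
  set d := Module.finrank σ.fieldRange M
  set d₀ := Module.finrank (adjoin K (Set.range t)) M
  -- apply the bounds to the iterates of `σ` and let the exponent grow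
  have key : ∀ j, d ^ j ≤ d₀ * (B * (1 + g) + c₀ + 1) ^ g * (n ^ g) ^ j ∧
      (n ^ g) ^ j ≤ d₀ * (B * g + 1) ^ g * d ^ j := fun j => by
    obtain ⟨τ, hτ, hτs, hτp⟩ := exists_iterate_isPrinc σ hσ j
    have := hτs
    have : FiniteDimensional τ.fieldRange M :=
      Module.finite_of_finrank_pos (by rw [hτ]; exact pow_pos Module.finrank_pos j)
    rw [← hτ, show (n ^ g) ^ j = (n ^ j) ^ g by rw [← pow_mul, ← pow_mul, mul_comm g j]]
    exact finrank_fieldRange_bounds ht hE1 hEt hG0 hGE hc₀
      (pow_pos (Nat.pos_of_ne_zero hn) j) τ hτp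
  refine eq_of_pow_le (C := d₀ * (B * (1 + g) + c₀ + 1) ^ g) (fun j => (key j).1) fun j => ?_
  refine (key j).2.trans (Nat.mul_le_mul_right _ (Nat.mul_le_mul_left _ (Nat.pow_le_pow_left ?_ g)))
  nlinarith

end Fermat.AV

end
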