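import Fermat.Agent.AV.PowerSeriesUFD
import Mathlib.RingTheory.Filtration
import Mathlib.RingTheory.MvPolynomial.Homogeneous

/-!
# Local rings with a system of parameters mapped to the variables of a power series ring

Such a map identifies the quotients by the powers of the maximal ideals.  So it is injective, and
as power series form a factorial ring the denominators of a finite family of fractions form a
principal ideal.
-/

set_option autoImplicit false
set_option linter.unusedSectionVars false

noncomputable section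

universe u

open IsLocalRing

namespace Fermat.AV

variable {K : Type u} [Field K] {g : ℕ}

/-- A series in the `k`-th power of the maximal ideal has no term of degree less than `k`. -/
theorem coeff_eq_zero_of_mem_maximalIdeal_pow {f : MvPowerSeries (Fin g) K} {k : ℕ}
    (hf : f ∈ maximalIdeal (MvPowerSeries (Fin g) K) ^ k) (d : Fin g →₀ ℕ) (hd : d.degree < k) :
    MvPowerSeries.coeff d f = 0 := by
  classical
  induction k generalizing f d with
  | zero => exact absurd hd (Nat.not_lt_zero _)
  | succ k ih =>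
    rw [pow_succ] at hf
    refine Submodule.mul_induction_on hf (fun a ha b hb => ?_)
      (fun a b ha hb => by rw [map_add, ha, hb, add_zero])
    · rw [MvPowerSeries.coeff_mul]
      refine Finset.sum_eq_zero fun p hp => ?_
      rw [Finset.HasAntidiagonal.mem_antidiagonal] at hp
      by_cases h : p.1.degree < k
      · rw [ih ha _ h, zero_mul]
      · have h2 : p.1.degree + p.2.degree = d.degree := by rw [← hp, Finsupp.degree.map_add]
        have hp2 : p.2 = 0 := (Finsupp.degree_eq_zero_iff _).mp (by omega)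
        rw [hp2, MvPowerSeries.coeff_zero_eq_constantCoeff_apply]
        have hb0 : MvPowerSeries.constantCoeff b = 0 := by
          rw [mem_maximalIdeal, mem_nonunits_iff, MvPowerSeries.isUnit_iff_constantCoeff,
            isUnit_iff_ne_zero, not_not] at hb
          exact hb
        rw [hb0, mul_zero]

/-- A nonzero power series lies outside some power of the maximal ideal. -/
theorem exists_notMem_maximalIdeal_pow {f : MvPowerSeries (Fin g) K} (hf : f ≠ 0) :
    ∃ k, f ∉ maximalIdeal (MvPowerSeries (Fin g) K) ^ k := by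
  by_contra h
  push Not at h
  exact hf (MvPowerSeries.ext fun d => by
    rw [coeff_eq_zero_of_mem_maximalIdeal_pow (h (d.degree + 1)) d (Nat.lt_succ_self _), map_zero])

variable {R : Type u} [CommRing R] [IsLocalRing R] [IsNoetherianRing R] [Algebra K R]
  (φ : R →ₐ[K] MvPowerSeries (Fin g) K) (t : Fin g → R)

/-- A system of parameters mapped to the variables, to first order. -/
structure IsParam : Prop where
  /-- The parameters generate the maximal ideal. -/
  span : maximalIdeal R = Ideal.span (Set.range t)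
  /-- Every element is congruent to a constant modulo the maximal ideal. -/
  residue : ∀ r : R, ∃ c : K, r - algebraMap K R c ∈ maximalIdeal R
  /-- Each parameter maps to its variable, modulo the square of the maximal ideal. -/
  approx : ∀ l, φ (t l) - MvPowerSeries.X l ∈ maximalIdeal (MvPowerSeries (Fin g) K) ^ 2

variable {φ t} (h : IsParam φ t)

local notation "𝔐" => maximalIdeal (MvPowerSeries (Fin g) K)

include h in
/-- The parameters map into the maximal ideal. -/
theorem IsParam.apply_mem (l : Fin g) : φ (t l) ∈ 𝔐 := by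
  have h1 : (MvPowerSeries.X l : MvPowerSeries (Fin g) K) ∈ 𝔐 := by
    rw [maximalIdeal_mvPowerSeries]; exact Ideal.subset_span ⟨l, rfl⟩
  simpa using add_mem (Ideal.pow_le_self two_ne_zero (h.approx l)) h1

include h in
/-- Powers of the maximal ideal map into powers of the maximal ideal. -/
theorem IsParam.map_pow_le (k : ℕ) : (maximalIdeal R ^ k).map φ ≤ 𝔐 ^ k := by
  rw [Ideal.map_pow]
  refine Ideal.pow_right_mono ?_ k
  rw [h.span, Ideal.map_span, Ideal.span_le]
  rintro _ ⟨_, ⟨l, rfl⟩, rfl⟩
  exact h.apply_mem l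

include h in
/-- A series in the `k`-th power of the maximal ideal is approximated one degree further by an
element of `R`. -/
theorem IsParam.exists_approx_step (k : ℕ) : ∀ f ∈ 𝔐 ^ k, ∃ r ∈ maximalIdeal R ^ k,
    f - φ r ∈ 𝔐 ^ (k + 1) := by
  have h0 : ∀ f : MvPowerSeries (Fin g) K,
      f - φ (algebraMap K R (MvPowerSeries.constantCoeff f)) ∈ 𝔐 := fun f => by
    rw [φ.commutes, mem_maximalIdeal, mem_nonunits_iff, MvPowerSeries.isUnit_iff_constantCoeff,
      isUnit_iff_ne_zero, not_not]
    simp [MvPowerSeries.algebraMap_apply]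
  induction k with
  | zero =>
    intro f _
    exact ⟨algebraMap K R (MvPowerSeries.constantCoeff f),
      by rw [pow_zero, Ideal.one_eq_top]; exact Submodule.mem_top, by
      rw [zero_add, pow_one]; exact h0 f⟩
  | succ k ih =>
    intro f hf
    rw [pow_succ] at hf
    refine Submodule.mul_induction_on hf (fun a ha b hb => ?_) (fun a b ha hb => ?_)
    · obtain ⟨ra, hra, hra'⟩ := ih a ha
      -- approximate a series in `𝔐` by a linear combination of the `t l`
      obtain ⟨rb, hrb, hrb'⟩ : ∃ r ∈ maximalIdeal R, b - φ r ∈ 𝔐 ^ 2 := by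
        rw [maximalIdeal_mvPowerSeries] at hb
        obtain ⟨γ, rfl⟩ := (Submodule.mem_span_range_iff_exists_fun _).mp hb
        refine ⟨∑ l, algebraMap K R (MvPowerSeries.constantCoeff (γ l)) * t l,
          Ideal.sum_mem _ fun l _ => Ideal.mul_mem_left _ _ (by
            rw [h.span]; exact Ideal.subset_span ⟨l, rfl⟩), ?_⟩
        rw [map_sum, ← Finset.sum_sub_distrib]
        refine Ideal.sum_mem _ fun l _ => ?_
        have hX : (MvPowerSeries.X l : MvPowerSeries (Fin g) K) ∈ 𝔐 := by
          rw [maximalIdeal_mvPowerSeries]; exact Ideal.subset_span ⟨l, rfl⟩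
        have e : γ l • MvPowerSeries.X l -
            φ (algebraMap K R (MvPowerSeries.constantCoeff (γ l)) * t l) =
            (γ l - φ (algebraMap K R (MvPowerSeries.constantCoeff (γ l)))) * MvPowerSeries.X l -
              φ (algebraMap K R (MvPowerSeries.constantCoeff (γ l))) *
                (φ (t l) - MvPowerSeries.X l) := by
          rw [smul_eq_mul, map_mul]; ring
        rw [e]
        refine sub_mem ?_ (Ideal.mul_mem_left _ _ (h.approx l))
        rw [pow_two]
        exact Ideal.mul_mem_mul (h0 _) hX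
      refine ⟨ra * rb, by rw [pow_succ]; exact Ideal.mul_mem_mul hra hrb, ?_⟩
      have e : a * b - φ (ra * rb) = (a - φ ra) * b + φ ra * (b - φ rb) := by
        rw [map_mul]; ring
      rw [e]
      refine add_mem ?_ ?_
      · rw [pow_succ]; exact Ideal.mul_mem_mul hra' hb
      · rw [show k + 1 + 1 = k + 2 from rfl, pow_add]
        exact Ideal.mul_mem_mul (h.map_pow_le k (Ideal.mem_map_of_mem _ hra)) hrb'
    · obtain ⟨r, hr, hr'⟩ := ha
      obtain ⟨s, hs, hs'⟩ := hb
      exact ⟨r + s, add_mem hr hs, by rw [map_add, add_sub_add_comm]; exact add_mem hr' hs'⟩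

include h in
/-- The map is surjective modulo all powers. -/
theorem IsParam.exists_approx (f : MvPowerSeries (Fin g) K) (k : ℕ) : ∃ r, f - φ r ∈ 𝔐 ^ k := by
  induction k with
  | zero => exact ⟨0, by rw [pow_zero, Ideal.one_eq_top]; exact Submodule.mem_top⟩
  | succ k ih =>
    obtain ⟨r, hr⟩ := ih
    obtain ⟨s, -, hs⟩ := h.exists_approx_step k _ hr
    exact ⟨r + s, by rw [map_add, ← sub_sub]; exact hs⟩

include h in
/-- An element of a power of the maximal ideal has a leading form. -/
theorem IsParam.exists_form (j : ℕ) : ∀ r ∈ maximalIdeal R ^ j, ∃ P : MvPolynomial (Fin g) K,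
    P.IsHomogeneous j ∧ r - MvPolynomial.aeval t P ∈ maximalIdeal R ^ (j + 1) ∧
      φ r - (P : MvPowerSeries (Fin g) K) ∈ 𝔐 ^ (j + 1) := by
  have h1 : ∀ r ∈ maximalIdeal R, φ r ∈ 𝔐 := fun r hr => by
    simpa using h.map_pow_le 1 (Ideal.mem_map_of_mem φ (by simpa using hr))
  induction j with
  | zero =>
    intro r _
    obtain ⟨c, hc⟩ := h.residue r
    refine ⟨MvPolynomial.C c, MvPolynomial.isHomogeneous_C _ _, ?_, ?_⟩
    · rw [zero_add, pow_one, MvPolynomial.aeval_C]; exact hc
    · rw [zero_add, pow_one, MvPolynomial.coe_C]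
      have := h1 _ hc
      rw [map_sub, φ.commutes, MvPowerSeries.algebraMap_apply] at this
      simpa using this
  | succ j ih =>
    intro r hr
    rw [pow_succ] at hr
    refine Submodule.mul_induction_on hr (fun a ha b hb => ?_) (fun a b ha hb => ?_)
    -- for `a ∈ 𝔪 ^ j`, `b ∈ 𝔪`: the form of `a` times a linear form of `b`
    · obtain ⟨P, hP, hPa, hPφ⟩ := ih a ha
      obtain ⟨Q, hQ, hQa, hQφ⟩ : ∃ Q : MvPolynomial (Fin g) K, Q.IsHomogeneous 1 ∧
          b - MvPolynomial.aeval t Q ∈ maximalIdeal R ^ 2 ∧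
            φ b - (Q : MvPowerSeries (Fin g) K) ∈ 𝔐 ^ 2 := by
        have hb' : b ∈ Ideal.span (Set.range t) := h.span ▸ hb
        obtain ⟨γ, rfl⟩ := (Submodule.mem_span_range_iff_exists_fun _).mp hb'
        choose c hc using fun l => h.residue (γ l)
        refine ⟨∑ l, MvPolynomial.C (c l) * MvPolynomial.X l,
          MvPolynomial.IsHomogeneous.sum _ _ _ fun l _ =>
            MvPolynomial.isHomogeneous_C_mul_X _ _, ?_, ?_⟩
        · rw [map_sum, ← Finset.sum_sub_distrib]
          refine Ideal.sum_mem _ fun l _ => ?_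
          rw [map_mul, MvPolynomial.aeval_C, MvPolynomial.aeval_X, smul_eq_mul, ← sub_mul, pow_two]
          exact Ideal.mul_mem_mul (hc l) (by rw [h.span]; exact Ideal.subset_span ⟨l, rfl⟩)
        · rw [map_sum, ← MvPolynomial.coeToMvPowerSeries.ringHom_apply, map_sum,
            ← Finset.sum_sub_distrib]
          refine Ideal.sum_mem _ fun l _ => ?_
          rw [map_mul, MvPolynomial.coeToMvPowerSeries.ringHom_apply,
            MvPolynomial.coeToMvPowerSeries.ringHom_apply, MvPolynomial.coe_C, MvPolynomial.coe_X]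
          have e : φ (γ l • t l) - MvPowerSeries.C (c l) * MvPowerSeries.X l =
              φ (γ l - algebraMap K R (c l)) * φ (t l) +
                MvPowerSeries.C (c l) * (φ (t l) - MvPowerSeries.X l) := by
            rw [smul_eq_mul, map_mul, map_sub, φ.commutes, MvPowerSeries.algebraMap_apply,
              Algebra.algebraMap_self, RingHom.id_apply]
            ring
          rw [e]
          refine add_mem ?_ (Ideal.mul_mem_left _ _ (h.approx l))
          rw [pow_two]
          exact Ideal.mul_mem_mul (h1 _ (hc l)) (h.apply_mem l)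
      -- `P * Q` represents `a * b` modulo `𝔪 ^ (j + 2)`
      refine ⟨P * Q, hP.mul hQ, ?_, ?_⟩
      · have e : a * b - MvPolynomial.aeval t (P * Q) = (a - MvPolynomial.aeval t P) * b +
            MvPolynomial.aeval t P * (b - MvPolynomial.aeval t Q) := by
          rw [map_mul]; ring
        rw [e]
        refine add_mem (by rw [pow_succ]; exact Ideal.mul_mem_mul hPa hb) ?_
        rw [show j + 1 + 1 = j + 2 from rfl, pow_add]
        refine Ideal.mul_mem_mul ?_ hQa
        have := sub_mem ha (Ideal.pow_le_pow_right (Nat.le_succ j) hPa)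
        rwa [sub_sub_cancel] at this
      · rw [MvPolynomial.coe_mul, map_mul]
        have e : φ a * φ b - (P : MvPowerSeries (Fin g) K) * (Q : MvPowerSeries (Fin g) K) =
            (φ a - (P : MvPowerSeries (Fin g) K)) * φ b +
              (P : MvPowerSeries (Fin g) K) * (φ b - (Q : MvPowerSeries (Fin g) K)) := by ring
        rw [e]
        refine add_mem (by rw [pow_succ]; exact Ideal.mul_mem_mul hPφ (h1 b hb)) ?_
        rw [show j + 1 + 1 = j + 2 from rfl, pow_add]
        refine Ideal.mul_mem_mul ?_ hQφ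
        have := sub_mem (h.map_pow_le j (Ideal.mem_map_of_mem φ ha))
          (Ideal.pow_le_pow_right (Nat.le_succ j) hPφ)
        rwa [sub_sub_cancel] at this
    · obtain ⟨P, hP, hPa, hPφ⟩ := ha
      obtain ⟨Q, hQ, hQa, hQφ⟩ := hb
      refine ⟨P + Q, hP.add hQ, ?_, ?_⟩
      · rw [map_add, add_sub_add_comm]; exact add_mem hPa hQa
      · rw [MvPolynomial.coe_add, map_add, add_sub_add_comm]; exact add_mem hPφ hQφ

include h in
/-- The powers of the maximal ideal are pulled back. -/
theorem IsParam.mem_pow {r : R} {k : ℕ} (hr : φ r ∈ 𝔐 ^ k) : r ∈ maximalIdeal R ^ k := by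
  induction k with
  | zero => rw [pow_zero, Ideal.one_eq_top]; exact Submodule.mem_top
  | succ k ih =>
    obtain ⟨P, hP, hPr, hPφ⟩ := h.exists_form k r (ih (Ideal.pow_le_pow_right (Nat.le_succ k) hr))
    have hP0 : P = 0 := MvPolynomial.ext _ _ fun d => by
      rw [MvPolynomial.coeff_zero]
      by_contra hne
      have hd : d.degree = k := by
        have := hP hne
        rwa [Finsupp.degree_eq_weight_one]
      have := coeff_eq_zero_of_mem_maximalIdeal_pow (sub_mem hr hPφ) d (by omega)
      rw [sub_sub_cancel, MvPolynomial.coeff_coe] at this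
      exact hne this
    rwa [hP0, map_zero, sub_zero] at hPr

include h in
/-- A map sending parameters to the variables to first order is injective. -/
theorem IsParam.injective : Function.Injective φ := by
  rw [injective_iff_map_eq_zero]
  intro r hr
  have : r ∈ ⨅ k, maximalIdeal R ^ k :=
    Submodule.mem_iInf _ |>.mpr fun k => h.mem_pow (by rw [hr]; exact zero_mem _)
  rwa [Ideal.iInf_pow_eq_bot_of_isLocalRing _ (maximalIdeal.isMaximal R).ne_top,
    Ideal.mem_bot] at this

include h in
/-- **The denominators of a fraction form a principal ideal.** -/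
theorem IsParam.exists_colon [Infinite K] {a : R} (ha : a ≠ 0) (b : R) :
    ∃ j : R, j ≠ 0 ∧ ∀ r, a ∣ r * b ↔ j ∣ r := by
  have := ufd_mvPowerSeries K g
  have : IsDomain (MvPowerSeries (Fin g) K) := NoZeroDivisors.to_isDomain _
  have hinj := h.injective
  have hφa : φ a ≠ 0 := fun e => ha (hinj (by rw [e, map_zero]))
  obtain ⟨a', b', c', hrel, hca, hcb⟩ :=
    UniqueFactorizationMonoid.exists_reduced_factors (φ a) hφa (φ b)
  have hc0 : c' ≠ 0 := left_ne_zero_of_mul (hca ▸ hφa)
  have ha'0 : a' ≠ 0 := right_ne_zero_of_mul (hca ▸ hφa)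
  have hT : ∀ x, φ a ∣ x * φ b ↔ a' ∣ x := fun x => by
    rw [← hca, ← hcb, mul_left_comm, mul_dvd_mul_iff_left hc0]
    exact ⟨hrel.dvd_of_dvd_mul_right, fun hd => dvd_mul_of_dvd_left hd _⟩
  obtain ⟨k', hk'⟩ := exists_notMem_maximalIdeal_pow ha'0
  -- Artin-Rees in the quotient
  set I := Ideal.span ({a} : Set R)
  let π := Ideal.Quotient.mk I
  have : IsNoetherianRing (R ⧸ I) :=
    isNoetherianRing_of_surjective R _ π Ideal.Quotient.mk_surjective
  obtain ⟨k₀, hk₀⟩ := Ideal.exists_pow_inf_eq_pow_smul ((maximalIdeal R).map π)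
    (Ideal.span ({π b} : Set (R ⧸ I)))
  obtain ⟨r, hr⟩ := h.exists_approx a' (k' + k₀)
  obtain ⟨v, hv⟩ : φ a ∣ a' * φ b := (hT a').mpr dvd_rfl
  obtain ⟨u, hu⟩ := h.exists_approx v (k' + k₀)
  have hmem : r * b - u * a ∈ maximalIdeal R ^ (k' + k₀) := h.mem_pow (by
    have e : φ (r * b - u * a) = (v - φ u) * φ a - (a' - φ r) * φ b := by
      rw [map_sub, map_mul, map_mul, sub_mul v, sub_mul a', hv]; ring
    rw [e]
    exact sub_mem (Ideal.mul_mem_right _ _ hu) (Ideal.mul_mem_right _ _ hr))
  have hπa : π a = 0 := Ideal.Quotient.eq_zero_iff_mem.mpr (Ideal.subset_span rfl)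
  have h1 : π r * π b ∈ (maximalIdeal R).map π ^ (k' + k₀) • (⊤ : Submodule (R ⧸ I) (R ⧸ I)) ⊓
      Ideal.span {π b} := by
    refine ⟨?_, Ideal.mem_span_singleton'.mpr ⟨π r, rfl⟩⟩
    rw [smul_eq_mul, Ideal.mul_top, ← Ideal.map_pow]
    have := Ideal.mem_map_of_mem π hmem
    rwa [map_sub, map_mul, map_mul, hπa, mul_zero, sub_zero] at this
  rw [hk₀ (k' + k₀) (Nat.le_add_left _ _), Nat.add_sub_cancel] at h1
  have h2 := Submodule.smul_mono le_rfl inf_le_right h1
  rw [smul_eq_mul, ← Ideal.map_pow, Ideal.mem_mul_span_singleton] at h2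
  obtain ⟨q', hq', hqb⟩ := h2
  obtain ⟨q, hq, rfl⟩ := (Ideal.mem_map_iff_of_surjective π Ideal.Quotient.mk_surjective).mp hq'
  have hJ : a ∣ (r - q) * b := by
    rw [← Ideal.mem_span_singleton, ← Ideal.Quotient.eq_zero_iff_mem]
    change π ((r - q) * b) = 0
    rw [map_mul, map_sub, sub_mul, hqb, sub_self]
  set j := r - q
  obtain ⟨w, hw⟩ : a' ∣ φ j := (hT _).mp (by rw [← map_mul]; exact map_dvd φ hJ)
  have hcw : a' - φ j ∈ 𝔐 ^ k' := by
    have e : a' - φ j = (a' - φ r) + φ q := by simp only [j, map_sub]; ring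
    rw [e]
    exact add_mem (Ideal.pow_le_pow_right (Nat.le_add_right _ _) hr)
      (h.map_pow_le k' (Ideal.mem_map_of_mem φ hq))
  have hwu : IsUnit w := by
    by_contra hwu
    have h1w : IsUnit (1 - w) := (IsLocalRing.isUnit_or_isUnit_one_sub_self w).resolve_left hwu
    refine hk' ?_
    have e : a' - φ j = a' * (1 - w) := by rw [hw]; ring
    rw [e] at hcw
    obtain ⟨x, hx⟩ := h1w
    have := Ideal.mul_mem_right ((x⁻¹ : (MvPowerSeries (Fin g) K)ˣ) : MvPowerSeries (Fin g) K) _ hcw
    rwa [← hx, Units.mul_inv_cancel_right] at this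
  have hj0 : j ≠ 0 := fun e => by
    rw [e, map_zero] at hw
    rcases mul_eq_zero.mp hw.symm with h0 | h0
    · exact ha'0 h0
    · exact hwu.ne_zero h0
  refine ⟨j, hj0, fun s => ⟨fun hs => ?_, fun ⟨z, hz⟩ => ?_⟩⟩
  · obtain ⟨x, hx⟩ : φ j ∣ φ s := by
      rw [hw]
      exact hwu.mul_right_dvd.mpr ((hT _).mp (by rw [← map_mul]; exact map_dvd φ hs))
    rw [← Ideal.mem_span_singleton, ← Submodule.Quotient.mk_eq_zero,
      ← Submodule.mem_bot R, ← Ideal.iInf_pow_smul_eq_bot_of_isLocalRing (maximalIdeal R)
        (maximalIdeal.isMaximal R).ne_top]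
    refine Submodule.mem_iInf _ |>.mpr fun k => ?_
    obtain ⟨z, hz⟩ := h.exists_approx x k
    have hd : s - z * j ∈ maximalIdeal R ^ k := h.mem_pow (by
      rw [map_sub, map_mul, hx, mul_comm (φ z), ← mul_sub]
      exact Ideal.mul_mem_left _ _ hz)
    have e : (Submodule.Quotient.mk s : R ⧸ Ideal.span {j}) =
        (s - z * j) • (Submodule.Quotient.mk 1 : R ⧸ Ideal.span {j}) := by
      rw [← Submodule.Quotient.mk_smul, smul_eq_mul, mul_one, Submodule.Quotient.eq, sub_sub_cancel]
      exact Ideal.mul_mem_left _ _ (Ideal.subset_span rfl)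
    rw [e]
    exact Submodule.smul_mem_smul hd Submodule.mem_top
  · rw [hz, mul_right_comm]
    exact hJ.mul_right _

include h in
/-- **The common denominators of finitely many fractions form a principal ideal.** -/
theorem IsParam.exists_denominator [Infinite K] {ι : Type*} (S : Finset ι) (num den : ι → R)
    (hden : ∀ i, den i ≠ 0) : ∃ j : R, j ≠ 0 ∧ ∀ r, (∀ i ∈ S, den i ∣ r * num i) ↔ j ∣ r := by
  classical
  have : IsDomain R := by
    have : IsDomain (MvPowerSeries (Fin g) K) := NoZeroDivisors.to_isDomain _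
    exact h.injective.isDomain φ
  induction S using Finset.induction_on with
  | empty =>
    exact ⟨1, one_ne_zero, fun r => ⟨fun _ => one_dvd r, fun _ i hi => absurd hi (by simp)⟩⟩
  | insert i S _ ih =>
    obtain ⟨j, hj0, hj⟩ := ih
    obtain ⟨j', hj'0, hj'⟩ := h.exists_colon (hden i) (j * num i)
    refine ⟨j * j', mul_ne_zero hj0 hj'0, fun r => ⟨fun hr => ?_, fun hr i' hi' => ?_⟩⟩
    · obtain ⟨s, rfl⟩ := (hj r).mp fun i' hi' => hr i' (Finset.mem_insert_of_mem hi')
      refine mul_dvd_mul_left _ ((hj' s).mp ?_)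
      have := hr i (Finset.mem_insert_self i S)
      rwa [mul_comm j s, mul_assoc] at this
    · obtain ⟨z, rfl⟩ := hr
      rcases Finset.mem_insert.mp hi' with rfl | hi'
      · have := (hj' (j' * z)).mpr (dvd_mul_right _ _)
        rwa [show j * j' * z * num i' = j' * z * (j * num i') by ring]
      · exact (hj _).mpr ((dvd_mul_right j j').mul_right z) i' hi'

end Fermat.AV

end
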