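import Fermat.Agent.AV.Origin
import Fermat.Agent.AV.PointClass
import Mathlib.AlgebraicGeometry.AlgClosed.Basic
import Mathlib.AlgebraicGeometry.Noetherian

/-!
# Connected smooth schemes are integral, and polar divisors

The local rings of a smooth scheme at rational points are domains in which the denominators of
finitely many rational functions form a principal ideal; so a connected one is integral, and any
finitely many rational functions are sections of an effective divisor given by local equations.

`isIntegral_of_smooth` and `exists_polar`; `Main` takes the divisor whose sections contain the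
coordinates from here.
-/

set_option autoImplicit false

noncomputable section

universe u

open CategoryTheory AlgebraicGeometry IsLocalRing

namespace Fermat.AV

variable {K : Type u} [Field K] {A : Scheme.{u}} {f : A ⟶ Spec (CommRingCat.of K)}

/-- Membership in a basic open inside an affine chart. -/
theorem fromSpec_mem_basicOpen {V : A.Opens} (hV : IsAffineOpen V) (c : Γ(A, V))
    (w : PrimeSpectrum Γ(A, V)) : hV.fromSpec w ∈ A.basicOpen c ↔ c ∉ w.asIdeal := by
  change w ∈ hV.fromSpec ⁻¹ᵁ A.basicOpen c ↔ _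
  rw [hV.fromSpec_preimage_basicOpen]
  rfl

/-- Every rational function is regular at the generic point. -/
theorem isRegAt_generic [IsIntegral A] (b : A.functionField) : IsRegAt (genericPoint A) b := by
  obtain ⟨U, hU, s, hs⟩ := A.presheaf.exists_germ_eq (x := genericPoint A) b
  exact ⟨U, hU, s, hs⟩

/-- A nonzero rational function is a unit at the generic point. -/
theorem isUnitAt_generic [IsIntegral A] {a : A.functionField} (ha : a ≠ 0) :
    IsUnitAt (genericPoint A) a :=
  ⟨ha, isRegAt_generic a, isRegAt_generic a⁻¹⟩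

variable [IsAlgClosed K]

/-- Every point specialises to a rational point. -/
theorem exists_specializes_point [LocallyOfFiniteType f] (x : A) :
    ∃ p : Pt f K, x ⤳ p.1 (closedPoint K) := by
  have : JacobsonSpace A := LocallyOfFiniteType.jacobsonSpace f
  obtain ⟨z, hzx, hz⟩ := nonempty_inter_closedPoints (Z := closure ({x} : Set A))
    ⟨x, subset_closure rfl⟩ isClosed_closure.isLocallyClosed
  have hz' : IsClosed {z} := hz
  refine ⟨⟨pointOfClosedPoint f z hz', ?_⟩, ?_⟩
  · rw [pointOfClosedPoint_comp]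
    exact Spec.map_id _ |>.symm
  · exact (specializes_iff_mem_closure.mpr hzx).trans
      (specializes_of_eq (pointOfClosedPoint_apply f z hz' _).symm)

section Smooth

variable (g : ℕ) [SmoothOfRelativeDimension g f]

include g in
/-- Near a rational point there is a prime contained in all primes under it. -/
theorem exists_prime_near (p : Pt f K) :
    ∃ (V : A.Opens) (hV : IsAffineOpen V) (w₀ : PrimeSpectrum Γ(A, V)) (c : Γ(A, V)),
      p.1 (closedPoint K) ∈ A.basicOpen c ∧ (∀ b ∈ w₀.asIdeal, c * b = 0) ∧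
      ∀ w : PrimeSpectrum Γ(A, V), hV.fromSpec w ∈ A.basicOpen c → w₀.asIdeal ≤ w.asIdeal := by
  obtain ⟨V, hV, hpV, hrest⟩ := exists_coords (f := f) g p
  let := chartAlgebra (f := f) hV
  obtain ⟨ε, s, hεp, hs, hε⟩ := hrest
  have : Algebra.FiniteType K Γ(A, V) := finiteType_of_etale_coords s hs
  have : IsNoetherianRing Γ(A, V) := Algebra.FiniteType.isNoetherianRing K Γ(A, V)
  set 𝔭 := RingHom.ker ε.toRingHom
  -- the local ring at `p` embeds into power series, so is a domain
  let R := Localization.AtPrime 𝔭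
  have : IsNoetherianRing R := IsLocalization.isNoetherianRing 𝔭.primeCompl R inferInstance
  obtain ⟨ζ, hζ1, hζ2⟩ := exists_formal_lift s hs ε hε MvPowerSeries.X fun l => by
    rw [maximalIdeal_mvPowerSeries]; exact Ideal.subset_span ⟨l, rfl⟩
  obtain ⟨φ, -, hφ⟩ := exists_isParam s hs ε hε R ζ (fun l => by rw [hζ1]; simp) hζ2
  have : IsDomain R := by
    have : IsDomain (MvPowerSeries (Fin g) K) := NoZeroDivisors.to_isDomain _
    exact hφ.injective.isDomain φ
  -- each generator of `q = ker (Γ(V) → R)` is killed by some `c ∉ 𝔭`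
  set q := RingHom.ker (algebraMap Γ(A, V) R)
  have : q.IsPrime := RingHom.ker_isPrime _
  obtain ⟨S, hS⟩ := IsNoetherian.noetherian q
  have hkill : ∀ b ∈ q, ∃ c ∈ 𝔭.primeCompl, c * b = 0 := fun b hb => by
    obtain ⟨⟨c, hc⟩, h⟩ := (IsLocalization.map_eq_zero_iff 𝔭.primeCompl R b).mp hb
    exact ⟨c, hc, h⟩
  choose c hc hcb using fun b : S => hkill b (hS ▸ Submodule.subset_span b.2)
  -- the product of these `c` does it
  refine ⟨V, hV, ⟨q, inferInstance⟩, ∏ b, c b, ?_, fun b hb => ?_, fun w hw b hb => ?_⟩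
  · have hw : hV.fromSpec (Spec.map (CommRingCat.ofHom ε.toRingHom) (closedPoint K)) =
        p.1 (closedPoint K) := by
      rw [← hεp]; rfl
    rw [← hw]
    refine (fromSpec_mem_basicOpen hV _ _).mpr fun h => ?_
    have h' : ∏ b, c b ∈ 𝔭 := by
      have h2 : ε (∏ b, c b) ∈ maximalIdeal K := h
      rw [IsLocalRing.maximalIdeal_eq_bot, Ideal.mem_bot] at h2
      exact h2
    obtain ⟨b, -, hb⟩ := (Ideal.IsPrime.prod_mem_iff).mp h'
    exact hc b hb
  · have hle : q ≤ LinearMap.ker (LinearMap.mulLeft Γ(A, V) (∏ b, c b)) := by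
      rw [← hS, Submodule.span_le]
      intro x hx
      change (∏ b, c b) * x = 0
      obtain ⟨z, hz⟩ := Finset.dvd_prod_of_mem c (Finset.mem_univ ⟨x, hx⟩)
      rw [hz, mul_right_comm, hcb ⟨x, hx⟩, zero_mul]
    exact hle hb
  · rw [fromSpec_mem_basicOpen] at hw
    have hle : q ≤ w.asIdeal := by
      rw [← hS]
      refine Submodule.span_le.mpr fun x hx => ?_
      obtain ⟨z, hz⟩ := Finset.dvd_prod_of_mem c (Finset.mem_univ ⟨x, hx⟩)
      have h0 : (∏ b, c b) * x ∈ w.asIdeal := by
        rw [hz, mul_right_comm, hcb ⟨x, hx⟩, zero_mul]; exact zero_mem _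
      exact (w.2.mem_or_mem h0).resolve_left hw
    exact hle hb

include g in
/-- **A connected smooth scheme of finite type is integral.** -/
theorem isIntegral_of_smooth [LocallyOfFiniteType f] [ConnectedSpace A] : IsIntegral A := by
  have key : ∀ x : A, ∃ η : A, ∃ U : A.Opens, x ∈ U ∧ (∀ y ∈ U, η ⤳ y) ∧
      _root_.IsReduced (A.presheaf.stalk x) := by
    intro x
    obtain ⟨p, hp⟩ := exists_specializes_point (f := f) x
    obtain ⟨V, hV, w₀, c, hpc, hc0, hle⟩ := exists_prime_near (f := f) g p
    have hxc : x ∈ A.basicOpen c := hp.mem_open (A.basicOpen c).isOpen hpc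
    refine ⟨hV.fromSpec w₀, A.basicOpen c, hxc, fun y hy => ?_, ?_⟩
    · obtain ⟨w, rfl⟩ : y ∈ Set.range hV.fromSpec := by
        rw [hV.range_fromSpec]; exact A.basicOpen_le c hy
      exact ((PrimeSpectrum.le_iff_specializes w₀ w).mp (hle w hy)).map hV.fromSpec.continuous
    · obtain ⟨w, rfl⟩ : x ∈ Set.range hV.fromSpec := by
        rw [hV.range_fromSpec]; exact A.basicOpen_le c hxc
      have hwV : hV.fromSpec w ∈ V := A.basicOpen_le c hxc
      let := TopCat.Presheaf.algebra_section_stalk A.presheaf (⟨hV.fromSpec w, hwV⟩ : V)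
      have := w.isPrime
      have : IsLocalization.AtPrime (A.presheaf.stalk (hV.fromSpec w)) w.asIdeal :=
        hV.isLocalization_stalk' w hwV
      refine ⟨fun z hz => ?_⟩
      obtain ⟨k, hk⟩ := hz
      obtain ⟨b, u, rfl⟩ := IsLocalization.exists_mk'_eq w.asIdeal.primeCompl z
      have hb : algebraMap Γ(A, V) (A.presheaf.stalk (hV.fromSpec w)) (b ^ k) = 0 := by
        rw [map_pow, ← IsLocalization.mk'_spec _ b u, mul_pow, hk, zero_mul]
      obtain ⟨⟨d, hd⟩, hdb⟩ :=
        (IsLocalization.map_eq_zero_iff w.asIdeal.primeCompl _ _).mp hb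
      have hbk : b ∈ w₀.asIdeal := by
        rcases w₀.2.mem_or_mem (show d * b ^ k ∈ w₀.asIdeal from hdb ▸ zero_mem _) with h | h
        · exact absurd (hle w hxc h) hd
        · exact w₀.2.mem_of_pow_mem k h
      have hcu : c ∉ w.asIdeal := (fromSpec_mem_basicOpen hV c w).mp hxc
      exact IsLocalization.mk'_eq_zero_iff _ _ |>.mpr ⟨⟨c, hcu⟩, hc0 b hbk⟩
  choose η U hU hη hred using key
  have : ∀ x : A, _root_.IsReduced (A.presheaf.stalk x) := hred
  have := isReduced_of_isReduced_stalk A
  -- the points over a generic one form a clopen set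
  obtain ⟨x₀⟩ : Nonempty A := inferInstance
  let η₀ := η x₀
  have hmax : ∀ y : A, y ⤳ η₀ → η₀ ⤳ y := fun y hy =>
    hη x₀ y ((hy.trans (hη x₀ x₀ (hU x₀))).mem_open (U x₀).isOpen (hU x₀))
  have hopen : IsOpen (closure ({η₀} : Set A)) := by
    rw [isOpen_iff_mem_nhds]
    intro x hx
    refine Filter.mem_of_superset ((U x).isOpen.mem_nhds (hU x)) fun y hy => ?_
    rw [← specializes_iff_mem_closure]
    have h0 : η₀ ∈ U x := (specializes_iff_mem_closure.mpr hx).mem_open (U x).isOpen (hU x)
    exact (hmax _ (hη x η₀ h0)).trans (hη x y hy)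
  have huniv : closure ({η₀} : Set A) = Set.univ :=
    IsClopen.eq_univ ⟨isClosed_closure, hopen⟩ ⟨η₀, subset_closure rfl⟩
  have : IrreducibleSpace A :=
    { isPreirreducible_univ := (huniv ▸ isIrreducible_singleton.closure :
        IsIrreducible (Set.univ : Set A)).isPreirreducible
      toNonempty := ⟨η₀⟩ }
  exact isIntegral_of_irreducibleSpace_of_isReduced A

variable [IsIntegral A]

omit [IsAlgClosed K] [SmoothOfRelativeDimension g f] in
/-- Regular functions near a point of a chart are fractions of functions on the chart. -/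
theorem isRegAt_iff_chart {V : A.Opens} (hV : IsAffineOpen V) [Nonempty V] {y : A} (hy : y ∈ V)
    {a : A.functionField} : IsRegAt y a ↔ ∃ b c : Γ(A, V),
      y ∈ A.basicOpen c ∧ a * A.germToFunctionField V c = A.germToFunctionField V b := by
  constructor
  · rintro ⟨U, hyU, s, hs⟩
    have : Nonempty U := ⟨⟨y, hyU⟩⟩
    -- a section near `y` is `b / c ^ k` on a basic set
    obtain ⟨c, hcU, hyc⟩ := hV.exists_basicOpen_le (⟨y, hyU⟩ : U) hy
    have := hV.isLocalization_basicOpen c
    have : Nonempty (A.basicOpen c) := ⟨⟨y, hyc⟩⟩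
    obtain ⟨b, ⟨_, k, rfl⟩, hbc⟩ := IsLocalization.exists_mk'_eq (Submonoid.powers c)
      (A.presheaf.map (homOfLE hcU).op s)
    -- clear the denominator, padding by `c` if `k = 0`
    rcases Nat.eq_zero_or_pos k with rfl | hk
    · refine ⟨b * c, c, hyc, ?_⟩
      have h := congrArg (A.germToFunctionField (A.basicOpen c))
        (IsLocalization.mk'_spec Γ(A, A.basicOpen c) b
          (⟨c ^ 0, ⟨0, rfl⟩⟩ : Submonoid.powers c))
      rw [map_mul, hbc, germToFunctionField_res] at h
      simp only [pow_zero, map_one, mul_one] at h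
      rw [map_mul, ← hs, h]
      congr 1
      exact germToFunctionField_res (A.basicOpen_le c) b
    · refine ⟨b, c ^ k, by rw [A.basicOpen_pow c hk]; exact hyc, ?_⟩
      have h := congrArg (A.germToFunctionField (A.basicOpen c))
        (IsLocalization.mk'_spec Γ(A, A.basicOpen c) b
          (⟨c ^ k, ⟨k, rfl⟩⟩ : Submonoid.powers c))
      rw [map_mul, hbc, germToFunctionField_res, hs] at h
      refine Eq.trans ?_ (h.trans (germToFunctionField_res (A.basicOpen_le c) b))
      congr 1
      exact (germToFunctionField_res (A.basicOpen_le c) (c ^ k)).symm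
  -- conversely `b / c` is a section where `c` is invertible
  · rintro ⟨b, c, hyc, h⟩
    have := hV.isLocalization_basicOpen c
    have : Nonempty (A.basicOpen c) := ⟨⟨y, hyc⟩⟩
    let c₁ : Submonoid.powers c := ⟨c, Submonoid.mem_powers c⟩
    refine ⟨A.basicOpen c, hyc, IsLocalization.mk' Γ(A, A.basicOpen c) b c₁, ?_⟩
    have h' := congrArg (A.germToFunctionField (A.basicOpen c))
      (IsLocalization.mk'_spec Γ(A, A.basicOpen c) b c₁)
    rw [map_mul] at h'
    have e : ∀ z : Γ(A, V), A.germToFunctionField (A.basicOpen c)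
        (algebraMap Γ(A, V) Γ(A, A.basicOpen c) z) = A.germToFunctionField V z := fun z =>
      germToFunctionField_res (A.basicOpen_le c) z
    rw [e, e, ← h] at h'
    refine mul_right_cancel₀ (fun hc0 => ?_) h'
    have hu : IsUnit (algebraMap Γ(A, V) Γ(A, A.basicOpen c) c) :=
      IsLocalization.map_units _ c₁
    have h1 := (hu.map (A.germToFunctionField (A.basicOpen c)).hom).ne_zero
    exact h1 ((e c).trans hc0)

/-- The element generates the denominators of the functions at the point. -/
def IsDenom {ι : Type*} (a : ι → A.functionField) (y : A) (d : A.functionField) : Prop :=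
  d ≠ 0 ∧ IsRegAt y d ∧ (∀ i, IsRegAt y (a i * d)) ∧
    ∀ r, IsRegAt y r → (∀ i, IsRegAt y (a i * r)) → IsRegAt y (r / d)

omit [IsAlgClosed K] [SmoothOfRelativeDimension g f] in
/-- Two generators of the denominators at a point differ by a unit there. -/
theorem IsDenom.isUnitAt {ι : Type*} {a : ι → A.functionField} {y : A} {d d' : A.functionField}
    (h : IsDenom a y d) (h' : IsDenom a y d') : IsUnitAt y (d / d') :=
  ⟨div_ne_zero h.1 h'.1, h'.2.2.2 d h.2.1 h.2.2.1, by
    rw [inv_div]; exact h.2.2.2 d' h'.2.1 h'.2.2.1⟩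

include g in
/-- The denominators are generated by one function near each rational point. -/
theorem exists_isDenom_near {ι : Type*} [Fintype ι] (a : ι → A.functionField) (p : Pt f K) :
    ∃ (d : A.functionField) (U : A.Opens), p.1 (closedPoint K) ∈ U ∧
      ∀ y ∈ U, IsDenom a y d := by
  classical
  obtain ⟨V, hV, hpV, hrest⟩ := exists_coords (f := f) g p
  let := chartAlgebra (f := f) hV
  obtain ⟨ε, s, hεp, hs, hε⟩ := hrest
  have : Nonempty V := ⟨⟨_, hpV⟩⟩
  let γ := (A.germToFunctionField V).hom
  have hγ : Function.Injective γ := A.germToFunctionField_injective V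
  have hγ0 : ∀ c : Γ(A, V), c ≠ 0 → γ c ≠ 0 := fun c hc h => hc (hγ (by rw [h, map_zero]))
  have hne : ∀ {c : Γ(A, V)} {y : A}, y ∈ A.basicOpen c → c ≠ 0 := by
    rintro c y hy rfl
    rw [A.basicOpen_zero] at hy
    exact hy
  -- the fractions
  have hfrac : ∀ i, ∃ b c : Γ(A, V), c ≠ 0 ∧ a i * γ c = γ b := fun i => by
    obtain ⟨b, c, hc, h⟩ :=
      (isRegAt_iff_chart hV (genericPoint_mem V)).mp (isRegAt_generic (a i))
    exact ⟨b, c, hne hc, h⟩
  choose num den hden hfr using hfrac
  have hεmem : ∀ c : Γ(A, V), p.1 (closedPoint K) ∈ A.basicOpen c ↔ ε c ≠ 0 := fun c => by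
    have hw : hV.fromSpec (Spec.map (CommRingCat.ofHom ε.toRingHom) (closedPoint K)) =
        p.1 (closedPoint K) := by
      rw [← hεp]; rfl
    rw [← hw]
    refine (fromSpec_mem_basicOpen hV c _).trans (not_congr ?_)
    change ε c ∈ maximalIdeal K ↔ ε c = 0
    rw [IsLocalRing.maximalIdeal_eq_bot, Ideal.mem_bot]
  have : Infinite K := IsAlgClosed.instInfinite
  obtain ⟨j, hj0, hj, huniv⟩ := exists_denominator_near s hs ε hε Finset.univ num den hden
  have : Algebra.FiniteType K Γ(A, V) := finiteType_of_etale_coords s hs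
  have : IsNoetherianRing Γ(A, V) := Algebra.FiniteType.isNoetherianRing K Γ(A, V)
  let J : Ideal Γ(A, V) :=
    { carrier := {r | ∀ i, den i ∣ r * num i}
      zero_mem' := fun i => by rw [zero_mul]; exact dvd_zero _
      add_mem' := fun {x y} hx hy i => by rw [add_mul]; exact dvd_add (hx i) (hy i)
      smul_mem' := fun c x hx i => by
        rw [smul_eq_mul, mul_assoc]; exact dvd_mul_of_dvd_right (hx i) _ }
  obtain ⟨S, hS⟩ := IsNoetherian.noetherian J
  choose c hc hcdvd using fun r : S => huniv r.1 fun i _ =>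
    ⟨1, by rw [map_one]; exact one_ne_zero, by
      rw [one_mul]; exact (hS ▸ Submodule.subset_span r.2 : r.1 ∈ J) i⟩
  choose c' hc' hc'dvd using fun i => hj i (Finset.mem_univ i)
  set C := (∏ r, c r) * ∏ i, c' i
  have hC : ε C ≠ 0 := by
    simp only [C, map_mul, map_prod]
    exact mul_ne_zero (Finset.prod_ne_zero_iff.mpr fun r _ => hc r)
      (Finset.prod_ne_zero_iff.mpr fun i _ => hc' i)
  refine ⟨γ j, A.basicOpen C, (hεmem C).mpr hC, fun y hy => ?_⟩
  have hyV : y ∈ V := A.basicOpen_le C hy
  have hγj : γ j ≠ 0 := hγ0 j hj0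
  refine ⟨hγj, ⟨V, hyV, j, rfl⟩, fun i => ?_, fun r hr hra => ?_⟩
  · obtain ⟨x, hx⟩ := hc'dvd i
    have hy' : y ∈ A.basicOpen (c' i) := by
      obtain ⟨z, hz⟩ := (Finset.dvd_prod_of_mem c' (Finset.mem_univ i)).trans
        (dvd_mul_left (∏ i, c' i) (∏ r, c r))
      rw [show C = c' i * z from hz, A.basicOpen_mul] at hy
      exact hy.1
    refine (isRegAt_iff_chart hV hyV).mpr ⟨x, c' i, hy', ?_⟩
    refine mul_left_cancel₀ (hγ0 _ (hden i)) ?_
    rw [← map_mul γ (den i) x, ← hx, map_mul, map_mul, ← hfr i]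
    ring
  · obtain ⟨b, u, hyu, hbu⟩ := (isRegAt_iff_chart hV hyV).mp hr
    choose bi ui hyui hbui using fun i => (isRegAt_iff_chart hV hyV).mp (hra i)
    have hbJ : b * ∏ i, ui i ∈ J := fun i => by
      refine ⟨u * bi i * ∏ l ∈ Finset.univ.erase i, ui l, hγ ?_⟩
      rw [← Finset.mul_prod_erase Finset.univ ui (Finset.mem_univ i)]
      simp only [γ, map_mul, ← hbu, ← hbui i]
      simp only [γ] at hfr
      rw [← hfr i]
      ring
    have hdvd : ∀ x ∈ J, j ∣ (∏ r, c r) * x := by
      intro x hx
      rw [← hS] at hx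
      refine Submodule.span_induction ?_ ?_ ?_ ?_ hx
      · intro x hx
        exact (hcdvd ⟨x, hx⟩).trans
          (mul_dvd_mul_right (Finset.dvd_prod_of_mem c (Finset.mem_univ (⟨x, hx⟩ : S))) _)
      · rw [mul_zero]; exact dvd_zero _
      · intro x y _ _ hx hy; rw [mul_add]; exact dvd_add hx hy
      · intro a x _ hx; rw [smul_eq_mul, mul_left_comm]; exact dvd_mul_of_dvd_right hx _
    obtain ⟨x, hx⟩ := hdvd _ hbJ
    have hyprod : ∀ (T : Finset ι), y ∈ A.basicOpen (∏ i ∈ T, ui i) := by
      intro T
      induction T using Finset.induction_on with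
      | empty => rw [Finset.prod_empty, A.basicOpen_of_isUnit isUnit_one]; exact hyV
      | insert i T hi ih => rw [Finset.prod_insert hi, A.basicOpen_mul]; exact ⟨hyui i, ih⟩
    rw [A.basicOpen_mul] at hy
    refine (isRegAt_iff_chart hV hyV).mpr ⟨x, u * (∏ i, ui i) * ∏ r, c r, ?_, ?_⟩
    · rw [A.basicOpen_mul, A.basicOpen_mul]
      exact ⟨⟨hyu, hyprod _⟩, hy.1⟩
    · refine mul_left_cancel₀ hγj ?_
      rw [← map_mul γ j x, ← hx]
      simp only [γ, map_mul, ← hbu]
      simp only [γ] at hγj
      field_simp [hγj]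

include g in
/-- **Finitely many functions are sections of an effective divisor.** -/
theorem exists_polar [LocallyOfFiniteType f] {ι : Type*} [Fintype ι] (a : ι → A.functionField) :
    ∃ D : CDiv A, D.g (genericPoint A) = 1 ∧
      ∀ x, IsRegAt x (D.g x) ∧ ∀ i, IsRegAt x (a i * D.g x) := by
  classical
  choose p hp using fun x : A => exists_specializes_point (f := f) x
  choose d U hU hd using fun x : A => exists_isDenom_near (f := f) g a (p x)
  have hden : ∀ x : A, IsDenom a x (d x) := fun x =>
    hd x x ((hp x).mem_open (U x).isOpen (hU x))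
  refine ⟨{ g := fun x => if x = genericPoint A then 1 else d x, ne_zero := fun x => ?_,
            spread := fun x => ?_ }, if_pos rfl, fun x => ?_⟩
  · show _
    split_ifs
    exacts [one_ne_zero, (hden x).1]
  · show _
    by_cases hx : x = genericPoint A
    · obtain ⟨O, hO, hO'⟩ := (isUnitAt_generic (hden x).1).exists_nhds
      refine ⟨U x ⊓ O, ⟨(hp x).mem_open (U x).isOpen (hU x), hx ▸ hO⟩, fun y hy => ?_⟩
      rw [if_pos hx]
      split_ifs with hy'
      · rw [div_one]; exact IsUnitAt.one y
      · rw [one_div]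
        have := ((hden y).isUnitAt (hd x y hy.1)).mul (hO' y hy.2)
        rw [div_mul_cancel₀ _ (hden x).1] at this
        exact this.inv
    · refine ⟨U x, (hp x).mem_open (U x).isOpen (hU x), fun y hy => ?_⟩
      rw [if_neg hx]
      split_ifs with hy'
      · rw [div_one, hy']; exact isUnitAt_generic (hden x).1
      · exact (hd x y hy).isUnitAt (hden y)
  · dsimp only
    split_ifs with hx
    · exact ⟨IsRegAt.one x, fun i => by
        rw [mul_one, hx]
        exact isRegAt_generic (a i)⟩
    · exact ⟨(hden x).2.1, (hden x).2.2.1⟩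

end Smooth

end Fermat.AV

end
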