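import Fermat.Agent.AV.Curves

/-!
# Symmetrical divisors are quadratic

If the third difference vanishes at a point, the symmetrised divisor of its `n`th power is the
`n ^ 2` power of that of the point up to a principal divisor, and up to a power already over the
field of the point.
-/

set_option autoImplicit false

noncomputable section

universe u

open CategoryTheory AlgebraicGeometry GoodReductionJacobian IntermediateField

namespace Fermat.AV

variable {K : Type u} [Field K]

/-- A valuation extends along an embedding. -/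
theorem exists_comap_eq {M M' : Type u} [Field M] [Algebra K M] [Field M'] [Algebra K M']
    (φ : M →ₐ[K] M') (v : Val K M) : ∃ w : Val K M', w.comap φ = v := by
  let B : Subring M' := v.1.toSubring.map φ.toRingHom
  let e : v.1 ≃+* B := Subring.equivMapOfInjective _ φ.toRingHom φ.injective
  let I : Ideal B := (IsLocalRing.maximalIdeal v.1).comap e.symm.toRingHom
  have hI : I ≠ ⊤ := Ideal.comap_ne_top _ (IsLocalRing.maximalIdeal.isMaximal _).ne_top
  obtain ⟨W, hW, hWI⟩ := Ideal.image_subset_nonunits_valuationSubring (A := B) I hI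
  have hv : ∀ x ∈ v.1, φ x ∈ W := fun x hx => hW ⟨x, hx, rfl⟩
  refine ⟨⟨W, fun c => by rw [← φ.commutes c]; exact hv _ (v.2 c)⟩,
    Subtype.ext (le_antisymm (fun x hx => ?_) hv)⟩
  by_contra hxv
  have hx0 : x ≠ 0 := fun h => hxv (h ▸ v.1.zero_mem)
  have hinv : x⁻¹ ∈ v.1 := (v.1.mem_or_inv_mem x).resolve_left hxv
  have hmem : φ x⁻¹ ∈ W.nonunits := hWI ⟨e ⟨x⁻¹, hinv⟩, by
    change e.symm (e ⟨x⁻¹, hinv⟩) ∈ IsLocalRing.maximalIdeal v.1
    rw [e.symm_apply_apply, IsLocalRing.mem_maximalIdeal]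
    intro hu
    obtain ⟨u, hu⟩ := hu
    refine hxv ?_
    have h1 : x = ((u⁻¹ : v.1ˣ) : v.1).1 := by
      have h2 := congrArg Subtype.val u.mul_inv
      rw [hu] at h2
      exact (inv_mul_eq_one₀ hx0).mp h2
    rw [h1]; exact Subtype.prop _, rfl⟩
  rcases W.mem_nonunits_iff_or.mp hmem with h0 | h0
  · exact hx0 (by simpa using h0)
  · exact h0 (by rw [← map_inv₀, inv_inv]; exact hx)

/-- A function of the smaller field gives the divisor if it does in the larger one. -/
theorem isPrinc_of_map_eq {M M' : Type u} [Field M] [Algebra K M] [Field M'] [Algebra K M']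
    (φ : M →ₐ[K] M') {E : VDiv K M} {F : Mˣ}
    (h : VDiv.map φ E = princ K M' (Units.map φ.toRingHom.toMonoidHom F)) : IsPrinc K M E := by
  refine isPrinc_iff.mpr ⟨F, fun v => ?_⟩
  obtain ⟨w, rfl⟩ := exists_comap_eq φ v
  obtain ⟨x, hx⟩ : ∃ x : Mˣ, E (w.comap φ) = QuotientGroup.mk x :=
    ⟨_, (QuotientGroup.out_eq' (E (w.comap φ))).symm⟩
  have h1 := (VDiv.map_apply φ E w hx).symm.trans (congrFun h w)
  rw [hx, QuotientGroup.eq]
  rw [show princ K M' (Units.map φ.toRingHom.toMonoidHom F) w =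
    QuotientGroup.mk (Units.map φ.toRingHom.toMonoidHom F) from rfl, QuotientGroup.eq,
    ← map_inv, ← map_mul, mem_unitGroup_iff'] at h1
  exact mem_unitGroup_iff'.mpr h1

/-- Principality in an algebraic extension descends up to a power. -/
theorem exists_pow_isPrinc {M M' : Type u} [Field M] [Algebra K M] [Field M'] [Algebra K M']
    [Algebra M M'] [IsScalarTower K M M'] [Algebra.IsAlgebraic M M'] {E : VDiv K M}
    (h : IsPrinc K M' (VDiv.map (IsScalarTower.toAlgHom K M M') E)) :
    ∃ e ≠ 0, IsPrinc K M (E ^ e) := by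
  obtain ⟨F, hF⟩ := h
  let L := M⟮(F : M')⟯
  have : FiniteDimensional M L :=
    IntermediateField.adjoin.finiteDimensional (Algebra.IsIntegral.isIntegral (F : M'))
  refine ⟨Module.finrank M L, Module.finrank_pos.ne', IsPrinc.pow_finrank (k' := L) ?_⟩
  let ψ : L →ₐ[K] M' := (L.val).restrictScalars K
  let F' : Lˣ := Units.mk0 ⟨(F : M'), mem_adjoin_simple_self M _⟩ fun h0 =>
    F.ne_zero (congrArg Subtype.val h0)
  refine isPrinc_of_map_eq ψ (F := F') ?_
  have hcomp : VDiv.map ψ (VDiv.map (IsScalarTower.toAlgHom K M L) E) =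
      VDiv.map (IsScalarTower.toAlgHom K M M') E := by
    funext v
    obtain ⟨x, hx⟩ : ∃ x : Mˣ, E ((v.comap ψ).comap (IsScalarTower.toAlgHom K M L)) =
        QuotientGroup.mk x := ⟨_, (QuotientGroup.out_eq' _).symm⟩
    rw [VDiv.map_apply ψ _ v (VDiv.map_apply _ E (v.comap ψ) hx)]
    exact (VDiv.map_apply (IsScalarTower.toAlgHom K M M') E v hx).symm
  rw [hcomp, ← hF]
  congr 1
  exact Units.ext rfl

variable {A : Scheme.{u}} {f : A ⟶ Spec (CommRingCat.of K)} [IsProper f] [IsIntegral A]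
  (G : RelativeGroupLaw K f) (hc : G.IsCommutative) (D : CDiv A)

/-- The divisor of a constant point is trivial. -/
theorem ptClass_const {M : Type u} [Field M] [Algebra K M] (p : Pt f K) :
    ptClass D (p.map (Algebra.ofId K M)) = 1 := by
  rw [ptClass_map]
  have h1 : ptClass D p = 1 := by
    funext v
    have hv : ∀ x : Kˣ, x ∈ v.1.unitGroup := fun x =>
      mem_unitGroup_iff'.mpr ⟨v.2 x, v.2 _⟩
    exact (QuotientGroup.eq_one_iff _).mpr (hv _)
  rw [h1, map_one]

/-- The divisor of the unit point is trivial. -/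
theorem ptClass_one {M : Type u} [Field M] [Algebra K M] :
    letI := ptGroup G hc M
    ptClass D (1 : Pt f M) = 1 := by
  let := ptGroup G hc K
  rw [← Pt.map_one' G hc (Algebra.ofId K M), ptClass_const]

/-- The symmetrised divisor of the powers of a point. -/
def symClass {M : Type u} [Field M] [Algebra K M] (η : Pt f M) (n : ℕ) : VDiv K M :=
  letI := ptGroup G hc M
  ptClass D (η ^ n) * ptClass D (η⁻¹ ^ n)

/-- The symmetrised divisor commutes with maps of fields. -/
theorem symClass_map {M M' : Type u} [Field M] [Algebra K M] [Field M'] [Algebra K M']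
    (φ : M →ₐ[K] M') (η : Pt f M) (n : ℕ) :
    symClass G hc D (η.map φ) n = VDiv.map φ (symClass G hc D η n) := by
  let := ptGroup G hc M; let := ptGroup G hc M'
  change ptClass D ((η.map φ) ^ n) * ptClass D ((η.map φ)⁻¹ ^ n) =
    VDiv.map φ (ptClass D (η ^ n) * ptClass D (η⁻¹ ^ n))
  rw [show (η.map φ) ^ n = (η ^ n).map φ from ((Pt.mapHom G hc φ).map_pow η n).symm,
    show (η.map φ)⁻¹ = (η⁻¹).map φ from ((Pt.mapHom G hc φ).map_inv η).symm,
    show ((η⁻¹).map φ) ^ n = (η⁻¹ ^ n).map φ from ((Pt.mapHom G hc φ).map_pow η⁻¹ n).symm,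
    ptClass_map, ptClass_map]
  exact (map_mul (VDiv.map φ) _ _).symm

/-- A map between commutative groups satisfying the cube identity at a point is quadratic on the
powers of the point. -/
theorem quadratic_of_cube {W V : Type*} [CommGroup W] [CommGroup V] (P : W → V) (x : W)
    (hP1 : P 1 = 1)
    (hcube : ∀ y w, P (x * y * w) * P x * P y * P w = P (x * y) * P (x * w) * P (y * w)) (n : ℕ) :
    P (x ^ n) * P (x⁻¹ ^ n) = (P x * P x⁻¹) ^ (n ^ 2) := by
  have hrec : ∀ m, P (x ^ (m + 2)) * P (x⁻¹ ^ (m + 2)) * (P (x ^ m) * P (x⁻¹ ^ m)) =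
      P (x ^ (m + 1)) * P (x⁻¹ ^ (m + 1)) * (P (x ^ (m + 1)) * P (x⁻¹ ^ (m + 1))) *
        (P x * P x⁻¹ * (P x * P x⁻¹)) := by
    intro m
    have h1 := hcube (x ^ (m + 1)) x⁻¹
    have h2 := hcube (x⁻¹ ^ (m + 1)) x⁻¹
    rw [← pow_succ' x (m + 1), mul_inv_cancel, hP1, mul_one] at h1
    rw [show x ^ (m + 1 + 1) * x⁻¹ = x ^ (m + 1) by rw [pow_succ x (m + 1), mul_inv_cancel_right],
      show x ^ (m + 1) * x⁻¹ = x ^ m by rw [pow_succ, mul_inv_cancel_right]] at h1
    rw [show x * x⁻¹ ^ (m + 1) = x⁻¹ ^ m by rw [pow_succ', mul_inv_cancel_left], mul_inv_cancel,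
      hP1, mul_one, ← pow_succ x⁻¹ m, ← pow_succ x⁻¹ (m + 1)] at h2
    calc P (x ^ (m + 2)) * P (x⁻¹ ^ (m + 2)) * (P (x ^ m) * P (x⁻¹ ^ m))
        = P (x ^ (m + 2)) * P (x ^ m) * (P (x⁻¹ ^ m) * P (x⁻¹ ^ (m + 2))) := by
          rw [mul_mul_mul_comm, mul_comm (P (x⁻¹ ^ (m + 2)))]
      _ = P (x ^ (m + 1)) * P x * P (x ^ (m + 1)) * P x⁻¹ *
            (P (x⁻¹ ^ (m + 1)) * P x * P (x⁻¹ ^ (m + 1)) * P x⁻¹) := by rw [h1, h2]
      _ = _ := by ac_rfl
  induction n using Nat.strong_induction_on with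
  | _ n ih =>
    match n with
    | 0 => rw [pow_zero, pow_zero, hP1, mul_one, zero_pow two_ne_zero, pow_zero]
    | 1 => rw [pow_one, pow_one, one_pow, pow_one]
    | m + 2 =>
      have h := hrec m
      rw [ih m (by omega), ih (m + 1) (by omega)] at h
      refine mul_right_cancel (b := (P x * P x⁻¹) ^ m ^ 2) (h.trans ?_)
      rw [← pow_two (P x * P x⁻¹), ← pow_add, ← pow_add, ← pow_add]
      congr 1
      ring

variable [IsAlgClosed K]

omit [IsAlgClosed K] in
/-- **The symmetrised divisor is quadratic.** -/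
theorem isPrinc_symClass {M : Type u} [Field M] [Algebra K M] [IsAlgClosed M] {η : Pt f M}
    (hη : CubeVanish G hc D η) (n : ℕ) :
    IsPrinc K M (symClass G hc D η n / symClass G hc D η 1 ^ (n ^ 2)) := by
  let := ptGroup G hc M
  let H : Subgroup (VDiv K M) := MonoidHom.range (princ K M)
  have : IsMulCommutative (VDiv K M) := ⟨⟨fun a b => mul_comm a b⟩⟩
  let : CommGroup (VDiv K M ⧸ H) :=
    { (inferInstance : Group (VDiv K M ⧸ H)) with
      mul_comm := by rintro ⟨a⟩ ⟨b⟩; exact congrArg _ (mul_comm a b) }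
  let q := QuotientGroup.mk' H
  have hq : ∀ E : VDiv K M, IsPrinc K M E ↔ q E = 1 := fun E =>
    (QuotientGroup.eq_one_iff E).symm
  have hP1 : q (ptClass D (1 : Pt f M)) = 1 := by rw [ptClass_one G hc D, map_one]
  have key := quadratic_of_cube (fun p => q (ptClass D p)) η hP1 (fun y w => by
    have h := hη M (AlgHom.id K M) y w
    rw [Pt.map_id, hq] at h
    have e : q (diff3 G hc D η y w) =
        (q (ptClass D (η * y * w)) * q (ptClass D η) /
          (q (ptClass D (η * y)) * q (ptClass D (η * w)))) /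
        (q (ptClass D (1 * y * w)) * q (ptClass D (1 : Pt f M)) /
          (q (ptClass D (1 * y)) * q (ptClass D (1 * w)))) := by
      rw [← map_mul q, ← map_mul q, ← map_div q, ← map_mul q, ← map_mul q, ← map_div q, ← map_div q]
      rfl
    rw [e, one_mul, one_mul, hP1, mul_one, div_eq_one, div_eq_iff_eq_mul] at h
    rw [mul_assoc (q (ptClass D (η * y * w)) * q (ptClass D η)), h,
      div_mul_eq_mul_div, div_mul_cancel, mul_comm]) n
  rw [hq, symClass, symClass, map_div q, map_pow q, map_mul q, map_mul q]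
  refine div_eq_one.mpr ?_
  rw [pow_one, pow_one]
  exact key

omit [IsAlgClosed K] in
/-- **The symmetrised divisor is quadratic over the field of the point, up to a power.** -/
theorem exists_pow_isPrinc_symClass {M : Type u} [Field M] [Algebra K M] {η : Pt f M}
    (hη : CubeVanish G hc D η) (n : ℕ) :
    ∃ e ≠ 0, IsPrinc K M ((symClass G hc D η n / symClass G hc D η 1 ^ (n ^ 2)) ^ e) := by
  let M' := AlgebraicClosure M
  let φ := IsScalarTower.toAlgHom K M M'
  refine exists_pow_isPrinc (M' := M') ?_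
  rw [map_div (VDiv.map φ) (symClass G hc D η n) (symClass G hc D η 1 ^ (n ^ 2)),
    map_pow (VDiv.map φ) (symClass G hc D η 1) (n ^ 2), ← symClass_map, ← symClass_map]
  refine isPrinc_symClass G hc D ?_ n
  intro k _ _ _ ψ y w
  rw [Pt.map_map]
  exact hη k (ψ.comp φ) y w

end Fermat.AV

end
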