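import Fermat.Agent.AV.Degree
import Fermat.Agent.AV.Growth
import Fermat.Agent.AV.Polar
import Fermat.Agent.AV.Quadratic

/-!
# The number of torsion points of an abelian scheme over an algebraically closed field

The symmetrised divisor of the generic point has the coordinates of a chart among its sections
and is multiplied by `n ^ 2` under multiplication by `n`; so the degree is `n ^ (2 * g)`.

Route: the cube vanishes at the generic point (`AV/Curves`), so symmetrised divisors are
quadratic (`AV/Quadratic`), the sections give the degree (`AV/Growth`), and this is the number of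
torsion points (`AV/Nsmul`, `AV/Degree`).

`natCard_isTorsionPoint_eq_pow` is S26, the output of `AV`.
-/

set_option autoImplicit false

noncomputable section

universe u

open CategoryTheory AlgebraicGeometry NeronModelInfra GoodReductionJacobian IsLocalRing

namespace Fermat.AV

variable {K : Type u} [Field K] {A : Scheme.{u}} {f : A ⟶ Spec (CommRingCat.of K)} [IsIntegral A]

/-- The generic point as a valued point lies over the generic point of the scheme. -/
theorem img_genPt : (genPt f).img = genericPoint A :=
  Scheme.fromSpecStalk_closedPoint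

/-- At the generic point a rational function takes itself as value. -/
theorem ptVal_genPt (a : A.functionField) :
    PtVal (R := CommRingCat.of (FunField f)) (genPt f).1 a a := by
  obtain ⟨U, hU, s, hs⟩ := A.presheaf.exists_germ_eq (x := genericPoint A) a
  have : Nonempty U := ⟨⟨_, hU⟩⟩
  refine ⟨U, inferInstance, fun x _ => ?_, s, hs, ?_⟩
  · exact ((specializes_closedPoint x).map (genPt f).1.continuous).mem_open U.isOpen
      (by rw [show (genPt f).1 (closedPoint _) = genericPoint A from img_genPt]; exact hU)
  · change (Scheme.ΓSpecIso A.functionField).hom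
      ((A.fromSpecStalk (genericPoint A)).appLE U ⊤ _ s) = a
    rw [← hs]
    dsimp only [Scheme.Hom.appLE]
    rw [Scheme.fromSpecStalk_app hU]
    simp only [Category.assoc, ← Functor.map_comp, CommRingCat.comp_apply]
    refine Eq.trans ?_ (ConcreteCategory.congr_hom (Scheme.ΓSpecIso A.functionField).inv_hom_id
      (A.presheaf.germ U (genericPoint A) hU s))
    rw [CommRingCat.comp_apply]
    congr 1

variable (L : RelativeGroupLaw K f) (hc : L.IsCommutative)

/-- The inverse of the generic point is over the generic point. -/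
theorem img_genPt_inv :
    letI := ptGroup L hc (FunField f)
    ((genPt f)⁻¹ : Pt f (FunField f)).img = genericPoint A := by
  let := pointCommGroup L hc f
  let := ptGroup L hc (FunField f)
  let ι : A ⟶ A := ((RelativeGroupLaw.idPoint : SchemeHomOver f f)⁻¹).1
  have key : ∀ {T : Scheme.{u}} (t : T ⟶ Spec (CommRingCat.of K)) (x : SchemeHomOver t f),
      letI := pointCommGroup L hc t
      x.1 ≫ ι = (x⁻¹).1 := by
    intro T t x
    let := pointCommGroup L hc t
    let Φ : SchemeHomOver f f →* SchemeHomOver t f :=
      MonoidHom.mk' (schemeHomOverComp x.1 x.2) fun a b => L.mul_natural f t x.1 x.2 a b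
    have h1 : Φ RelativeGroupLaw.idPoint = x := Subtype.ext (Category.comp_id _)
    exact (congrArg Subtype.val (map_inv Φ RelativeGroupLaw.idPoint)).trans
      (congrArg (fun y : SchemeHomOver t f => (y⁻¹).1) h1)
  have hinv : ι ≫ ι = 𝟙 A := by
    refine (key f (RelativeGroupLaw.idPoint : SchemeHomOver f f)⁻¹).trans ?_
    rw [inv_inv]
  have himg : ((genPt f)⁻¹ : Pt f (FunField f)).img = ι (genericPoint A) := by
    rw [← img_genPt (f := f)]
    exact (congrArg (fun q : Spec (CommRingCat.of (FunField f)) ⟶ A => q (closedPoint _))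
      (key (specOf (K := K) (FunField f)) (genPt f))).symm
  rw [himg]
  have h2 : ι (ι (genericPoint A)) = genericPoint A :=
    congrArg (fun q : A ⟶ A => q (genericPoint A)) hinv
  have h3 := (genericPoint_specializes (ι (genericPoint A))).map ι.continuous
  rw [h2] at h3
  exact (h3.antisymm (genericPoint_specializes _)).eq

variable [IsProper f] (D : CDiv A) (hD : D.g (genericPoint A) = 1)

include hD in
/-- At a point over the generic one the divisor is the equation at the centre. -/
theorem ptClass_generic {M : Type u} [Field M] [Algebra K M] {p : Pt f M}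
    (hp : p.img = genericPoint A) (v : Val K M) :
    ptClass D p v = QuotientGroup.mk (ptUnit p (D.g (centre v p))) := by
  rw [ptClass, hp, hD, div_one]

/-- A function regular at the centre has a value in the valuation ring. -/
theorem mem_of_isRegAt {M : Type u} [Field M] [Algebra K M] {p : Pt f M} {v : Val K M}
    {a : A.functionField} (h : IsRegAt (centre v p) a) {m : M} (hm : PtVal p.1 a m) : m ∈ v.1 := by
  obtain ⟨m', hm'⟩ := h.exists_ptVal (valLift v p)
  have h' : PtVal p.1 a (v.1.subtype m') :=
    (hm'.map (CommRingCat.ofHom v.1.subtype)).congr (valLift_gen v p)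
  rw [hm.unique h']
  exact m'.2

include hD in
/-- Finitely many values occur in the divisor of a point over the generic one. -/
theorem exists_finset_ptClass [QuasiCompact f] {M : Type u} [Field M] [Algebra K M] {p : Pt f M}
    (hp : p.img = genericPoint A) :
    ∃ T : Finset Mˣ, ∀ v, ∃ e ∈ T, ptClass D p v = QuotientGroup.mk e := by
  classical
  have : CompactSpace A := QuasiCompact.compactSpace_of_compactSpace f
  choose U hU hU' using D.spread
  obtain ⟨S, hS⟩ := isCompact_univ.elim_finite_subcover (fun x => (U x : Set A))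
    (fun x => (U x).isOpen) fun x _ => Set.mem_iUnion.mpr ⟨x, hU x⟩
  refine ⟨S.image fun x => ptUnit p (D.g x), fun v => ?_⟩
  obtain ⟨x, hxS, hx⟩ := Set.mem_iUnion₂.mp (hS (Set.mem_univ (centre v p)))
  refine ⟨_, Finset.mem_image_of_mem _ hxS, ?_⟩
  refine ptClass_eq D ?_ ?_
  · rw [hp]; exact isUnitAt_generic (D.ne_zero x)
  · rw [hp, hD, div_one, ← inv_div (D.g x) (D.g (centre v p))]
    exact (hU' x _ hx).inv

variable [IsAlgClosed K]

include hc in
/-- **The torsion points.** For `n` nonzero in `K` the `n`-torsion has `n ^ (2 * g)` points. -/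
theorem natCard_isTorsionPoint_eq_pow (hA : AbelianSchemePropertyBundle K f) (g : ℕ)
    [SmoothOfRelativeDimension g f] {n : ℕ} (hn : (n : K) ≠ 0) :
    Nat.card {x : SchemeHomOver (𝟙 (Spec (CommRingCat.of K))) f //
        L.IsTorsionPoint (𝟙 (Spec (CommRingCat.of K))) n x} = n ^ (2 * g) := by
  classical
  let := ptGroup L hc K
  let := ptGroup L hc (FunField f)
  obtain ⟨σ, hσ, hfd, hsep, hcard⟩ := exists_nsmulHom L hc hA g hn
  obtain ⟨t, ht, htf, hts⟩ := exists_sepBasis (f := f) g (1 : Pt f K)
  obtain ⟨D, hD, hDt⟩ := exists_polar (f := f) g (t : Fin g → A.functionField)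
  set η := genPt f
  set E₀ := symClass L hc D η 1
  have hη : η.img = genericPoint A := img_genPt
  have hη' : (η⁻¹).img = genericPoint A := img_genPt_inv L hc
  have hE₀ : ∀ v, E₀ v = QuotientGroup.mk (ptUnit η (D.g (centre v η))) *
      QuotientGroup.mk (ptUnit η⁻¹ (D.g (centre v η⁻¹))) := fun v => by
    change ptClass D (η ^ 1) v * ptClass D (η⁻¹ ^ 1) v = _
    rw [pow_one, pow_one, ptClass_generic D hD hη, ptClass_generic D hD hη']
  have hgen : ∀ v, PtVal (R := CommRingCat.of (FunField f)) η.1 (D.g (centre v η))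
      (ptUnit η (D.g (centre v η)) : FunField f) := fun v =>
    ptVal_ptUnit (hη ▸ isUnitAt_generic (D.ne_zero _))
  have hgen' : ∀ v, PtVal (R := CommRingCat.of (FunField f)) η⁻¹.1 (D.g (centre v η⁻¹))
      (ptUnit η⁻¹ (D.g (centre v η⁻¹)) : FunField f) := fun v =>
    ptVal_ptUnit (hη'.symm ▸ isUnitAt_generic (D.ne_zero _))
  -- `1` and the coordinates are sections of the symmetrised divisor `E₀`
  have h1 : (1 : FunField f) ∈ Lsp K E₀ := fun v _ => (effAt_iff (hE₀ v)).mpr (by
    rw [one_mul, Units.val_mul]
    exact v.1.mul_mem _ _ (mem_of_isRegAt (hDt _).1 (hgen v))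
      (mem_of_isRegAt (hDt _).1 (hgen' v)))
  have ht1 : ∀ i, t i ∈ Lsp K E₀ := fun i v _ => (effAt_iff (hE₀ v)).mpr (by
    rw [Units.val_mul, ← mul_assoc]
    refine v.1.mul_mem _ _ (mem_of_isRegAt (p := η) ((hDt _).2 i) ?_)
      (mem_of_isRegAt (hDt _).1 (hgen' v))
    exact (ptVal_genPt (f := f) (t i)).mul (hgen v))
  have hfin : ∃ T : Finset (FunField f)ˣ, ∀ v, ∃ e ∈ T, E₀ v = QuotientGroup.mk e := by
    have : QuasiCompact f := inferInstance
    obtain ⟨T₁, hT₁⟩ := exists_finset_ptClass D hD hη
    obtain ⟨T₂, hT₂⟩ := exists_finset_ptClass D hD hη'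
    refine ⟨Finset.image₂ (· * ·) T₁ T₂, fun v => ?_⟩
    obtain ⟨a, ha, ha'⟩ := hT₁ v
    obtain ⟨b, hb, hb'⟩ := hT₂ v
    refine ⟨a * b, Finset.mem_image₂_of_mem ha hb, ?_⟩
    change ptClass D (η ^ 1) v * ptClass D (η⁻¹ ^ 1) v = _
    rw [pow_one, pow_one, ha', hb']
    rfl
  have hmap : VDiv.map σ E₀ = symClass L hc D η n := by
    rw [show E₀ = symClass L hc D η 1 from rfl, ← symClass_map, hσ]
    change ptClass D ((η ^ n) ^ 1) * ptClass D ((η ^ n)⁻¹ ^ 1) =
      ptClass D (η ^ n) * ptClass D (η⁻¹ ^ n)
    rw [pow_one, pow_one, inv_pow]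
  -- multiplication by `n` sends `E₀` to its `n ^ 2` power, up to a power and a principal divisor
  obtain ⟨e, he, hprinc⟩ :=
    exists_pow_isPrinc_symClass L hc D (cubeVanish_genPt L hc D g) n
  rw [← hcard, pow_mul]
  have hn0 : n ≠ 0 := fun h => hn (by rw [h, Nat.cast_zero])
  exact finrank_fieldRange_eq_pow ht σ E₀ hfin h1 ht1 (pow_ne_zero 2 hn0) he
    (by rw [hmap]; exact hprinc)

end Fermat.AV

end
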