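import Fermat.Agent.GR.CommAlg.PowerSeriesRegular
import Mathlib.RingTheory.AdicCompletion.Completeness
import Mathlib.RingTheory.PowerSeries.WeierstrassPreparation
import Mathlib.RingTheory.MvPowerSeries.Equiv
import Mathlib.RingTheory.MvPowerSeries.Substitution
import Mathlib.RingTheory.Polynomial.UniqueFactorization
import Mathlib.Algebra.MvPolynomial.Funext
import Mathlib.RingTheory.MvPowerSeries.NoZeroDivisors
import Mathlib.RingTheory.PrincipalIdealDomain

/-!
# Power series rings over an infinite field are factorial

After a linear change of variables a series is regular in the first variable, so an irreducible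
one is a unit times an irreducible monic polynomial over the series in the other variables, and
such a polynomial is prime by induction on the number of variables.
-/

set_option autoImplicit false

noncomputable section

universe u

namespace Fermat.AV

variable {K : Type u} [Field K] {n : ℕ}

/-- The maximal ideal of a power series ring is generated by the variables. -/
theorem maximalIdeal_mvPowerSeries :
    IsLocalRing.maximalIdeal (MvPowerSeries (Fin n) K) =
      Ideal.span (Set.range MvPowerSeries.X) := by
  ext f
  rw [IsLocalRing.mem_maximalIdeal, mem_nonunits_iff, MvPowerSeries.isUnit_iff_constantCoeff,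
    isUnit_iff_ne_zero, not_not, ← Set.image_univ, ← Finset.coe_univ]
  refine Iff.trans ?_ (GR.mem_span_X_image_iff Finset.univ f).symm
  refine ⟨fun h e he => ?_, fun h => ?_⟩
  · rw [show e = 0 from Finsupp.ext fun j => he j (Finset.mem_univ j),
      MvPowerSeries.coeff_zero_eq_constantCoeff_apply, h]
  · rw [← MvPowerSeries.coeff_zero_eq_constantCoeff_apply]
    exact h 0 fun j _ => rfl

/-- Shear the variables along the first one. -/
def shear (c : Fin n → K) : Fin (n + 1) → MvPowerSeries (Fin (n + 1)) K :=
  Fin.cases (MvPowerSeries.X 0)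
    fun l => MvPowerSeries.X l.succ + MvPowerSeries.C (c l) * MvPowerSeries.X 0

/-- The shear can be substituted. -/
theorem hasSubst_shear (c : Fin n → K) : MvPowerSeries.HasSubst (shear c) :=
  MvPowerSeries.hasSubst_of_constantCoeff_zero fun i => by
    induction i using Fin.cases <;> simp [shear]

/-- Opposite shears are inverse. -/
theorem subst_shear_shear (c : Fin n → K) (f : MvPowerSeries (Fin (n + 1)) K) :
    MvPowerSeries.subst (shear (-c)) (MvPowerSeries.subst (shear c) f) = f := by
  have h : (fun i => MvPowerSeries.subst (shear (-c)) (shear c i)) =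
      (MvPowerSeries.X : Fin (n + 1) → MvPowerSeries (Fin (n + 1)) K) := funext fun i => by
    induction i using Fin.cases with
    | zero => simp [shear, MvPowerSeries.subst_X (hasSubst_shear (-c))]
    | succ l =>
      simp [shear, MvPowerSeries.subst_add (hasSubst_shear (-c)),
        MvPowerSeries.subst_mul (hasSubst_shear (-c)), MvPowerSeries.subst_X (hasSubst_shear (-c))]
  rw [MvPowerSeries.subst_comp_subst_apply (hasSubst_shear c) (hasSubst_shear (-c)), h,
    MvPowerSeries.subst_self]
  rfl

/-- The change of variables as an automorphism. -/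
def shearEquiv (c : Fin n → K) :
    MvPowerSeries (Fin (n + 1)) K ≃ₐ[K] MvPowerSeries (Fin (n + 1)) K :=
  AlgEquiv.ofAlgHom (MvPowerSeries.substAlgHom (hasSubst_shear c))
    (MvPowerSeries.substAlgHom (hasSubst_shear (-c)))
    (AlgHom.ext fun f => by
      simpa using subst_shear_shear (-c) f)
    (AlgHom.ext fun f => by simpa using subst_shear_shear c f)

/-- The restriction to the first axis. -/
def axis : Fin (n + 1) → MvPowerSeries Unit K := Fin.cases (MvPowerSeries.X ()) 0

/-- The substitution restricting to the line `(X, c X)`. -/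
def line (c : Fin n → K) : Fin (n + 1) → MvPowerSeries Unit K :=
  Fin.cases (MvPowerSeries.X ()) fun l => MvPowerSeries.C (c l) * MvPowerSeries.X ()

/-- The axis can be substituted. -/
theorem hasSubst_axis : MvPowerSeries.HasSubst (axis (K := K) (n := n)) :=
  MvPowerSeries.hasSubst_of_constantCoeff_zero fun i => by
    induction i using Fin.cases <;> simp [axis]

/-- A line can be substituted. -/
theorem hasSubst_line (c : Fin n → K) : MvPowerSeries.HasSubst (line c) :=
  MvPowerSeries.hasSubst_of_constantCoeff_zero fun i => by
    induction i using Fin.cases <;> simp [line]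

/-- Shearing and restricting to the axis is restricting to a line. -/
theorem subst_axis_shear (c : Fin n → K) (f : MvPowerSeries (Fin (n + 1)) K) :
    MvPowerSeries.subst axis (MvPowerSeries.subst (shear c) f) =
      MvPowerSeries.subst (line c) f := by
  rw [MvPowerSeries.subst_comp_subst_apply (hasSubst_shear c) hasSubst_axis]
  congr 1
  funext i
  induction i using Fin.cases with
  | zero => simp [shear, line, axis, MvPowerSeries.subst_X hasSubst_axis]
  | succ l =>
    simp [shear, line, axis, MvPowerSeries.subst_add hasSubst_axis,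
      MvPowerSeries.subst_mul hasSubst_axis, MvPowerSeries.subst_X hasSubst_axis]

/-- The coefficients of the restriction of a series to the first axis. -/
theorem coeff_subst_axis (f : MvPowerSeries (Fin (n + 1)) K) (k : ℕ) :
    MvPowerSeries.coeff (Finsupp.single () k) (MvPowerSeries.subst axis f) =
      MvPowerSeries.coeff (Finsupp.cons k 0) f := by
  classical
  rw [MvPowerSeries.coeff_subst hasSubst_axis, finsum_eq_single _ (Finsupp.cons k 0)]
  · rw [Finsupp.prod_fintype _ _ (fun i => pow_zero _), Fin.prod_univ_succ]
    simp [axis, MvPowerSeries.coeff_X_pow]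
  · intro d hd
    rw [Finsupp.prod_fintype _ _ (fun i => pow_zero _), Fin.prod_univ_succ]
    by_cases ht : ∀ l : Fin n, d l.succ = 0
    · have h0 : d 0 ≠ k := fun h => hd (Finsupp.ext fun i => by
        induction i using Fin.cases with
        | zero => simpa using h
        | succ l => simpa using ht l)
      have h1 : (Finsupp.single () k : Unit →₀ ℕ) ≠ Finsupp.single () (d 0) :=
        fun h => h0 (Finsupp.single_injective _ h).symm
      simp [axis, ht, MvPowerSeries.coeff_X_pow, h1]
    · push Not at ht
      obtain ⟨l, hl⟩ := ht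
      rw [Finset.prod_eq_zero (Finset.mem_univ l) (by simp [axis, hl]), mul_zero, map_zero,
        smul_zero]

/-- A series is regular in the first variable along some line. -/
theorem exists_subst_line_ne_zero [Infinite K] {f : MvPowerSeries (Fin (n + 1)) K} (hf : f ≠ 0) :
    ∃ c : Fin n → K, MvPowerSeries.subst (line c) f ≠ 0 := by
  classical
  obtain ⟨d₀, hd₀⟩ : ∃ d, MvPowerSeries.coeff d f ≠ 0 := by
    by_contra h
    push Not at h
    exact hf (MvPowerSeries.ext fun d => by simp [h d])
  set k := ∑ i, d₀ i
  set D := (Finset.univ : Finset (Fin (n + 1))).finsuppAntidiag k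
  -- a nonzero homogeneous part of `f`, dehomogenised
  set P : MvPolynomial (Fin n) K :=
    ∑ d ∈ D, MvPolynomial.monomial d.tail (MvPowerSeries.coeff d f)
  have hD : ∀ d, d ∈ D ↔ ∑ i, d i = k := fun d => by
    simp [D, Finset.mem_finsuppAntidiag]
  have hP : P ≠ 0 := fun h => hd₀ (by
    have := congrArg (MvPolynomial.coeff d₀.tail) h
    rw [MvPolynomial.coeff_sum, MvPolynomial.coeff_zero, Finset.sum_eq_single d₀] at this
    · simpa using this
    · intro d hd hne
      refine (MvPolynomial.coeff_monomial _ _ _).trans (if_neg fun ht => hne ?_)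
      have hs := ((hD d).mp hd).trans ((hD d₀).mp ((hD d₀).mpr rfl)).symm
      rw [Fin.sum_univ_succ, Fin.sum_univ_succ] at hs
      have ht' : ∀ l : Fin n, d l.succ = d₀ l.succ := fun l => by
        have := DFunLike.congr_fun ht l
        exact this
      simp only [ht'] at hs
      refine Finsupp.ext fun i => ?_
      induction i using Fin.cases with
      | zero => omega
      | succ l => exact ht' l
    · exact fun h => absurd ((hD d₀).mpr rfl) h)
  -- over an infinite field it is nonzero at some `c`
  obtain ⟨c, hc⟩ : ∃ c : Fin n → K, MvPolynomial.eval c P ≠ 0 := by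
    by_contra h
    push Not at h
    exact hP (MvPolynomial.funext fun c => by rw [h c, map_zero])
  refine ⟨c, fun h0 => hc ?_⟩
  -- its value there is the coefficient of `X ^ k` on the line
  have h1 := congrArg (MvPowerSeries.coeff (Finsupp.single () k)) h0
  have hprod : ∀ d : Fin (n + 1) →₀ ℕ, (d.prod fun i e => line c i ^ e) =
      MvPowerSeries.C (∏ l, c l ^ d l.succ) *
        (MvPowerSeries.X () : MvPowerSeries Unit K) ^ ∑ i, d i := fun d => by
    rw [Finsupp.prod_fintype _ _ (fun i => pow_zero _), Fin.prod_univ_succ, Fin.sum_univ_succ]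
    simp only [line, Fin.cases_zero, Fin.cases_succ, mul_pow, Finset.prod_mul_distrib, map_prod,
      map_pow, Finset.prod_pow_eq_pow_sum, pow_add]
    ring
  rw [map_zero, MvPowerSeries.coeff_subst (hasSubst_line c),
    finsum_eq_sum_of_support_subset _ (s := D)] at h1
  · rw [← h1, map_sum]
    refine Finset.sum_congr rfl fun d hd => ?_
    rw [hprod, MvPowerSeries.coeff_C_mul, MvPowerSeries.coeff_X_pow,
      if_pos (by rw [(hD d).mp hd]), mul_one, smul_eq_mul, MvPolynomial.eval_monomial,
      Finsupp.prod_fintype _ _ (fun i => pow_zero _)]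
    simp [Finsupp.tail, Fin.tail]
  · intro d hd
    rw [Finset.mem_coe, hD]
    by_contra hne
    refine hd ?_
    simp only
    rw [hprod, MvPowerSeries.coeff_C_mul, MvPowerSeries.coeff_X_pow,
      if_neg (fun h => hne (Finsupp.single_injective _ h).symm), mul_zero, smul_zero]

/-- Over a complete local factorial domain an irreducible series that is nonzero modulo the
maximal ideal is prime. -/
theorem prime_of_irreducible_powerSeries {A : Type u} [CommRing A] [IsDomain A] [IsLocalRing A]
    [IsAdicComplete (IsLocalRing.maximalIdeal A) A] [UniqueFactorizationMonoid A]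
    {p : PowerSeries A} (hp : Irreducible p) (h : p.map (IsLocalRing.residue A) ≠ 0) : Prime p := by
  -- Weierstrass: `p` is a distinguished polynomial `P` times a unit
  obtain ⟨P, U, H⟩ := PowerSeries.exists_isWeierstrassFactorization h
  have hmon := H.isDistinguishedAt.monic
  have hP1 : P ≠ 1 := fun e => hp.not_isUnit (by
    rw [H.eq_mul, e, Polynomial.coe_one, one_mul]; exact H.isUnit)
  -- a proper factor of `P` is not a unit among series, so `P` is irreducible
  have key : ∀ Q R : Polynomial A, P = Q * R → ¬IsUnit Q → ¬IsUnit (Q : PowerSeries A) := by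
    intro Q R hQR hQ hQu
    have hlc : Q.leadingCoeff * R.leadingCoeff = 1 := by
      rw [← Polynomial.leadingCoeff_mul, ← hQR, hmon.leadingCoeff]
    have hdeg : 1 ≤ Q.natDegree := by
      by_contra h0
      have hC := Polynomial.eq_C_of_natDegree_eq_zero (Nat.lt_one_iff.mp (not_le.mp h0))
      refine hQ ?_
      rw [hC, Polynomial.isUnit_C]
      rw [hC, Polynomial.leadingCoeff_C] at hlc
      exact isUnit_of_dvd_one ⟨_, hlc.symm⟩
    have hmap : Q.map (IsLocalRing.residue A) * R.map (IsLocalRing.residue A) =
        Polynomial.X ^ P.natDegree := by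
      rw [← Polynomial.map_mul, ← hQR]
      exact H.isDistinguishedAt.map_eq_X_pow
    obtain ⟨i, hi, hassoc⟩ :=
      (dvd_prime_pow Polynomial.prime_X P.natDegree).mp ⟨_, hmap.symm⟩
    have hne : IsLocalRing.residue A Q.leadingCoeff ≠ 0 :=
      ((isUnit_of_dvd_one ⟨_, hlc.symm⟩).map (IsLocalRing.residue A)).ne_zero
    have hi1 : i = Q.natDegree := by
      rw [← Polynomial.natDegree_map_of_leadingCoeff_ne_zero _ hne,
        Polynomial.natDegree_eq_of_degree_eq (Polynomial.degree_eq_degree_of_associated hassoc),
        Polynomial.natDegree_X_pow]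
    obtain ⟨w, hw⟩ := hassoc.symm
    have h0 : IsLocalRing.residue A (Q.coeff 0) = 0 := by
      rw [← Polynomial.coeff_map, ← hw, Polynomial.mul_coeff_zero, Polynomial.coeff_X_pow,
        if_neg (by omega), zero_mul]
    rw [PowerSeries.isUnit_iff_constantCoeff, Polynomial.constantCoeff_coe] at hQu
    exact (hQu.map (IsLocalRing.residue A)).ne_zero h0
  have hirr : Irreducible P := by
    refine ⟨fun hu => hP1 (hmon.isUnit_iff.mp hu), fun Q R hQR => ?_⟩
    by_contra hne
    push Not at hne
    rcases hp.isUnit_or_isUnit (a := (Q : PowerSeries A)) (b := (R : PowerSeries A) * U)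
      (by rw [H.eq_mul, hQR, Polynomial.coe_mul, mul_assoc]) with hu | hu
    · exact key Q R hQR hne.1 hu
    · exact key R Q (by rw [hQR, mul_comm]) hne.2 (IsUnit.mul_iff.mp hu).1
  -- `P` is prime, and the quotients by `P` and by `p` agree
  have hPp : Prime P := UniqueFactorizationMonoid.irreducible_iff_prime.mp hirr
  rw [← Ideal.span_singleton_prime hp.ne_zero, ← Ideal.Quotient.isDomain_iff_prime]
  have : IsDomain (Polynomial A ⧸ Ideal.span {P}) := (Ideal.Quotient.isDomain_iff_prime _).mpr
    ((Ideal.span_singleton_prime hPp.ne_zero).mpr hPp)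
  exact H.algEquivQuotient.symm.toRingEquiv.toMulEquiv.isDomain _

variable (K) in
/-- **Power series rings over an infinite field are factorial.** -/
theorem ufd_mvPowerSeries [Infinite K] :
    ∀ n : ℕ, UniqueFactorizationMonoid (MvPowerSeries (Fin n) K)
  | 0 => (MvPowerSeries.isEmptyEquiv (R := K)
      (σ := Fin 0)).toMulEquiv.symm.uniqueFactorizationMonoid inferInstance
  | n + 1 => by
    have := ufd_mvPowerSeries n
    have : IsDomain (MvPowerSeries (Fin n) K) := NoZeroDivisors.to_isDomain _
    have : IsDomain (MvPowerSeries (Fin (n + 1)) K) := NoZeroDivisors.to_isDomain _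
    have : WfDvdMonoid (MvPowerSeries (Fin (n + 1)) K) := IsNoetherianRing.wfDvdMonoid
    have : IsAdicComplete (IsLocalRing.maximalIdeal (MvPowerSeries (Fin n) K))
        (MvPowerSeries (Fin n) K) := by
      rw [maximalIdeal_mvPowerSeries]; infer_instance
    refine { (inferInstance : WfDvdMonoid (MvPowerSeries (Fin (n + 1)) K)) with
      irreducible_iff_prime := fun {f} => ⟨fun hf => ?_, Prime.irreducible⟩ }
    obtain ⟨c, hc⟩ := exists_subst_line_ne_zero hf.ne_zero
    let e := ((shearEquiv c).trans (MvPowerSeries.finSuccEquiv K n)).toMulEquiv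
    have h : (e f).map (IsLocalRing.residue (MvPowerSeries (Fin n) K)) ≠ 0 := fun h0 => hc (by
      rw [← subst_axis_shear]
      refine MvPowerSeries.ext fun s => ?_
      obtain ⟨k, rfl⟩ : ∃ k : ℕ, s = Finsupp.single () k := ⟨s (), by ext; simp⟩
      rw [coeff_subst_axis, map_zero]
      have h1 := congrArg (PowerSeries.coeff k) h0
      rw [PowerSeries.coeff_map, map_zero, IsLocalRing.residue_eq_zero_iff,
        IsLocalRing.mem_maximalIdeal, mem_nonunits_iff, MvPowerSeries.isUnit_iff_constantCoeff,
        isUnit_iff_ne_zero, not_not, ← MvPowerSeries.coeff_zero_eq_constantCoeff_apply] at h1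
      rw [← MvPowerSeries.coeff_coeff_finSuccEquiv]
      simpa [e, shearEquiv] using h1)
    exact (MulEquiv.prime_iff e).mp
      (prime_of_irreducible_powerSeries ((MulEquiv.irreducible_iff e).mpr hf) h)

end Fermat.AV

end
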