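import Mathlib.AlgebraicGeometry.FunctionField

/-!
# Values of rational functions at points

`IsRegAt y a`: the rational function `a` is regular near `y`.  `PtVal p a m`: it is regular near
the image of the point `p : Spec R ⟶ A` and its value there is `m`.
-/

set_option autoImplicit false

noncomputable section

universe u

open CategoryTheory AlgebraicGeometry

namespace Fermat.AV

variable {A : Scheme.{u}} [IsIntegral A]

/-- A rational function is regular near a point. -/
def IsRegAt (y : A) (a : A.functionField) : Prop :=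
  ∃ (U : A.Opens) (h : y ∈ U) (s : Γ(A, U)),
    haveI : Nonempty U := ⟨⟨y, h⟩⟩
    A.germToFunctionField U s = a

/-- A rational function is regular near the image of a point, with this value. -/
def PtVal {R : CommRingCat.{u}} (p : Spec R ⟶ A) (a : A.functionField) (m : R) : Prop :=
  ∃ (U : A.Opens) (_ : Nonempty U) (h : (⊤ : (Spec R).Opens) ≤ p ⁻¹ᵁ U) (s : Γ(A, U)),
    A.germToFunctionField U s = a ∧ (Scheme.ΓSpecIso R).hom (p.appLE U ⊤ h s) = m

/-- Restriction does not change the rational function. -/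
theorem germToFunctionField_res {U V : A.Opens} [Nonempty U] [Nonempty V] (h : V ≤ U)
    (s : Γ(A, U)) :
    A.germToFunctionField V (A.presheaf.map (homOfLE h).op s) = A.germToFunctionField U s :=
  A.presheaf.germ_res_apply (homOfLE h) (genericPoint A) _ s

/-- The generic point lies in every nonempty open. -/
theorem genericPoint_mem (U : A.Opens) [h : Nonempty U] : genericPoint A ∈ U :=
  ((genericPoint_spec A).mem_open_set_iff U.isOpen).mpr (by simpa using h)

/-- Two nonempty opens meet. -/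
instance nonempty_inf (U V : A.Opens) [Nonempty U] [Nonempty V] :
    Nonempty (U ⊓ V : A.Opens) :=
  ⟨⟨genericPoint A, genericPoint_mem U, genericPoint_mem V⟩⟩

omit [AlgebraicGeometry.IsIntegral A] in
/-- Pulling back a section commutes with restriction. -/
theorem appLE_res {R : CommRingCat.{u}} (p : Spec R ⟶ A) {U V : A.Opens} (h : V ≤ U)
    (hV : (⊤ : (Spec R).Opens) ≤ p ⁻¹ᵁ V) (s : Γ(A, U)) :
    p.appLE V ⊤ hV (A.presheaf.map (homOfLE h).op s) =
      p.appLE U ⊤ (hV.trans fun _ hx => h hx) s := by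
  rw [← CommRingCat.comp_apply, Scheme.Hom.map_appLE]

/-- Two rational functions with values are defined on a common open. -/
theorem exists_common {R : CommRingCat.{u}} {p : Spec R ⟶ A} {a b : A.functionField} {m n : R}
    (ha : PtVal p a m) (hb : PtVal p b n) :
    ∃ (U : A.Opens) (_ : Nonempty U) (h : (⊤ : (Spec R).Opens) ≤ p ⁻¹ᵁ U) (s t : Γ(A, U)),
      (A.germToFunctionField U s = a ∧ (Scheme.ΓSpecIso R).hom (p.appLE U ⊤ h s) = m) ∧
      (A.germToFunctionField U t = b ∧ (Scheme.ΓSpecIso R).hom (p.appLE U ⊤ h t) = n) := by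
  obtain ⟨U, hU, eU, s, hs, hs'⟩ := ha
  obtain ⟨V, hV, eV, t, ht, ht'⟩ := hb
  refine ⟨U ⊓ V, inferInstance, fun x hx => ⟨eU hx, eV hx⟩,
    A.presheaf.map (homOfLE inf_le_left).op s, A.presheaf.map (homOfLE inf_le_right).op t,
    ⟨?_, ?_⟩, ⟨?_, ?_⟩⟩
  · rw [germToFunctionField_res, hs]
  · exact (congrArg _ (appLE_res p inf_le_left (fun x hx => ⟨eU hx, eV hx⟩) s)).trans hs'
  · rw [germToFunctionField_res, ht]
  · exact (congrArg _ (appLE_res p inf_le_right (fun x hx => ⟨eU hx, eV hx⟩) t)).trans ht'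

namespace PtVal

variable {R : CommRingCat.{u}} {p : Spec R ⟶ A} {a b : A.functionField} {m n : R}

/-- A value is unique. -/
theorem unique (ha : PtVal p a m) (hb : PtVal p a n) : m = n := by
  obtain ⟨U, hU, h, s, t, ⟨hs, hs'⟩, ⟨ht, ht'⟩⟩ := exists_common ha hb
  obtain rfl := A.germToFunctionField_injective U (hs.trans ht.symm)
  exact hs'.symm.trans ht'

/-- Values multiply. -/
theorem mul (ha : PtVal p a m) (hb : PtVal p b n) : PtVal p (a * b) (m * n) := by
  obtain ⟨U, hU, h, s, t, ⟨hs, hs'⟩, ⟨ht, ht'⟩⟩ := exists_common ha hb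
  exact ⟨U, hU, h, s * t, by rw [map_mul, hs, ht], by rw [map_mul, map_mul, hs', ht']⟩

/-- The function one has value one. -/
theorem one (p : Spec R ⟶ A) : PtVal p 1 1 := by
  have : Nonempty (⊤ : A.Opens) := ⟨⟨genericPoint A, trivial⟩⟩
  exact ⟨⊤, inferInstance, fun _ _ => trivial, 1, map_one _, by rw [map_one, map_one]⟩

/-- Values are natural in the point. -/
theorem map {S : CommRingCat.{u}} (φ : R ⟶ S) (ha : PtVal p a m) :
    PtVal (Spec.map φ ≫ p) a (φ m) := by
  obtain ⟨U, hU, h, s, hs, hs'⟩ := ha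
  refine ⟨U, hU, fun x _ => h trivial, s, hs, ?_⟩
  rw [← hs', ← Scheme.Hom.appLE_comp_appLE (Spec.map φ) p U ⊤ ⊤ h le_top]
  simp only [CommRingCat.comp_apply]
  rw [← CommRingCat.comp_apply, ← CommRingCat.comp_apply (Scheme.ΓSpecIso R).hom φ]
  refine ConcreteCategory.congr_hom ?_ _
  rw [show (Spec.map φ).appLE ⊤ ⊤ (fun _ _ => trivial) = (Spec.map φ).appTop by
    rw [Scheme.Hom.appTop, Scheme.Hom.app_eq_appLE]; rfl]
  exact Scheme.ΓSpecIso_naturality φ

/-- Values transport along equalities of points. -/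
theorem congr {q : Spec R ⟶ A} (e : p = q) (ha : PtVal p a m) : PtVal q a m := e ▸ ha

end PtVal

namespace IsRegAt

variable {y : A} {a b : A.functionField}

/-- Regularity is an open condition. -/
theorem exists_nhds (ha : IsRegAt y a) : ∃ U : A.Opens, y ∈ U ∧ ∀ x ∈ U, IsRegAt x a := by
  obtain ⟨U, h, s, hs⟩ := ha
  exact ⟨U, h, fun x hx => ⟨U, hx, s, hs⟩⟩

/-- Products of regular functions are regular. -/
theorem mul (ha : IsRegAt y a) (hb : IsRegAt y b) : IsRegAt y (a * b) := by
  obtain ⟨U, hU, s, hs⟩ := ha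
  obtain ⟨V, hV, t, ht⟩ := hb
  have : Nonempty U := ⟨⟨y, hU⟩⟩
  have : Nonempty V := ⟨⟨y, hV⟩⟩
  exact ⟨U ⊓ V, ⟨hU, hV⟩, A.presheaf.map (homOfLE inf_le_left).op s *
    A.presheaf.map (homOfLE inf_le_right).op t, by
      rw [map_mul, germToFunctionField_res, germToFunctionField_res, hs, ht]⟩

/-- One is regular everywhere. -/
theorem one (y : A) : IsRegAt y 1 :=
  ⟨⊤, trivial, 1, map_one _⟩

/-- A regular function is regular at every generalisation. -/
theorem of_specializes {x : A} (hxy : x ⤳ y) (ha : IsRegAt y a) : IsRegAt x a := by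
  obtain ⟨U, h, s, hs⟩ := ha
  exact ⟨U, hxy.mem_open U.isOpen h, s, hs⟩

/-- A function regular near the image of a point has a value. -/
theorem exists_ptVal {R : CommRingCat.{u}} [IsLocalRing R] (p : Spec R ⟶ A)
    (ha : IsRegAt (p (IsLocalRing.closedPoint R)) a) : ∃ m, PtVal p a m := by
  obtain ⟨U, h, s, hs⟩ := ha
  refine ⟨_, U, ⟨⟨_, h⟩⟩, fun x _ => ?_, s, hs, rfl⟩
  exact ((IsLocalRing.specializes_closedPoint x).map p.continuous).mem_open U.isOpen h

end IsRegAt

/-- A rational function and its inverse are regular near a point. -/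
def IsUnitAt (y : A) (a : A.functionField) : Prop :=
  a ≠ 0 ∧ IsRegAt y a ∧ IsRegAt y a⁻¹

namespace IsUnitAt

variable {y : A} {a b : A.functionField}

/-- Products of units are units. -/
theorem mul (ha : IsUnitAt y a) (hb : IsUnitAt y b) : IsUnitAt y (a * b) :=
  ⟨mul_ne_zero ha.1 hb.1, ha.2.1.mul hb.2.1, by rw [mul_inv]; exact ha.2.2.mul hb.2.2⟩

/-- Inverses of units are units. -/
theorem inv (ha : IsUnitAt y a) : IsUnitAt y a⁻¹ :=
  ⟨inv_ne_zero ha.1, ha.2.2, by rw [inv_inv]; exact ha.2.1⟩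

/-- One is a unit everywhere. -/
theorem one (y : A) : IsUnitAt y 1 := ⟨one_ne_zero, .one y, by rw [inv_one]; exact .one y⟩

/-- A unit is a unit at every generalisation. -/
theorem of_specializes {x : A} (hxy : x ⤳ y) (ha : IsUnitAt y a) : IsUnitAt x a :=
  ⟨ha.1, ha.2.1.of_specializes hxy, ha.2.2.of_specializes hxy⟩

/-- Being a unit is an open condition. -/
theorem exists_nhds (ha : IsUnitAt y a) : ∃ U : A.Opens, y ∈ U ∧ ∀ x ∈ U, IsUnitAt x a := by
  obtain ⟨U, hU, h⟩ := ha.2.1.exists_nhds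
  obtain ⟨V, hV, h'⟩ := ha.2.2.exists_nhds
  exact ⟨U ⊓ V, ⟨hU, hV⟩, fun x hx => ⟨ha.1, h x hx.1, h' x hx.2⟩⟩

/-- A unit near the image of a point has a unit value. -/
theorem exists_ptVal {R : CommRingCat.{u}} [IsLocalRing R] (p : Spec R ⟶ A)
    (ha : IsUnitAt (p (IsLocalRing.closedPoint R)) a) :
    ∃ m : Rˣ, PtVal p a m ∧ PtVal p a⁻¹ ↑m⁻¹ := by
  obtain ⟨m, hm⟩ := ha.2.1.exists_ptVal p
  obtain ⟨n, hn⟩ := ha.2.2.exists_ptVal p
  have h1 : m * n = 1 := (hm.mul hn).unique
    (by rw [mul_inv_cancel₀ ha.1]; exact PtVal.one p)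
  exact ⟨⟨m, n, h1, by rw [mul_comm, h1]⟩, hm, hn⟩

end IsUnitAt

end Fermat.AV

end
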